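/-
S24 (genus of X₀(N)) — INTERFACE FILE (definitions and statement-`Prop`s only; no proofs of them here).

Every work package of the S24 effort proves one (or a few) of the `…Statement : Prop` definitions
below in its own file `Fermat/Agent/S24/<Package>.lean`, possibly assuming other statements as
explicit hypotheses.  The top-level file `Fermat/Agent/S24.lean` combines them.

Conventions: all types live in `Type` (universe 0).  `K` is an algebraically closed field of
characteristic zero, `F` a field extension of `K`, `t : F` transcendental over `K` with `F` finite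
over `K⟮t⟯`.  `Place K F`, `Place.ord`, `Place.ordDifferential`, `genus` are the prelude's.
-/
import Fermat.Statements.S24

set_option autoImplicit false

open AlgebraicCurve IntermediateField KaehlerDifferential
open scoped MatrixGroups

namespace Fermat.Agent.S24

noncomputable section

/-! ## Part A: abstract function fields of one variable over an algebraically closed field -/

/-- (A1) Fundamental identity at a finite value `c` of `t`: the places of `F` at which `t - c`
vanishes are finitely many and the orders of vanishing add up to `[F : K(t)]`. -/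
def ZerosStatement : Prop :=
  ∀ (K F : Type) [Field K] [Field F] [Algebra K F] [IsAlgClosed K] [CharZero K] (t : F),
    Transcendental K t → FiniteDimensional K⟮t⟯ F → ∀ c : K,
      {w : Place K F | 0 < w.ord (t - algebraMap K F c)}.Finite ∧
      ∑ᶠ w ∈ {w : Place K F | 0 < w.ord (t - algebraMap K F c)}, w.ord (t - algebraMap K F c)
        = (Module.finrank K⟮t⟯ F : ℤ)

/-- (A1') Fundamental identity at `t = ∞`. -/
def PolesStatement : Prop :=
  ∀ (K F : Type) [Field K] [Field F] [Algebra K F] [IsAlgClosed K] [CharZero K] (t : F),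
    Transcendental K t → FiniteDimensional K⟮t⟯ F →
      {w : Place K F | w.ord t < 0}.Finite ∧
      ∑ᶠ w ∈ {w : Place K F | w.ord t < 0}, (- w.ord t) = (Module.finrank K⟮t⟯ F : ℤ)

/-- (A2) Every place has degree one (its residue field is `K`). -/
def DegOneStatement : Prop :=
  ∀ (K F : Type) [Field K] [Field F] [Algebra K F] [IsAlgClosed K] [CharZero K] (t : F),
    Transcendental K t → FiniteDimensional K⟮t⟯ F → ∀ w : Place K F, w.deg = 1

/-- (A2') Every place at which `t` has no pole is a zero of `t - c` for some `c : K`. -/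
def CenterStatement : Prop :=
  ∀ (K F : Type) [Field K] [Field F] [Algebra K F] [IsAlgClosed K] [CharZero K] (t : F),
    Transcendental K t → FiniteDimensional K⟮t⟯ F →
      ∀ w : Place K F, 0 ≤ w.ord t → ∃ c : K, 0 < w.ord (t - algebraMap K F c)

/-- (A3) Principal divisors have finite support and degree zero. -/
def PrincipalStatement : Prop :=
  ∀ (K F : Type) [Field K] [Field F] [Algebra K F] [IsAlgClosed K] [CharZero K] (t : F),
    Transcendental K t → FiniteDimensional K⟮t⟯ F → ∀ f : F, f ≠ 0 →
      {w : Place K F | w.ord f ≠ 0}.Finite ∧ ∑ᶠ w : Place K F, w.ord f = 0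

/-- (A4) Differentials: `Ω[F⁄K]` is one-dimensional, spanned by `dt ≠ 0`, and the order of `dt`
at a place is `e - 1` at a zero of `t - c` of order `e`, and `-e - 1` at a pole of order `e`. -/
def DiffStatement : Prop :=
  ∀ (K F : Type) [Field K] [Field F] [Algebra K F] [IsAlgClosed K] [CharZero K] (t : F),
    Transcendental K t → FiniteDimensional K⟮t⟯ F →
      (D K F t ≠ 0) ∧
      (∀ ω : Ω[F⁄K], ∃ f : F, ω = f • D K F t) ∧
      (∀ (w : Place K F) (f : F), f ≠ 0 →
        w.ordDifferential (f • D K F t) = w.ord f + w.ordDifferential (D K F t)) ∧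
      (∀ (w : Place K F) (c : K), 0 < w.ord (t - algebraMap K F c) →
        w.ordDifferential (D K F t) = w.ord (t - algebraMap K F c) - 1) ∧
      (∀ w : Place K F, w.ord t < 0 → w.ordDifferential (D K F t) = w.ord t - 1)

/-- (A5) Riemann–Hurwitz for `F / K(t)`, in the form of a formula for the prelude's `genus`:
if `t` is unramified outside the finite set `B ⊆ K` of finite values (and `∞`), then
`2 genus - 2 = ∑_{c ∈ B} (n - r_c) - n - r_∞`, where `n = [F : K(t)]` and `r_c`, `r_∞` are the
numbers of places above `c`, `∞`. -/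
def RHStatement : Prop :=
  ∀ (K F : Type) [Field K] [Field F] [Algebra K F] [IsAlgClosed K] [CharZero K]
    [HasCanonicalDivisor (K := K) (F := F)] (t : F),
    Transcendental K t → FiniteDimensional K⟮t⟯ F →
    ∀ B : Finset K, (∀ c : K, c ∉ B → ∀ w : Place K F, w.ord (t - algebraMap K F c) ≤ 1) →
      (genus K F : ℤ) =
        (((∑ c ∈ B, ((Module.finrank K⟮t⟯ F : ℤ)
              - (Nat.card {w : Place K F // 0 < w.ord (t - algebraMap K F c)} : ℤ)))
            - (Module.finrank K⟮t⟯ F : ℤ)
            - (Nat.card {w : Place K F // w.ord t < 0} : ℤ) + 2).toNat / 2 : ℕ)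

/-! ## Part V: places from valuations -/

/-- (V) A nontrivial `ℤ`-valued valuation on a field `L ⊇ K`, trivial on `K`, comes from a place:
there are a place `W` and `e ≥ 1` with `v = e * ord_W` on nonzero elements; moreover every
`K`-automorphism of `L` preserving `v` fixes `W`. -/
def ValuationPlaceStatement : Prop :=
  ∀ (K L : Type) [Field K] [Field L] [Algebra K L] (v : L → ℤ),
    (∀ x y : L, x ≠ 0 → y ≠ 0 → v (x * y) = v x + v y) →
    (∀ x y : L, x ≠ 0 → y ≠ 0 → x + y ≠ 0 → min (v x) (v y) ≤ v (x + y)) →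
    (∀ c : K, c ≠ 0 → v (algebraMap K L c) = 0) →
    (∃ x : L, x ≠ 0 ∧ v x ≠ 0) →
    ∃ (W : Place K L) (e : ℕ), 0 < e ∧ (∀ x : L, x ≠ 0 → v x = e * W.ord x) ∧
      (∀ σ : L ≃ₐ[K] L, (∀ x : L, x ≠ 0 → v (σ x) = v x) → σ • W = W)

/-! ## Part G: counting places in a Galois situation -/

/-- The subgroup of `Γ` fixing the intermediate field `F'` pointwise. -/
def fixer {K M Γ : Type} [Field K] [Field M] [Algebra K M] [Group Γ]
    (act : Γ →* (M ≃ₐ[K] M)) (F' : IntermediateField K M) : Subgroup Γ where
  carrier := {γ | ∀ x ∈ F', act γ x = x}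
  one_mem' := fun x _ => by simp
  mul_mem' := fun {a b} ha hb x hx => by
    rw [map_mul, AlgEquiv.mul_apply, hb x hx, ha x hx]
  inv_mem' := fun {a} ha x hx => by
    rw [map_inv]
    exact (AlgEquiv.symm_apply_eq (act a)).mpr (ha x hx).symm

theorem mem_fixer {K M Γ : Type} [Field K] [Field M] [Algebra K M] [Group Γ]
    (act : Γ →* (M ≃ₐ[K] M)) (F' : IntermediateField K M) (γ : Γ) :
    γ ∈ fixer act F' ↔ ∀ x ∈ F', act γ x = x := Iff.rfl

/-- The subgroup of `Γ` stabilising the place `W` (for the prelude's action of `M ≃ₐ[K] M` on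
places). -/
def placeStab {K M Γ : Type} [Field K] [Field M] [Algebra K M] [Group Γ]
    (act : Γ →* (M ≃ₐ[K] M)) (W : Place K M) : Subgroup Γ :=
  (MulAction.stabilizer (M ≃ₐ[K] M) W).comap act

theorem mem_placeStab {K M Γ : Type} [Field K] [Field M] [Algebra K M] [Group Γ]
    (act : Γ →* (M ≃ₐ[K] M)) (W : Place K M) (γ : Γ) :
    γ ∈ placeStab act W ↔ act γ • W = W := Iff.rfl

/-- (G) Let a group `Γ` act on the field `M ⊇ K` through a finite group of `K`-automorphisms with
fixed field `K(t)`, `t` transcendental, and let `F'` be an intermediate field containing `t`, with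
pointwise fixer `H ≤ Γ`.  Then `[F' : K(t)] = [Γ : H]`; and for every place `W` of `M` above
`t = c` (resp. `t = ∞`) with stabiliser `D ≤ Γ`: the image of `D` in `Aut(M)` has order
`ord_W (t - c)` (resp. `- ord_W t`), and the places of `F'` above `t = c` (resp. `∞`) are in
bijection with the `D`-orbits on `Γ ⧸ H`. -/
def GalStatement : Prop :=
  ∀ (K M Γ : Type) [Field K] [Field M] [Algebra K M] [IsAlgClosed K] [CharZero K] [Group Γ]
    (act : Γ →* (M ≃ₐ[K] M)) (t : M),
    Finite act.range → Transcendental K t →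
    (∀ x : M, (∀ γ : Γ, act γ x = x) ↔ x ∈ K⟮t⟯) →
    ∀ (F' : IntermediateField K M) (htF : t ∈ F'),
      (FiniteDimensional K⟮(⟨t, htF⟩ : F')⟯ F' ∧
        Module.finrank K⟮(⟨t, htF⟩ : F')⟯ F' = (fixer act F').index) ∧
      (∀ (c : K) (W : Place K M), 0 < W.ord (t - algebraMap K M c) →
        (Nat.card ((placeStab act W).map act) : ℤ) = W.ord (t - algebraMap K M c) ∧
        Nat.card {w : Place K F' // 0 < w.ord ((⟨t, htF⟩ : F') - algebraMap K F' c)}
          = Nat.card (MulAction.orbitRel.Quotient (placeStab act W) (Γ ⧸ fixer act F'))) ∧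
      (∀ W : Place K M, W.ord t < 0 →
        (Nat.card ((placeStab act W).map act) : ℤ) = - W.ord t ∧
        Nat.card {w : Place K F' // w.ord (⟨t, htF⟩ : F') < 0}
          = Nat.card (MulAction.orbitRel.Quotient (placeStab act W) (Γ ⧸ fixer act F')))

/-! ## Part C: combinatorics of `SL(2, ℤ) ⧸ Γ₀(N)` -/

open CongruenceSubgroup ModularGroup

/-- Number of orbits of the cyclic group generated by `g` on the left cosets `SL(2, ℤ) ⧸ Γ₀(N)`
(for the left multiplication action). -/
def cycleCount (N : ℕ) (g : SL(2, ℤ)) : ℕ :=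
  Nat.card (MulAction.orbitRel.Quotient (Subgroup.zpowers g) (SL(2, ℤ) ⧸ Gamma0 N))

/-- (C1) `[SL(2, ℤ) : Γ₀(N)] = ψ(N)`. -/
def CombIndexStatement : Prop :=
  ∀ (N : ℕ) [NeZero N], Nat.card (SL(2, ℤ) ⧸ Gamma0 N) = ModularCurve.dedekindPsi N

/-- (C2) Orbits of `S` (order 2) and `S * T` (order 3) on the cosets. -/
def CombEllipticStatement : Prop :=
  ∀ (N : ℕ) [NeZero N],
    2 * cycleCount N S = Nat.card (SL(2, ℤ) ⧸ Gamma0 N) + ModularCurve.nuTwo N ∧
    3 * cycleCount N (S * T) = Nat.card (SL(2, ℤ) ⧸ Gamma0 N) + 2 * ModularCurve.nuThree N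

/-- (C3) Orbits of `T` on the cosets: the cusps. -/
def CombCuspStatement : Prop :=
  ∀ (N : ℕ) [NeZero N], cycleCount N T = ModularCurve.cuspCount N

/-- (R) Ree's inequality with parity ("the genus of a transitive permutation triple is a natural
number"): if `G = ⟨a, b⟩` acts transitively on a finite nonempty set `X`, then
`#orbits(a) + #orbits(b) + #orbits(a * b) = |X| + 2 - 2 g` for some `g : ℕ`. -/
def ReeStatement : Prop :=
  ∀ (X G : Type) [Finite X] [Nonempty X] [Group G] [MulAction G X] [MulAction.IsPretransitive G X]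
    (a b : G), Subgroup.closure {a, b} = ⊤ →
    ∃ g : ℕ, 2 * g + (Nat.card (MulAction.orbitRel.Quotient (Subgroup.zpowers a) X)
        + Nat.card (MulAction.orbitRel.Quotient (Subgroup.zpowers b) X)
        + Nat.card (MulAction.orbitRel.Quotient (Subgroup.zpowers (a * b)) X)) = Nat.card X + 2

/-! ## Part M: the modular input -/

/-- `K = ℚ̄`. -/
abbrev Kbar : Type := AlgebraicClosure ℚ

/-- The function `j` as an element of the function field of `X₀(N)` over `ℚ̄`. -/
def jBar (N : ℕ) [NeZero N] : ↥(ModularCurve.modularFunctionFieldBar N) :=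
  ⟨ModularCurve.coeffEmb Kbar ModularCurve.jq,
    ModularCurve.coeffEmb_mem_laurentBaseChange Kbar (by
      have h := ModularCurve.jqd_mem_full N (one_dvd N)
      rwa [ModularCurve.qExpand_one_apply] at h)⟩

/-- (M) What the analytic theory of modular functions has to provide: a finite Galois extension
`M` of `ℚ̄(J)` on which `SL(2, ℤ)` acts through the full Galois group, containing a copy `F'` of
the function field of `X₀(N)` with pointwise fixer `Γ₀(N)`, together with places of `M` above the
values of `J` and information on their stabilisers. -/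
structure ModularModel (N : ℕ) [NeZero N] : Type 1 where
  M : Type
  [instField : Field M]
  [instAlgebra : Algebra Kbar M]
  act : SL(2, ℤ) →* (M ≃ₐ[Kbar] M)
  finite_range : Finite act.range
  J : M
  J_transc : Transcendental Kbar J
  fix_iff : ∀ x : M, (∀ γ : SL(2, ℤ), act γ x = x) ↔ x ∈ Kbar⟮J⟯
  F' : IntermediateField Kbar M
  J_mem : J ∈ F'
  fixer_eq : fixer act F' = Gamma0 N
  θ : ↥(ModularCurve.modularFunctionFieldBar N) ≃ₐ[Kbar] ↥F'
  θ_j : θ (jBar N) = ⟨J, J_mem⟩
  act_S_sq : act S ^ 2 = 1
  act_ST_cube : act (S * T) ^ 3 = 1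
  place_generic : ∀ c : Kbar, c ≠ 0 → c ≠ 1728 →
    ∃ W : Place Kbar M, W.ord (J - algebraMap Kbar M c) = 1
  place_i : ∃ W : Place Kbar M,
    (W.ord (J - algebraMap Kbar M 1728) = 1 ∨ W.ord (J - algebraMap Kbar M 1728) = 2) ∧
    act S • W = W ∧ (act S = 1 → W.ord (J - algebraMap Kbar M 1728) = 1)
  place_rho : ∃ W : Place Kbar M,
    (W.ord J = 1 ∨ W.ord J = 3) ∧
    act (S * T) • W = W ∧ (act (S * T) = 1 → W.ord J = 1)
  place_infty : ∃ W : Place Kbar M,
    W.ord J < 0 ∧ - W.ord J ≤ (N : ℤ) ∧
    act T • W = W ∧ (∀ k : ℕ, act T ^ k = 1 → N ∣ k)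

attribute [instance] ModularModel.instField ModularModel.instAlgebra

/-- (M-exists) The analytic side: a modular model exists for every level. -/
def ModularModelStatement : Prop := ∀ (N : ℕ) [NeZero N], Nonempty (ModularModel N)

/-- (MC) The place counts for the function field of `X₀(N)` over `ℚ̄`, relative to `j`. -/
def ModelCountsStatement : Prop :=
  ∀ (N : ℕ) [NeZero N],
    Transcendental Kbar (jBar N) ∧
    FiniteDimensional Kbar⟮jBar N⟯ ↥(ModularCurve.modularFunctionFieldBar N) ∧
    Module.finrank Kbar⟮jBar N⟯ ↥(ModularCurve.modularFunctionFieldBar N)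
      = Nat.card (SL(2, ℤ) ⧸ Gamma0 N) ∧
    (∀ c : Kbar, c ≠ 0 → c ≠ 1728 →
      ∀ w : Place Kbar ↥(ModularCurve.modularFunctionFieldBar N),
        w.ord (jBar N - algebraMap Kbar _ c) ≤ 1) ∧
    Nat.card {w : Place Kbar ↥(ModularCurve.modularFunctionFieldBar N) //
        0 < w.ord (jBar N - algebraMap Kbar _ 1728)} = cycleCount N S ∧
    Nat.card {w : Place Kbar ↥(ModularCurve.modularFunctionFieldBar N) //
        0 < w.ord (jBar N - algebraMap Kbar _ 0)} = cycleCount N (S * T) ∧
    Nat.card {w : Place Kbar ↥(ModularCurve.modularFunctionFieldBar N) //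
        w.ord (jBar N) < 0} = cycleCount N T

end

end Fermat.Agent.S24
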