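/-
S24 / package Gal (helper B): basic facts on the prelude's `Place`s.

* membership in the valuation ring / maximal ideal in terms of `Place.ord`;
* a place is determined by any valuation subring containing its own (`eq_of_le`);
* restriction of a place to a subfield (`restrict`).
-/
import Fermat.Agent.S24.Interfaces

set_option autoImplicit false

open AlgebraicCurve IntermediateField

namespace Fermat.Agent.S24.GalB

noncomputable section

section Basic

variable {K F : Type*} [Field K] [Field F] [Algebra K F] (v : Place K F)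

theorem ord_nonneg_of_mem {x : F} (hx : x ∈ v.toValuationSubring) : 0 ≤ v.ord x := by
  rcases eq_or_ne x 0 with rfl | hx0
  · simp
  have h1 : v.adicValuation x ≤ 1 := by
    have := v.adicValuation_coe ⟨x, hx⟩
    rw [show ((⟨x, hx⟩ : v.toValuationSubring) : F) = x from rfl] at this
    rw [this]
    exact IsDedekindDomain.HeightOneSpectrum.intValuation_le_one _ _
  have h2 : WithZero.log (v.adicValuation x) ≤ 0 := by
    rw [← WithZero.log_one, WithZero.log_le_log (v.adicValuation_ne_zero hx0) one_ne_zero]
    exact h1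
  simp only [Place.ord]
  omega

theorem mem_of_ord_nonneg {x : F} (hx : 0 ≤ v.ord x) : x ∈ v.toValuationSubring := by
  rcases eq_or_ne x 0 with rfl | hx0
  · exact zero_mem _
  obtain ⟨π, hπ⟩ := IsDiscreteValuationRing.exists_irreducible v.toValuationSubring
  obtain ⟨u, hu⟩ := v.exists_unit_mul_zpow hx0 hπ
  rw [hu]
  obtain ⟨n, hn⟩ := Int.eq_ofNat_of_zero_le hx
  rw [hn, zpow_natCast]
  exact mul_mem (u : v.toValuationSubring).2 (pow_mem π.2 n)

theorem mem_iff_ord_nonneg (x : F) : x ∈ v.toValuationSubring ↔ 0 ≤ v.ord x :=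
  ⟨ord_nonneg_of_mem v, mem_of_ord_nonneg v⟩

theorem ord_algebraMap (a : K) : v.ord (algebraMap K F a) = 0 := by
  rcases eq_or_ne a 0 with rfl | ha
  · simp
  have h1 := ord_nonneg_of_mem v (v.algebraMap_mem' a)
  have h2 := ord_nonneg_of_mem v (v.algebraMap_mem' a⁻¹)
  rw [map_inv₀, Place.ord_inv] at h2
  omega

theorem ord_div {x y : F} (hx : x ≠ 0) (hy : y ≠ 0) : v.ord (x / y) = v.ord x - v.ord y := by
  rw [div_eq_mul_inv, v.ord_mul hx (inv_ne_zero hy), Place.ord_inv]
  ring

theorem ord_pow (x : F) (n : ℕ) : v.ord (x ^ n) = n * v.ord x := by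
  have := v.ord_zpow x n
  rwa [zpow_natCast] at this

theorem mem_maximalIdeal_iff (a : v.toValuationSubring) :
    a ∈ IsLocalRing.maximalIdeal v.toValuationSubring ↔ a = 0 ∨ 0 < v.ord (a : F) := by
  rcases eq_or_ne a 0 with rfl | ha
  · simp
  have ha' : (a : F) ≠ 0 := by simpa using ha
  have h0 := v.adicValuation_ne_zero ha'
  rw [← v.heightOneSpectrum_asIdeal,
    ← IsDedekindDomain.HeightOneSpectrum.intValuation_lt_one_iff_mem, ← v.adicValuation_coe,
    ← WithZero.log_lt_log h0 one_ne_zero, WithZero.log_one]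
  simp only [Place.ord, ha, false_or]
  omega

theorem ord_pos_iff_inv_not_mem (x : F) :
    0 < v.ord x ↔ x⁻¹ ∉ v.toValuationSubring := by
  rw [mem_iff_ord_nonneg, Place.ord_inv]
  omega

theorem ord_smul_apply (σ : F ≃ₐ[K] F) (x : F) : (σ • v).ord x = v.ord (σ⁻¹ x) := by
  have h := Place.ord_smul σ v (σ⁻¹ x)
  rwa [show σ (σ⁻¹ x) = x from σ.apply_symm_apply x] at h

theorem eq_of_le {v w : Place K F} (h : v.toValuationSubring ≤ w.toValuationSubring) : v = w :=
  Place.ext (ValuationSubring.eq_of_le_of_ne_top _ h w.ne_top')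

theorem exists_ord_neg : ∃ x : F, v.ord x < 0 := by
  obtain ⟨π, hπ⟩ := IsDiscreteValuationRing.exists_irreducible v.toValuationSubring
  refine ⟨(π : F)⁻¹, ?_⟩
  rw [Place.ord_inv, v.ord_coe_irreducible hπ]
  omega

end Basic

section Restrict

variable {K L M : Type*} [Field K] [Field L] [Field M] [Algebra K L] [Algebra K M] [Algebra L M]
  [IsScalarTower K L M]

omit [Algebra K L] [IsScalarTower K L M] in
/-- The comap of the valuation ring of a place along a field extension is a principal ideal
ring. -/
theorem isPrincipalIdealRing_comap (W : Place K M) :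
    IsPrincipalIdealRing (W.toValuationSubring.comap (algebraMap L M)) := by
  classical
  refine ⟨fun I => ?_⟩
  by_cases hI : I = ⊥
  · rw [hI]; exact bot_isPrincipal
  obtain ⟨x, hxI, hx0⟩ := Submodule.exists_mem_ne_zero_of_ne_bot hI
  -- the set of orders of nonzero elements of `I`
  have hex : ∃ n : ℕ, ∃ y ∈ I, y ≠ 0 ∧ W.ord (algebraMap L M (y : L)) = n := by
    have hx' : 0 ≤ W.ord (algebraMap L M (x : L)) :=
      ord_nonneg_of_mem W (ValuationSubring.mem_comap.mp x.2)
    exact ⟨(W.ord (algebraMap L M (x : L))).toNat, x, hxI, hx0, (Int.toNat_of_nonneg hx').symm⟩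
  obtain ⟨y, hyI, hy0, hy⟩ := Nat.find_spec hex
  have hy0' : (y : L) ≠ 0 := by simpa using hy0
  have hy0'' : algebraMap L M (y : L) ≠ 0 := by simpa using hy0'
  refine ⟨⟨y, le_antisymm ?_ ?_⟩⟩
  · intro z hzI
    rcases eq_or_ne z 0 with rfl | hz0
    · exact zero_mem _
    have hz0' : (z : L) ≠ 0 := by simpa using hz0
    have hz0'' : algebraMap L M (z : L) ≠ 0 := by simpa using hz0'
    have hz' : 0 ≤ W.ord (algebraMap L M (z : L)) :=
      ord_nonneg_of_mem W (ValuationSubring.mem_comap.mp z.2)
    have hmin : Nat.find hex ≤ (W.ord (algebraMap L M (z : L))).toNat :=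
      Nat.find_min' hex ⟨z, hzI, hz0, (Int.toNat_of_nonneg hz').symm⟩
    have hq : (z : L) / (y : L) ∈ W.toValuationSubring.comap (algebraMap L M) := by
      rw [ValuationSubring.mem_comap, map_div₀]
      apply mem_of_ord_nonneg
      rw [ord_div W hz0'' hy0'', hy]
      omega
    have hzy : z = ⟨(z : L) / (y : L), hq⟩ * y := by
      apply Subtype.ext
      show (z : L) = (z : L) / (y : L) * (y : L)
      field_simp
    rw [hzy]
    exact Ideal.mul_mem_left _ _ (Ideal.subset_span (Set.mem_singleton y))
  · rw [Submodule.span_singleton_le_iff_mem]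
    exact hyI

/-- Restriction of a place of `M` to a subfield `L` on which it is nontrivial. -/
def restrict (W : Place K M) (h : ∃ x : L, algebraMap L M x ∉ W.toValuationSubring) :
    Place K L where
  toValuationSubring := W.toValuationSubring.comap (algebraMap L M)
  algebraMap_mem' a := by
    rw [ValuationSubring.mem_comap, ← IsScalarTower.algebraMap_apply]
    exact W.algebraMap_mem' a
  ne_top' := by
    obtain ⟨x, hx⟩ := h
    intro htop
    apply hx
    rw [← ValuationSubring.mem_comap, htop]
    exact ValuationSubring.mem_top x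
  isPrincipalIdealRing' := isPrincipalIdealRing_comap W

@[simp]
theorem mem_restrict (W : Place K M) (h : ∃ x : L, algebraMap L M x ∉ W.toValuationSubring)
    (x : L) : x ∈ (restrict W h).toValuationSubring ↔ algebraMap L M x ∈ W.toValuationSubring :=
  Iff.rfl

theorem restrict_ord_pos_iff (W : Place K M)
    (h : ∃ x : L, algebraMap L M x ∉ W.toValuationSubring) (x : L) :
    0 < (restrict W h).ord x ↔ 0 < W.ord (algebraMap L M x) := by
  rw [ord_pos_iff_inv_not_mem, ord_pos_iff_inv_not_mem, mem_restrict, map_inv₀]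

theorem restrict_ord_nonneg_iff (W : Place K M)
    (h : ∃ x : L, algebraMap L M x ∉ W.toValuationSubring) (x : L) :
    0 ≤ (restrict W h).ord x ↔ 0 ≤ W.ord (algebraMap L M x) := by
  rw [← mem_iff_ord_nonneg, ← mem_iff_ord_nonneg, mem_restrict]

omit [Algebra K L] [IsScalarTower K L M] in
/-- If `M` is algebraic over `L`, every place of `M` is nontrivial on `L`. -/
theorem exists_not_mem_of_isAlgebraic [Algebra.IsAlgebraic L M] (W : Place K M) :
    ∃ x : L, algebraMap L M x ∉ W.toValuationSubring := by
  by_contra hcon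
  simp only [not_exists, not_not] at hcon
  apply W.ne_top'
  rw [eq_top_iff]
  intro y _
  -- `y` is integral over `L`, hence over the valuation ring, which is integrally closed
  let φ : L →+* W.toValuationSubring := (algebraMap L M).codRestrict W.toValuationSubring.toSubring hcon
  have hy : IsIntegral L y := Algebra.IsIntegral.isIntegral y
  have hy' : IsIntegral W.toValuationSubring y := by
    have := IsIntegral.map_of_comp_eq φ (RingHom.id M) (by ext x; rfl) hy
    simpa using this
  obtain ⟨z, hz⟩ := (IsIntegrallyClosed.isIntegral_iff (R := W.toValuationSubring) (K := M)).mp hy'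
  rw [← hz]
  exact z.2

end Restrict

end

end Fermat.Agent.S24.GalB
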