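/-
S24 (genus of X₀(N)) — INTERFACE FILE, analytic part (definitions and statement-`Prop`s only).

The analytic work packages prove the `…Statement : Prop` definitions below (each in its own file
`Fermat/Agent/S24/<Package>.lean`, possibly assuming other statements as explicit hypotheses).
Together they produce a `PreModel N` for every level `N`, from which the algebraic package
`ModelAlg` builds the `ModularModel N` of `Interfaces.lean`.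

Conventions: functions on the upper half plane are plain functions `ℍ → ℂ`; holomorphy is
`MDifferentiable 𝓘(ℂ) 𝓘(ℂ)`; `SL(2, ℤ)` and `GL (Fin 2) ℝ` act on `ℍ` by Möbius transformations
(Mathlib); `q`-expansions are Mathlib's `UpperHalfPlane.qExpansion`/`cuspFunction`.
-/
import Fermat.Agent.S24.Interfaces

set_option autoImplicit false

open UpperHalfPlane ModularForm Complex CongruenceSubgroup ModularGroup
open scoped MatrixGroups Manifold Real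

namespace Fermat.Agent.S24

noncomputable section

/-! ## Shared analytic definitions -/

/-- A fixed embedding `ℚ̄ → ℂ`. -/
def iotaHom : Kbar →+* ℂ :=
  have : Algebra.IsAlgebraic ℚ (AlgebraicClosure ℚ) := AlgebraicClosure.isAlgebraic ℚ
  ((IsAlgClosed.lift : AlgebraicClosure ℚ →ₐ[ℚ] ℂ) : AlgebraicClosure ℚ →+* ℂ)

/-- The modular invariant `j = E₄³ / Δ` as a function on the upper half plane. -/
def Jfun (τ : ℍ) : ℂ := E₄ τ ^ 3 / ModularForm.discriminant τ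

/-- The upper triangular matrix `(a b; 0 d)` as an element of `GL(2, ℝ)` (for `a, d ≥ 1`; the
identity otherwise).  It acts on `ℍ` by `τ ↦ (a τ + b) / d`. -/
def utGL (a : ℕ) (b : ℤ) (d : ℕ) : GL (Fin 2) ℝ :=
  if h : ((a : ℝ) * (d : ℝ)) ≠ 0 then
    Matrix.GeneralLinearGroup.mkOfDetNeZero !![(a : ℝ), (b : ℝ); 0, (d : ℝ)]
      (by rwa [Matrix.det_fin_two_of, mul_zero, sub_zero])
  else 1

/-- The conjugates of `j(d τ)`: `slConj d γ = (τ ↦ j(d · γ⁻¹τ))`. -/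
def slConj (d : ℕ) (γ : SL(2, ℤ)) : ℍ → ℂ := fun τ => Jfun (utGL d 0 1 • (γ⁻¹ • τ))

/-- The elliptic point `i`. -/
def ellI : ℍ := UpperHalfPlane.I

/-- The elliptic point `ρ = e^{2πi/3} = -1/2 + (√3/2) i`, fixed by `S * T : τ ↦ -1/(τ+1)`. -/
def ellRho : ℍ :=
  ⟨(-1 / 2 : ℂ) + ((Real.sqrt 3 / 2 : ℝ) : ℂ) * Complex.I, by
    have h : (0 : ℝ) < Real.sqrt 3 / 2 := by positivity
    simp [h]⟩

/-- `f` is holomorphic on `ℍ`, periodic of period `h`, and `q_h^k · f` is bounded at `i∞`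
(where `q_h = exp(2πiτ/h)`): "meromorphic at the cusp `∞` with a pole of order at most `k`". -/
def IsCuspMerOrder (h k : ℕ) (f : ℍ → ℂ) : Prop :=
  MDifferentiable 𝓘(ℂ) 𝓘(ℂ) f ∧ Function.Periodic (f ∘ ofComplex) ((h : ℝ) : ℂ) ∧
    IsBoundedAtImInfty (fun τ : ℍ => Function.Periodic.qParam (h : ℝ) (τ : ℂ) ^ k * f τ)

/-- `f` is holomorphic on `ℍ`, `h`-periodic and meromorphic at the cusp `∞`. -/
def IsCuspMer (h : ℕ) (f : ℍ → ℂ) : Prop := ∃ k : ℕ, IsCuspMerOrder h k f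

open Classical in
/-- The Laurent expansion at the cusp `∞` in the variable `q_h = exp(2πiτ/h)` (zero if `f` is not
`IsCuspMer h`). -/
def Qexp (h : ℕ) (f : ℍ → ℂ) : LaurentSeries ℂ :=
  if hf : IsCuspMer h f then
    HahnSeries.single (-(hf.choose : ℤ)) (1 : ℂ) *
      HahnSeries.ofPowerSeries ℤ ℂ
        (qExpansion (h : ℝ)
          (fun τ : ℍ => Function.Periodic.qParam (h : ℝ) (τ : ℂ) ^ hf.choose * f τ))
  else 0

/-- Order of vanishing of `f` at the point `τ₀` (`0` if `f` vanishes identically near `τ₀`). -/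
def ordAt (τ₀ : ℍ) (f : ℍ → ℂ) : ℕ := (analyticOrderAt (f ∘ ofComplex) (τ₀ : ℂ)).toNat

/-! ## Statements about `j` -/

/-- (J1) `j` is holomorphic and `SL(2, ℤ)`-invariant, `j(i) = 1728`, `j(ρ) = 0`. -/
def JBasicStatement : Prop :=
  MDifferentiable 𝓘(ℂ) 𝓘(ℂ) Jfun ∧
  (∀ (γ : SL(2, ℤ)) (τ : ℍ), Jfun (γ • τ) = Jfun τ) ∧
  Jfun ellI = 1728 ∧ Jfun ellRho = 0

/-- (J2) Local orders of `j`: `j - j(τ)` vanishes to order exactly `1` at `τ` unless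
`j(τ) ∈ {0, 1728}`; `j - 1728` vanishes to order `2` at `i`; `j` vanishes to order `3` at `ρ`. -/
def JOrdersStatement : Prop :=
  (∀ τ : ℍ, Jfun τ ≠ 0 → Jfun τ ≠ 1728 → ordAt τ (fun z => Jfun z - Jfun τ) = 1) ∧
  ordAt ellI (fun z => Jfun z - 1728) = 2 ∧
  ordAt ellRho Jfun = 3

/-- (J3) `j : ℍ → ℂ` is surjective. -/
def JSurjStatement : Prop := ∀ c : ℂ, ∃ τ : ℍ, Jfun τ = c

/-- (J4) The analytic `q`-expansions of `E₄` and `Δ` are the formal series of the prelude. -/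
def FormalQStatement : Prop :=
  qExpansion (1 : ℝ) E₄ = PowerSeries.map (Int.castRingHom ℂ) ModularCurve.eisenstein4 ∧
  qExpansion (1 : ℝ) ModularForm.discriminant
    = PowerSeries.X * PowerSeries.map (Int.castRingHom ℂ) ModularCurve.dedekindEtaUnit

/-- (J5) `j` has a simple pole at `∞` and its Laurent expansion is the prelude's formal `jq`. -/
def JQexpStatement : Prop :=
  IsCuspMerOrder 1 1 Jfun ∧
  Qexp 1 Jfun = ModularCurve.coeffMap (algebraMap ℚ ℂ) ModularCurve.jq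

/-! ## Laurent expansions at the cusp -/

/-- (Q) Basic theory of `Qexp`: it is a ring homomorphism on `IsCuspMer h` functions, injective,
compatible with `qExpansion` (for any admissible pole order bound `k`; for `k = 0` the function
`q_h^0 * f = f` is bounded and `Qexp h f = ofPowerSeries (qExpansion h f)`), with change of the
period, with the translation `τ ↦ τ + 1` and with the substitutions `τ ↦ (a τ + b) / d`. -/
def QexpStatement : Prop :=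
  -- constants
  (∀ (h : ℕ) [NeZero h] (c : ℂ),
    IsCuspMerOrder h 0 (fun _ : ℍ => c) ∧ Qexp h (fun _ : ℍ => c) = HahnSeries.C c) ∧
  -- sums and products
  (∀ (h : ℕ) [NeZero h] (f g : ℍ → ℂ), IsCuspMer h f → IsCuspMer h g →
    IsCuspMer h (f + g) ∧ IsCuspMer h (f * g) ∧
    Qexp h (f + g) = Qexp h f + Qexp h g ∧ Qexp h (f * g) = Qexp h f * Qexp h g) ∧
  -- injectivity
  (∀ (h : ℕ) [NeZero h] (f : ℍ → ℂ), IsCuspMer h f → Qexp h f = 0 → f = 0) ∧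
  -- independence of the chosen pole order bound
  (∀ (h : ℕ) [NeZero h] (k : ℕ) (f : ℍ → ℂ), IsCuspMerOrder h k f →
    Qexp h f = HahnSeries.single (-(k : ℤ)) (1 : ℂ) *
      HahnSeries.ofPowerSeries ℤ ℂ
        (qExpansion (h : ℝ) (fun τ : ℍ => Function.Periodic.qParam (h : ℝ) (τ : ℂ) ^ k * f τ))) ∧
  -- lowering the pole order bound when the leading Laurent coefficient vanishes
  (∀ (h : ℕ) [NeZero h] (k : ℕ) (f : ℍ → ℂ), IsCuspMerOrder h (k + 1) f →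
    (Qexp h f).coeff (-((k : ℤ) + 1)) = 0 → IsCuspMerOrder h k f) ∧
  -- change of period: from 1 to N and back
  (∀ (N : ℕ) [NeZero N] (f : ℍ → ℂ), IsCuspMer 1 f →
    IsCuspMer N f ∧ Qexp N f = ModularCurve.qExpand ℂ N (Qexp 1 f)) ∧
  (∀ (N : ℕ) [NeZero N] (f : ℍ → ℂ), IsCuspMer N f →
    Function.Periodic (f ∘ ofComplex) ((1 : ℝ) : ℂ) → IsCuspMer 1 f) ∧
  -- translation τ ↦ τ + 1
  (∀ (h : ℕ) [NeZero h] (f : ℍ → ℂ), IsCuspMer h f →
    IsCuspMer h (fun τ : ℍ => f ((1 : ℝ) +ᵥ τ)) ∧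
    ∀ n : ℤ, (Qexp h (fun τ : ℍ => f ((1 : ℝ) +ᵥ τ))).coeff n
      = Complex.exp (2 * π * Complex.I * n / h) * (Qexp h f).coeff n) ∧
  -- substitution τ ↦ (a τ + b) / d
  (∀ (a d : ℕ) (b : ℤ) (h : ℕ) [NeZero h], 0 < a → 0 < d → d ∣ h → ∀ f : ℍ → ℂ, IsCuspMer 1 f →
    IsCuspMer h (fun τ : ℍ => f (utGL a b d • τ)) ∧
    ∀ n : ℤ, (Qexp h (fun τ : ℍ => f (utGL a b d • τ))).coeff n
      = if ((a * (h / d) : ℕ) : ℤ) ∣ n then
          Complex.exp (2 * π * Complex.I * b * (n / ((a * (h / d) : ℕ) : ℤ) : ℤ) / d)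
            * (Qexp 1 f).coeff (n / ((a * (h / d) : ℕ) : ℤ))
        else 0)

/-- (P) `SL(2, ℤ)`-invariant holomorphic functions that are meromorphic at `∞` with `ℚ̄`-rational
Laurent coefficients are polynomials in `j` with `ℚ̄`-coefficients. -/
def LemmaPStatement : Prop :=
  ∀ f : ℍ → ℂ, IsCuspMer 1 f → (∀ (γ : SL(2, ℤ)) (τ : ℍ), f (γ • τ) = f τ) →
    (∀ n : ℤ, (Qexp 1 f).coeff n ∈ Set.range iotaHom) →
    ∃ p : Polynomial Kbar, ∀ τ : ℍ, f τ = (p.map iotaHom).eval (Jfun τ)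

/-! ## Conjugates of `j(d τ)` -/

/-- (C) Möbius bookkeeping: the action of `utGL`; Hermite normal form of `(d 0; 0 1) γ`;
the stabiliser of `j(d τ)` is `Γ₀(d)`; `j((τ + k)/N) = j(τ/N)` forces `N ∣ k`;
`j(N · Sτ) = j(τ/N)`. -/
def ConjStatement : Prop :=
  (∀ (a d : ℕ) (b : ℤ), 0 < a → 0 < d → ∀ τ : ℍ,
    ((utGL a b d • τ : ℍ) : ℂ) = ((a : ℂ) * (τ : ℂ) + (b : ℂ)) / (d : ℂ)) ∧
  (∀ (d : ℕ) (γ : SL(2, ℤ)), 0 < d →
    ∃ (γ' : SL(2, ℤ)) (a δ : ℕ) (b : ℤ), 0 < a ∧ 0 < δ ∧ a * δ = d ∧ 0 ≤ b ∧ b < δ ∧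
      ∀ τ : ℍ, utGL d 0 1 • (γ • τ) = γ' • (utGL a b δ • τ)) ∧
  (∀ (d : ℕ) (γ : SL(2, ℤ)), 0 < d →
    ((∀ τ : ℍ, Jfun (utGL d 0 1 • (γ • τ)) = Jfun (utGL d 0 1 • τ)) ↔ γ ∈ Gamma0 d)) ∧
  (∀ (N : ℕ) (k : ℤ), 0 < N →
    (∀ τ : ℍ, Jfun (utGL 1 k N • τ) = Jfun (utGL 1 0 N • τ)) → (N : ℤ) ∣ k) ∧
  (∀ (N : ℕ), 0 < N → ∀ τ : ℍ, Jfun (utGL N 0 1 • (S • τ)) = Jfun (utGL 1 0 N • τ))

/-! ## Orders of vanishing at points of `ℍ` -/

/-- (PV) The order of vanishing `ordAt τ₀` is an additive valuation on nonzero holomorphic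
functions, compatible with the `SL(2, ℤ)`-action, and functions invariant under the elliptic
elements `S` (resp. `S * T`) vanish to even order at `i` (resp. to order divisible by `3` at `ρ`). -/
def PointValStatement : Prop :=
  (∀ f g : ℍ → ℂ, MDifferentiable 𝓘(ℂ) 𝓘(ℂ) f → MDifferentiable 𝓘(ℂ) 𝓘(ℂ) g →
    f * g = 0 → f = 0 ∨ g = 0) ∧
  (∀ (τ₀ : ℍ) (f g : ℍ → ℂ), MDifferentiable 𝓘(ℂ) 𝓘(ℂ) f → MDifferentiable 𝓘(ℂ) 𝓘(ℂ) g →
    f ≠ 0 → g ≠ 0 → ordAt τ₀ (f * g) = ordAt τ₀ f + ordAt τ₀ g) ∧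
  (∀ (τ₀ : ℍ) (f g : ℍ → ℂ), MDifferentiable 𝓘(ℂ) 𝓘(ℂ) f → MDifferentiable 𝓘(ℂ) 𝓘(ℂ) g →
    f ≠ 0 → g ≠ 0 → f + g ≠ 0 → min (ordAt τ₀ f) (ordAt τ₀ g) ≤ ordAt τ₀ (f + g)) ∧
  (∀ (τ₀ : ℍ) (f : ℍ → ℂ), MDifferentiable 𝓘(ℂ) 𝓘(ℂ) f → f τ₀ ≠ 0 → ordAt τ₀ f = 0) ∧
  (∀ (τ₀ : ℍ) (γ : SL(2, ℤ)) (f : ℍ → ℂ), MDifferentiable 𝓘(ℂ) 𝓘(ℂ) f →
    MDifferentiable 𝓘(ℂ) 𝓘(ℂ) (fun τ : ℍ => f (γ • τ)) ∧
    ordAt τ₀ (fun τ : ℍ => f (γ • τ)) = ordAt (γ • τ₀) f) ∧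
  (S • ellI = ellI ∧ (S * T) • ellRho = ellRho) ∧
  (∀ f : ℍ → ℂ, MDifferentiable 𝓘(ℂ) 𝓘(ℂ) f → f ≠ 0 → (∀ τ : ℍ, f (S • τ) = f τ) →
    2 ∣ ordAt ellI f) ∧
  (∀ f : ℍ → ℂ, MDifferentiable 𝓘(ℂ) 𝓘(ℂ) f → f ≠ 0 → (∀ τ : ℍ, f ((S * T) • τ) = f τ) →
    3 ∣ ordAt ellRho f)

/-! ## The pre-model -/

/-- `v` is an additive valuation on the nonzero elements of the `ℚ̄`-algebra `R`, trivial on
nonzero constants. -/
def IsAddVal {R : Type} [CommRing R] [Algebra Kbar R] (v : R → ℕ) : Prop :=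
  (∀ x y : R, x ≠ 0 → y ≠ 0 → v (x * y) = v x + v y) ∧
  (∀ x y : R, x ≠ 0 → y ≠ 0 → x + y ≠ 0 → min (v x) (v y) ≤ v (x + y)) ∧
  (∀ c : Kbar, c ≠ 0 → v (algebraMap Kbar R c) = 0)

/-- (PM) The output of the analytic theory, before passing to fraction fields: a `ℚ̄`-algebra `R`
of holomorphic functions (the ring generated by the conjugates of the `j(dτ)`, `d ∣ N`), an integral
domain, with the action `ρ` of `SL(2, ℤ)` (through a finite group), the elements `J = j` and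
`Jd d = j(dτ)`, the Laurent expansion `q` at `∞` in the variable `exp(2πiτ/N)`, and additive
valuations at points of `ℍ`. -/
structure PreModel (N : ℕ) [NeZero N] : Type 1 where
  R : Type
  [instCommRing : CommRing R]
  [instIsDomain : IsDomain R]
  [instAlgebra : Algebra Kbar R]
  ρ : SL(2, ℤ) →* (R ≃ₐ[Kbar] R)
  finite_range : Finite ρ.range
  J : R
  J_transc : Transcendental Kbar J
  inv_iff : ∀ x : R, (∀ γ : SL(2, ℤ), ρ γ x = x) ↔ x ∈ Algebra.adjoin Kbar {J}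
  Jd : ℕ → R
  Jd_one : Jd 1 = J
  stab_iff : ∀ γ : SL(2, ℤ), (∀ d : ℕ, d ∣ N → ρ γ (Jd d) = Jd d) ↔ γ ∈ Gamma0 N
  q : R →+* LaurentSeries ℂ
  q_injective : Function.Injective q
  q_algebraMap : ∀ c : Kbar, q (algebraMap Kbar R c) = HahnSeries.C (iotaHom c)
  q_Jd : ∀ (d : ℕ) [NeZero d], d ∣ N →
    q (Jd d) = ModularCurve.qExpand ℂ N
      (ModularCurve.coeffMap iotaHom
        (ModularCurve.coeffEmb Kbar (ModularCurve.qExpand ℚ d ModularCurve.jq)))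
  q_T_order : ∀ x : R, (q (ρ T x)).order = (q x).order
  T_order : ∀ k : ℕ, ρ T ^ k = 1 → N ∣ k
  ρ_S_sq : ρ S ^ 2 = 1
  ρ_ST_cube : ρ (S * T) ^ 3 = 1
  val_generic : ∀ c : Kbar, c ≠ 0 → c ≠ 1728 →
    ∃ v : R → ℕ, IsAddVal v ∧ v (J - algebraMap Kbar R c) = 1
  val_i : ∃ v : R → ℕ, IsAddVal v ∧ v (J - algebraMap Kbar R 1728) = 2 ∧
    (∀ x : R, x ≠ 0 → v (ρ S x) = v x) ∧ (ρ S = 1 → ∀ x : R, x ≠ 0 → 2 ∣ v x)
  val_rho : ∃ v : R → ℕ, IsAddVal v ∧ v J = 3 ∧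
    (∀ x : R, x ≠ 0 → v (ρ (S * T) x) = v x) ∧ (ρ (S * T) = 1 → ∀ x : R, x ≠ 0 → 3 ∣ v x)

attribute [instance] PreModel.instCommRing PreModel.instIsDomain PreModel.instAlgebra

/-- (PM-exists) The analytic side: a pre-model exists for every level. -/
def PreModelStatement : Prop := ∀ (N : ℕ) [NeZero N], Nonempty (PreModel N)

end

end Fermat.Agent.S24
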