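/-
S24 package `Conj`: Möbius bookkeeping for the conjugates of `j(dτ)`.

Main result: `conjStatement : JBasicStatement → JQexpStatement → QexpStatement → ConjStatement`.
-/
import Fermat.Agent.S24.AnalyticInterfaces

set_option autoImplicit false

open UpperHalfPlane ModularForm Complex CongruenceSubgroup ModularGroup
open scoped MatrixGroups Manifold Real

namespace Fermat.Agent.S24.Conj

noncomputable section

/-! ## The matrices `utGL a b d` -/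

theorem utGL_val {a d : ℕ} (b : ℤ) (ha : 0 < a) (hd : 0 < d) :
    ((utGL a b d : GL (Fin 2) ℝ) : Matrix (Fin 2) (Fin 2) ℝ)
      = !![(a : ℝ), (b : ℝ); 0, (d : ℝ)] := by
  have h : ((a : ℝ) * (d : ℝ)) ≠ 0 := by positivity
  rw [utGL, dif_pos h]
  rfl

theorem utGL_val_map {a d : ℕ} (b : ℤ) (ha : 0 < a) (hd : 0 < d) :
    ((utGL a b d : GL (Fin 2) ℝ) : Matrix (Fin 2) (Fin 2) ℝ)
      = (!![(a : ℤ), b; 0, (d : ℤ)]).map (Int.castRingHom ℝ) := by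
  rw [utGL_val b ha hd]
  ext i j
  fin_cases i <;> fin_cases j <;> simp

theorem utGL_det_pos {a d : ℕ} (b : ℤ) (ha : 0 < a) (hd : 0 < d) :
    0 < ((utGL a b d).det : ℝ) := by
  rw [Matrix.GeneralLinearGroup.val_det_apply, utGL_val b ha hd, Matrix.det_fin_two_of]
  simp only [mul_zero, sub_zero]
  positivity

/-- Clause 1: `utGL a b d` acts by `τ ↦ (a τ + b) / d`. -/
theorem coe_utGL_smul {a d : ℕ} (b : ℤ) (ha : 0 < a) (hd : 0 < d) (τ : ℍ) :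
    ((utGL a b d • τ : ℍ) : ℂ) = ((a : ℂ) * (τ : ℂ) + (b : ℂ)) / (d : ℂ) := by
  rw [UpperHalfPlane.coe_smul_of_det_pos (utGL_det_pos b ha hd)]
  simp [UpperHalfPlane.num, UpperHalfPlane.denom, utGL_val b ha hd]

/-- Transfer of an integral matrix identity `(a₁ b₁; 0 d₁) γ = γ' (a₂ b₂; 0 d₂)` to the
action on the upper half plane. -/
theorem smul_smul_eq_of_matrix_eq {a₁ d₁ a₂ d₂ : ℕ} {b₁ b₂ : ℤ} (ha₁ : 0 < a₁) (hd₁ : 0 < d₁)
    (ha₂ : 0 < a₂) (hd₂ : 0 < d₂) (γ γ' : SL(2, ℤ))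
    (h : !![(a₁ : ℤ), b₁; 0, (d₁ : ℤ)] * (γ : Matrix (Fin 2) (Fin 2) ℤ)
       = (γ' : Matrix (Fin 2) (Fin 2) ℤ) * !![(a₂ : ℤ), b₂; 0, (d₂ : ℤ)]) (τ : ℍ) :
    utGL a₁ b₁ d₁ • (γ • τ) = γ' • (utGL a₂ b₂ d₂ • τ) := by
  have key : utGL a₁ b₁ d₁ * Matrix.SpecialLinearGroup.mapGL ℝ γ
      = Matrix.SpecialLinearGroup.mapGL ℝ γ' * utGL a₂ b₂ d₂ := by
    apply Units.ext
    rw [Units.val_mul, Units.val_mul, utGL_val_map _ ha₁ hd₁, utGL_val_map _ ha₂ hd₂,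
      Matrix.SpecialLinearGroup.mapGL_coe_matrix, Matrix.SpecialLinearGroup.mapGL_coe_matrix]
    have e : (algebraMap ℤ ℝ) = Int.castRingHom ℝ := rfl
    rw [e]
    show (!![(a₁ : ℤ), b₁; 0, (d₁ : ℤ)]).map (Int.castRingHom ℝ)
        * (γ : Matrix (Fin 2) (Fin 2) ℤ).map (Int.castRingHom ℝ)
      = (γ' : Matrix (Fin 2) (Fin 2) ℤ).map (Int.castRingHom ℝ)
        * (!![(a₂ : ℤ), b₂; 0, (d₂ : ℤ)]).map (Int.castRingHom ℝ)
    rw [← Matrix.map_mul, ← Matrix.map_mul, h]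
  show utGL a₁ b₁ d₁ • (Matrix.SpecialLinearGroup.mapGL ℝ γ • τ)
    = Matrix.SpecialLinearGroup.mapGL ℝ γ' • (utGL a₂ b₂ d₂ • τ)
  rw [← mul_smul, key, mul_smul]

/-! ## Hermite normal form -/

/-- Hermite normal form of an integral `2 × 2` matrix of determinant `d > 0`. -/
theorem hermite (d : ℕ) (hd : 0 < d) (A : FixedDetMatrix (Fin 2) ℤ (d : ℤ)) :
    ∃ (γ' : SL(2, ℤ)) (a δ : ℕ) (b : ℤ), 0 < a ∧ 0 < δ ∧ a * δ = d ∧ 0 ≤ b ∧ b < δ ∧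
      A.1 = (γ' : Matrix (Fin 2) (Fin 2) ℤ) * !![(a : ℤ), b; 0, (δ : ℤ)] := by
  have hd' : (d : ℤ) ≠ 0 := by exact_mod_cast hd.ne'
  induction A using FixedDetMatrices.induction_on hd' with
  | h0 A h10 h00 h01 h11 =>
    have hdet : A.1 0 0 * A.1 1 1 = d := by
      have := A.2
      rw [Matrix.det_fin_two, h10, mul_zero, sub_zero] at this
      exact this
    have h11pos : 0 < A.1 1 1 := by
      have hdpos : (0 : ℤ) < d := by exact_mod_cast hd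
      rw [← hdet] at hdpos
      exact (mul_pos_iff_of_pos_left h00).mp hdpos
    refine ⟨1, (A.1 0 0).toNat, (A.1 1 1).toNat, A.1 0 1, ?_, ?_, ?_, h01, ?_, ?_⟩
    · omega
    · omega
    · zify
      rw [Int.toNat_of_nonneg h00.le, Int.toNat_of_nonneg h11pos.le, hdet]
    · rw [Int.toNat_of_nonneg h11pos.le]
      rw [abs_of_nonneg h01, abs_of_pos h11pos] at h11
      exact h11
    · rw [Int.toNat_of_nonneg h00.le, Int.toNat_of_nonneg h11pos.le]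
      rw [Matrix.SpecialLinearGroup.coe_one, Matrix.one_mul]
      ext i j
      fin_cases i <;> fin_cases j <;> simp [h10]
  | hS B ih =>
    obtain ⟨γ', a, δ, b, ha, hδ, had, hb0, hbδ, hB⟩ := ih
    exact ⟨S * γ', a, δ, b, ha, hδ, had, hb0, hbδ, by
      rw [FixedDetMatrices.smul_coe, hB, Matrix.SpecialLinearGroup.coe_mul, Matrix.mul_assoc]⟩
  | hT B ih =>
    obtain ⟨γ', a, δ, b, ha, hδ, had, hb0, hbδ, hB⟩ := ih
    exact ⟨T * γ', a, δ, b, ha, hδ, had, hb0, hbδ, by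
      rw [FixedDetMatrices.smul_coe, hB, Matrix.SpecialLinearGroup.coe_mul, Matrix.mul_assoc]⟩

/-- Hermite normal form of `(d 0; 0 1) γ`, matrix version. -/
theorem hermite_mul (d : ℕ) (hd : 0 < d) (γ : SL(2, ℤ)) :
    ∃ (γ' : SL(2, ℤ)) (a δ : ℕ) (b : ℤ), 0 < a ∧ 0 < δ ∧ a * δ = d ∧ 0 ≤ b ∧ b < δ ∧
      !![(d : ℤ), 0; 0, ((1 : ℕ) : ℤ)] * (γ : Matrix (Fin 2) (Fin 2) ℤ)
        = (γ' : Matrix (Fin 2) (Fin 2) ℤ) * !![(a : ℤ), b; 0, (δ : ℤ)] := by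
  have hdet : (!![(d : ℤ), 0; 0, ((1 : ℕ) : ℤ)] * (γ : Matrix (Fin 2) (Fin 2) ℤ)).det
      = (d : ℤ) := by
    rw [Matrix.det_mul, Matrix.SpecialLinearGroup.det_coe, Matrix.det_fin_two_of]
    simp
  exact hermite d hd ⟨_, hdet⟩

/-- Clause 2: Hermite normal form of `(d 0; 0 1) γ`, as an identity of actions on `ℍ`. -/
theorem hermite_smul (d : ℕ) (γ : SL(2, ℤ)) (hd : 0 < d) :
    ∃ (γ' : SL(2, ℤ)) (a δ : ℕ) (b : ℤ), 0 < a ∧ 0 < δ ∧ a * δ = d ∧ 0 ≤ b ∧ b < δ ∧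
      ∀ τ : ℍ, utGL d 0 1 • (γ • τ) = γ' • (utGL a b δ • τ) := by
  obtain ⟨γ', a, δ, b, ha, hδ, had, hb0, hbδ, hM⟩ := hermite_mul d hd γ
  exact ⟨γ', a, δ, b, ha, hδ, had, hb0, hbδ, fun τ =>
    smul_smul_eq_of_matrix_eq hd one_pos ha hδ γ γ' hM τ⟩

/-! ## The stabiliser of `j(dτ)` -/

/-- For `γ ∈ Γ₀(d)` we have `(d 0; 0 1) γ = γ' (d 0; 0 1)` with `γ' ∈ SL(2, ℤ)`. -/
theorem gamma0_conj (d : ℕ) (γ : SL(2, ℤ)) (hγ : γ ∈ Gamma0 d) :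
    ∃ γ' : SL(2, ℤ), !![(d : ℤ), 0; 0, ((1 : ℕ) : ℤ)] * (γ : Matrix (Fin 2) (Fin 2) ℤ)
        = (γ' : Matrix (Fin 2) (Fin 2) ℤ) * !![(d : ℤ), 0; 0, ((1 : ℕ) : ℤ)] := by
  rw [Gamma0_mem, ZMod.intCast_zmod_eq_zero_iff_dvd] at hγ
  obtain ⟨c, hc⟩ := hγ
  have hdet : (!![γ 0 0, (d : ℤ) * γ 0 1; c, γ 1 1]).det = 1 := by
    rw [Matrix.det_fin_two_of]
    have h1 := Matrix.SpecialLinearGroup.det_coe γ
    rw [Matrix.det_fin_two, hc] at h1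
    linarith
  refine ⟨⟨_, hdet⟩, ?_⟩
  ext i j
  fin_cases i <;> fin_cases j <;> simp [Matrix.mul_apply, Fin.sum_univ_two, hc] <;> ring

theorem qexp_J_coeff_neg_one (hJQ : JQexpStatement) : (Qexp 1 Jfun).coeff (-1) = 1 := by
  rw [hJQ.2, ModularCurve.coeffMap_coeff, ModularCurve.coeff_jq_neg_one, map_one]

/-- Comparison of the pole orders of `j((aτ+b)/δ)` and `j(dτ)` at `∞`. -/
theorem eq_of_forall_J_eq (hJQ : JQexpStatement) (hQ : QexpStatement) {a δ d : ℕ} {b : ℤ}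
    (ha : 0 < a) (hδ : 0 < δ) (had : a * δ = d)
    (h : ∀ τ : ℍ, Jfun (utGL a b δ • τ) = Jfun (utGL d 0 1 • τ)) : a = d := by
  have hd : 0 < d := by rw [← had]; positivity
  have : NeZero d := ⟨hd.ne'⟩
  have hsub := hQ.2.2.2.2.2.2.2.2
  have hJ1 : IsCuspMer 1 Jfun := ⟨1, hJQ.1⟩
  have hdδ : d / δ = a := by rw [← had]; exact Nat.mul_div_cancel a hδ
  have h1 := (hsub a δ b d ha hδ ⟨a, by rw [← had]; ring⟩ Jfun hJ1).2 (-((a * a : ℕ) : ℤ))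
  have h2 := (hsub d 1 0 d hd one_pos (one_dvd d) Jfun hJ1).2 (-((a * a : ℕ) : ℤ))
  have hfun : (fun τ : ℍ => Jfun (utGL a b δ • τ)) = (fun τ : ℍ => Jfun (utGL d 0 1 • τ)) :=
    funext h
  rw [hfun, h2, hdδ, Nat.div_one] at h1
  have hdiv : (-((a * a : ℕ) : ℤ)) / ((a * a : ℕ) : ℤ) = -1 := by
    have hpos : (0 : ℤ) < ((a * a : ℕ) : ℤ) := by positivity
    rw [Int.neg_ediv_of_dvd dvd_rfl, Int.ediv_self hpos.ne']
  rw [if_pos (dvd_neg.mpr dvd_rfl) (c := ((a * a : ℕ) : ℤ) ∣ -((a * a : ℕ) : ℤ)), hdiv,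
    qexp_J_coeff_neg_one hJQ, mul_one] at h1
  by_cases hdvd : ((d * d : ℕ) : ℤ) ∣ -((a * a : ℕ) : ℤ)
  · rw [dvd_neg, Int.natCast_dvd_natCast] at hdvd
    have h3 : d * d ≤ a * a := Nat.le_of_dvd (by positivity) hdvd
    have h4 : a ≤ d := Nat.le_of_dvd hd ⟨δ, had.symm⟩
    nlinarith
  · rw [if_neg hdvd] at h1
    exact absurd h1.symm (Complex.exp_ne_zero _)

/-- Clause 4. -/
theorem dvd_of_forall_J_eq (hJQ : JQexpStatement) (hQ : QexpStatement) {N : ℕ} {k : ℤ}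
    (hN : 0 < N) (h : ∀ τ : ℍ, Jfun (utGL 1 k N • τ) = Jfun (utGL 1 0 N • τ)) : (N : ℤ) ∣ k := by
  have : NeZero N := ⟨hN.ne'⟩
  have hsub := hQ.2.2.2.2.2.2.2.2
  have hJ1 : IsCuspMer 1 Jfun := ⟨1, hJQ.1⟩
  have h1 := (hsub 1 N k N one_pos hN dvd_rfl Jfun hJ1).2 (-1)
  have h2 := (hsub 1 N 0 N one_pos hN dvd_rfl Jfun hJ1).2 (-1)
  have hfun : (fun τ : ℍ => Jfun (utGL 1 k N • τ)) = (fun τ : ℍ => Jfun (utGL 1 0 N • τ)) :=
    funext h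
  rw [hfun, h2, Nat.div_self hN, Nat.mul_one] at h1
  simp only [Nat.cast_one, one_dvd, if_true, Int.ediv_one, qexp_J_coeff_neg_one hJQ, mul_one,
    Int.cast_zero, mul_zero, zero_mul, zero_div, Complex.exp_zero] at h1
  obtain ⟨m, hm⟩ := Complex.exp_eq_one_iff.mp h1.symm
  have hN' : (N : ℂ) ≠ 0 := by exact_mod_cast hN.ne'
  have h2pi : (2 * π * Complex.I : ℂ) ≠ 0 := Complex.two_pi_I_ne_zero
  have hk : (k : ℂ) = ((-m * N : ℤ) : ℂ) := by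
    push_cast
    have h3 : (2 * π * Complex.I : ℂ) * ((k : ℂ) * ((-1 : ℤ) : ℂ) / N)
        = (2 * π * Complex.I : ℂ) * m := by
      linear_combination hm
    have h4 := mul_left_cancel₀ h2pi h3
    rw [div_eq_iff hN'] at h4
    push_cast at h4
    linear_combination -h4
  have hk' : k = -m * N := by exact_mod_cast hk
  exact ⟨-m, by rw [hk']; ring⟩

/-- `(N 0; 0 1) S = S (1 0; 0 N)` on `ℍ`. -/
theorem utGL_smul_S_smul (N : ℕ) (hN : 0 < N) (τ : ℍ) :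
    utGL N 0 1 • (S • τ) = S • (utGL 1 0 N • τ) := by
  apply smul_smul_eq_of_matrix_eq hN one_pos one_pos hN S S
  rw [ModularGroup.coe_S]
  ext i j
  fin_cases i <;> fin_cases j <;> simp

/-- Package `Conj`. -/
theorem conjStatement : JBasicStatement → JQexpStatement → QexpStatement → ConjStatement := by
  intro hJ hJQ hQ
  refine ⟨fun a d b ha hd τ => coe_utGL_smul b ha hd τ, fun d γ hd => hermite_smul d γ hd,
    ?_, ?_, ?_⟩
  · intro d γ hd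
    constructor
    · intro h
      obtain ⟨γ', a, δ, b, ha, hδ, had, hb0, hbδ, hM⟩ := hermite_mul d hd γ
      have h' : ∀ τ : ℍ, Jfun (utGL a b δ • τ) = Jfun (utGL d 0 1 • τ) := by
        intro τ
        rw [← h τ, smul_smul_eq_of_matrix_eq hd one_pos ha hδ γ γ' hM τ, hJ.2.1]
      have had' : a = d := eq_of_forall_J_eq hJQ hQ ha hδ had h'
      subst had'
      have h10 := congrFun (congrFun hM 1) 0
      simp [Matrix.mul_apply, Fin.sum_univ_two] at h10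
      rw [Gamma0_mem, ZMod.intCast_zmod_eq_zero_iff_dvd]
      exact ⟨γ' 1 0, by rw [h10]; ring⟩
    · intro hγ τ
      obtain ⟨γ', hM⟩ := gamma0_conj d γ hγ
      rw [smul_smul_eq_of_matrix_eq hd one_pos hd one_pos γ γ' hM τ, hJ.2.1]
  · intro N k hN h
    exact dvd_of_forall_J_eq hJQ hQ hN h
  · intro N hN τ
    rw [utGL_smul_S_smul N hN τ, hJ.2.1]

end

end Fermat.Agent.S24.Conj
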