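/-
S24 package `FormalQ`: the analytic `q`-expansions of `E₄`, `Δ` and `j` are the formal series
of the prelude.
-/
import Fermat.Agent.S24.AnalyticInterfaces

set_option autoImplicit false

open UpperHalfPlane ModularForm Complex Filter
open scoped MatrixGroups Manifold Real Topology

namespace Fermat.Agent.S24.FormalQ

noncomputable section

/-! ## The Eisenstein series `E₄` -/

theorem qExpansion_E4 :
    qExpansion (1 : ℝ) E₄ = PowerSeries.map (Int.castRingHom ℂ) ModularCurve.eisenstein4 := by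
  ext m
  have hb : bernoulli 4 = -1 / 30 := by decide +kernel
  rw [EisensteinSeries.E_qExpansion_coeff _ ⟨2, rfl⟩, PowerSeries.coeff_map,
    ModularCurve.eisenstein4, PowerSeries.coeff_mk]
  split_ifs with h
  · simp
  · rw [hb]
    simp [ArithmeticFunction.sigma_apply]
    norm_num

/-! ## Taylor series at `0` as formal power series -/

/-- Taylor series at `0` of a function `ℂ → ℂ`, as a formal power series. -/
def taylorPS (f : ℂ → ℂ) : PowerSeries ℂ :=
  PowerSeries.mk fun m => ((m.factorial : ℂ))⁻¹ * iteratedDeriv m f 0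

lemma qExpansion_eq_taylorPS (h : ℝ) (f : ℍ → ℂ) :
    qExpansion h f = taylorPS (cuspFunction h f) := rfl

lemma coeff_taylorPS (f : ℂ → ℂ) (m : ℕ) :
    PowerSeries.coeff m (taylorPS f) = ((m.factorial : ℂ))⁻¹ * iteratedDeriv m f 0 := by
  simp [taylorPS]

lemma taylorPS_congr {f g : ℂ → ℂ} (h : f =ᶠ[𝓝 0] g) : taylorPS f = taylorPS g := by
  ext m
  rw [coeff_taylorPS, coeff_taylorPS, h.iteratedDeriv_eq]

lemma taylorPS_mul {f g : ℂ → ℂ} (hf : AnalyticAt ℂ f 0) (hg : AnalyticAt ℂ g 0) :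
    taylorPS (f * g) = taylorPS f * taylorPS g := by
  ext m
  simp only [coeff_taylorPS, iteratedDeriv_mul hf.contDiffAt hg.contDiffAt, Finset.mul_sum,
    PowerSeries.coeff_mul, Finset.Nat.sum_antidiagonal_eq_sum_range_succ_mk, Nat.succ_eq_add_one]
  refine Finset.sum_congr rfl fun i hi ↦ ?_
  rw [Nat.cast_choose _ (by grind)]
  field_simp [Nat.factorial_ne_zero]

lemma taylorPS_one : taylorPS (1 : ℂ → ℂ) = 1 := by
  ext m
  have h2 : iteratedDeriv m (1 : ℂ → ℂ) 0 = if m = 0 then 1 else 0 := by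
    simpa [ite_apply] using! iteratedDeriv_const
  simp +contextual [coeff_taylorPS, h2]

lemma taylorPS_id : taylorPS (fun q : ℂ => q) = PowerSeries.X := by
  ext m
  rw [coeff_taylorPS, iteratedDeriv_fun_id_zero, PowerSeries.coeff_X]
  split_ifs with h
  · subst h; simp
  · simp

lemma taylorPS_pow {f : ℂ → ℂ} (hf : AnalyticAt ℂ f 0) (n : ℕ) :
    taylorPS (f ^ n) = taylorPS f ^ n := by
  induction n with
  | zero => simp [taylorPS_one]
  | succ n ih => rw [pow_succ, taylorPS_mul (hf.pow n) hf, ih, pow_succ]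

lemma taylorPS_sub {f g : ℂ → ℂ} (hf : AnalyticAt ℂ f 0) (hg : AnalyticAt ℂ g 0) :
    taylorPS (f - g) = taylorPS f - taylorPS g := by
  ext m
  simp [coeff_taylorPS, iteratedDeriv_sub hf.contDiffAt hg.contDiffAt, mul_sub]

lemma taylorPS_one_sub_pow (n : ℕ) :
    taylorPS (fun q : ℂ => 1 - q ^ (n + 1)) = 1 - PowerSeries.X ^ (n + 1) := by
  have h : (fun q : ℂ => 1 - q ^ (n + 1)) = (1 : ℂ → ℂ) - (fun q : ℂ => q) ^ (n + 1) := by
    funext q; simp
  have hid : AnalyticAt ℂ (fun q : ℂ => q) 0 := analyticAt_id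
  have h1 : AnalyticAt ℂ (1 : ℂ → ℂ) 0 := analyticAt_const
  rw [h, taylorPS_sub h1 (hid.pow _), taylorPS_one, taylorPS_pow hid, taylorPS_id]

lemma taylorPS_prod {ι : Type*} (s : Finset ι) (F : ι → ℂ → ℂ)
    (hF : ∀ i ∈ s, AnalyticAt ℂ (F i) 0) :
    taylorPS (∏ i ∈ s, F i) = ∏ i ∈ s, taylorPS (F i) := by
  classical
  induction s using Finset.induction_on with
  | empty => simp [taylorPS_one]
  | insert a s ha ih =>
    rw [Finset.prod_insert ha, Finset.prod_insert ha,
      taylorPS_mul (hF a (Finset.mem_insert_self a s))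
        (Finset.analyticAt_prod _ fun i hi => hF i (Finset.mem_insert_of_mem hi)),
      ih fun i hi => hF i (Finset.mem_insert_of_mem hi)]

/-- Taylor series of the partial products of `∏ (1 - q ^ (n + 1))`. -/
lemma taylorPS_partialProd (s : Finset ℕ) :
    taylorPS (fun q : ℂ => ∏ i ∈ s, (1 - q ^ (i + 1)))
      = PowerSeries.map (Int.castRingHom ℂ) (∏ i ∈ s, (1 - PowerSeries.X ^ (i + 1))) := by
  have h : (fun q : ℂ => ∏ i ∈ s, (1 - q ^ (i + 1)))
      = ∏ i ∈ s, (fun q : ℂ => 1 - q ^ (i + 1)) := by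
    funext q; simp [Finset.prod_apply]
  rw [h, taylorPS_prod s _ fun i _ => by fun_prop, map_prod]
  refine Finset.prod_congr rfl fun i _ => ?_
  rw [taylorPS_one_sub_pow, map_sub, map_one, map_pow, PowerSeries.map_X]

/-! ## Convergence of Taylor coefficients under locally uniform convergence -/

lemma tendstoLocallyUniformlyOn_iteratedDeriv {ι : Type*} {φ : Filter ι} {F : ι → ℂ → ℂ}
    {f : ℂ → ℂ} {U : Set ℂ} (hU : IsOpen U) (hf : TendstoLocallyUniformlyOn F f φ U)
    (hF : ∀ᶠ n in φ, DifferentiableOn ℂ (F n) U) (m : ℕ) :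
    TendstoLocallyUniformlyOn (fun n => iteratedDeriv m (F n)) (iteratedDeriv m f) φ U ∧
      ∀ᶠ n in φ, DifferentiableOn ℂ (iteratedDeriv m (F n)) U := by
  induction m with
  | zero => simpa [iteratedDeriv_zero] using And.intro hf hF
  | succ m ih =>
    refine ⟨?_, ?_⟩
    · have := ih.1.deriv ih.2 hU
      simpa only [iteratedDeriv_succ, Function.comp_def] using this
    · filter_upwards [ih.2] with n hn
      rw [iteratedDeriv_succ]
      exact hn.deriv hU

lemma tendsto_coeff_taylorPS {ι : Type*} {φ : Filter ι} {F : ι → ℂ → ℂ}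
    {f : ℂ → ℂ} {U : Set ℂ} (hU : IsOpen U) (h0 : (0 : ℂ) ∈ U)
    (hf : TendstoLocallyUniformlyOn F f φ U)
    (hF : ∀ᶠ n in φ, DifferentiableOn ℂ (F n) U) (m : ℕ) :
    Tendsto (fun n => PowerSeries.coeff m (taylorPS (F n))) φ
      (𝓝 (PowerSeries.coeff m (taylorPS f))) := by
  simp only [coeff_taylorPS]
  exact ((tendstoLocallyUniformlyOn_iteratedDeriv hU hf hF m).1.tendsto_at h0).const_mul _

/-! ## The Euler product -/

open scoped PowerSeries.WithPiTopology in
/-- The Taylor series at `0` of the analytic function `∏' (1 - q ^ (n + 1))` is the formal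
product `∏' (1 - X ^ (n + 1))`. -/
theorem taylorPS_eulerProd :
    taylorPS (fun q : ℂ => ∏' n : ℕ, (1 - q ^ (n + 1)))
      = PowerSeries.map (Int.castRingHom ℂ) ModularCurve.etaProd := by
  ext m
  -- analytic side
  have h1 : Tendsto (fun s : Finset ℕ =>
      PowerSeries.coeff m (taylorPS (fun q : ℂ => ∏ i ∈ s, (1 - q ^ (i + 1))))) atTop
      (𝓝 (PowerSeries.coeff m (taylorPS (fun q : ℂ => ∏' n : ℕ, (1 - q ^ (n + 1)))))) := by
    refine tendsto_coeff_taylorPS Metric.isOpen_ball (Metric.mem_ball_self one_pos)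
      multipliableLocallyUniformlyOn_one_sub_pow.hasProdLocallyUniformlyOn
      (.of_forall fun s => ?_) m
    fun_prop
  -- formal side
  have h2 : Tendsto (fun s : Finset ℕ =>
      (∏ i ∈ s, (1 - PowerSeries.X ^ (i + 1)) : PowerSeries ℤ)) atTop
      (𝓝 ModularCurve.etaProd) :=
    (PowerSeries.WithPiTopology.multipliable_one_sub_X_pow ℤ).hasProd
  have h3 : Tendsto (fun s : Finset ℕ =>
      ((PowerSeries.coeff m (∏ i ∈ s, (1 - PowerSeries.X ^ (i + 1)) : PowerSeries ℤ) : ℤ) : ℂ))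
      atTop (𝓝 ((PowerSeries.coeff m ModularCurve.etaProd : ℤ) : ℂ)) :=
    ((continuous_of_discreteTopology (f := fun n : ℤ => (n : ℂ))).tendsto _).comp
      (((PowerSeries.WithPiTopology.continuous_coeff ℤ m).tendsto _).comp h2)
  simp only [taylorPS_partialProd, PowerSeries.coeff_map, eq_intCast] at h1
  rw [PowerSeries.coeff_map, eq_intCast]
  exact tendsto_nhds_unique h1 h3

/-! ## The discriminant -/

theorem qExpansion_discriminant :
    qExpansion (1 : ℝ) ModularForm.discriminant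
      = PowerSeries.X * PowerSeries.map (Int.castRingHom ℂ) ModularCurve.dedekindEtaUnit := by
  set F : ℂ → ℂ := fun q => ∏' n : ℕ, (1 - q ^ (n + 1)) with hFdef
  have hFan : AnalyticAt ℂ F 0 :=
    differentiableOn_tprod_one_sub_pow.analyticAt (Metric.ball_mem_nhds 0 one_pos)
  have hid : AnalyticAt ℂ (fun q : ℂ => q) 0 := analyticAt_id
  have hev : cuspFunction 1 ModularForm.discriminant =ᶠ[𝓝 0] (fun q : ℂ => q) * F ^ 24 := by
    filter_upwards [Metric.ball_mem_nhds (0 : ℂ) one_pos] with q hq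
    rw [discriminant_cuspFunction_eqOn hq]
    simp only [Pi.mul_apply, Pi.pow_apply, hFdef]
    rw [(multipliable_one_sub_pow (by simpa using hq)).tprod_pow 24]
  rw [qExpansion_eq_taylorPS, taylorPS_congr hev, taylorPS_mul hid (hFan.pow 24), taylorPS_id,
    taylorPS_pow hFan, taylorPS_eulerProd, ModularCurve.dedekindEtaUnit, map_pow]

/-- (J4) The analytic `q`-expansions of `E₄` and `Δ` are the formal series of the prelude. -/
theorem formalQStatement : FormalQStatement :=
  ⟨qExpansion_E4, qExpansion_discriminant⟩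

/-! ## The `j`-invariant: meromorphy at the cusp -/

lemma mdiff_discriminant : MDifferentiable 𝓘(ℂ) 𝓘(ℂ) ModularForm.discriminant :=
  CuspForm.discriminant.holo'

lemma mdiff_E4 : MDifferentiable 𝓘(ℂ) 𝓘(ℂ) (E₄ : ℍ → ℂ) := E₄.holo'

lemma mdiff_Jfun : MDifferentiable 𝓘(ℂ) 𝓘(ℂ) Jfun :=
  (mdiff_E4.pow 3).div mdiff_discriminant discriminant_ne_zero

lemma periodic_E4 : Function.Periodic ((E₄ : ℍ → ℂ) ∘ ofComplex) ((1 : ℝ) : ℂ) :=
  SlashInvariantFormClass.periodic_comp_ofComplex E₄ one_mem_strictPeriods_SL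

lemma periodic_discriminant :
    Function.Periodic (ModularForm.discriminant ∘ ofComplex) ((1 : ℝ) : ℂ) :=
  SlashInvariantFormClass.periodic_comp_ofComplex CuspForm.discriminant one_mem_strictPeriods_SL

lemma periodic_Jfun : Function.Periodic (Jfun ∘ ofComplex) ((1 : ℝ) : ℂ) := by
  intro z
  have h4 := periodic_E4 z
  have hd := periodic_discriminant z
  simp only [Function.comp_apply] at h4 hd ⊢
  simp only [Jfun, h4, hd]

lemma bdd_E4 : IsBoundedAtImInfty (E₄ : ℍ → ℂ) := ModularFormClass.bdd_at_infty E₄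

lemma bdd_discriminant : IsBoundedAtImInfty ModularForm.discriminant :=
  ModularFormClass.bdd_at_infty CuspForm.discriminant

lemma bdd_q_mul_Jfun :
    IsBoundedAtImInfty
      (fun τ : ℍ => Function.Periodic.qParam (1 : ℝ) (τ : ℂ) ^ 1 * Jfun τ) := by
  have h1 : (fun τ : ℍ => Function.Periodic.qParam (1 : ℝ) (τ : ℂ) ^ 1 * Jfun τ)
      = fun τ : ℍ => (E₄ τ * E₄ τ * E₄ τ) * (∏' n : ℕ, (1 - eta_q n τ) ^ 24)⁻¹ := by
    funext τ
    have hq : Function.Periodic.qParam (1 : ℝ) (τ : ℂ) ≠ 0 := Function.Periodic.qParam_ne_zero _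
    have hΔ := discriminant_ne_zero τ
    rw [discriminant_eq_q_prod] at hΔ
    have hP : ∏' n : ℕ, (1 - eta_q n τ) ^ 24 ≠ 0 := right_ne_zero_of_mul hΔ
    simp only [Jfun, discriminant_eq_q_prod, pow_one]
    field_simp
  rw [h1]
  have hP : Tendsto (fun τ : ℍ => (∏' n : ℕ, (1 - eta_q n τ) ^ 24)⁻¹) atImInfty (𝓝 1) := by
    simpa using tendsto_atImInfty_tprod_one_sub_eta_q_pow.inv₀ one_ne_zero
  exact ((bdd_E4.mul bdd_E4).mul bdd_E4).mul (hP.isBigO_one ℝ)

lemma cuspMer_Jfun : IsCuspMerOrder 1 1 Jfun := by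
  refine ⟨mdiff_Jfun, ?_, ?_⟩
  · simpa using periodic_Jfun
  · simpa using bdd_q_mul_Jfun

lemma cuspMer_E4 : IsCuspMerOrder 1 0 (E₄ : ℍ → ℂ) := by
  refine ⟨mdiff_E4, ?_, ?_⟩
  · simpa using periodic_E4
  · simpa using bdd_E4

lemma cuspMer_discriminant : IsCuspMerOrder 1 0 ModularForm.discriminant := by
  refine ⟨mdiff_discriminant, ?_, ?_⟩
  · simpa using periodic_discriminant
  · simpa using bdd_discriminant

/-! ## The `j`-invariant: the Laurent expansion -/

lemma coeffMap_ofPowerSeries {R S : Type*} [CommRing R] [CommRing S] (f : R →+* S)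
    (p : PowerSeries R) :
    ModularCurve.coeffMap f (HahnSeries.ofPowerSeries ℤ R p)
      = HahnSeries.ofPowerSeries ℤ S (PowerSeries.map f p) := by
  ext n
  rw [ModularCurve.coeffMap_coeff]
  rcases lt_or_ge n 0 with hn | hn
  · rw [ModularCurve.ofPowerSeries_coeff_of_neg _ hn, ModularCurve.ofPowerSeries_coeff_of_neg _ hn,
      map_zero]
  · obtain ⟨k, rfl⟩ := Int.eq_ofNat_of_zero_le hn
    rw [HahnSeries.ofPowerSeries_apply_coeff, HahnSeries.ofPowerSeries_apply_coeff,
      PowerSeries.coeff_map]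

lemma coeffMap_jq :
    ModularCurve.coeffMap (algebraMap ℚ ℂ) ModularCurve.jq
      = HahnSeries.single (-1 : ℤ) (1 : ℂ) *
        HahnSeries.ofPowerSeries ℤ ℂ
          (PowerSeries.map (Int.castRingHom ℂ) ModularCurve.jNum) := by
  have h : PowerSeries.map (algebraMap ℚ ℂ) ModularCurve.jNumQ
      = PowerSeries.map (Int.castRingHom ℂ) ModularCurve.jNum := by
    ext n
    simp [ModularCurve.jNumQ, PowerSeries.coeff_map]
  rw [ModularCurve.jq, map_mul, ModularCurve.coeffMap_single, coeffMap_ofPowerSeries, h, map_one]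

/-- (J5) `j` has a simple pole at `∞` and its Laurent expansion is the prelude's formal `jq`. -/
theorem jQexpStatement : QexpStatement → JQexpStatement := by
  rintro ⟨-, hmul, -, hind, -⟩
  refine ⟨cuspMer_Jfun, ?_⟩
  have hJ : IsCuspMer 1 Jfun := ⟨1, cuspMer_Jfun⟩
  have hE : IsCuspMer 1 (E₄ : ℍ → ℂ) := ⟨0, cuspMer_E4⟩
  have hΔ : IsCuspMer 1 ModularForm.discriminant := ⟨0, cuspMer_discriminant⟩
  -- `Qexp` of the bounded functions `E₄` and `Δ`
  have hQE : Qexp 1 (E₄ : ℍ → ℂ) = HahnSeries.ofPowerSeries ℤ ℂ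
      (PowerSeries.map (Int.castRingHom ℂ) ModularCurve.eisenstein4) := by
    have h := hind 1 0 _ cuspMer_E4
    rw [← qExpansion_E4]
    simpa using h
  have hQΔ : Qexp 1 ModularForm.discriminant = HahnSeries.ofPowerSeries ℤ ℂ
      (PowerSeries.X * PowerSeries.map (Int.castRingHom ℂ) ModularCurve.dedekindEtaUnit) := by
    have h := hind 1 0 _ cuspMer_discriminant
    rw [← qExpansion_discriminant]
    simpa using h
  -- `j * Δ = E₄ ^ 3`
  have hfun : Jfun * ModularForm.discriminant = (E₄ : ℍ → ℂ) * ((E₄ : ℍ → ℂ) * (E₄ : ℍ → ℂ)) := by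
    funext τ
    have hne := discriminant_ne_zero τ
    simp only [Pi.mul_apply, Jfun]
    field_simp
  have h1 := (hmul 1 Jfun ModularForm.discriminant hJ hΔ).2.2.2
  have h2 := hmul 1 (E₄ : ℍ → ℂ) (E₄ : ℍ → ℂ) hE hE
  have h3 := (hmul 1 (E₄ : ℍ → ℂ) ((E₄ : ℍ → ℂ) * (E₄ : ℍ → ℂ)) hE h2.2.1).2.2.2
  rw [hfun, h3, h2.2.2.2, hQE, hQΔ] at h1
  -- formal computation
  set c : ℤ →+* ℂ := Int.castRingHom ℂ with hc
  set A := HahnSeries.ofPowerSeries ℤ ℂ (PowerSeries.map c ModularCurve.dedekindEtaUnit) with hA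
  set B := HahnSeries.ofPowerSeries ℤ ℂ (PowerSeries.map c ModularCurve.dedekindEtaUnitInv)
    with hB
  set E := HahnSeries.ofPowerSeries ℤ ℂ (PowerSeries.map c ModularCurve.eisenstein4) with hEdef
  have hAB : A * B = 1 := by
    rw [hA, hB, ← map_mul, ← map_mul, ModularCurve.dedekindEtaUnit_mul_inv, map_one, map_one]
  have hX : HahnSeries.ofPowerSeries ℤ ℂ (PowerSeries.X * PowerSeries.map c
      ModularCurve.dedekindEtaUnit) = HahnSeries.single (1 : ℤ) (1 : ℂ) * A := by
    rw [map_mul, HahnSeries.ofPowerSeries_X]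
  have hss : HahnSeries.single (1 : ℤ) (1 : ℂ) * HahnSeries.single (-1 : ℤ) (1 : ℂ) = 1 := by
    rw [HahnSeries.single_mul_single]
    simp
  have hjn : HahnSeries.ofPowerSeries ℤ ℂ (PowerSeries.map c ModularCurve.jNum)
      = E * (E * E) * B := by
    rw [ModularCurve.jNum, map_mul, map_mul, map_pow, map_pow, hEdef, hB]
    ring
  rw [hX] at h1
  rw [coeffMap_jq, hjn]
  calc Qexp 1 Jfun
      = Qexp 1 Jfun * (HahnSeries.single (1 : ℤ) (1 : ℂ) * A)
          * (HahnSeries.single (-1 : ℤ) (1 : ℂ) * B) := by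
        have : Qexp 1 Jfun * (HahnSeries.single (1 : ℤ) (1 : ℂ) * A)
            * (HahnSeries.single (-1 : ℤ) (1 : ℂ) * B)
            = Qexp 1 Jfun * (HahnSeries.single (1 : ℤ) (1 : ℂ) * HahnSeries.single (-1 : ℤ) (1 : ℂ))
              * (A * B) := by ring
        rw [this, hss, hAB, mul_one, mul_one]
    _ = HahnSeries.single (-1 : ℤ) (1 : ℂ) * (E * (E * E) * B) := by
        rw [h1]; ring

end

end Fermat.Agent.S24.FormalQ
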