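/-
S24 / package Gal (helper B): places of a finite separable extension `M / L` above a given
place `w` of `L`, through the integral closure of the valuation ring of `w` in `M` (a Dedekind
domain).

* `IsAbove W w`: the place `W` of `M` lies above the place `w` of `L`;
* `exists_isAbove`: every place of `L` has a place of `M` above it;
* `exists_smul_eq_of_isAbove`: a finite group of automorphisms of `M` with fixed field `L`
  permutes the places above `w` transitively.
-/
import Fermat.Agent.S24.GalBPlaces

set_option autoImplicit false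
set_option linter.unusedSectionVars false

open AlgebraicCurve IntermediateField IsDedekindDomain

namespace Fermat.Agent.S24.GalB

noncomputable section

section Above

variable {K L M : Type*} [Field K] [Field L] [Field M] [Algebra K L] [Algebra K M] [Algebra L M]
  [IsScalarTower K L M]

/-- The place `W` of `M` lies above the place `w` of the subfield `L`. -/
def IsAbove (W : Place K M) (w : Place K L) : Prop :=
  ∀ x : L, algebraMap L M x ∈ W.toValuationSubring ↔ x ∈ w.toValuationSubring

theorem isAbove_restrict (W : Place K M)
    (h : ∃ x : L, algebraMap L M x ∉ W.toValuationSubring) : IsAbove W (restrict W h) :=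
  fun _ => Iff.rfl

theorem IsAbove.ord_pos_iff {W : Place K M} {w : Place K L} (h : IsAbove W w) (x : L) :
    0 < W.ord (algebraMap L M x) ↔ 0 < w.ord x := by
  rw [ord_pos_iff_inv_not_mem, ord_pos_iff_inv_not_mem, ← map_inv₀, h]

theorem IsAbove.ord_nonneg_iff {W : Place K M} {w : Place K L} (h : IsAbove W w) (x : L) :
    0 ≤ W.ord (algebraMap L M x) ↔ 0 ≤ w.ord x := by
  rw [← mem_iff_ord_nonneg, ← mem_iff_ord_nonneg, h]

theorem IsAbove.exists_not_mem {W : Place K M} {w : Place K L} (h : IsAbove W w) :
    ∃ x : L, algebraMap L M x ∉ W.toValuationSubring := by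
  obtain ⟨x, hx⟩ := exists_ord_neg w
  refine ⟨x, fun hmem => ?_⟩
  have := ord_nonneg_of_mem w ((h x).mp hmem)
  omega

theorem IsAbove.restrict_eq {W : Place K M} {w : Place K L} (h : IsAbove W w) :
    restrict W h.exists_not_mem = w :=
  Place.ext (SetLike.ext fun x => h x)

theorem IsAbove.unique {W : Place K M} {w w' : Place K L} (h : IsAbove W w) (h' : IsAbove W w') :
    w = w' :=
  Place.ext (SetLike.ext fun x => (h x).symm.trans (h' x))

theorem isScalarTower_aux (w : Place K L) : IsScalarTower K w.toValuationSubring M :=
  IsScalarTower.of_algebraMap_eq fun a => by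
    rw [IsScalarTower.algebraMap_apply K L M]
    rfl

attribute [local instance] isScalarTower_aux

variable {w : Place K L} {W : Place K M}

/-- The integral closure of the valuation ring of `w` is contained in the valuation ring of any
place above `w`. -/
theorem IsAbove.intCl_le (h : IsAbove W w) (c : integralClosure w.toValuationSubring M) :
    (c : M) ∈ W.toValuationSubring := by
  let φ : w.toValuationSubring →+* W.toValuationSubring :=
    ((algebraMap L M).comp w.toValuationSubring.subtype).codRestrict
      W.toValuationSubring.toSubring (fun x => (h x).mpr x.2)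
  have hc : IsIntegral w.toValuationSubring (c : M) := c.2
  have hc' : IsIntegral W.toValuationSubring (c : M) := by
    have := IsIntegral.map_of_comp_eq φ (RingHom.id M) (by ext x; rfl) hc
    simpa using this
  obtain ⟨z, hz⟩ :=
    (IsIntegrallyClosed.isIntegral_iff (R := W.toValuationSubring) (K := M)).mp hc'
  rw [← hz]
  exact z.2

/-- The inclusion of the integral closure into the valuation ring of a place above. -/
def IsAbove.incl (h : IsAbove W w) :
    integralClosure w.toValuationSubring M →+* W.toValuationSubring :=
  (algebraMap (integralClosure w.toValuationSubring M) M).codRestrict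
    W.toValuationSubring.toSubring h.intCl_le

/-- The prime ideal of the integral closure cut out by a place above. -/
def IsAbove.prime (h : IsAbove W w) : Ideal (integralClosure w.toValuationSubring M) :=
  (IsLocalRing.maximalIdeal W.toValuationSubring).comap h.incl

theorem IsAbove.prime_isPrime (h : IsAbove W w) : h.prime.IsPrime :=
  Ideal.comap_isPrime _ _

theorem IsAbove.mem_prime (h : IsAbove W w) (c : integralClosure w.toValuationSubring M) :
    c ∈ h.prime ↔ c = 0 ∨ 0 < W.ord (c : M) := by
  unfold IsAbove.prime
  rw [Ideal.mem_comap, mem_maximalIdeal_iff]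
  have h1 : (h.incl c = 0) ↔ c = 0 := by
    constructor
    · intro h0
      apply Subtype.ext
      have := congrArg (Subtype.val) h0
      exact this
    · rintro rfl
      exact map_zero _
  rw [h1]
  rfl

theorem IsAbove.prime_ne_bot (h : IsAbove W w) : h.prime ≠ ⊥ := by
  obtain ⟨π, hπ⟩ := IsDiscreteValuationRing.exists_irreducible w.toValuationSubring
  intro hbot
  have hmem : algebraMap w.toValuationSubring (integralClosure w.toValuationSubring M) π
      ∈ h.prime := by
    rw [h.mem_prime]
    right
    show 0 < W.ord (algebraMap L M (π : L))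
    rw [h.ord_pos_iff, w.ord_coe_irreducible hπ]
    exact one_pos
  rw [hbot, Ideal.mem_bot] at hmem
  have h0 : (algebraMap L M (π : L)) = 0 := congrArg Subtype.val hmem
  have h1 : (π : L) = 0 := by simpa using h0
  exact hπ.ne_zero (Subtype.ext h1)

theorem IsAbove.under_prime (h : IsAbove W w) :
    h.prime.under w.toValuationSubring = IsLocalRing.maximalIdeal w.toValuationSubring := by
  ext x
  rw [Ideal.under_def, Ideal.mem_comap, h.mem_prime, mem_maximalIdeal_iff]
  have h1 : (algebraMap w.toValuationSubring (integralClosure w.toValuationSubring M) x = 0)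
      ↔ x = 0 := by
    constructor
    · intro h0
      have h0' : (algebraMap L M (x : L)) = 0 := congrArg Subtype.val h0
      have h1 : (x : L) = 0 := by simpa using h0'
      exact Subtype.ext h1
    · rintro rfl
      exact map_zero _
  rw [h1]
  exact or_congr Iff.rfl (h.ord_pos_iff (x : L))

variable [FiniteDimensional L M] [Algebra.IsSeparable L M]

theorem isDedekindDomain_intCl (w : Place K L) :
    IsDedekindDomain (integralClosure w.toValuationSubring M) :=
  integralClosure.isDedekindDomain w.toValuationSubring L M

theorem isFractionRing_intCl (w : Place K L) :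
    IsFractionRing (integralClosure w.toValuationSubring M) M :=
  integralClosure.isFractionRing_of_finite_extension L M

attribute [local instance] isDedekindDomain_intCl isFractionRing_intCl

/-- The point of the height one spectrum of the integral closure cut out by a place above. -/
def IsAbove.spec (h : IsAbove W w) : HeightOneSpectrum (integralClosure w.toValuationSubring M) :=
  ⟨h.prime, h.prime_isPrime, h.prime_ne_bot⟩

theorem IsAbove.eq_ofHeightOneSpectrum (h : IsAbove W w) :
    W = Place.ofHeightOneSpectrum (K := K) h.spec := by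
  symm
  apply eq_of_le
  intro x hx
  rw [Place.ofHeightOneSpectrum_toValuationSubring, Valuation.mem_valuationSubring_iff] at hx
  obtain ⟨n, d, hnd⟩ := h.spec.exists_primeCompl_mul_eq_of_integer x hx
  have hd : (d : integralClosure w.toValuationSubring M) ∉ h.prime := d.2
  rw [h.mem_prime, not_or, not_lt] at hd
  have hd0 : ((d : integralClosure w.toValuationSubring M) : M) ≠ 0 := fun h0 =>
    hd.1 (Subtype.ext h0)
  have hx' : x = (n : M) * ((d : integralClosure w.toValuationSubring M) : M)⁻¹ := by
    rw [eq_mul_inv_iff_mul_eq₀ hd0]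
    exact hnd
  rw [hx']
  refine mul_mem (h.intCl_le n) (mem_of_ord_nonneg W ?_)
  rw [Place.ord_inv]
  omega

theorem IsAbove.eq_of_prime_eq {W₁ W₂ : Place K M} (h₁ : IsAbove W₁ w) (h₂ : IsAbove W₂ w)
    (h : h₁.prime = h₂.prime) : W₁ = W₂ := by
  rw [h₁.eq_ofHeightOneSpectrum, h₂.eq_ofHeightOneSpectrum]
  congr 1
  exact HeightOneSpectrum.ext h

/-- Every place of `L` extends to the finite separable extension `M`. -/
theorem exists_isAbove (w : Place K L) : ∃ W : Place K M, IsAbove W w := by
  obtain ⟨π, hπ⟩ := IsDiscreteValuationRing.exists_irreducible w.toValuationSubring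
  have hπ0 : (π : L) ≠ 0 := fun h0 => hπ.ne_zero (Subtype.ext h0)
  -- `π` is not a unit of the integral closure
  have hnu : ¬ IsUnit
      (algebraMap w.toValuationSubring (integralClosure w.toValuationSubring M) π) := by
    intro hu
    obtain ⟨c, hc⟩ := hu.exists_right_inv
    have hc' : algebraMap L M (π : L) * (c : M) = 1 := congrArg Subtype.val hc
    have h1 : (c : M) = algebraMap L M ((π : L)⁻¹) := by
      rw [map_inv₀]
      exact eq_inv_of_mul_eq_one_right hc'
    have h2 : IsIntegral w.toValuationSubring ((π : L)⁻¹) := by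
      have h3 : IsIntegral w.toValuationSubring (c : M) := c.2
      rw [h1] at h3
      exact (isIntegral_algebraMap_iff (algebraMap L M).injective).mp h3
    obtain ⟨z, hz⟩ := (IsIntegrallyClosed.isIntegral_iff (R := w.toValuationSubring)
      (K := L)).mp h2
    have hz' : (z : L) = (π : L)⁻¹ := hz
    apply hπ.not_isUnit
    refine IsUnit.of_mul_eq_one z (Subtype.ext ?_)
    show (π : L) * (z : L) = 1
    rw [hz', mul_inv_cancel₀ hπ0]
  obtain ⟨P, hPmax, hP⟩ := Ideal.exists_le_maximal
    (Ideal.span {algebraMap w.toValuationSubring (integralClosure w.toValuationSubring M) π})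
    (by rwa [Ne, Ideal.span_singleton_eq_top])
  have hπP : algebraMap w.toValuationSubring (integralClosure w.toValuationSubring M) π ∈ P :=
    hP (Ideal.subset_span rfl)
  have hPbot : P ≠ ⊥ := by
    intro hbot
    rw [hbot, Ideal.mem_bot] at hπP
    have h0 : (algebraMap L M (π : L)) = 0 := congrArg Subtype.val hπP
    exact hπ0 (by simpa using h0)
  let v : HeightOneSpectrum (integralClosure w.toValuationSubring M) := ⟨P, hPmax.isPrime, hPbot⟩
  let W : Place K M := Place.ofHeightOneSpectrum (K := K) v
  have hle : w.toValuationSubring ≤ W.toValuationSubring.comap (algebraMap L M) := by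
    intro x hx
    rw [ValuationSubring.mem_comap]
    show algebraMap L M x ∈ (v.valuation M).valuationSubring
    rw [Valuation.mem_valuationSubring_iff]
    exact v.valuation_le_one
      (algebraMap w.toValuationSubring (integralClosure w.toValuationSubring M) ⟨x, hx⟩)
  have hne : W.toValuationSubring.comap (algebraMap L M) ≠ ⊤ := by
    intro htop
    have hmem : (π : L)⁻¹ ∈ W.toValuationSubring.comap (algebraMap L M) :=
      htop ▸ ValuationSubring.mem_top _
    rw [ValuationSubring.mem_comap] at hmem
    have hmem' : v.valuation M (algebraMap L M (π : L)⁻¹) ≤ 1 := hmem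
    have h1 : v.valuation M (algebraMap L M (π : L)) < 1 :=
      (v.valuation_lt_one_iff_mem
        (algebraMap w.toValuationSubring (integralClosure w.toValuationSubring M) π)).mpr hπP
    have h0 : algebraMap L M (π : L) ≠ 0 := by simpa using hπ0
    have h2 : v.valuation M (algebraMap L M (π : L)) * v.valuation M (algebraMap L M (π : L)⁻¹)
        = 1 := by
      rw [← map_mul, ← map_mul, mul_inv_cancel₀ hπ0, map_one, map_one]
    have h3 : v.valuation M (algebraMap L M (π : L)) * v.valuation M (algebraMap L M (π : L)⁻¹)
        < 1 := by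
      calc _ ≤ v.valuation M (algebraMap L M (π : L)) * 1 := by gcongr
        _ < 1 := by rwa [mul_one]
    exact absurd h2 h3.ne
  have heq := ValuationSubring.eq_of_le_of_ne_top _ hle hne
  refine ⟨W, fun x => ?_⟩
  rw [heq]
  rfl

end Above

section Galois

variable {K M : Type*} [Field K] [Field M] [Algebra K M] (L : IntermediateField K M)
  (G : Subgroup (M ≃ₐ[K] M))

/-- A subgroup `G` of `Aut(M/K)` with fixed field `L` is a Galois group for `M / L`. -/
theorem isGaloisGroup_of_fix (hfix : ∀ x : M, (∀ σ ∈ G, σ x = x) ↔ x ∈ L) :
    IsGaloisGroup G L M where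
  faithful := inferInstance
  commutes := ⟨fun σ l x => by
    show (σ : M ≃ₐ[K] M) ((l : M) * x) = (l : M) * (σ : M ≃ₐ[K] M) x
    rw [map_mul, (hfix l).mpr l.2 σ σ.2]⟩
  isInvariant := ⟨fun x hx => ⟨⟨x, (hfix x).mp fun σ hσ => hx ⟨σ, hσ⟩⟩, rfl⟩⟩

variable {L G}

theorem IsAbove.smul (hfix : ∀ x : M, (∀ σ ∈ G, σ x = x) ↔ x ∈ L) {w : Place K L}
    {W : Place K M} (h : IsAbove W w) {σ : M ≃ₐ[K] M} (hσ : σ ∈ G) : IsAbove (σ • W) w := by
  intro x
  rw [← h x, mem_iff_ord_nonneg, mem_iff_ord_nonneg, ord_smul_apply]
  have : σ⁻¹ (algebraMap L M x) = algebraMap L M x := (hfix _).mpr x.2 σ⁻¹ (inv_mem hσ)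
  rw [this]

attribute [local instance] isScalarTower_aux isDedekindDomain_intCl isFractionRing_intCl

/-- A finite group of automorphisms of `M` with fixed field `L` permutes the places of `M`
above a given place of `L` transitively. -/
theorem exists_smul_eq_of_isAbove [Finite G] (hfix : ∀ x : M, (∀ σ ∈ G, σ x = x) ↔ x ∈ L)
    {w : Place K L} {W₁ W₂ : Place K M} (h₁ : IsAbove W₁ w) (h₂ : IsAbove W₂ w) :
    ∃ σ ∈ G, σ • W₁ = W₂ := by
  have hG : IsGaloisGroup G L M := isGaloisGroup_of_fix L G hfix
  have : IsGalois L M := IsGaloisGroup.isGalois G L M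
  have : FiniteDimensional L M := IsGaloisGroup.finiteDimensional G L M
  have : SMulCommClass G w.toValuationSubring M := ⟨fun σ r x => by
    show (σ : M ≃ₐ[K] M) (algebraMap L M (r : L) * x)
      = algebraMap L M (r : L) * (σ : M ≃ₐ[K] M) x
    have hr : (σ : M ≃ₐ[K] M) (algebraMap L M (r : L)) = algebraMap L M (r : L) :=
      (hfix _).mpr (r : L).2 σ σ.2
    rw [map_mul, hr]⟩
  have : Algebra.IsInvariant w.toValuationSubring (integralClosure w.toValuationSubring M) G :=
    ⟨fun c hc => by
      have hcL : (c : M) ∈ L := (hfix _).mp fun σ hσ => congrArg Subtype.val (hc ⟨σ, hσ⟩)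
      have h2 : IsIntegral w.toValuationSubring (⟨(c : M), hcL⟩ : L) := by
        have h3 : IsIntegral w.toValuationSubring (c : M) := c.2
        exact (isIntegral_algebraMap_iff (algebraMap L M).injective).mp h3
      obtain ⟨z, hz⟩ := (IsIntegrallyClosed.isIntegral_iff (R := w.toValuationSubring)
        (K := L)).mp h2
      refine ⟨z, Subtype.ext ?_⟩
      show algebraMap L M (z : L) = (c : M)
      have hz' : (z : L) = ⟨(c : M), hcL⟩ := hz
      rw [hz']
      rfl⟩
  have := h₁.prime_isPrime
  have := h₂.prime_isPrime
  obtain ⟨g, hg⟩ := Algebra.IsInvariant.exists_smul_of_under_eq w.toValuationSubring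
    (integralClosure w.toValuationSubring M) G h₁.prime h₂.prime
    (by rw [h₁.under_prime, h₂.under_prime])
  refine ⟨g, g.2, ?_⟩
  have h₃ : IsAbove ((g : M ≃ₐ[K] M) • W₁) w := h₁.smul hfix g.2
  apply h₃.eq_of_prime_eq h₂
  rw [hg]
  ext c
  rw [Ideal.mem_pointwise_smul_iff_inv_smul_mem, h₃.mem_prime, h₁.mem_prime, ord_smul_apply]
  have h4 : ((g⁻¹ • c : integralClosure w.toValuationSubring M) : M)
      = (g : M ≃ₐ[K] M)⁻¹ (c : M) := rfl
  rw [h4]
  refine or_congr ?_ Iff.rfl
  constructor
  · rintro rfl
    exact smul_zero _
  · intro h0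
    have := congrArg (fun y => g • y) h0
    simpa using this

end Galois

end

end Fermat.Agent.S24.GalB
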