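/-
S24 / package Gal (helper B): all places `W` of `M` with `0 < W.ord s` induce the same
valuation ring on the subfield `K(s)`.
-/
import Fermat.Agent.S24.GalBPlaces

set_option autoImplicit false
set_option linter.unusedSectionVars false

open AlgebraicCurve IntermediateField Polynomial

namespace Fermat.Agent.S24.GalB

noncomputable section

variable {K M : Type*} [Field K] [Field M] [Algebra K M]

theorem aeval_mem_of_ord_nonneg (W : Place K M) {s : M} (hs : 0 ≤ W.ord s) (p : K[X]) :
    aeval s p ∈ W.toValuationSubring := by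
  rw [aeval_eq_sum_range]
  refine sum_mem fun i _ => ?_
  rw [Algebra.smul_def]
  exact mul_mem (W.algebraMap_mem' _) (pow_mem (mem_of_ord_nonneg W hs) i)

theorem ord_aeval_eq_zero (W : Place K M) {s : M} (hs : 0 < W.ord s) (p : K[X])
    (hp : p.coeff 0 ≠ 0) : W.ord (aeval s p) = 0 := by
  have hmem := aeval_mem_of_ord_nonneg W hs.le p
  have hmemq := aeval_mem_of_ord_nonneg W hs.le p.divX
  have hsm := mem_of_ord_nonneg W hs.le
  have hdecomp : aeval s p = aeval s p.divX * s + algebraMap K M (p.coeff 0) := by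
    conv_lhs => rw [← divX_mul_X_add p]
    simp
  have hnn := ord_nonneg_of_mem W hmem
  by_contra hne
  have hpos : 0 < W.ord (aeval s p) := lt_of_le_of_ne hnn (Ne.symm hne)
  -- both `aeval s p` and `aeval s p.divX * s` are in the maximal ideal, hence so is the constant
  have h1 : (⟨aeval s p, hmem⟩ : W.toValuationSubring)
      ∈ IsLocalRing.maximalIdeal W.toValuationSubring :=
    (mem_maximalIdeal_iff W _).mpr (Or.inr hpos)
  have h2 : (⟨s, hsm⟩ : W.toValuationSubring)
      ∈ IsLocalRing.maximalIdeal W.toValuationSubring :=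
    (mem_maximalIdeal_iff W _).mpr (Or.inr hs)
  have h3 : (⟨aeval s p.divX, hmemq⟩ : W.toValuationSubring) * ⟨s, hsm⟩
      ∈ IsLocalRing.maximalIdeal W.toValuationSubring := Ideal.mul_mem_left _ _ h2
  have h4 := Ideal.sub_mem _ h1 h3
  have h5 : (⟨aeval s p, hmem⟩ : W.toValuationSubring)
      - (⟨aeval s p.divX, hmemq⟩ : W.toValuationSubring) * ⟨s, hsm⟩
      = ⟨algebraMap K M (p.coeff 0), W.algebraMap_mem' _⟩ := by
    apply Subtype.ext
    show aeval s p - aeval s p.divX * s = algebraMap K M (p.coeff 0)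
    rw [hdecomp]
    ring
  rw [h5, mem_maximalIdeal_iff] at h4
  rcases h4 with h4 | h4
  · have h6 : algebraMap K M (p.coeff 0) = 0 := congrArg Subtype.val h4
    exact hp (by simpa using h6)
  · have h6 : W.ord (algebraMap K M (p.coeff 0)) = 0 := ord_algebraMap W _
    have h7 : 0 < W.ord (algebraMap K M (p.coeff 0)) := h4
    omega

theorem ord_aeval (W : Place K M) {s : M} (hs : 0 < W.ord s) (p : K[X])
    (hp : aeval s p ≠ 0) : W.ord (aeval s p) = (p.rootMultiplicity 0 : ℤ) * W.ord s := by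
  have hp0 : p ≠ 0 := by
    rintro rfl
    simp at hp
  have hs0 : s ≠ 0 := by
    rintro rfl
    simp at hs
  obtain ⟨q, hq, hdvd⟩ := exists_eq_pow_rootMultiplicity_mul_and_not_dvd p hp0 0
  rw [map_zero, sub_zero] at hq hdvd
  have hq0 : q.coeff 0 ≠ 0 := fun h => hdvd (X_dvd_iff.mpr h)
  have heq : aeval s p = s ^ (p.rootMultiplicity 0) * aeval s q := by
    conv_lhs => rw [hq]
    simp
  have hq1 : aeval s q ≠ 0 := by
    intro h
    rw [heq, h, mul_zero] at hp
    exact hp rfl
  rw [heq, W.ord_mul (pow_ne_zero _ hs0) hq1, ord_pow, ord_aeval_eq_zero W hs q hq0, add_zero]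

/-- Two places of `M` at which `s` vanishes have the same valuation ring on `K(s)`. -/
theorem mem_iff_of_ord_pos (W₁ W₂ : Place K M) {s : M} (h₁ : 0 < W₁.ord s) (h₂ : 0 < W₂.ord s)
    {x : M} (hx : x ∈ K⟮s⟯) : x ∈ W₁.toValuationSubring ↔ x ∈ W₂.toValuationSubring := by
  obtain ⟨r, q, rfl⟩ := (mem_adjoin_simple_iff K x).mp hx
  by_cases hr : aeval s r = 0
  · rw [hr, zero_div]
    exact ⟨fun _ => zero_mem _, fun _ => zero_mem _⟩
  by_cases hq : aeval s q = 0
  · rw [hq, div_zero]
    exact ⟨fun _ => zero_mem _, fun _ => zero_mem _⟩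
  rw [mem_iff_ord_nonneg, mem_iff_ord_nonneg, ord_div W₁ hr hq, ord_div W₂ hr hq,
    ord_aeval W₁ h₁ r hr, ord_aeval W₁ h₁ q hq, ord_aeval W₂ h₂ r hr, ord_aeval W₂ h₂ q hq,
    ← sub_mul, ← sub_mul]
  constructor
  · intro h
    exact mul_nonneg (nonneg_of_mul_nonneg_left h h₁) h₂.le
  · intro h
    exact mul_nonneg (nonneg_of_mul_nonneg_left h h₂) h₁.le

end

end Fermat.Agent.S24.GalB
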