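/-
S24 / package Gal (helper B): counting places in a Galois situation (`GalStatement`).

Route: the places of `M` above a place of an intermediate field are permuted transitively by
the corresponding Galois group (`GalBExt.lean`, through the integral closure of the valuation
ring, a Dedekind domain); all places of `M` at which `s` vanishes induce the same place of
`K(s)` (`GalBRat.lean`); the size of the stabiliser is then read off from the fundamental
identity `ZerosStatement` for `M / K(s)`.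
-/
import Fermat.Agent.S24.GalBExt
import Fermat.Agent.S24.GalBRat

set_option autoImplicit false
set_option linter.unusedSectionVars false

open AlgebraicCurve IntermediateField

namespace Fermat.Agent.S24.GalB

noncomputable section

theorem card_eq_of_surjective {A Y Q : Type*} (f : A → Y) (p : A → Q)
    (hf : Function.Surjective f) (hp : Function.Surjective p)
    (h : ∀ a b, f a = f b ↔ p a = p b) : Nat.card Y = Nat.card Q := by
  refine Nat.card_congr (Equiv.ofBijective (fun y => p (Function.surjInv hf y)) ⟨?_, ?_⟩)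
  · intro y₁ y₂ h12
    have := (h _ _).mpr h12
    rwa [Function.surjInv_eq hf, Function.surjInv_eq hf] at this
  · intro q
    obtain ⟨a, rfl⟩ := hp q
    exact ⟨f a, (h _ _).mp (Function.surjInv_eq hf (f a))⟩

theorem restrict_congr {K L M : Type*} [Field K] [Field L] [Field M] [Algebra K L] [Algebra K M]
    [Algebra L M] [IsScalarTower K L M] {W₁ W₂ : Place K M} (h : W₁ = W₂)
    (h₁ : ∃ x : L, algebraMap L M x ∉ W₁.toValuationSubring)
    (h₂ : ∃ x : L, algebraMap L M x ∉ W₂.toValuationSubring) :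
    restrict W₁ h₁ = restrict W₂ h₂ := by
  subst h
  rfl

section Setup

variable {K M Γ : Type} [Field K] [Field M] [Algebra K M] [Group Γ]
  (act : Γ →* (M ≃ₐ[K] M)) (s : M)

theorem fix_range (hfix : ∀ x : M, (∀ γ : Γ, act γ x = x) ↔ x ∈ K⟮s⟯) :
    ∀ x : M, (∀ σ ∈ act.range, σ x = x) ↔ x ∈ K⟮s⟯ := by
  intro x
  rw [← hfix x]
  constructor
  · intro h γ
    exact h (act γ) ⟨γ, rfl⟩
  · rintro h σ ⟨γ, rfl⟩
    exact h γ

theorem ker_le_fixer (F' : IntermediateField K M) : act.ker ≤ fixer act F' := by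
  intro γ hγ x _
  rw [MonoidHom.mem_ker] at hγ
  rw [hγ]
  rfl

theorem ker_le_placeStab (W : Place K M) : act.ker ≤ placeStab act W := by
  intro γ hγ
  rw [MonoidHom.mem_ker] at hγ
  rw [mem_placeStab, hγ, one_smul]

/-- The fixed field of the image of the fixer of `F'` is `F'` (Galois correspondence). -/
theorem fix_fixer [Finite act.range] (hfix : ∀ x : M, (∀ γ : Γ, act γ x = x) ↔ x ∈ K⟮s⟯)
    (F' : IntermediateField K M) (hsF : s ∈ F') :
    ∀ x : M, (∀ σ ∈ (fixer act F').map act, σ x = x) ↔ x ∈ F' := by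
  intro x
  constructor
  · intro h
    have hG : IsGaloisGroup act.range K⟮s⟯ M := isGaloisGroup_of_fix _ _ (fix_range act s hfix)
    have hle : K⟮s⟯ ≤ F' := adjoin_simple_le_iff.mpr hsF
    have key := IsGaloisGroup.fixedPoints_fixingSubgroup act.range K⟮s⟯ M (extendScalars hle)
    rw [← mem_extendScalars hle, ← key, FixedPoints.mem_intermediateField_iff]
    rintro ⟨⟨σ, γ, rfl⟩, hg⟩
    show act γ x = x
    apply h
    refine ⟨γ, ?_, rfl⟩
    intro y hy
    exact (_root_.mem_fixingSubgroup_iff _).mp hg y ((mem_extendScalars hle).mpr hy)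
  · rintro hx σ ⟨γ, hγ, rfl⟩
    exact hγ x hx

theorem finite_map_fixer [Finite act.range] (F' : IntermediateField K M) :
    Finite ((fixer act F').map act) :=
  Finite.of_injective (Subgroup.inclusion (Subgroup.map_le_range act (fixer act F')))
    (Subgroup.inclusion_injective _)

/-- Part (1): `[F' : K(t)] = [Γ : fixer]`. -/
theorem degree_eq_index [Finite act.range]
    (hfix : ∀ x : M, (∀ γ : Γ, act γ x = x) ↔ x ∈ K⟮s⟯)
    (F' : IntermediateField K M) (hsF : s ∈ F') :
    FiniteDimensional K⟮(⟨s, hsF⟩ : F')⟯ F' ∧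
      Module.finrank K⟮(⟨s, hsF⟩ : F')⟯ F' = (fixer act F').index := by
  have hmem : ∀ y : F', y ∈ K⟮(⟨s, hsF⟩ : F')⟯ ↔ (y : M) ∈ K⟮s⟯ := by
    intro y
    have h1 : (K⟮(⟨s, hsF⟩ : F')⟯).map F'.val = K⟮s⟯ := by
      rw [adjoin_map, Set.image_singleton]
      rfl
    rw [← h1, mem_map]
    constructor
    · intro hy
      exact ⟨y, hy, rfl⟩
    · rintro ⟨z, hz, hzy⟩
      have : z = y := Subtype.ext hzy
      rwa [← this]
  have hfixG := fix_range act s hfix
  have hfixH := fix_fixer act s hfix F' hsF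
  have hG' : IsGaloisGroup act.range K⟮(⟨s, hsF⟩ : F')⟯ M :=
    { faithful := inferInstance
      commutes := ⟨fun σ e x => by
        show (σ : M ≃ₐ[K] M) (((e : F') : M) * x) = ((e : F') : M) * (σ : M ≃ₐ[K] M) x
        have he : (σ : M ≃ₐ[K] M) ((e : F') : M) = ((e : F') : M) :=
          (hfixG _).mpr ((hmem e).mp e.2) σ σ.2
        rw [map_mul, he]⟩
      isInvariant := ⟨fun x hx => by
        have hx' : x ∈ K⟮s⟯ := (hfixG x).mp fun σ hσ => hx ⟨σ, hσ⟩
        have hxF : x ∈ F' := (adjoin_simple_le_iff.mpr hsF) hx'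
        exact ⟨⟨⟨x, hxF⟩, (hmem ⟨x, hxF⟩).mpr hx'⟩, rfl⟩⟩ }
  have hH' : IsGaloisGroup ((fixer act F').map act) F' M := isGaloisGroup_of_fix _ _ hfixH
  have c1 := IsGaloisGroup.card_eq_finrank act.range K⟮(⟨s, hsF⟩ : F')⟯ M
  have c2 := IsGaloisGroup.card_eq_finrank ((fixer act F').map act) F' M
  have c3 := Module.finrank_mul_finrank K⟮(⟨s, hsF⟩ : F')⟯ F' M
  have c4 : (act.ker).relIndex (fixer act F') * (fixer act F').index = act.ker.index :=
    Subgroup.relIndex_mul_index (ker_le_fixer act F')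
  rw [Subgroup.relIndex_ker, Subgroup.index_ker] at c4
  have hpos : 0 < Nat.card act.range := Nat.card_pos
  have hHpos : 0 < Nat.card ((fixer act F').map act) := by
    rcases Nat.eq_zero_or_pos (Nat.card ((fixer act F').map act)) with h0 | h0
    · rw [h0, zero_mul] at c4
      omega
    · exact h0
  have hfr : Module.finrank K⟮(⟨s, hsF⟩ : F')⟯ F' = (fixer act F').index := by
    apply Nat.eq_of_mul_eq_mul_right hHpos
    rw [c2, c3, ← c1, ← c4, c2, mul_comm]
  refine ⟨?_, hfr⟩
  apply Module.finite_of_finrank_pos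
  rw [hfr]
  rcases Nat.eq_zero_or_pos (fixer act F').index with h0 | h0
  · rw [h0, mul_zero] at c4
    omega
  · exact h0

end Setup

section Main

variable {K M Γ : Type} [Field K] [Field M] [Algebra K M] [Group Γ]
  (act : Γ →* (M ≃ₐ[K] M)) (s : M) [Finite act.range]
  (hfix : ∀ x : M, (∀ γ : Γ, act γ x = x) ↔ x ∈ K⟮s⟯)

include hfix

theorem ord_act (W : Place K M) (γ : Γ) : (act γ • W).ord s = W.ord s := by
  rw [ord_smul_apply]
  have h1 : (act γ)⁻¹ s = s := by
    have := (hfix s).mpr (mem_adjoin_simple_self K s) γ⁻¹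
    rwa [map_inv] at this
  rw [h1]

/-- `Γ` permutes the places of `M` at which `s` vanishes transitively. -/
theorem exists_act_smul_eq {W₁ W₂ : Place K M} (h₁ : 0 < W₁.ord s) (h₂ : 0 < W₂.ord s) :
    ∃ γ : Γ, act γ • W₁ = W₂ := by
  have hfixG := fix_range act s hfix
  have hG : IsGaloisGroup act.range K⟮s⟯ M := isGaloisGroup_of_fix _ _ hfixG
  have : FiniteDimensional K⟮s⟯ M := IsGaloisGroup.finiteDimensional act.range K⟮s⟯ M
  have hex := exists_not_mem_of_isAlgebraic (K := K) (L := K⟮s⟯) W₁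
  have hab₁ : IsAbove W₁ (restrict W₁ hex) := isAbove_restrict W₁ hex
  have hab₂ : IsAbove W₂ (restrict W₁ hex) := fun x => by
    rw [mem_restrict]
    exact mem_iff_of_ord_pos W₂ W₁ h₂ h₁ x.2
  obtain ⟨σ, ⟨γ, rfl⟩, hσ⟩ := exists_smul_eq_of_isAbove hfixG hab₁ hab₂
  exact ⟨γ, hσ⟩

/-- Part (2a): the image of the stabiliser of `W` has order `ord_W s`. -/
theorem card_stab_eq_ord (hZ : ZerosStatement) [IsAlgClosed K] [CharZero K]
    (hs : Transcendental K s) (W : Place K M) (hW : 0 < W.ord s) :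
    (Nat.card ((placeStab act W).map act) : ℤ) = W.ord s := by
  have hfixG := fix_range act s hfix
  have hG : IsGaloisGroup act.range K⟮s⟯ M := isGaloisGroup_of_fix _ _ hfixG
  have hfd : FiniteDimensional K⟮s⟯ M := IsGaloisGroup.finiteDimensional act.range K⟮s⟯ M
  obtain ⟨hfin, hsum⟩ := hZ K M s hs hfd 0
  simp only [map_zero, sub_zero] at hfin hsum
  let _ : MulAction Γ (Place K M) := MulAction.compHom _ act
  have hX : {w : Place K M | 0 < w.ord s} = MulAction.orbit Γ W := by
    ext W'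
    constructor
    · intro h'
      obtain ⟨γ, hγ⟩ := exists_act_smul_eq act s hfix hW h'
      exact ⟨γ, hγ⟩
    · rintro ⟨γ, rfl⟩
      show 0 < (act γ • W).ord s
      rw [ord_act act s hfix]
      exact hW
  have hstab : MulAction.stabilizer Γ W = placeStab act W := by
    ext γ
    rfl
  have hcardX : Nat.card {w : Place K M | 0 < w.ord s} = (placeStab act W).index := by
    rw [hX, Subgroup.index_eq_card, ← hstab]
    exact Nat.card_congr (MulAction.orbitEquivQuotientStabilizer Γ W)
  have hconst : ∀ W' ∈ {w : Place K M | 0 < w.ord s}, W'.ord s = W.ord s := by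
    intro W' hW'
    obtain ⟨γ, rfl⟩ := exists_act_smul_eq act s hfix hW hW'
    exact ord_act act s hfix W γ
  have hsum' : ∑ᶠ w ∈ {w : Place K M | 0 < w.ord s}, w.ord s
      = (Nat.card {w : Place K M | 0 < w.ord s} : ℤ) * W.ord s := by
    rw [finsum_mem_congr rfl hconst, finsum_mem_eq_finite_toFinset_sum _ hfin, Finset.sum_const,
      nsmul_eq_mul, ← Set.ncard_eq_toFinset_card _ hfin, Nat.card_coe_set_eq]
  have c1 : Nat.card act.range = Module.finrank K⟮s⟯ M :=
    IsGaloisGroup.card_eq_finrank act.range K⟮s⟯ M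
  have c4 : act.ker.relIndex (placeStab act W) * (placeStab act W).index = act.ker.index :=
    Subgroup.relIndex_mul_index (ker_le_placeStab act W)
  rw [Subgroup.relIndex_ker, Subgroup.index_ker, ← hcardX] at c4
  have hpos : 0 < Nat.card act.range := Nat.card_pos
  have hXpos : 0 < Nat.card {w : Place K M | 0 < w.ord s} := by
    rcases Nat.eq_zero_or_pos (Nat.card {w : Place K M | 0 < w.ord s}) with h0 | h0
    · rw [h0, mul_zero] at c4
      omega
    · exact h0
  have hXne : (Nat.card {w : Place K M | 0 < w.ord s} : ℤ) ≠ 0 := by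
    exact_mod_cast hXpos.ne'
  have key : (Nat.card {w : Place K M | 0 < w.ord s} : ℤ) * W.ord s
      = (Nat.card {w : Place K M | 0 < w.ord s} : ℤ) * (Nat.card ((placeStab act W).map act) : ℤ) := by
    rw [← hsum', hsum, ← c1, ← c4]
    push_cast
    ring
  exact (mul_left_cancel₀ hXne key).symm

/-- Part (2b): the places of `F'` at which `s` vanishes correspond to the orbits of the
stabiliser of `W` on `Γ ⧸ fixer`. -/
theorem card_places_eq_card_orbits (F' : IntermediateField K M) (hsF : s ∈ F')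
    (W : Place K M) (hW : 0 < W.ord s) :
    Nat.card {w : Place K F' // 0 < w.ord (⟨s, hsF⟩ : F')}
      = Nat.card (MulAction.orbitRel.Quotient (placeStab act W) (Γ ⧸ fixer act F')) := by
  have hfixH := fix_fixer act s hfix F' hsF
  have hfinH := finite_map_fixer act F'
  have hH : IsGaloisGroup ((fixer act F').map act) F' M := isGaloisGroup_of_fix _ _ hfixH
  have hgal : IsGalois F' M := IsGaloisGroup.isGalois ((fixer act F').map act) F' M
  have hfd : FiniteDimensional F' M :=
    IsGaloisGroup.finiteDimensional ((fixer act F').map act) F' M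
  have hex : ∀ W' : Place K M, ∃ x : F', algebraMap F' M x ∉ W'.toValuationSubring :=
    fun W' => exists_not_mem_of_isAlgebraic W'
  let f : Γ → {w : Place K F' // 0 < w.ord (⟨s, hsF⟩ : F')} := fun γ =>
    ⟨restrict ((act γ)⁻¹ • W) (hex _), by
      rw [restrict_ord_pos_iff]
      show 0 < ((act γ)⁻¹ • W).ord s
      rw [← map_inv, ord_act act s hfix]
      exact hW⟩
  let p : Γ → MulAction.orbitRel.Quotient (placeStab act W) (Γ ⧸ fixer act F') := fun γ =>
    Quotient.mk'' (γ : Γ ⧸ fixer act F')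
  have hp : Function.Surjective p := by
    intro q
    induction q using Quotient.inductionOn' with
    | h q =>
      induction q using QuotientGroup.induction_on with
      | H γ => exact ⟨γ, rfl⟩
  have hf : Function.Surjective f := by
    rintro ⟨y, hy⟩
    obtain ⟨W', hW'⟩ := exists_isAbove (M := M) y
    have hW'pos : 0 < W'.ord s := (hW'.ord_pos_iff ⟨s, hsF⟩).mpr hy
    obtain ⟨γ₀, hγ₀⟩ := exists_act_smul_eq act s hfix hW hW'pos
    refine ⟨γ₀⁻¹, Subtype.ext ?_⟩
    show restrict ((act γ₀⁻¹)⁻¹ • W) (hex _) = y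
    have h1 : (act γ₀⁻¹)⁻¹ • W = W' := by
      rw [map_inv, inv_inv, hγ₀]
    exact (restrict_congr h1 _ _).trans hW'.restrict_eq
  have hfp : ∀ γ₁ γ₂, f γ₁ = f γ₂ ↔ p γ₁ = p γ₂ := by
    intro γ₁ γ₂
    constructor
    · intro h
      have h' : restrict ((act γ₁)⁻¹ • W) (hex _) = restrict ((act γ₂)⁻¹ • W) (hex _) :=
        congrArg Subtype.val h
      have hab₁ : IsAbove ((act γ₁)⁻¹ • W) (restrict ((act γ₁)⁻¹ • W) (hex _)) :=
        isAbove_restrict _ _
      have hab₂ : IsAbove ((act γ₂)⁻¹ • W) (restrict ((act γ₁)⁻¹ • W) (hex _)) := by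
        rw [h']
        exact isAbove_restrict _ _
      obtain ⟨σ, ⟨η, hη, rfl⟩, hσ⟩ := exists_smul_eq_of_isAbove hfixH hab₁ hab₂
      -- `act η • (act γ₁)⁻¹ • W = (act γ₂)⁻¹ • W`
      have hδ : γ₂ * η * γ₁⁻¹ ∈ placeStab act W := by
        rw [mem_placeStab, map_mul, map_mul, map_inv, mul_smul, mul_smul, hσ, smul_inv_smul]
      apply Quotient.sound'
      rw [MulAction.orbitRel_apply]
      refine ⟨⟨(γ₂ * η * γ₁⁻¹)⁻¹, inv_mem hδ⟩, ?_⟩
      show (((γ₂ * η * γ₁⁻¹)⁻¹ * γ₂ : Γ) : Γ ⧸ fixer act F') = (γ₁ : Γ ⧸ fixer act F')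
      rw [QuotientGroup.eq]
      have : ((γ₂ * η * γ₁⁻¹)⁻¹ * γ₂)⁻¹ * γ₁ = η := by group
      rw [this]
      exact hη
    · intro h
      have h' := Quotient.exact' h
      rw [MulAction.orbitRel_apply] at h'
      obtain ⟨⟨d, hd⟩, hdγ⟩ := h'
      have hdγ' : ((d * γ₂ : Γ) : Γ ⧸ fixer act F') = (γ₁ : Γ ⧸ fixer act F') := hdγ
      rw [QuotientGroup.eq] at hdγ'
      -- `η := (d γ₂)⁻¹ γ₁ ∈ fixer`, so `γ₁ = d γ₂ η`
      set η := (d * γ₂)⁻¹ * γ₁ with hη
      have hγ₁ : γ₁ = d * γ₂ * η := by rw [hη]; group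
      have hd' : (act d)⁻¹ • W = W := by
        rw [inv_smul_eq_iff]
        exact ((mem_placeStab act W d).mp hd).symm
      have h1 : (act γ₁)⁻¹ • W = act η⁻¹ • ((act γ₂)⁻¹ • W) := by
        rw [hγ₁, map_mul, map_mul, mul_inv_rev, mul_inv_rev, mul_smul, mul_smul, hd', map_inv]
      have hmem : act η⁻¹ ∈ (fixer act F').map act := ⟨η⁻¹, inv_mem hdγ', rfl⟩
      have hab := (isAbove_restrict ((act γ₂)⁻¹ • W) (hex _)).smul hfixH hmem
      apply Subtype.ext
      show restrict ((act γ₁)⁻¹ • W) (hex _) = restrict ((act γ₂)⁻¹ • W) (hex _)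
      exact (restrict_congr h1 _ _).trans hab.restrict_eq
  exact card_eq_of_surjective f p hf hp hfp

end Main

section Final

variable {K M : Type} [Field K] [Field M] [Algebra K M]

theorem adjoin_sub_algebraMap (t : M) (c : K) : K⟮t - algebraMap K M c⟯ = K⟮t⟯ := by
  apply le_antisymm
  · rw [adjoin_simple_le_iff]
    exact sub_mem (mem_adjoin_simple_self K t) (IntermediateField.algebraMap_mem _ c)
  · rw [adjoin_simple_le_iff]
    have h := add_mem (mem_adjoin_simple_self K (t - algebraMap K M c))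
      (IntermediateField.algebraMap_mem K⟮t - algebraMap K M c⟯ c)
    rwa [sub_add_cancel] at h

theorem adjoin_inv (t : M) : K⟮t⁻¹⟯ = K⟮t⟯ := by
  apply le_antisymm
  · rw [adjoin_simple_le_iff]
    exact inv_mem (mem_adjoin_simple_self K t)
  · rw [adjoin_simple_le_iff]
    have h := inv_mem (mem_adjoin_simple_self K t⁻¹)
    rwa [inv_inv] at h

theorem transcendental_of_adjoin_eq {s t : M} (ht : Transcendental K t) (h : K⟮s⟯ = K⟮t⟯) :
    Transcendental K s := by
  intro hs
  apply ht
  have halg : Algebra.IsAlgebraic K K⟮s⟯ := isAlgebraic_adjoin_simple hs.isIntegral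
  have htm : t ∈ K⟮s⟯ := h ▸ mem_adjoin_simple_self K t
  have h1 : IsAlgebraic K (⟨t, htm⟩ : K⟮s⟯) := halg.isAlgebraic _
  exact IntermediateField.isAlgebraic_iff.mp h1

end Final

/-- (G) Counting places in a Galois situation.  (Only `ZerosStatement` is used.) -/
theorem galStatement : ZerosStatement → PolesStatement → GalStatement := by
  intro hZ _ K M Γ _ _ _ _ _ _ act t hfin ht hfix F' htF
  have := hfin
  refine ⟨degree_eq_index act t hfix F' htF, ?_, ?_⟩
  · intro c W hW
    have hadj := adjoin_sub_algebraMap (K := K) t c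
    have hfix' : ∀ x : M, (∀ γ : Γ, act γ x = x) ↔ x ∈ K⟮t - algebraMap K M c⟯ := by
      intro x
      rw [hadj]
      exact hfix x
    have hs : Transcendental K (t - algebraMap K M c) := transcendental_of_adjoin_eq ht hadj
    have hsF : t - algebraMap K M c ∈ F' := sub_mem htF (IntermediateField.algebraMap_mem _ c)
    refine ⟨card_stab_eq_ord act _ hfix' hZ hs W hW, ?_⟩
    exact card_places_eq_card_orbits act _ hfix' F' hsF W hW
  · intro W hW
    have hadj := adjoin_inv (K := K) t
    have hfix' : ∀ x : M, (∀ γ : Γ, act γ x = x) ↔ x ∈ K⟮t⁻¹⟯ := by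
      intro x
      rw [hadj]
      exact hfix x
    have hs : Transcendental K t⁻¹ := transcendental_of_adjoin_eq ht hadj
    have hsF : t⁻¹ ∈ F' := inv_mem htF
    have hW' : 0 < W.ord t⁻¹ := by
      rw [Place.ord_inv]
      omega
    refine ⟨?_, ?_⟩
    · rw [card_stab_eq_ord act _ hfix' hZ hs W hW', Place.ord_inv]
    · rw [← card_places_eq_card_orbits act _ hfix' F' hsF W hW']
      refine Nat.card_congr (Equiv.subtypeEquivRight fun w => ?_)
      have h : (⟨t⁻¹, hsF⟩ : F') = (⟨t, htF⟩ : F')⁻¹ := rfl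
      rw [h, Place.ord_inv]
      omega

end

end Fermat.Agent.S24.GalB
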