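/-
S24 — package `JLocal`, part 1: basic properties of the modular invariant `j = E₄³ / Δ`
(namespace `Fermat.Agent.S24.JLocal`).

* `Jfun_mdifferentiable`, `Jfun_smul` (`SL(2, ℤ)`-invariance), `Jfun_ellI : Jfun ellI = 1728`,
  `Jfun_ellRho : Jfun ellRho = 0`;
* `modForm_smul : f (γ • τ) = denom γ τ ^ k * f τ` for level one modular forms;
* `S_smul_ellI : S • ellI = ellI`, `ST_smul_ellRho : (S * T) • ellRho = ellRho`;
* `E6_ellI : E₆ ellI = 0`, `E4_ellRho : E₄ ellRho = 0`;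
* `discriminant_mul : 1728 * Δ τ = E₄ τ ^ 3 - E₆ τ ^ 2`,
  `Jfun_sub_eq : Jfun τ - 1728 = E₆ τ ^ 2 / Δ τ`;
* `jBasicStatement : JBasicStatement`.
-/
import Fermat.Agent.S24.AnalyticInterfaces

set_option autoImplicit false

open UpperHalfPlane ModularForm Complex CongruenceSubgroup ModularGroup EisensteinSeries
open scoped MatrixGroups Manifold Real

namespace Fermat.Agent.S24.JLocal

open Fermat.Agent.S24

noncomputable section

/-- Transformation of a level one modular form under `SL(2, ℤ)`. -/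
theorem modForm_smul {k : ℤ} (f : ModularForm 𝒮ℒ k) (γ : SL(2, ℤ)) (τ : ℍ) :
    f (γ • τ) = denom γ τ ^ k * f τ := by
  have hγ : ((γ : SL(2, ℤ)) : GL (Fin 2) ℝ) ∈ 𝒮ℒ := ⟨γ, rfl⟩
  exact SlashInvariantForm.slash_action_eqn'' f hγ τ

theorem discriminant_smul (γ : SL(2, ℤ)) (τ : ℍ) :
    ModularForm.discriminant (γ • τ) = denom γ τ ^ (12 : ℤ) * ModularForm.discriminant τ := by
  have hγ : ((γ : SL(2, ℤ)) : GL (Fin 2) ℝ) ∈ 𝒮ℒ := ⟨γ, rfl⟩
  exact SlashInvariantForm.slash_action_eqn'' CuspForm.discriminant hγ τ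

theorem discriminant_mdifferentiable : MDifferentiable 𝓘(ℂ) 𝓘(ℂ) ModularForm.discriminant :=
  CuspForm.discriminant.holo'

theorem Jfun_mdifferentiable : MDifferentiable 𝓘(ℂ) 𝓘(ℂ) Jfun := by
  have h4 : MDifferentiable 𝓘(ℂ) 𝓘(ℂ) (E₄ : ℍ → ℂ) := E₄.holo'
  exact (h4.pow 3).div discriminant_mdifferentiable discriminant_ne_zero

theorem Jfun_smul (γ : SL(2, ℤ)) (τ : ℍ) : Jfun (γ • τ) = Jfun τ := by
  unfold Jfun
  rw [modForm_smul, discriminant_smul]
  have hd : denom γ τ ≠ 0 := denom_ne_zero _ _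
  have hΔ := discriminant_ne_zero τ
  have h4 : denom γ τ ^ (4 : ℤ) = denom γ τ ^ (4 : ℕ) := by norm_cast
  have h12 : denom γ τ ^ (12 : ℤ) = denom γ τ ^ (12 : ℕ) := by norm_cast
  rw [h4, h12]
  field_simp

/-- `1728 Δ = E₄³ - E₆²`. -/
theorem discriminant_mul (τ : ℍ) :
    1728 * ModularForm.discriminant τ = E₄ τ ^ 3 - E₆ τ ^ 2 := by
  rw [discriminant_eq_E₄_cube_sub_E₆_sq τ]
  ring

/-- `j - 1728 = E₆² / Δ`. -/
theorem Jfun_sub_eq (τ : ℍ) : Jfun τ - 1728 = E₆ τ ^ 2 / ModularForm.discriminant τ := by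
  unfold Jfun
  have hΔ := discriminant_ne_zero τ
  have h := discriminant_mul τ
  field_simp
  linear_combination -h

theorem S_smul_ellI : S • ellI = ellI := by
  rw [modular_S_smul]
  apply UpperHalfPlane.ext
  simp [ellI]

theorem E6_ellI : E₆ ellI = 0 := by
  have h := modForm_smul E₆ S ellI
  rw [S_smul_ellI, denom_S] at h
  have hI : ((ellI : ℍ) : ℂ) = Complex.I := rfl
  rw [hI] at h
  have h6 : (Complex.I : ℂ) ^ (6 : ℤ) = -1 := by
    have : (Complex.I : ℂ) ^ (6 : ℤ) = Complex.I ^ (6 : ℕ) := by norm_cast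
    rw [this, show (6 : ℕ) = 4 + 2 by norm_num, pow_add, Complex.I_pow_four, Complex.I_sq, one_mul]
  rw [h6] at h
  have h2 : (2 : ℂ) * E₆ ellI = 0 := by linear_combination h
  simpa using h2

theorem Jfun_ellI : Jfun ellI = 1728 := by
  have h := Jfun_sub_eq ellI
  rw [E6_ellI] at h
  simp only [ne_eq, OfNat.ofNat_ne_zero, not_false_eq_true, zero_pow, zero_div] at h
  exact sub_eq_zero.mp h

theorem coe_ellRho : ((ellRho : ℍ) : ℂ) = (-1 / 2 : ℂ) + ((Real.sqrt 3 / 2 : ℝ) : ℂ) * Complex.I :=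
  rfl

/-- `ρ² + ρ + 1 = 0`. -/
theorem ellRho_sq : ((ellRho : ℍ) : ℂ) ^ 2 + (ellRho : ℂ) + 1 = 0 := by
  rw [coe_ellRho]
  have h3 : ((Real.sqrt 3 : ℝ) : ℂ) ^ 2 = 3 := by
    rw [← Complex.ofReal_pow, Real.sq_sqrt (by norm_num : (0 : ℝ) ≤ 3)]
    norm_num
  push_cast
  ring_nf
  rw [Complex.I_sq, h3]
  ring

theorem ST_smul_ellRho : (S * T) • ellRho = ellRho := by
  rw [mul_smul, modular_T_smul, modular_S_smul]
  apply UpperHalfPlane.ext
  have h := ellRho_sq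
  have hne : ((1 : ℂ) + (ellRho : ℂ)) ≠ 0 := by
    intro h0
    have h1 : (ellRho : ℂ) = -1 := by linear_combination h0
    rw [h1] at h
    norm_num at h
  simp only [UpperHalfPlane.coe_vadd, Complex.ofReal_one]
  change (-((1 : ℂ) + (ellRho : ℂ)))⁻¹ = (ellRho : ℂ)
  have hmul : (-((1 : ℂ) + (ellRho : ℂ))) * (ellRho : ℂ) = 1 := by linear_combination -h
  exact inv_eq_of_mul_eq_one_right hmul

theorem denom_ST (τ : ℍ) : denom (S * T : SL(2, ℤ)) τ = (τ : ℂ) + 1 := by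
  rw [ModularGroup.denom_apply, Matrix.SpecialLinearGroup.coe_mul, ModularGroup.coe_S,
    ModularGroup.coe_T, Matrix.mul_fin_two]
  simp

theorem E4_ellRho : E₄ ellRho = 0 := by
  have h := modForm_smul E₄ (S * T) ellRho
  rw [ST_smul_ellRho, denom_ST] at h
  have hρ := ellRho_sq
  have h4 : ((ellRho : ℂ) + 1) ^ (4 : ℤ) = -(ellRho : ℂ) - 1 := by
    have : ((ellRho : ℂ) + 1) ^ (4 : ℤ) = ((ellRho : ℂ) + 1) ^ (4 : ℕ) := by norm_cast
    rw [this]
    linear_combination ((ellRho : ℂ) ^ 2 + 3 * (ellRho : ℂ) + 2) * hρ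
  rw [h4] at h
  have h2 : ((ellRho : ℂ) + 2) * E₄ ellRho = 0 := by linear_combination h
  rcases mul_eq_zero.mp h2 with h3 | h3
  · exfalso
    have him := congrArg Complex.im h3
    have hpos : 0 < ellRho.im := ellRho.im_pos
    simp at him
    linarith
  · exact h3

theorem Jfun_ellRho : Jfun ellRho = 0 := by
  unfold Jfun
  rw [E4_ellRho]
  simp

/-- (J1) `j` is holomorphic and `SL(2, ℤ)`-invariant, `j(i) = 1728`, `j(ρ) = 0`. -/
theorem jBasicStatement : JBasicStatement :=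
  ⟨Jfun_mdifferentiable, Jfun_smul, Jfun_ellI, Jfun_ellRho⟩

end

end Fermat.Agent.S24.JLocal
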