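/-
S24 — package `JLocal`, part 2: the derivative of `j` (namespace `Fermat.Agent.S24.JLocal`).

Main result: `exists_deriv_Jfun`: there is a constant `K ≠ 0` with
`deriv (Jfun ∘ ofComplex) τ = K * E₄ τ ^ 2 * E₆ τ / Δ τ` for all `τ : ℍ`.

Route: the Serre derivative `∂₄ E₄ = D E₄ - (4/12) E₂ E₄` is slash invariant of weight `6`
(Mathlib), `Δ * ∂₄ E₄ = D E₄ * Δ - (1/3) E₄ * D Δ` is a cusp form of weight `18`
(Cauchy estimates for `D` at `i∞`; `D Δ = E₂ Δ`), hence `∂₄ E₄` is a modular form of weight `6`,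
i.e. a multiple `c • E₆`; finally `c ≠ 0` since `j` is not constant.
-/
import Fermat.Agent.S24.JLocalBasic

set_option autoImplicit false

open UpperHalfPlane ModularForm Complex CongruenceSubgroup ModularGroup EisensteinSeries Derivative
open scoped MatrixGroups Manifold Real Topology

namespace Fermat.Agent.S24.JLocal

open Fermat.Agent.S24

noncomputable section

/-! ### Cauchy estimates at `i∞` -/

/-- Cauchy estimate: a bound for `F` on `{A ≤ im}` gives the same bound for the derivative on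
`{A + 1 ≤ im}`. -/
theorem norm_deriv_le_of_bound {F : ℍ → ℂ} (hF : MDifferentiable 𝓘(ℂ) 𝓘(ℂ) F) {M A : ℝ}
    (hA : 0 < A) (hb : ∀ z : ℍ, A ≤ z.im → ‖F z‖ ≤ M) (z : ℍ) (hz : A + 1 ≤ z.im) :
    ‖deriv (F ∘ ofComplex) (z : ℂ)‖ ≤ M := by
  have hd : DifferentiableOn ℂ (F ∘ ofComplex) {w : ℂ | 0 < w.im} :=
    UpperHalfPlane.mdifferentiable_iff.mp hF
  have hsub : Metric.closedBall (z : ℂ) 1 ⊆ {w : ℂ | A ≤ w.im} := by
    intro w hw
    have h1 : |w.im - (z : ℂ).im| ≤ 1 := by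
      have h2 := Complex.abs_im_le_norm (w - (z : ℂ))
      rw [Complex.sub_im] at h2
      have h3 : ‖w - (z : ℂ)‖ ≤ 1 := by simpa [dist_eq_norm] using hw
      exact h2.trans h3
    have h4 := abs_le.mp h1
    have hz' : (z : ℂ).im = z.im := rfl
    show A ≤ w.im
    linarith [h4.1]
  have h := Complex.norm_deriv_le_of_forall_mem_sphere_norm_le (c := (z : ℂ)) (R := 1) (C := M)
    (f := F ∘ ofComplex) one_pos ?_ ?_
  · simpa using h
  · apply DifferentiableOn.diffContOnCl_ball (U := {w : ℂ | 0 < w.im}) hd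
    intro w hw
    exact lt_of_lt_of_le hA (hsub hw)
  · intro w hw
    have hw' : A ≤ w.im := hsub (Metric.sphere_subset_closedBall hw)
    have hpos : 0 < w.im := lt_of_lt_of_le hA hw'
    rw [Function.comp_apply, ofComplex_apply_of_im_pos hpos]
    exact hb ⟨w, hpos⟩ hw'

theorem norm_D_le (F : ℍ → ℂ) (z : ℍ) : ‖D F z‖ ≤ ‖deriv (F ∘ ofComplex) (z : ℂ)‖ := by
  unfold normalizedDerivOfComplex
  rw [norm_mul]
  have h1 : ‖(2 * (π : ℂ) * Complex.I)⁻¹‖ ≤ 1 := by
    rw [norm_inv, norm_mul, norm_mul, Complex.norm_I, mul_one]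
    have h2 : ‖(2 : ℂ)‖ = 2 := by norm_num
    have h3 : ‖(π : ℂ)‖ = π := by
      rw [Complex.norm_real, Real.norm_eq_abs, abs_of_pos Real.pi_pos]
    rw [h2, h3]
    have h4 : (1 : ℝ) ≤ 2 * π := by nlinarith [Real.pi_gt_three]
    exact inv_le_one_of_one_le₀ h4
  calc ‖(2 * (π : ℂ) * Complex.I)⁻¹‖ * ‖deriv (F ∘ ofComplex) (z : ℂ)‖
      ≤ 1 * ‖deriv (F ∘ ofComplex) (z : ℂ)‖ := by gcongr
    _ = ‖deriv (F ∘ ofComplex) (z : ℂ)‖ := one_mul _

/-- The normalized derivative of a holomorphic function bounded at `i∞` is bounded at `i∞`. -/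
theorem isBoundedAtImInfty_D {F : ℍ → ℂ} (hF : MDifferentiable 𝓘(ℂ) 𝓘(ℂ) F)
    (hb : IsBoundedAtImInfty F) : IsBoundedAtImInfty (D F) := by
  rw [isBoundedAtImInfty_iff] at hb ⊢
  obtain ⟨M, A, h⟩ := hb
  refine ⟨M, max A 1 + 1, fun z hz => ?_⟩
  have hA : 0 < max A 1 := lt_of_lt_of_le one_pos (le_max_right _ _)
  refine (norm_D_le F z).trans (norm_deriv_le_of_bound hF hA (fun w hw => ?_) z hz)
  exact h w ((le_max_left _ _).trans hw)

/-- The normalized derivative of a holomorphic function vanishing at `i∞` vanishes at `i∞`. -/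
theorem isZeroAtImInfty_D {F : ℍ → ℂ} (hF : MDifferentiable 𝓘(ℂ) 𝓘(ℂ) F)
    (hb : IsZeroAtImInfty F) : IsZeroAtImInfty (D F) := by
  rw [isZeroAtImInfty_iff] at hb ⊢
  intro ε hε
  obtain ⟨A, h⟩ := hb ε hε
  refine ⟨max A 1 + 1, fun z hz => ?_⟩
  have hA : 0 < max A 1 := lt_of_lt_of_le one_pos (le_max_right _ _)
  refine (norm_D_le F z).trans (norm_deriv_le_of_bound hF hA (fun w hw => ?_) z hz)
  exact h w ((le_max_left _ _).trans hw)

/-! ### `D Δ = E₂ Δ` -/

theorem two_pi_I_ne_zero : (2 * (π : ℂ) * Complex.I) ≠ 0 := by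
  have hπ : (π : ℂ) ≠ 0 := Complex.ofReal_ne_zero.mpr Real.pi_ne_zero
  exact mul_ne_zero (mul_ne_zero two_ne_zero hπ) Complex.I_ne_zero

theorem deriv_eq_D (F : ℍ → ℂ) (z : ℍ) :
    deriv (F ∘ ofComplex) (z : ℂ) = 2 * (π : ℂ) * Complex.I * D F z := by
  unfold normalizedDerivOfComplex
  rw [← mul_assoc, mul_inv_cancel₀ two_pi_I_ne_zero, one_mul]

theorem D_discriminant (z : ℍ) :
    D ModularForm.discriminant z = E2 z * ModularForm.discriminant z := by
  have hev : (ModularForm.discriminant ∘ ofComplex) =ᶠ[𝓝 (z : ℂ)]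
      fun w => ModularForm.eta w ^ 24 := by
    filter_upwards [isOpen_upperHalfPlaneSet.mem_nhds z.im_pos] with w hw
    simp [ModularForm.discriminant, ofComplex_apply_of_im_pos hw]
  have hη : DifferentiableAt ℂ ModularForm.eta (z : ℂ) :=
    differentiableAt_eta_of_mem_upperHalfPlaneSet z.2
  have hlog := logDeriv_eta_eq_E2 z
  rw [logDeriv_apply] at hlog
  have hη0 : ModularForm.eta (z : ℂ) ≠ 0 := eta_ne_zero z.2
  have hderiv : deriv ModularForm.eta (z : ℂ) = (π * Complex.I / 12) * E2 z * ModularForm.eta z := by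
    field_simp at hlog ⊢
    linear_combination hlog
  unfold normalizedDerivOfComplex
  rw [hev.deriv_eq, deriv_fun_pow hη, hderiv]
  have h2 := two_pi_I_ne_zero
  have hΔ : ModularForm.discriminant z = ModularForm.eta (z : ℂ) ^ 24 := rfl
  rw [hΔ]
  field_simp
  ring

/-! ### The Serre derivative of `E₄` -/

/-- The Serre derivative `∂₄ E₄ = D E₄ - (4/12) E₂ E₄`. -/
def serreE4 : ℍ → ℂ := serreDerivative ((4 : ℤ) : ℂ) (E₄ : ℍ → ℂ)

theorem E4_mdifferentiable : MDifferentiable 𝓘(ℂ) 𝓘(ℂ) (E₄ : ℍ → ℂ) := E₄.holo'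

theorem E6_mdifferentiable : MDifferentiable 𝓘(ℂ) 𝓘(ℂ) (E₆ : ℍ → ℂ) := E₆.holo'

theorem serreE4_apply (z : ℍ) :
    serreE4 z = D (E₄ : ℍ → ℂ) z - 3⁻¹ * E2 z * E₄ z := by
  unfold serreE4
  rw [serreDerivative_apply]
  push_cast
  ring

theorem serreE4_mdifferentiable : MDifferentiable 𝓘(ℂ) 𝓘(ℂ) serreE4 :=
  serreDerivative_mdifferentiable _ E4_mdifferentiable

theorem modForm_slash {k : ℤ} (f : ModularForm 𝒮ℒ k) (γ : SL(2, ℤ)) :
    (f : ℍ → ℂ) ∣[k] γ = f := by
  have hγ : ((γ : SL(2, ℤ)) : GL (Fin 2) ℝ) ∈ 𝒮ℒ := ⟨γ, rfl⟩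
  rw [SL_slash]
  exact SlashInvariantForm.slash_action_eqn f _ hγ

theorem discriminant_slash (γ : SL(2, ℤ)) :
    (ModularForm.discriminant : ℍ → ℂ) ∣[(12 : ℤ)] γ = ModularForm.discriminant := by
  have hγ : ((γ : SL(2, ℤ)) : GL (Fin 2) ℝ) ∈ 𝒮ℒ := ⟨γ, rfl⟩
  rw [SL_slash]
  exact SlashInvariantForm.slash_action_eqn CuspForm.discriminant _ hγ

theorem serreE4_slash (γ : SL(2, ℤ)) : serreE4 ∣[(6 : ℤ)] γ = serreE4 := by
  have h := serreDerivative_slash_invariant (k := 4) (F := (E₄ : ℍ → ℂ)) E4_mdifferentiable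
    (γ := γ) (modForm_slash E₄ γ)
  exact h

theorem discriminant_mul_serreE4_slash (γ : SL(2, ℤ)) :
    (ModularForm.discriminant * serreE4) ∣[(18 : ℤ)] γ = ModularForm.discriminant * serreE4 := by
  have h := mul_slash_SL2 12 6 γ ModularForm.discriminant serreE4
  rw [discriminant_slash, serreE4_slash] at h
  exact h

theorem discriminant_mul_serreE4_eq :
    ModularForm.discriminant * serreE4 =
      ModularForm.discriminant * D (E₄ : ℍ → ℂ)
        - (fun _ : ℍ => (3⁻¹ : ℂ)) * ((E₄ : ℍ → ℂ) * D ModularForm.discriminant) := by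
  funext z
  simp only [Pi.mul_apply, Pi.sub_apply, serreE4_apply, D_discriminant]
  ring

theorem discriminant_mul_serreE4_isZeroAtImInfty :
    IsZeroAtImInfty (ModularForm.discriminant * serreE4) := by
  rw [discriminant_mul_serreE4_eq]
  have hE4 : IsBoundedAtImInfty (E₄ : ℍ → ℂ) := ModularFormClass.bdd_at_infty E₄
  have hΔ : IsZeroAtImInfty ModularForm.discriminant := discriminant_isZeroAtImInfty
  have h1 : IsZeroAtImInfty (ModularForm.discriminant * D (E₄ : ℍ → ℂ)) :=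
    Filter.ZeroAtFilter.mul_boundedAtFilter hΔ (isBoundedAtImInfty_D E4_mdifferentiable hE4)
  have h2 : IsZeroAtImInfty ((E₄ : ℍ → ℂ) * D ModularForm.discriminant) :=
    Filter.BoundedAtFilter.mul_zeroAtFilter hE4 (isZeroAtImInfty_D discriminant_mdifferentiable hΔ)
  have h3 : IsZeroAtImInfty
      ((fun _ : ℍ => (3⁻¹ : ℂ)) * ((E₄ : ℍ → ℂ) * D ModularForm.discriminant)) :=
    Filter.BoundedAtFilter.mul_zeroAtFilter (Filter.const_boundedAtFilter _ _) h2
  have h4 := Filter.ZeroAtFilter.add h1 (Filter.ZeroAtFilter.neg h3)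
  rw [sub_eq_add_neg]
  exact h4

/-- `Δ * ∂₄ E₄` as a cusp form of weight `18`. -/
def cusp18 : CuspForm 𝒮ℒ 18 where
  toFun := ModularForm.discriminant * serreE4
  slash_action_eq' A hA := by
    obtain ⟨γ, rfl⟩ := hA
    exact discriminant_mul_serreE4_slash γ
  holo' := discriminant_mdifferentiable.mul serreE4_mdifferentiable
  zero_at_cusps' hc := by
    rw [Subgroup.IsArithmetic.isCusp_iff_isCusp_SL2Z] at hc
    rw [OnePoint.isZeroAt_iff_forall_SL2Z hc]
    intro γ _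
    rw [discriminant_mul_serreE4_slash]
    exact discriminant_mul_serreE4_isZeroAtImInfty

theorem cusp18_apply (z : ℍ) : cusp18 z = ModularForm.discriminant z * serreE4 z := rfl

/-- `∂₄ E₄` as a modular form of weight `6`. -/
def serreE4Form : ModularForm 𝒮ℒ 6 :=
  ModularForm.mcast (by norm_num) (CuspForm.discriminantEquiv cusp18)

theorem serreE4Form_apply (z : ℍ) : serreE4Form z = serreE4 z := by
  unfold serreE4Form
  rw [ModularForm.coe_mcast, CuspForm.discriminantEquiv_apply, cusp18_apply,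
    mul_div_cancel_left₀ _ (discriminant_ne_zero z)]

/-- `∂₄ E₄ = c E₆` for a constant `c`. -/
theorem exists_serreE4_eq : ∃ c : ℂ, ∀ z : ℍ, serreE4 z = c * E₆ z := by
  obtain ⟨c, hc⟩ : ∃ c : ℂ, c • E₆ = serreE4Form :=
    (finrank_eq_one_iff_of_nonzero' E₆ (E_ne_zero _ ⟨3, rfl⟩)).mp
      (Module.rank_eq_one_iff_finrank_eq_one.mp levelOne_weight_six_rank_one) _
  refine ⟨c, fun z => ?_⟩
  rw [← serreE4Form_apply, ← hc]
  rfl

/-! ### The derivative of `j` -/

theorem deriv_Jfun_aux {c : ℂ} (hc : ∀ z : ℍ, serreE4 z = c * E₆ z) (z : ℍ) :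
    deriv (Jfun ∘ ofComplex) (z : ℂ) =
      (2 * (π : ℂ) * Complex.I * 3 * c) * E₄ z ^ 2 * E₆ z / ModularForm.discriminant z := by
  have hJ : Jfun ∘ ofComplex =
      ((E₄ : ℍ → ℂ) ∘ ofComplex) ^ 3 / (ModularForm.discriminant ∘ ofComplex) := by
    funext w
    rfl
  have h4 : DifferentiableAt ℂ ((E₄ : ℍ → ℂ) ∘ ofComplex) (z : ℂ) :=
    UpperHalfPlane.mdifferentiableAt_iff.mp (E4_mdifferentiable z)
  have hΔ : DifferentiableAt ℂ (ModularForm.discriminant ∘ ofComplex) (z : ℂ) :=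
    UpperHalfPlane.mdifferentiableAt_iff.mp (discriminant_mdifferentiable z)
  have hΔ0 : (ModularForm.discriminant ∘ ofComplex) (z : ℂ) ≠ 0 := by
    rw [Function.comp_apply, ofComplex_apply]
    exact discriminant_ne_zero z
  rw [hJ, deriv_div (h4.pow 3) hΔ hΔ0, deriv_pow h4, deriv_eq_D, deriv_eq_D, D_discriminant]
  have hs := hc z
  rw [serreE4_apply] at hs
  have hD : D (E₄ : ℍ → ℂ) z = c * E₆ z + 3⁻¹ * E2 z * E₄ z := by linear_combination hs
  rw [hD]
  simp only [Function.comp_apply, Pi.pow_apply, ofComplex_apply]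
  have h0 := discriminant_ne_zero z
  field_simp
  ring

/-- The key identity: `j' = K E₄² E₆ / Δ` with a constant `K ≠ 0` (in fact `K = -2πi`). -/
theorem exists_deriv_Jfun : ∃ K : ℂ, K ≠ 0 ∧ ∀ z : ℍ,
    deriv (Jfun ∘ ofComplex) (z : ℂ) = K * E₄ z ^ 2 * E₆ z / ModularForm.discriminant z := by
  obtain ⟨c, hc⟩ := exists_serreE4_eq
  refine ⟨2 * (π : ℂ) * Complex.I * 3 * c, ?_, deriv_Jfun_aux hc⟩
  intro hK
  have hd : DifferentiableOn ℂ (Jfun ∘ ofComplex) upperHalfPlaneSet :=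
    UpperHalfPlane.mdifferentiable_iff.mp Jfun_mdifferentiable
  have hzero : upperHalfPlaneSet.EqOn (deriv (Jfun ∘ ofComplex)) 0 := by
    intro w hw
    have h := deriv_Jfun_aux hc ⟨w, hw⟩
    rw [hK] at h
    simpa using h
  have hconst := isOpen_upperHalfPlaneSet.is_const_of_deriv_eq_zero
    (convex_halfSpace_im_gt 0).isPreconnected hd hzero (x := (ellI : ℂ)) (y := (ellRho : ℂ))
    ellI.2 ellRho.2
  simp only [Function.comp_apply, ofComplex_apply] at hconst
  rw [Jfun_ellI, Jfun_ellRho] at hconst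
  norm_num at hconst

end

end Fermat.Agent.S24.JLocal
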