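/-
S24 — package `JLocal`, part 3: local orders of `j` (namespace `Fermat.Agent.S24.JLocal`).

Main result: `jOrdersStatement : JOrdersStatement`:
`j - j(τ)` has order `1` at `τ` unless `j(τ) ∈ {0, 1728}`, `j - 1728` has order `2` at `i`,
`j` has order `3` at `ρ`.  Also `analyticOrderAt_E6_ellI`, `analyticOrderAt_E4_ellRho`
(`E₆` has a simple zero at `i`, `E₄` has a simple zero at `ρ`).
-/
import Fermat.Agent.S24.JLocalDeriv

set_option autoImplicit false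

open UpperHalfPlane ModularForm Complex CongruenceSubgroup ModularGroup EisensteinSeries Derivative
open scoped MatrixGroups Manifold Real Topology

namespace Fermat.Agent.S24.JLocal

open Fermat.Agent.S24

noncomputable section

/-- A holomorphic function on `ℍ`, extended to `ℂ` through `ofComplex`, is analytic at every point
of `ℍ`. -/
theorem analyticAt_comp_ofComplex {F : ℍ → ℂ} (hF : MDifferentiable 𝓘(ℂ) 𝓘(ℂ) F) (τ : ℍ) :
    AnalyticAt ℂ (F ∘ ofComplex) (τ : ℂ) :=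
  (UpperHalfPlane.mdifferentiable_iff.mp hF).analyticAt (isOpen_upperHalfPlaneSet.mem_nhds τ.2)

/-- `E₄ ∘ ofComplex`, `E₆ ∘ ofComplex`, `Δ ∘ ofComplex`, `j ∘ ofComplex` as functions on `ℂ`. -/
def E4c : ℂ → ℂ := (E₄ : ℍ → ℂ) ∘ ofComplex

def E6c : ℂ → ℂ := (E₆ : ℍ → ℂ) ∘ ofComplex

def Dc : ℂ → ℂ := ModularForm.discriminant ∘ ofComplex

def Jc : ℂ → ℂ := Jfun ∘ ofComplex

theorem E4c_coe (τ : ℍ) : E4c (τ : ℂ) = E₄ τ := by
  unfold E4c
  rw [Function.comp_apply, ofComplex_apply]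

theorem E6c_coe (τ : ℍ) : E6c (τ : ℂ) = E₆ τ := by
  unfold E6c
  rw [Function.comp_apply, ofComplex_apply]

theorem Dc_coe (τ : ℍ) : Dc (τ : ℂ) = ModularForm.discriminant τ := by
  unfold Dc
  rw [Function.comp_apply, ofComplex_apply]

theorem Jc_coe (τ : ℍ) : Jc (τ : ℂ) = Jfun τ := by
  unfold Jc
  rw [Function.comp_apply, ofComplex_apply]

theorem E4c_analyticAt (τ : ℍ) : AnalyticAt ℂ E4c (τ : ℂ) :=
  analyticAt_comp_ofComplex E4_mdifferentiable τ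

theorem E6c_analyticAt (τ : ℍ) : AnalyticAt ℂ E6c (τ : ℂ) :=
  analyticAt_comp_ofComplex E6_mdifferentiable τ

theorem Dc_analyticAt (τ : ℍ) : AnalyticAt ℂ Dc (τ : ℂ) :=
  analyticAt_comp_ofComplex discriminant_mdifferentiable τ

theorem Jc_analyticAt (τ : ℍ) : AnalyticAt ℂ Jc (τ : ℂ) :=
  analyticAt_comp_ofComplex Jfun_mdifferentiable τ

theorem Dc_ne_zero (τ : ℍ) : Dc (τ : ℂ) ≠ 0 := by
  rw [Dc_coe]
  exact discriminant_ne_zero τ

theorem Dc_inv_analyticAt (τ : ℍ) : AnalyticAt ℂ Dc⁻¹ (τ : ℂ) :=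
  (Dc_analyticAt τ).inv (Dc_ne_zero τ)

theorem analyticOrderAt_Dc_inv (τ : ℍ) : analyticOrderAt Dc⁻¹ (τ : ℂ) = 0 := by
  rw [(Dc_inv_analyticAt τ).analyticOrderAt_eq_zero, Pi.inv_apply]
  exact inv_ne_zero (Dc_ne_zero τ)

/-- `j = E₄³ Δ⁻¹` as functions on `ℂ`. -/
theorem Jc_eq : Jc = E4c ^ 3 * Dc⁻¹ := by
  funext w
  simp only [Jc, E4c, Dc, Function.comp_apply, Pi.mul_apply, Pi.pow_apply, Pi.inv_apply, Jfun,
    div_eq_mul_inv]

/-- `j - 1728 = E₆² Δ⁻¹` as functions on `ℂ`. -/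
theorem Jc_sub_eq : (fun w => Jc w - 1728) = E6c ^ 2 * Dc⁻¹ := by
  funext w
  simp only [Jc, E6c, Dc, Function.comp_apply, Pi.mul_apply, Pi.pow_apply, Pi.inv_apply,
    Jfun_sub_eq, div_eq_mul_inv]

/-- `j` is not locally constant. -/
theorem analyticOrderAt_Jc_sub_ne_top (τ : ℍ) (a : ℂ) :
    analyticOrderAt (fun w => Jc w - a) (τ : ℂ) ≠ ⊤ := by
  intro h
  rw [analyticOrderAt_eq_top] at h
  have hev : Jc =ᶠ[𝓝 (τ : ℂ)] fun _ => a := by
    filter_upwards [h] with w hw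
    exact sub_eq_zero.mp hw
  have hd : DifferentiableOn ℂ Jc upperHalfPlaneSet :=
    UpperHalfPlane.mdifferentiable_iff.mp Jfun_mdifferentiable
  have han : AnalyticOnNhd ℂ Jc upperHalfPlaneSet := hd.analyticOnNhd isOpen_upperHalfPlaneSet
  have hconst : AnalyticOnNhd ℂ (fun _ : ℂ => a) upperHalfPlaneSet := analyticOnNhd_const
  have heq := han.eqOn_of_preconnected_of_eventuallyEq hconst
    (convex_halfSpace_im_gt 0).isPreconnected τ.2 hev
  have h1 := heq ellI.2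
  have h2 := heq ellRho.2
  simp only [Jc_coe, Jfun_ellI, Jfun_ellRho] at h1 h2
  rw [← h2] at h1
  norm_num at h1

/-- The derivative of `j` near a point of `ℍ`. -/
theorem deriv_Jc_eventuallyEq {K : ℂ}
    (hK : ∀ z : ℍ, deriv (Jfun ∘ ofComplex) (z : ℂ)
      = K * E₄ z ^ 2 * E₆ z / ModularForm.discriminant z) (τ : ℍ) :
    deriv Jc =ᶠ[𝓝 (τ : ℂ)] (fun _ => K) * E4c ^ 2 * E6c * Dc⁻¹ := by
  filter_upwards [isOpen_upperHalfPlaneSet.mem_nhds τ.2] with w hw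
  have h := hK ⟨w, hw⟩
  have hw' : ((⟨w, hw⟩ : ℍ) : ℂ) = w := rfl
  rw [hw'] at h
  have e4 := E4c_coe ⟨w, hw⟩
  have e6 := E6c_coe ⟨w, hw⟩
  have ed := Dc_coe ⟨w, hw⟩
  rw [hw'] at e4 e6 ed
  simp only [Pi.mul_apply, Pi.pow_apply, Pi.inv_apply, e4, e6, ed]
  rw [← div_eq_mul_inv, ← h]
  rfl

/-- The order of `j'` at a point of `ℍ` in terms of the orders of `E₄` and `E₆`. -/
theorem analyticOrderAt_deriv_Jc (τ : ℍ) :
    analyticOrderAt (deriv Jc) (τ : ℂ)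
      = 2 • analyticOrderAt E4c (τ : ℂ) + analyticOrderAt E6c (τ : ℂ) := by
  obtain ⟨K, hK0, hK⟩ := exists_deriv_Jfun
  rw [analyticOrderAt_congr (deriv_Jc_eventuallyEq hK τ)]
  have hconst : AnalyticAt ℂ (fun _ : ℂ => K) (τ : ℂ) := analyticAt_const
  have h4 := E4c_analyticAt τ
  have h6 := E6c_analyticAt τ
  have hd := Dc_inv_analyticAt τ
  have hc0 : analyticOrderAt (fun _ : ℂ => K) (τ : ℂ) = 0 := by
    rw [hconst.analyticOrderAt_eq_zero]
    exact hK0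
  rw [analyticOrderAt_mul ((hconst.mul (h4.pow 2)).mul h6) hd,
    analyticOrderAt_mul (hconst.mul (h4.pow 2)) h6,
    analyticOrderAt_mul hconst (h4.pow 2), analyticOrderAt_pow h4, hc0, analyticOrderAt_Dc_inv,
    zero_add, add_zero]

theorem E4_ne_zero_of_Jfun_ne_zero {τ : ℍ} (h : Jfun τ ≠ 0) : E₄ τ ≠ 0 := by
  intro h0
  apply h
  unfold Jfun
  rw [h0]
  simp

theorem E6_ne_zero_of_Jfun_ne {τ : ℍ} (h : Jfun τ ≠ 1728) : E₆ τ ≠ 0 := by
  intro h0
  apply h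
  have h1 := Jfun_sub_eq τ
  rw [h0] at h1
  simp only [ne_eq, OfNat.ofNat_ne_zero, not_false_eq_true, zero_pow, zero_div] at h1
  exact sub_eq_zero.mp h1

theorem ordAt_Jfun_generic (τ : ℍ) (h0 : Jfun τ ≠ 0) (h1 : Jfun τ ≠ 1728) :
    ordAt τ (fun z => Jfun z - Jfun τ) = 1 := by
  obtain ⟨K, hK0, hK⟩ := exists_deriv_Jfun
  have hderiv : deriv Jc (τ : ℂ) ≠ 0 := by
    have h := hK τ
    change deriv Jc (τ : ℂ) = _ at h
    rw [h]
    exact div_ne_zero (mul_ne_zero (mul_ne_zero hK0 (pow_ne_zero 2 (E4_ne_zero_of_Jfun_ne_zero h0)))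
      (E6_ne_zero_of_Jfun_ne h1)) (discriminant_ne_zero τ)
  have h := (Jc_analyticAt τ).analyticOrderAt_sub_eq_one_of_deriv_ne_zero hderiv
  rw [Jc_coe] at h
  unfold ordAt
  have hfun : (fun z => Jfun z - Jfun τ) ∘ ofComplex = fun w => Jc w - Jfun τ := by
    funext w
    rfl
  rw [hfun, h]
  rfl

/-- `E₆` has a simple zero at `i`. -/
theorem analyticOrderAt_E6_ellI : analyticOrderAt E6c (ellI : ℂ) = 1 := by
  have hJ : (fun w => Jc w - Jc (ellI : ℂ)) = E6c ^ 2 * Dc⁻¹ := by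
    rw [Jc_coe, Jfun_ellI, Jc_sub_eq]
  have h1 := (Jc_analyticAt ellI).analyticOrderAt_deriv_add_one
  have hne := analyticOrderAt_Jc_sub_ne_top ellI (Jc (ellI : ℂ))
  rw [hJ] at h1 hne
  rw [analyticOrderAt_mul ((E6c_analyticAt ellI).pow 2) (Dc_inv_analyticAt ellI),
    analyticOrderAt_pow (E6c_analyticAt ellI), analyticOrderAt_Dc_inv, add_zero] at h1 hne
  rw [analyticOrderAt_deriv_Jc] at h1
  have h4 : analyticOrderAt E4c (ellI : ℂ) = 0 := by
    rw [(E4c_analyticAt ellI).analyticOrderAt_eq_zero, E4c_coe]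
    apply E4_ne_zero_of_Jfun_ne_zero
    rw [Jfun_ellI]
    norm_num
  rw [h4, smul_zero, zero_add] at h1
  have hn : analyticOrderAt E6c (ellI : ℂ) ≠ ⊤ := by
    intro htop
    rw [htop] at hne
    exact hne (by simp)
  obtain ⟨n, hn'⟩ := ENat.ne_top_iff_exists.mp hn
  rw [← hn'] at h1 ⊢
  rw [nsmul_eq_mul] at h1
  norm_cast at h1 ⊢
  omega

/-- `E₄` has a simple zero at `ρ`. -/
theorem analyticOrderAt_E4_ellRho : analyticOrderAt E4c (ellRho : ℂ) = 1 := by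
  have hJ : (fun w => Jc w - Jc (ellRho : ℂ)) = E4c ^ 3 * Dc⁻¹ := by
    rw [Jc_coe, Jfun_ellRho, ← Jc_eq]
    funext w
    simp
  have h1 := (Jc_analyticAt ellRho).analyticOrderAt_deriv_add_one
  have hne := analyticOrderAt_Jc_sub_ne_top ellRho (Jc (ellRho : ℂ))
  rw [hJ] at h1 hne
  rw [analyticOrderAt_mul ((E4c_analyticAt ellRho).pow 3) (Dc_inv_analyticAt ellRho),
    analyticOrderAt_pow (E4c_analyticAt ellRho), analyticOrderAt_Dc_inv, add_zero] at h1 hne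
  rw [analyticOrderAt_deriv_Jc] at h1
  have h6 : analyticOrderAt E6c (ellRho : ℂ) = 0 := by
    rw [(E6c_analyticAt ellRho).analyticOrderAt_eq_zero, E6c_coe]
    apply E6_ne_zero_of_Jfun_ne
    rw [Jfun_ellRho]
    norm_num
  rw [h6, add_zero] at h1
  have hn : analyticOrderAt E4c (ellRho : ℂ) ≠ ⊤ := by
    intro htop
    rw [htop] at hne
    exact hne (by simp)
  obtain ⟨n, hn'⟩ := ENat.ne_top_iff_exists.mp hn
  rw [← hn'] at h1 ⊢
  rw [nsmul_eq_mul, nsmul_eq_mul] at h1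
  norm_cast at h1 ⊢
  omega

theorem ordAt_Jfun_ellI : ordAt ellI (fun z => Jfun z - 1728) = 2 := by
  unfold ordAt
  have hfun : (fun z => Jfun z - 1728) ∘ ofComplex = E6c ^ 2 * Dc⁻¹ := by
    rw [← Jc_sub_eq]
    rfl
  rw [hfun, analyticOrderAt_mul ((E6c_analyticAt ellI).pow 2) (Dc_inv_analyticAt ellI),
    analyticOrderAt_pow (E6c_analyticAt ellI), analyticOrderAt_Dc_inv, add_zero,
    analyticOrderAt_E6_ellI]
  rfl

theorem ordAt_Jfun_ellRho : ordAt ellRho Jfun = 3 := by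
  unfold ordAt
  have hfun : Jfun ∘ ofComplex = E4c ^ 3 * Dc⁻¹ := by
    rw [← Jc_eq]
    rfl
  rw [hfun, analyticOrderAt_mul ((E4c_analyticAt ellRho).pow 3) (Dc_inv_analyticAt ellRho),
    analyticOrderAt_pow (E4c_analyticAt ellRho), analyticOrderAt_Dc_inv, add_zero,
    analyticOrderAt_E4_ellRho]
  rfl

/-- (J2) Local orders of `j`. -/
theorem jOrdersStatement : JOrdersStatement :=
  ⟨ordAt_Jfun_generic, ordAt_Jfun_ellI, ordAt_Jfun_ellRho⟩

end

end Fermat.Agent.S24.JLocal
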