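/-
S24 — package `JLocal` (namespace `Fermat.Agent.S24.JLocal`): umbrella file.

* `Fermat.Agent.S24.JLocal.jBasicStatement : JBasicStatement` (in `JLocalBasic.lean`);
* `Fermat.Agent.S24.JLocal.exists_deriv_Jfun` (in `JLocalDeriv.lean`): `j' = K E₄² E₆ / Δ`, `K ≠ 0`;
* `Fermat.Agent.S24.JLocal.jOrdersStatement : JOrdersStatement` (in `JLocalOrders.lean`).
-/
import Fermat.Agent.S24.JLocalBasic
import Fermat.Agent.S24.JLocalDeriv
import Fermat.Agent.S24.JLocalOrders
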