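/-
S24 package `JSurj`: surjectivity of the modular invariant `j : ℍ → ℂ`.

The image `j(ℍ)` is open (open mapping theorem; `j` is not constant because `j(i) = 1728 ≠ 0 = j(ρ)`)
and closed (every value of `j` is taken on the standard fundamental domain, `|j| → ∞` at `i∞`,
and the truncated fundamental domain is compact), hence it is all of `ℂ`.
-/
import Fermat.Agent.S24.AnalyticInterfaces

set_option autoImplicit false

open UpperHalfPlane ModularForm Complex CongruenceSubgroup ModularGroup Filter Topology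
open scoped MatrixGroups Manifold Real Modular

namespace Fermat.Agent.S24.JSurj

noncomputable section

/-- `E₄ → 1` at `i∞`. -/
theorem tendsto_E4_atImInfty : Tendsto (fun τ : ℍ => E₄ τ) atImInfty (𝓝 (1 : ℂ)) := by
  have han : AnalyticAt ℂ (cuspFunction 1 E₄) 0 :=
    ModularFormClass.analyticAt_cuspFunction_zero E₄ one_pos one_mem_strictPeriods_SL
  have h0 : cuspFunction 1 E₄ 0 = 1 := by
    have := EisensteinSeries.E_qExpansion_coeff_zero (k := 4) (by norm_num) ⟨2, rfl⟩
    simpa [qExpansion_coeff] using this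
  have hq := qParam_tendsto_atImInfty (h := 1) one_pos
  have := han.continuousAt.tendsto.comp hq
  rw [h0] at this
  refine this.congr (fun τ => ?_)
  exact SlashInvariantFormClass.eq_cuspFunction E₄ τ one_mem_strictPeriods_SL one_ne_zero

/-- `|j| → ∞` at `i∞`. -/
theorem tendsto_norm_Jfun_atImInfty : Tendsto (fun τ : ℍ => ‖Jfun τ‖) atImInfty atTop := by
  have h1 : Tendsto (fun τ : ℍ => ‖E₄ τ‖ ^ 3) atImInfty (𝓝 (1 : ℝ)) := by
    have := (tendsto_E4_atImInfty.norm).pow 3
    simpa using this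
  have h2 : Tendsto (fun τ : ℍ => ‖ModularForm.discriminant τ‖) atImInfty (𝓝[>] (0 : ℝ)) := by
    rw [tendsto_nhdsWithin_iff]
    refine ⟨?_, Eventually.of_forall fun τ => ?_⟩
    · have := (ModularForm.discriminant_isZeroAtImInfty : Tendsto _ _ _).norm
      simpa using this
    · exact norm_pos_iff.mpr (ModularForm.discriminant_ne_zero τ)
  have h3 := h1.pos_mul_atTop one_pos h2.inv_tendsto_nhdsGT_zero
  refine h3.congr (fun τ => ?_)
  simp [Jfun, div_eq_mul_inv]

/-- (J3) `j : ℍ → ℂ` is surjective. -/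
theorem jSurjStatement : JBasicStatement → JSurjStatement := by
  rintro ⟨hdiff, hinv, hI, hρ⟩
  set F : ℂ → ℂ := Jfun ∘ ofComplex with hF
  have hFdiff : DifferentiableOn ℂ F {z : ℂ | 0 < z.im} :=
    UpperHalfPlane.mdifferentiable_iff.mp hdiff
  have hFan : AnalyticOnNhd ℂ F {z : ℂ | 0 < z.im} :=
    hFdiff.analyticOnNhd isOpen_upperHalfPlaneSet
  have hFcoe : ∀ τ : ℍ, F (τ : ℂ) = Jfun τ := fun τ => by simp [hF, ofComplex_apply]
  have hrange : Set.range Jfun = F '' {z : ℂ | 0 < z.im} := by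
    ext w
    constructor
    · rintro ⟨τ, rfl⟩
      exact ⟨(τ : ℂ), τ.im_pos, hFcoe τ⟩
    · rintro ⟨z, _, rfl⟩
      exact ⟨ofComplex z, rfl⟩
  have hopen : IsOpen (Set.range Jfun) := by
    rw [hrange]
    rcases hFan.is_constant_or_isOpen (convex_halfSpace_im_gt 0).isPreconnected with ⟨w, hw⟩ | h
    · exfalso
      have e1 : F (ellI : ℂ) = w := hw _ ellI.im_pos
      have e2 : F (ellRho : ℂ) = w := hw _ ellRho.im_pos
      rw [hFcoe, hI] at e1
      rw [hFcoe, hρ] at e2
      rw [← e2] at e1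
      norm_num at e1
    · exact h _ subset_rfl isOpen_upperHalfPlaneSet
  have hclosed : IsClosed (Set.range Jfun) := by
    rw [← closure_subset_iff_isClosed]
    intro c hc
    obtain ⟨A, hA⟩ : ∃ A : ℝ, ∀ τ : ℍ, A ≤ τ.im → ‖c‖ + 1 ≤ ‖Jfun τ‖ := by
      have := tendsto_norm_Jfun_atImInfty.eventually (eventually_ge_atTop (‖c‖ + 1))
      exact (UpperHalfPlane.atImInfty_mem _).mp this
    let K : Set ℂ := Set.Icc (-(1 / 2) : ℝ) (1 / 2) ×ℂ Set.Icc (1 / 2 : ℝ) A
    have hKc : IsCompact K := isCompact_Icc.reProdIm isCompact_Icc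
    have hKsub : K ⊆ {z : ℂ | 0 < z.im} := by
      intro z hz
      have := (Complex.mem_reProdIm.mp hz).2.1
      show 0 < z.im
      linarith
    have hFK : IsCompact (F '' K) := hKc.image_of_continuousOn (hFdiff.continuousOn.mono hKsub)
    have hsub : Set.range Jfun ⊆ F '' K ∪ {w : ℂ | ‖c‖ + 1 ≤ ‖w‖} := by
      rintro _ ⟨τ, rfl⟩
      obtain ⟨g, hg⟩ := exists_smul_mem_fd τ
      rw [← hinv g τ]
      by_cases h : A ≤ (g • τ).im
      · exact Or.inr (hA _ h)
      · refine Or.inl ⟨((g • τ : ℍ) : ℂ), ?_, hFcoe _⟩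
        refine Complex.mem_reProdIm.mpr ⟨?_, ?_, le_of_not_ge h⟩
        · exact abs_le.mp hg.2
        · have h3 := three_le_four_mul_im_sq_of_mem_fd hg
          have hpos := (g • τ).im_pos
          show (1 / 2 : ℝ) ≤ (g • τ).im
          nlinarith
    have hcl : IsClosed (F '' K ∪ {w : ℂ | ‖c‖ + 1 ≤ ‖w‖}) :=
      hFK.isClosed.union (isClosed_le continuous_const continuous_norm)
    rcases closure_minimal hsub hcl hc with ⟨z, _, rfl⟩ | h
    · exact ⟨ofComplex z, rfl⟩
    · exfalso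
      have h' : ‖c‖ + 1 ≤ ‖c‖ := h
      linarith
  have huniv : Set.range Jfun = Set.univ :=
    IsClopen.eq_univ ⟨hclosed, hopen⟩ ⟨_, ⟨ellI, rfl⟩⟩
  intro c
  have hc : c ∈ Set.range Jfun := huniv ▸ Set.mem_univ c
  exact hc

end

end Fermat.Agent.S24.JSurj
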