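/-
S24 (genus of X₀(N)) — package `LemmaP`.

`SL(2, ℤ)`-invariant holomorphic functions on the upper half plane that are meromorphic at `∞`
with `ℚ̄`-rational Laurent coefficients are polynomials in `j` with `ℚ̄`-coefficients.

The proof is by induction on the pole order at `∞`: a function without pole is a modular form of
weight `0` and level `1`, hence constant; in general subtract a multiple of a power of `j` to
lower the pole order.
-/
import Fermat.Agent.S24.AnalyticInterfaces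

set_option autoImplicit false

open UpperHalfPlane ModularForm Complex CongruenceSubgroup ModularGroup
open scoped MatrixGroups Manifold Real

namespace Fermat.Agent.S24.LemmaP

noncomputable section

/-! ## Weight zero, level one: invariant bounded holomorphic functions are constant -/

/-- An `SL(2, ℤ)`-invariant function is invariant under the weight `0` slash action. -/
theorem slash_zero_eq_of_invariant (f : ℍ → ℂ)
    (hinv : ∀ (γ : SL(2, ℤ)) (τ : ℍ), f (γ • τ) = f τ) (γ : SL(2, ℤ)) :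
    f ∣[(0 : ℤ)] γ = f := by
  ext τ
  rw [SL_slash_apply, hinv γ τ]
  simp

/-- The modular form of weight `0` and level `1` attached to an invariant holomorphic function
bounded at `i∞`. -/
def toModularForm (f : ℍ → ℂ) (hol : MDifferentiable 𝓘(ℂ) 𝓘(ℂ) f)
    (hinv : ∀ (γ : SL(2, ℤ)) (τ : ℍ), f (γ • τ) = f τ) (hbdd : IsBoundedAtImInfty f) :
    ModularForm 𝒮ℒ 0 where
  toFun := f
  slash_action_eq' A hA := by
    obtain ⟨A, rfl⟩ := hA
    exact slash_zero_eq_of_invariant f hinv A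
  holo' := hol
  bdd_at_cusps' hc := by
    rw [Subgroup.IsArithmetic.isCusp_iff_isCusp_SL2Z] at hc
    rw [OnePoint.isBoundedAt_iff_forall_SL2Z hc]
    intro γ _
    rw [slash_zero_eq_of_invariant f hinv γ]
    exact hbdd

/-- An `SL(2, ℤ)`-invariant holomorphic function bounded at `i∞` is constant. -/
theorem const_of_invariant_bounded (f : ℍ → ℂ) (hol : MDifferentiable 𝓘(ℂ) 𝓘(ℂ) f)
    (hinv : ∀ (γ : SL(2, ℤ)) (τ : ℍ), f (γ • τ) = f τ) (hbdd : IsBoundedAtImInfty f) :
    ∃ c : ℂ, f = fun _ : ℍ => c := by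
  obtain ⟨c, hc⟩ :=
    ModularFormClass.levelOne_weight_zero_const (toModularForm f hol hinv hbdd)
  exact ⟨c, hc⟩

/-! ## Elementary facts on `IsCuspMerOrder` -/

theorem isCuspMerOrder_zero_bounded {h : ℕ} {f : ℍ → ℂ} (hf : IsCuspMerOrder h 0 f) :
    IsBoundedAtImInfty f := by
  have h3 := hf.2.2
  simpa using h3

theorem isCuspMerOrder_add {h k : ℕ} {f g : ℍ → ℂ} (hf : IsCuspMerOrder h k f)
    (hg : IsCuspMerOrder h k g) : IsCuspMerOrder h k (f + g) := by
  refine ⟨hf.1.add hg.1, ?_, ?_⟩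
  · intro x
    have h1 := hf.2.1 x
    have h2 := hg.2.1 x
    simp only [Function.comp_apply, Pi.add_apply] at h1 h2 ⊢
    rw [h1, h2]
  · have h3 := hf.2.2.add hg.2.2
    have : (fun τ : ℍ => Function.Periodic.qParam (h : ℝ) (τ : ℂ) ^ k * (f + g) τ)
        = (fun τ : ℍ => Function.Periodic.qParam (h : ℝ) (τ : ℂ) ^ k * f τ)
          + (fun τ : ℍ => Function.Periodic.qParam (h : ℝ) (τ : ℂ) ^ k * g τ) := by
      funext τ
      simp only [Pi.add_apply]
      ring
    rw [this]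
    exact h3

theorem isCuspMerOrder_mul {h k l : ℕ} {f g : ℍ → ℂ} (hf : IsCuspMerOrder h k f)
    (hg : IsCuspMerOrder h l g) : IsCuspMerOrder h (k + l) (f * g) := by
  refine ⟨hf.1.mul hg.1, ?_, ?_⟩
  · intro x
    have h1 := hf.2.1 x
    have h2 := hg.2.1 x
    simp only [Function.comp_apply, Pi.mul_apply] at h1 h2 ⊢
    rw [h1, h2]
  · have h3 := hf.2.2.mul hg.2.2
    have : (fun τ : ℍ => Function.Periodic.qParam (h : ℝ) (τ : ℂ) ^ (k + l) * (f * g) τ)
        = (fun τ : ℍ => Function.Periodic.qParam (h : ℝ) (τ : ℂ) ^ k * f τ)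
          * (fun τ : ℍ => Function.Periodic.qParam (h : ℝ) (τ : ℂ) ^ l * g τ) := by
      funext τ
      simp only [Pi.mul_apply]
      ring
    rw [this]
    exact h3

/-! ## Powers of `j` -/

theorem jfun_pow_isCuspMerOrder (hJQ : JQexpStatement) (hQ : QexpStatement) (n : ℕ) :
    IsCuspMerOrder 1 n (Jfun ^ n) := by
  induction n with
  | zero =>
    have h1 := (hQ.1 1 1).1
    rw [pow_zero]
    exact h1
  | succ n ih =>
    rw [pow_succ]
    exact isCuspMerOrder_mul ih hJQ.1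

theorem qexp_jfun_pow (hJQ : JQexpStatement) (hQ : QexpStatement) (n : ℕ) :
    Qexp 1 (Jfun ^ n) = (Qexp 1 Jfun) ^ n := by
  induction n with
  | zero =>
    have h1 := (hQ.1 1 1).2
    rw [pow_zero, pow_zero, show (1 : ℍ → ℂ) = fun _ : ℍ => (1 : ℂ) from rfl, h1, map_one]
  | succ n ih =>
    rw [pow_succ, pow_succ, ← ih]
    exact (hQ.2.1 1 (Jfun ^ n) Jfun ⟨n, jfun_pow_isCuspMerOrder hJQ hQ n⟩ ⟨1, hJQ.1⟩).2.2.2

/-! ## The main induction -/

theorem iotaHom_algebraMap (r : ℚ) : iotaHom (algebraMap ℚ Kbar r) = algebraMap ℚ ℂ r := by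
  rw [eq_ratCast, eq_ratCast, map_ratCast]

theorem main (hJB : JBasicStatement) (hJQ : JQexpStatement) (hQ : QexpStatement) :
    ∀ (k : ℕ) (f : ℍ → ℂ), IsCuspMerOrder 1 k f →
      (∀ (γ : SL(2, ℤ)) (τ : ℍ), f (γ • τ) = f τ) →
      (∀ n : ℤ, (Qexp 1 f).coeff n ∈ Set.range iotaHom) →
      ∃ p : Polynomial Kbar, ∀ τ : ℍ, f τ = (p.map iotaHom).eval (Jfun τ) := by
  intro k
  induction k with
  | zero =>
    intro f hf hinv hcoeff
    obtain ⟨c, rfl⟩ := const_of_invariant_bounded f hf.1 hinv (isCuspMerOrder_zero_bounded hf)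
    have hq := (hQ.1 1 c).2
    obtain ⟨c₀, hc₀⟩ := hcoeff 0
    rw [hq] at hc₀
    refine ⟨Polynomial.C c₀, fun τ => ?_⟩
    rw [Polynomial.map_C, Polynomial.eval_C, hc₀]
    simp
  | succ k ih =>
    intro f hf hinv hcoeff
    obtain ⟨a₀, ha₀⟩ := hcoeff (-((k : ℤ) + 1))
    have hconst := hQ.1 1 (-(iotaHom a₀))
    have hJpow := jfun_pow_isCuspMerOrder hJQ hQ (k + 1)
    have hprod : IsCuspMerOrder 1 (k + 1) ((fun _ : ℍ => -(iotaHom a₀)) * Jfun ^ (k + 1)) := by
      have h1 := isCuspMerOrder_mul hconst.1 hJpow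
      rwa [zero_add] at h1
    have hg1 : IsCuspMerOrder 1 (k + 1) (f + (fun _ : ℍ => -(iotaHom a₀)) * Jfun ^ (k + 1)) :=
      isCuspMerOrder_add hf hprod
    have hQg : Qexp 1 (f + (fun _ : ℍ => -(iotaHom a₀)) * Jfun ^ (k + 1))
        = Qexp 1 f + HahnSeries.C (-(iotaHom a₀))
            * (ModularCurve.coeffMap (algebraMap ℚ ℂ) (ModularCurve.jq ^ (k + 1))) := by
      rw [(hQ.2.1 1 f _ ⟨_, hf⟩ ⟨_, hprod⟩).2.2.1,
        (hQ.2.1 1 _ _ ⟨_, hconst.1⟩ ⟨_, hJpow⟩).2.2.2, hconst.2, qexp_jfun_pow hJQ hQ, hJQ.2,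
        map_pow]
    have hcoeffg : ∀ n : ℤ,
        (Qexp 1 (f + (fun _ : ℍ => -(iotaHom a₀)) * Jfun ^ (k + 1))).coeff n
          = (Qexp 1 f).coeff n
            + (-(iotaHom a₀)) * algebraMap ℚ ℂ ((ModularCurve.jq ^ (k + 1)).coeff n) := by
      intro n
      rw [hQg, HahnSeries.coeff_add, HahnSeries.C_mul_eq_smul, HahnSeries.coeff_smul,
        ModularCurve.coeffMap_coeff, smul_eq_mul]
    have hlead : (Qexp 1 (f + (fun _ : ℍ => -(iotaHom a₀)) * Jfun ^ (k + 1))).coeff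
        (-((k : ℤ) + 1)) = 0 := by
      rw [hcoeffg, ← ha₀, show (-((k : ℤ) + 1)) = -((k + 1 : ℕ) : ℤ) by push_cast; ring,
        ModularCurve.coeff_jq_pow_self, map_one, mul_one, add_neg_cancel]
    have hg0 := hQ.2.2.2.2.1 1 k _ hg1 hlead
    have hginv : ∀ (γ : SL(2, ℤ)) (τ : ℍ),
        (f + (fun _ : ℍ => -(iotaHom a₀)) * Jfun ^ (k + 1)) (γ • τ)
          = (f + (fun _ : ℍ => -(iotaHom a₀)) * Jfun ^ (k + 1)) τ := by
      intro γ τ
      simp only [Pi.add_apply, Pi.mul_apply, Pi.pow_apply, hinv γ τ, hJB.2.1 γ τ]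
    have hgcoeff : ∀ n : ℤ,
        (Qexp 1 (f + (fun _ : ℍ => -(iotaHom a₀)) * Jfun ^ (k + 1))).coeff n
          ∈ Set.range iotaHom := by
      intro n
      rw [hcoeffg]
      obtain ⟨b₀, hb₀⟩ := hcoeff n
      refine ⟨b₀ + (-a₀) * algebraMap ℚ Kbar ((ModularCurve.jq ^ (k + 1)).coeff n), ?_⟩
      rw [map_add, map_mul, map_neg, hb₀, iotaHom_algebraMap]
    obtain ⟨p, hp⟩ := ih _ hg0 hginv hgcoeff
    refine ⟨p + Polynomial.C a₀ * Polynomial.X ^ (k + 1), fun τ => ?_⟩
    have h1 := hp τ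
    simp only [Pi.add_apply, Pi.mul_apply, Pi.pow_apply] at h1
    rw [Polynomial.map_add, Polynomial.eval_add, ← h1, Polynomial.map_mul, Polynomial.map_C,
      Polynomial.map_pow, Polynomial.map_X, Polynomial.eval_mul, Polynomial.eval_C,
      Polynomial.eval_pow, Polynomial.eval_X]
    ring

/-- (P) `SL(2, ℤ)`-invariant holomorphic functions that are meromorphic at `∞` with
`ℚ̄`-rational Laurent coefficients are polynomials in `j` with `ℚ̄`-coefficients. -/
theorem lemmaPStatement : JBasicStatement → JQexpStatement → QexpStatement → LemmaPStatement := by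
  intro hJB hJQ hQ f hf hinv hcoeff
  obtain ⟨k, hk⟩ := hf
  exact main hJB hJQ hQ k f hk hinv hcoeff

end

end Fermat.Agent.S24.LemmaP
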