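/-
S24 package `ModelLemmas`: three abstract lemmas used to build a `ModularModel` from a `PreModel`.
-/
import Fermat.Agent.S24.AnalyticInterfaces

set_option autoImplicit false

open AlgebraicCurve IntermediateField

namespace Fermat.Agent.S24.ModelLemmas

noncomputable section

/-! ## (2) Isomorphic adjoins with the same image in a common overfield -/

/-- If `Φ : L₁ → Ω` and `Ψ : L₂ → Ω` are ring homomorphisms of fields agreeing on `K` and
`Φ '' S₁ = Ψ '' S₂`, then `K(S₁) ≃ K(S₂)` over `K`, compatibly with `Φ` and `Ψ`. -/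
theorem exists_algEquiv_adjoin_of_image_eq {K L₁ L₂ Ω : Type} [Field K] [Field L₁] [Field L₂]
    [Field Ω] [Algebra K L₁] [Algebra K L₂] (Φ : L₁ →+* Ω) (Ψ : L₂ →+* Ω)
    (hK : ∀ c : K, Φ (algebraMap K L₁ c) = Ψ (algebraMap K L₂ c)) (S₁ : Set L₁) (S₂ : Set L₂)
    (hS : Φ '' S₁ = Ψ '' S₂) :
    ∃ θ : ↥(IntermediateField.adjoin K S₁) ≃ₐ[K] ↥(IntermediateField.adjoin K S₂),
      ∀ x : ↥(IntermediateField.adjoin K S₁), Ψ (θ x : L₂) = Φ (x : L₁) := by
  let : Algebra K Ω := (Φ.comp (algebraMap K L₁)).toAlgebra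
  let Φ' : L₁ →ₐ[K] Ω := { Φ with commutes' := fun c => rfl }
  let Ψ' : L₂ →ₐ[K] Ω := { Ψ with commutes' := fun c => (hK c).symm }
  have h : (IntermediateField.adjoin K S₁).map Φ' = (IntermediateField.adjoin K S₂).map Ψ' := by
    rw [IntermediateField.adjoin_map, IntermediateField.adjoin_map]
    exact congrArg _ hS
  let e₁ := IntermediateField.equivMap (IntermediateField.adjoin K S₁) Φ'
  let e₂ := IntermediateField.equivMap (IntermediateField.adjoin K S₂) Ψ'
  refine ⟨e₁.trans ((IntermediateField.equivOfEq h).trans e₂.symm), fun x => ?_⟩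
  have h2 : Ψ' ((e₂.symm (IntermediateField.equivOfEq h (e₁ x)) : IntermediateField.adjoin K S₂) : L₂)
      = ((e₂ (e₂.symm (IntermediateField.equivOfEq h (e₁ x))) :
          (IntermediateField.adjoin K S₂).map Ψ') : Ω) := rfl
  rw [AlgEquiv.apply_symm_apply] at h2
  exact h2

/-! ## (3) The function field of `X₀(N)` over `ℚ̄` is generated by the `j(dτ)`, `d ∣ N` -/

theorem coeffEmb_mem_adjoin_image (S : Set (LaurentSeries ℚ)) {x : LaurentSeries ℚ}
    (hx : x ∈ IntermediateField.adjoin ℚ S) :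
    ModularCurve.coeffEmb Kbar x
      ∈ IntermediateField.adjoin Kbar (⇑(ModularCurve.coeffEmb Kbar) '' S) := by
  induction hx using IntermediateField.adjoin_induction with
  | mem y hy => exact IntermediateField.subset_adjoin Kbar _ ⟨y, hy, rfl⟩
  | algebraMap r =>
    have h : ModularCurve.coeffEmb Kbar (algebraMap ℚ (LaurentSeries ℚ) r)
        = algebraMap Kbar (LaurentSeries Kbar) (algebraMap ℚ Kbar r) := by
      rw [ModularCurve.algebraMap_laurentSeries_eq_single,
        ModularCurve.algebraMap_laurentSeries_eq_single]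
      exact ModularCurve.coeffMap_single _ _ _
    rw [h]
    exact IntermediateField.algebraMap_mem _ _
  | add y z _ _ hy hz => rw [map_add]; exact add_mem hy hz
  | inv y _ hy => rw [map_inv₀]; exact inv_mem hy
  | mul y z _ _ hy hz => rw [map_mul]; exact mul_mem hy hz

theorem modularFunctionFieldBar_eq_adjoin (N : ℕ) [NeZero N] :
    ModularCurve.modularFunctionFieldBar N
      = IntermediateField.adjoin Kbar {x : LaurentSeries Kbar | ∃ d : ℕ, ∃ _ : NeZero d,
          d ∣ N ∧ x = ModularCurve.coeffEmb Kbar (ModularCurve.qExpand ℚ d ModularCurve.jq)} := by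
  have hset : {x : LaurentSeries Kbar | ∃ d : ℕ, ∃ _ : NeZero d,
      d ∣ N ∧ x = ModularCurve.coeffEmb Kbar (ModularCurve.qExpand ℚ d ModularCurve.jq)}
      = ⇑(ModularCurve.coeffEmb Kbar) '' ModularCurve.divisorExpansions N := by
    ext x
    constructor
    · rintro ⟨d, hd, hdN, rfl⟩
      exact ⟨_, ⟨d, hd, hdN, rfl⟩, rfl⟩
    · rintro ⟨y, ⟨d, hd, hdN, rfl⟩, rfl⟩
      exact ⟨d, hd, hdN, rfl⟩
  rw [hset]
  apply le_antisymm
  · show ModularCurve.laurentBaseChange Kbar (ModularCurve.modularFunctionFieldFull N) ≤ _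
    unfold ModularCurve.laurentBaseChange
    rw [IntermediateField.adjoin_le_iff]
    rintro _ ⟨y, hy, rfl⟩
    exact coeffEmb_mem_adjoin_image _ hy
  · show _ ≤ ModularCurve.laurentBaseChange Kbar (ModularCurve.modularFunctionFieldFull N)
    unfold ModularCurve.laurentBaseChange
    apply IntermediateField.adjoin.mono
    apply Set.image_mono
    exact IntermediateField.subset_adjoin ℚ _

/-! ## (1) Places from additive valuations on a domain -/

section AddVal

variable {K R L : Type} [Field K] [CommRing R] [IsDomain R] [Algebra K R] [Field L] [Algebra K L]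
  [Algebra R L] [IsScalarTower K R L] [IsFractionRing R L]

/-- The extension of a function `v : R → ℤ` to the fraction field `L` by
`v (a / b) = v a - v b` (for a chosen representation of each element as a fraction). -/
def extVal (v : R → ℤ) (y : L) : ℤ :=
  v (IsLocalization.sec (nonZeroDivisors R) y).1
    - v ((IsLocalization.sec (nonZeroDivisors R) y).2 : R)

theorem extVal_div (v : R → ℤ)
    (hmul : ∀ x y : R, x ≠ 0 → y ≠ 0 → v (x * y) = v x + v y)
    {a b : R} (ha : a ≠ 0) (hb : b ≠ 0) :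
    extVal (L := L) v (algebraMap R L a / algebraMap R L b) = v a - v b := by
  have hinj : Function.Injective (algebraMap R L) := IsFractionRing.injective R L
  have hbL : algebraMap R L b ≠ 0 := (map_ne_zero_iff _ hinj).mpr hb
  have haL : algebraMap R L a ≠ 0 := (map_ne_zero_iff _ hinj).mpr ha
  set y : L := algebraMap R L a / algebraMap R L b with hy
  set r : R := (IsLocalization.sec (nonZeroDivisors R) y).1 with hr
  set s : R := ((IsLocalization.sec (nonZeroDivisors R) y).2 : R) with hs
  have hspec : y * algebraMap R L s = algebraMap R L r :=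
    IsLocalization.sec_spec (nonZeroDivisors R) y
  have hs0 : s ≠ 0 := nonZeroDivisors.ne_zero (IsLocalization.sec (nonZeroDivisors R) y).2.2
  have hsL : algebraMap R L s ≠ 0 := (map_ne_zero_iff _ hinj).mpr hs0
  have hy0 : y ≠ 0 := div_ne_zero haL hbL
  have hr0 : r ≠ 0 := by
    intro h0
    rw [h0, map_zero] at hspec
    exact mul_ne_zero hy0 hsL hspec
  have hcross : a * s = r * b := by
    apply hinj
    rw [map_mul, map_mul, ← hspec, hy]
    field_simp
  have h1 := hmul a s ha hs0
  have h2 := hmul r b hr0 hb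
  rw [hcross] at h1
  show v r - v s = v a - v b
  omega

theorem exists_div_eq (y : L) (hy : y ≠ 0) :
    ∃ a b : R, a ≠ 0 ∧ b ≠ 0 ∧ y = algebraMap R L a / algebraMap R L b := by
  obtain ⟨a, b, hb, hab⟩ := IsFractionRing.div_surjective (A := R) y
  refine ⟨a, b, ?_, nonZeroDivisors.ne_zero hb, hab.symm⟩
  rintro rfl
  rw [map_zero, zero_div] at hab
  exact hy hab.symm

/-- A nontrivial additive valuation on a domain `R ⊇ K`, trivial on `K`, comes from a place of the
fraction field `L` of `R`. -/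
theorem place_of_addVal (hV : ValuationPlaceStatement) {K R L : Type} [Field K] [CommRing R]
    [IsDomain R] [Algebra K R] [Field L] [Algebra K L] [Algebra R L] [IsScalarTower K R L]
    [IsFractionRing R L] (v : R → ℤ)
    (hmul : ∀ x y : R, x ≠ 0 → y ≠ 0 → v (x * y) = v x + v y)
    (hadd : ∀ x y : R, x ≠ 0 → y ≠ 0 → x + y ≠ 0 → min (v x) (v y) ≤ v (x + y))
    (hK : ∀ c : K, c ≠ 0 → v (algebraMap K R c) = 0) (hnt : ∃ x : R, x ≠ 0 ∧ v x ≠ 0) :
    ∃ (W : Place K L) (e : ℕ), 0 < e ∧
      (∀ x : R, x ≠ 0 → v x = e * W.ord (algebraMap R L x)) ∧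
      (∀ (σ : L ≃ₐ[K] L) (σR : R ≃ₐ[K] R),
        (∀ x : R, σ (algebraMap R L x) = algebraMap R L (σR x)) →
        (∀ x : R, x ≠ 0 → v (σR x) = v x) → σ • W = W) ∧
      (∀ m : ℕ, (∀ x : R, x ≠ 0 → (m : ℤ) ∣ v x) → m ∣ e) := by
  have hinj : Function.Injective (algebraMap R L) := IsFractionRing.injective R L
  have hne : ∀ {a : R}, a ≠ 0 → algebraMap R L a ≠ 0 := fun ha => (map_ne_zero_iff _ hinj).mpr ha
  have hv1 : v 1 = 0 := by
    have h := hmul 1 1 one_ne_zero one_ne_zero
    rw [mul_one] at h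
    omega
  have key : ∀ a b : R, a ≠ 0 → b ≠ 0 →
      extVal (L := L) v (algebraMap R L a / algebraMap R L b) = v a - v b :=
    fun a b ha hb => extVal_div v hmul ha hb
  have keyR : ∀ a : R, a ≠ 0 → extVal (L := L) v (algebraMap R L a) = v a := by
    intro a ha
    have h := key a 1 ha one_ne_zero
    rwa [map_one, div_one, hv1, sub_zero] at h
  have hmulL : ∀ x y : L, x ≠ 0 → y ≠ 0 →
      extVal (R := R) v (x * y) = extVal (R := R) v x + extVal (R := R) v y := by
    intro x y hx hy
    obtain ⟨a, b, ha, hb, rfl⟩ := exists_div_eq (R := R) x hx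
    obtain ⟨c, d, hc, hd, rfl⟩ := exists_div_eq (R := R) y hy
    rw [div_mul_div_comm, ← map_mul, ← map_mul, key _ _ (mul_ne_zero ha hc) (mul_ne_zero hb hd),
      key a b ha hb, key c d hc hd, hmul a c ha hc, hmul b d hb hd]
    ring
  have haddL : ∀ x y : L, x ≠ 0 → y ≠ 0 → x + y ≠ 0 →
      min (extVal (R := R) v x) (extVal (R := R) v y) ≤ extVal (R := R) v (x + y) := by
    intro x y hx hy hxy
    obtain ⟨a, b, ha, hb, rfl⟩ := exists_div_eq (R := R) x hx
    obtain ⟨c, d, hc, hd, rfl⟩ := exists_div_eq (R := R) y hy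
    have hsum : algebraMap R L a / algebraMap R L b + algebraMap R L c / algebraMap R L d
        = algebraMap R L (a * d + c * b) / algebraMap R L (b * d) := by
      have hb' := hne hb
      have hd' := hne hd
      rw [map_add, map_mul, map_mul, map_mul]
      field_simp
    have hnum : a * d + c * b ≠ 0 := by
      intro h0
      rw [hsum, h0, map_zero, zero_div] at hxy
      exact hxy rfl
    rw [hsum, key _ _ hnum (mul_ne_zero hb hd), key a b ha hb, key c d hc hd, hmul b d hb hd]
    have h1 := hadd (a * d) (c * b) (mul_ne_zero ha hd) (mul_ne_zero hc hb) hnum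
    rw [hmul a d ha hd, hmul c b hc hb] at h1
    omega
  have hKL : ∀ c : K, c ≠ 0 → extVal (R := R) v (algebraMap K L c) = 0 := by
    intro c hc
    rw [IsScalarTower.algebraMap_apply K R L,
      keyR _ ((map_ne_zero_iff _ (algebraMap K R).injective).mpr hc), hK c hc]
  have hntL : ∃ x : L, x ≠ 0 ∧ extVal (R := R) v x ≠ 0 := by
    obtain ⟨x, hx, hvx⟩ := hnt
    exact ⟨algebraMap R L x, hne hx, by rw [keyR x hx]; exact hvx⟩
  obtain ⟨W, e, he, hW, hσ⟩ := hV K L (extVal (R := R) v) hmulL haddL hKL hntL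
  refine ⟨W, e, he, ?_, ?_, ?_⟩
  · intro x hx
    rw [← keyR x hx]
    exact hW _ (hne hx)
  · intro σ σR hcomp hinv
    apply hσ
    intro y hy
    obtain ⟨a, b, ha, hb, rfl⟩ := exists_div_eq (R := R) y hy
    have ha' : σR a ≠ 0 := by simpa using ha
    have hb' : σR b ≠ 0 := by simpa using hb
    rw [map_div₀, hcomp, hcomp, key _ _ ha' hb', key a b ha hb, hinv a ha, hinv b hb]
  · intro m hm
    obtain ⟨π, hπ⟩ := IsDiscreteValuationRing.exists_irreducible W.toValuationSubring
    have hπ1 : W.ord (π : L) = 1 := W.ord_coe_irreducible hπ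
    have hπ0 : (π : L) ≠ 0 := by
      intro h
      rw [h, Place.ord_zero] at hπ1
      omega
    obtain ⟨a, b, ha, hb, hab⟩ := exists_div_eq (R := R) (π : L) hπ0
    have h1 := hW _ hπ0
    rw [hπ1, mul_one, hab, key a b ha hb] at h1
    have h2 : (m : ℤ) ∣ (e : ℤ) := by
      rw [← h1]
      exact dvd_sub (hm a ha) (hm b hb)
    exact Int.natCast_dvd_natCast.mp h2

end AddVal

end

end Fermat.Agent.S24.ModelLemmas
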