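/-
S24 — package `ModelAlg` (namespace `Fermat.Agent.S24.ModelAlg`): from the pre-model to the
modular model.  Given `P : PreModel N`, the field `M` is the fraction field of `P.R`, the action
of `SL(2, ℤ)` is the extension of `P.ρ`, `J` is the image of `P.J`, and `F'` is the intermediate
field generated by the images of the `P.Jd d`, `d ∣ N`.
-/
import Fermat.Agent.S24.AnalyticInterfaces
import Fermat.Agent.S24.ModelLemmas

set_option autoImplicit false

open AlgebraicCurve IntermediateField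
open scoped MatrixGroups
open CongruenceSubgroup ModularGroup

namespace Fermat.Agent.S24.ModelAlg

noncomputable section

variable {N : ℕ} [NeZero N] (P : PreModel N)

/-- The fraction field of the pre-model ring. -/
abbrev MM : Type := FractionRing P.R

/-- Extension of automorphisms of `P.R` to the fraction field, as a group homomorphism. -/
def extHom : (P.R ≃ₐ[Kbar] P.R) →* (MM P ≃ₐ[Kbar] MM P) :=
  IsFractionRing.fieldEquivOfAlgEquivHom Kbar (MM P)

theorem extHom_algebraMap (σ : P.R ≃ₐ[Kbar] P.R) (r : P.R) :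
    extHom P σ (algebraMap P.R (MM P) r) = algebraMap P.R (MM P) (σ r) :=
  IsFractionRing.fieldEquivOfAlgEquiv_algebraMap Kbar (MM P) (MM P) σ r

theorem extHom_injective : Function.Injective (extHom P) :=
  IsFractionRing.fieldEquivOfAlgEquivHom_injective Kbar P.R Kbar (MM P)

/-- The action of `SL(2, ℤ)` on the fraction field. -/
def act : SL(2, ℤ) →* (MM P ≃ₐ[Kbar] MM P) := (extHom P).comp P.ρ

theorem act_apply (γ : SL(2, ℤ)) : act P γ = extHom P (P.ρ γ) := rfl

theorem act_algebraMap (γ : SL(2, ℤ)) (r : P.R) :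
    act P γ (algebraMap P.R (MM P) r) = algebraMap P.R (MM P) (P.ρ γ r) :=
  extHom_algebraMap P _ r

theorem act_eq_one_iff (γ : SL(2, ℤ)) : act P γ = 1 ↔ P.ρ γ = 1 := by
  rw [act_apply]
  constructor
  · intro h
    exact extHom_injective P (h.trans (map_one (extHom P)).symm)
  · intro h
    rw [h, map_one]

theorem act_finite_range : Finite (act P).range := by
  have : Finite P.ρ.range := P.finite_range
  have h : ((act P).range : Set (MM P ≃ₐ[Kbar] MM P)) = (extHom P) '' (P.ρ.range : Set _) := by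
    rw [act, MonoidHom.range_comp]
    rfl
  have hfin : ((act P).range : Set (MM P ≃ₐ[Kbar] MM P)).Finite := by
    rw [h]
    exact (Set.toFinite _).image _
  exact hfin.to_subtype

/-- The image of `J` in the fraction field. -/
def JM : MM P := algebraMap P.R (MM P) P.J

theorem JM_transc : Transcendental Kbar (JM P) :=
  (transcendental_algebraMap_iff (IsFractionRing.injective P.R (MM P))).mpr P.J_transc

theorem act_S_sq : act P S ^ 2 = 1 := by
  rw [act_apply, ← map_pow, P.ρ_S_sq, map_one]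

theorem act_ST_cube : act P (S * T) ^ 3 = 1 := by
  rw [act_apply, ← map_pow, P.ρ_ST_cube, map_one]

theorem act_T_pow (k : ℕ) (h : act P T ^ k = 1) : N ∣ k := by
  rw [act_apply, ← map_pow] at h
  exact P.T_order k (extHom_injective P (h.trans (map_one (extHom P)).symm))

/-! ### Fixed elements -/

theorem fixed_of_mem_adjoin {σ : MM P ≃ₐ[Kbar] MM P} {s : Set (MM P)}
    (hs : ∀ y ∈ s, σ y = y) {x : MM P} (hx : x ∈ IntermediateField.adjoin Kbar s) :
    σ x = x := by
  induction hx using IntermediateField.adjoin_induction with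
  | mem y hy => exact hs y hy
  | algebraMap c => exact σ.commutes c
  | add y z _ _ hy hz => rw [map_add, hy, hz]
  | inv y _ hy => rw [map_inv₀, hy]
  | mul y z _ _ hy hz => rw [map_mul, hy, hz]

theorem algebraMap_mem_adjoin_JM {r : P.R} (hr : r ∈ Algebra.adjoin Kbar {P.J}) :
    algebraMap P.R (MM P) r ∈ Kbar⟮JM P⟯ := by
  induction hr using Algebra.adjoin_induction with
  | mem y hy =>
    rw [Set.mem_singleton_iff] at hy
    subst hy
    exact IntermediateField.mem_adjoin_simple_self Kbar (JM P)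
  | algebraMap c =>
    rw [← IsScalarTower.algebraMap_apply Kbar P.R (MM P)]
    exact IntermediateField.algebraMap_mem _ c
  | add y z _ _ hy hz => rw [map_add]; exact add_mem hy hz
  | mul y z _ _ hy hz => rw [map_mul]; exact mul_mem hy hz

theorem act_fixed_of_mem {x : MM P} (hx : x ∈ Kbar⟮JM P⟯) (γ : SL(2, ℤ)) : act P γ x = x := by
  refine fixed_of_mem_adjoin P (fun y hy => ?_) hx
  rw [Set.mem_singleton_iff] at hy
  subst hy
  rw [JM, act_algebraMap]
  congr 1
  exact (P.inv_iff P.J).mpr (Algebra.subset_adjoin (Set.mem_singleton _)) γ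

theorem mem_of_act_fixed {x : MM P} (hx : ∀ γ : SL(2, ℤ), act P γ x = x) : x ∈ Kbar⟮JM P⟯ := by
  classical
  have : Finite P.ρ.range := P.finite_range
  let : Fintype P.ρ.range := Fintype.ofFinite _
  obtain ⟨u, w, hw, rfl⟩ := IsFractionRing.div_surjective (A := P.R) x
  have hw0 : w ≠ 0 := nonZeroDivisors.ne_zero hw
  have hinj : Function.Injective (algebraMap P.R (MM P)) := IsFractionRing.injective P.R (MM P)
  -- the norm of `w`
  set n : P.R := ∏ σ : P.ρ.range, (σ : P.R ≃ₐ[Kbar] P.R) w with hn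
  have hn_inv : ∀ γ : SL(2, ℤ), P.ρ γ n = n := by
    intro γ
    rw [hn, map_prod]
    exact Equiv.prod_comp (Equiv.mulLeft (⟨P.ρ γ, γ, rfl⟩ : P.ρ.range))
      (fun σ : P.ρ.range => (σ : P.R ≃ₐ[Kbar] P.R) w)
  have hn0 : n ≠ 0 := by
    rw [hn, Finset.prod_ne_zero_iff]
    intro σ _
    exact (map_ne_zero_iff _ (σ : P.R ≃ₐ[Kbar] P.R).injective).mpr hw0
  have hwn : w ∣ n := by
    have h := Finset.dvd_prod_of_mem (fun σ : P.ρ.range => (σ : P.R ≃ₐ[Kbar] P.R) w)
      (Finset.mem_univ (1 : P.ρ.range))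
    simpa using h
  obtain ⟨n', hn'⟩ := hwn
  have hwM : algebraMap P.R (MM P) w ≠ 0 := (map_ne_zero_iff _ hinj).mpr hw0
  have hnM : algebraMap P.R (MM P) n ≠ 0 := (map_ne_zero_iff _ hinj).mpr hn0
  have hxn : algebraMap P.R (MM P) u / algebraMap P.R (MM P) w * algebraMap P.R (MM P) n
      = algebraMap P.R (MM P) (u * n') := by
    rw [hn', map_mul, map_mul]
    field_simp
  have hu'_inv : ∀ γ : SL(2, ℤ), P.ρ γ (u * n') = u * n' := by
    intro γ
    apply hinj
    rw [← act_algebraMap, ← hxn, map_mul, hx γ, act_algebraMap, hn_inv γ]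
  have h1 := algebraMap_mem_adjoin_JM P ((P.inv_iff n).mp hn_inv)
  have h2 := algebraMap_mem_adjoin_JM P ((P.inv_iff (u * n')).mp hu'_inv)
  have hx' : algebraMap P.R (MM P) u / algebraMap P.R (MM P) w
      = algebraMap P.R (MM P) (u * n') / algebraMap P.R (MM P) n := by
    rw [← hxn]
    field_simp
  rw [hx']
  exact div_mem h2 h1

theorem fix_iff (x : MM P) : (∀ γ : SL(2, ℤ), act P γ x = x) ↔ x ∈ Kbar⟮JM P⟯ :=
  ⟨mem_of_act_fixed P, act_fixed_of_mem P⟩

/-! ### The intermediate field `F'` and its fixer -/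

/-- The generators of `F'`: the images of the `P.Jd d`, `d ∣ N`. -/
def genSet : Set (MM P) := {x | ∃ d : ℕ, d ∣ N ∧ x = algebraMap P.R (MM P) (P.Jd d)}

/-- The copy of the function field of `X₀(N)` inside `M`. -/
abbrev Fp : IntermediateField Kbar (MM P) := IntermediateField.adjoin Kbar (genSet P)

theorem JM_mem_Fp : JM P ∈ Fp P :=
  IntermediateField.subset_adjoin _ _ ⟨1, one_dvd N, by rw [P.Jd_one]; rfl⟩

theorem fixer_eq : fixer (act P) (Fp P) = Gamma0 N := by
  ext γ
  rw [mem_fixer, ← P.stab_iff γ]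
  constructor
  · intro h d hd
    apply IsFractionRing.injective P.R (MM P)
    rw [← act_algebraMap]
    exact h _ (IntermediateField.subset_adjoin _ _ ⟨d, hd, rfl⟩)
  · intro h x hx
    refine fixed_of_mem_adjoin P ?_ hx
    rintro y ⟨d, hd, rfl⟩
    rw [act_algebraMap, h d hd]

/-! ### The Laurent expansion on `M` and the isomorphism `θ` -/

/-- The extension of the Laurent expansion `P.q` to the fraction field. -/
def qM : MM P →+* LaurentSeries ℂ := IsFractionRing.lift P.q_injective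

theorem qM_algebraMap (r : P.R) : qM P (algebraMap P.R (MM P) r) = P.q r :=
  IsFractionRing.lift_algebraMap _ _

/-- The comparison map `LaurentSeries ℚ̄ → LaurentSeries ℂ`, `f(q) ↦ f^ι(q^N)`. -/
def PhiHom (N : ℕ) [NeZero N] : LaurentSeries Kbar →+* LaurentSeries ℂ :=
  (ModularCurve.qExpand ℂ N).comp (ModularCurve.coeffMap iotaHom)

theorem PhiHom_apply (x : LaurentSeries Kbar) :
    PhiHom N x = ModularCurve.qExpand ℂ N (ModularCurve.coeffMap iotaHom x) := rfl

theorem PhiHom_algebraMap (c : Kbar) :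
    PhiHom N (algebraMap Kbar (LaurentSeries Kbar) c) = qM P (algebraMap Kbar (MM P) c) := by
  rw [IsScalarTower.algebraMap_apply Kbar P.R (MM P), qM_algebraMap, P.q_algebraMap,
    PhiHom_apply, ModularCurve.algebraMap_laurentSeries_eq_single, ModularCurve.coeffMap_single,
    ModularCurve.qExpand_single, mul_zero]
  rfl

theorem qM_Jd (d : ℕ) [NeZero d] (hd : d ∣ N) :
    qM P (algebraMap P.R (MM P) (P.Jd d))
      = PhiHom N (ModularCurve.coeffEmb Kbar (ModularCurve.qExpand ℚ d ModularCurve.jq)) := by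
  rw [qM_algebraMap, P.q_Jd d hd, PhiHom_apply]

theorem qM_JM : qM P (JM P) = PhiHom N (ModularCurve.coeffEmb Kbar ModularCurve.jq) := by
  rw [JM, ← P.Jd_one, qM_Jd P 1 (one_dvd N), ModularCurve.qExpand_one_apply]

theorem exists_theta :
    ∃ θ : ↥(ModularCurve.modularFunctionFieldBar N) ≃ₐ[Kbar] ↥(Fp P),
      θ (jBar N) = ⟨JM P, JM_mem_Fp P⟩ := by
  have hS : PhiHom N '' {x : LaurentSeries Kbar | ∃ d : ℕ, ∃ _ : NeZero d, d ∣ N ∧
      x = ModularCurve.coeffEmb Kbar (ModularCurve.qExpand ℚ d ModularCurve.jq)}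
      = qM P '' genSet P := by
    ext y
    constructor
    · rintro ⟨x, ⟨d, hd0, hd, rfl⟩, rfl⟩
      exact ⟨_, ⟨d, hd, rfl⟩, qM_Jd P d hd⟩
    · rintro ⟨x, ⟨d, hd, rfl⟩, rfl⟩
      have : NeZero d := ⟨fun h => NeZero.ne N (by subst h; simpa using hd)⟩
      exact ⟨_, ⟨d, inferInstance, hd, rfl⟩, (qM_Jd P d hd).symm⟩
  obtain ⟨θ₀, hθ₀⟩ := ModelLemmas.exists_algEquiv_adjoin_of_image_eq (K := Kbar) (PhiHom N) (qM P)
    (PhiHom_algebraMap P) _ (genSet P) hS
  refine ⟨(IntermediateField.equivOfEq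
    (ModelLemmas.modularFunctionFieldBar_eq_adjoin N)).trans θ₀, ?_⟩
  apply Subtype.ext
  apply (qM P).injective
  have h := hθ₀ (IntermediateField.equivOfEq
    (ModelLemmas.modularFunctionFieldBar_eq_adjoin N) (jBar N))
  refine h.trans ?_
  rw [qM_JM]
  rfl

/-! ### The order of `q(J)` -/

theorem q_J_eq : P.q P.J = PhiHom N (ModularCurve.coeffEmb Kbar ModularCurve.jq) := by
  rw [← qM_algebraMap]
  exact qM_JM P

theorem PhiHom_jq_coeff_neg : (PhiHom N (ModularCurve.coeffEmb Kbar ModularCurve.jq)).coeff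
    (-(N : ℤ)) = 1 := by
  have h : (-(N : ℤ)) = (N : ℤ) * (-1) := by ring
  rw [PhiHom_apply, h, ModularCurve.qExpand_coeff_mul, ModularCurve.coeffMap_coeff,
    ModularCurve.coeffEmb_coeff, ModularCurve.coeff_jq_neg_one, map_one, map_one]

theorem PhiHom_jq_coeff_of_lt {m : ℤ} (hm : m < -(N : ℤ)) :
    (PhiHom N (ModularCurve.coeffEmb Kbar ModularCurve.jq)).coeff m = 0 := by
  rw [PhiHom_apply]
  by_cases hdvd : (N : ℤ) ∣ m
  · obtain ⟨k, rfl⟩ := hdvd
    have hN : (0 : ℤ) < N := by exact_mod_cast Nat.pos_of_ne_zero (NeZero.ne N)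
    have hk : k < -1 := by
      by_contra hk
      have hk' := not_lt.mp hk
      nlinarith
    rw [ModularCurve.qExpand_coeff_mul, ModularCurve.coeffMap_coeff,
      ModularCurve.coeffEmb_coeff, ModularCurve.coeff_jq_of_lt hk, map_zero, map_zero]
  · exact ModularCurve.qExpand_coeff_of_not_dvd N _ hdvd

theorem order_q_J : (P.q P.J).order = -(N : ℤ) := by
  rw [q_J_eq]
  apply le_antisymm
  · apply HahnSeries.order_le_of_coeff_ne_zero
    rw [PhiHom_jq_coeff_neg]
    exact one_ne_zero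
  · by_contra hlt
    have hlt := not_le.mp hlt
    have h0 := PhiHom_jq_coeff_of_lt (N := N) hlt
    rw [HahnSeries.coeff_order_eq_zero] at h0
    have h1 := PhiHom_jq_coeff_neg (N := N)
    rw [h0] at h1
    simp at h1

/-! ### Places -/

theorem exists_place_of_val (hV : ValuationPlaceStatement) (v : P.R → ℤ)
    (hmul : ∀ x y : P.R, x ≠ 0 → y ≠ 0 → v (x * y) = v x + v y)
    (hadd : ∀ x y : P.R, x ≠ 0 → y ≠ 0 → x + y ≠ 0 → min (v x) (v y) ≤ v (x + y))
    (hK : ∀ c : Kbar, c ≠ 0 → v (algebraMap Kbar P.R c) = 0)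
    (hnt : ∃ x : P.R, x ≠ 0 ∧ v x ≠ 0) :
    ∃ (W : Place Kbar (MM P)) (e : ℕ), 0 < e ∧
      (∀ x : P.R, x ≠ 0 → v x = e * W.ord (algebraMap P.R (MM P) x)) ∧
      (∀ γ : SL(2, ℤ), (∀ x : P.R, x ≠ 0 → v (P.ρ γ x) = v x) → act P γ • W = W) ∧
      (∀ m : ℕ, (∀ x : P.R, x ≠ 0 → (m : ℤ) ∣ v x) → m ∣ e) := by
  obtain ⟨W, e, he, h1, h2, h3⟩ :=
    ModelLemmas.place_of_addVal hV (K := Kbar) (R := P.R) (L := MM P) v hmul hadd hK hnt
  exact ⟨W, e, he, h1, fun γ hγ => h2 (act P γ) (P.ρ γ) (act_algebraMap P γ) hγ, h3⟩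

theorem exists_place_of_isAddVal (hV : ValuationPlaceStatement) (v : P.R → ℕ) (hv : IsAddVal v)
    (hnt : ∃ x : P.R, x ≠ 0 ∧ v x ≠ 0) :
    ∃ (W : Place Kbar (MM P)) (e : ℕ), 0 < e ∧
      (∀ x : P.R, x ≠ 0 → (v x : ℤ) = e * W.ord (algebraMap P.R (MM P) x)) ∧
      (∀ γ : SL(2, ℤ), (∀ x : P.R, x ≠ 0 → v (P.ρ γ x) = v x) → act P γ • W = W) ∧
      (∀ m : ℕ, (∀ x : P.R, x ≠ 0 → m ∣ v x) → m ∣ e) := by
  obtain ⟨hmul, hadd, hK⟩ := hv
  obtain ⟨W, e, he, h1, h2, h3⟩ := exists_place_of_val P hV (fun x => (v x : ℤ))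
    (fun x y hx hy => by rw [hmul x y hx hy]; push_cast; rfl)
    (fun x y hx hy hxy => by exact_mod_cast hadd x y hx hy hxy)
    (fun c hc => by rw [hK c hc]; rfl)
    (by
      obtain ⟨x, hx0, hx⟩ := hnt
      exact ⟨x, hx0, by simpa using hx⟩)
  refine ⟨W, e, he, h1, fun γ hγ => h2 γ (fun x hx => by rw [hγ x hx]),
    fun m hm => h3 m (fun x hx => by exact_mod_cast hm x hx)⟩

theorem J_sub_ne_zero (c : Kbar) : P.J - algebraMap Kbar P.R c ≠ 0 := by
  intro h
  apply P.J_transc
  rw [sub_eq_zero] at h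
  rw [h]
  exact isAlgebraic_algebraMap c

theorem algebraMap_J_sub (c : Kbar) :
    algebraMap P.R (MM P) (P.J - algebraMap Kbar P.R c) = JM P - algebraMap Kbar (MM P) c := by
  rw [map_sub, ← IsScalarTower.algebraMap_apply Kbar P.R (MM P)]
  rfl

theorem int_arith_one {e : ℕ} {o : ℤ} (he : 0 < e) (h : (1 : ℤ) = e * o) : o = 1 := by
  have he' : (0 : ℤ) < e := by exact_mod_cast he
  have ho : 0 < o := by
    by_contra ho
    have ho' := not_lt.mp ho
    nlinarith
  nlinarith

theorem int_arith_prime {p : ℕ} (hp : p.Prime) {e : ℕ} {o : ℤ} (he : 0 < e)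
    (h : (p : ℤ) = e * o) : (o = 1 ∨ o = p) ∧ (p ∣ e → o = 1) := by
  have he' : (0 : ℤ) < e := by exact_mod_cast he
  have hp' : (0 : ℤ) < p := by exact_mod_cast hp.pos
  have ho : 0 ≤ o := by
    by_contra ho
    have ho' := not_le.mp ho
    nlinarith
  lift o to ℕ using ho
  have h' : p = e * o := by exact_mod_cast h
  constructor
  · rcases (Nat.dvd_prime hp).mp ⟨e, by rw [h', mul_comm]⟩ with h1 | h1
    · left; exact_mod_cast h1
    · right; exact_mod_cast h1
  · rintro ⟨c, rfl⟩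
    have h2 : p * 1 = p * (c * o) := by rw [mul_one, ← mul_assoc]; exact h'
    have h3 := Nat.eq_of_mul_eq_mul_left hp.pos h2
    have h4 : o = 1 := Nat.eq_one_of_mul_eq_one_left h3.symm
    exact_mod_cast h4

theorem place_generic (hV : ValuationPlaceStatement) (c : Kbar) (hc0 : c ≠ 0) (hc : c ≠ 1728) :
    ∃ W : Place Kbar (MM P), W.ord (JM P - algebraMap Kbar (MM P) c) = 1 := by
  obtain ⟨v, hv, hvJ⟩ := P.val_generic c hc0 hc
  obtain ⟨W, e, he, h1, -, -⟩ := exists_place_of_isAddVal P hV v hv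
    ⟨_, J_sub_ne_zero P c, by rw [hvJ]; exact one_ne_zero⟩
  refine ⟨W, ?_⟩
  have h := h1 _ (J_sub_ne_zero P c)
  rw [hvJ, algebraMap_J_sub] at h
  exact int_arith_one he (by exact_mod_cast h)

theorem place_i (hV : ValuationPlaceStatement) :
    ∃ W : Place Kbar (MM P),
      (W.ord (JM P - algebraMap Kbar (MM P) 1728) = 1 ∨
        W.ord (JM P - algebraMap Kbar (MM P) 1728) = 2) ∧
      act P S • W = W ∧ (act P S = 1 → W.ord (JM P - algebraMap Kbar (MM P) 1728) = 1) := by
  obtain ⟨v, hv, hvJ, hvS, hv2⟩ := P.val_i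
  obtain ⟨W, e, he, h1, h2, h3⟩ := exists_place_of_isAddVal P hV v hv
    ⟨_, J_sub_ne_zero P 1728, by rw [hvJ]; norm_num⟩
  refine ⟨W, ?_⟩
  have h := h1 _ (J_sub_ne_zero P 1728)
  rw [hvJ, algebraMap_J_sub] at h
  obtain ⟨ha, hb⟩ := int_arith_prime Nat.prime_two he (by exact_mod_cast h)
  refine ⟨by exact_mod_cast ha, h2 S hvS, fun hS => hb (h3 2 (hv2 ((act_eq_one_iff P S).mp hS)))⟩

theorem place_rho (hV : ValuationPlaceStatement) :
    ∃ W : Place Kbar (MM P),
      (W.ord (JM P) = 1 ∨ W.ord (JM P) = 3) ∧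
      act P (S * T) • W = W ∧ (act P (S * T) = 1 → W.ord (JM P) = 1) := by
  obtain ⟨v, hv, hvJ, hvS, hv3⟩ := P.val_rho
  have hJ0 : P.J ≠ 0 := by
    have h := J_sub_ne_zero P 0
    rwa [map_zero, sub_zero] at h
  obtain ⟨W, e, he, h1, h2, h3⟩ := exists_place_of_isAddVal P hV v hv
    ⟨_, hJ0, by rw [hvJ]; norm_num⟩
  refine ⟨W, ?_⟩
  have h := h1 _ hJ0
  rw [hvJ] at h
  obtain ⟨ha, hb⟩ := int_arith_prime Nat.prime_three he (by exact_mod_cast h)
  refine ⟨by exact_mod_cast ha, h2 (S * T) hvS,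
    fun hS => hb (h3 3 (hv3 ((act_eq_one_iff P (S * T)).mp hS)))⟩

theorem place_infty (hV : ValuationPlaceStatement) :
    ∃ W : Place Kbar (MM P),
      W.ord (JM P) < 0 ∧ - W.ord (JM P) ≤ (N : ℤ) ∧
      act P T • W = W ∧ (∀ k : ℕ, act P T ^ k = 1 → N ∣ k) := by
  have hq0 : ∀ x : P.R, x ≠ 0 → P.q x ≠ 0 := fun x hx =>
    (map_ne_zero_iff _ P.q_injective).mpr hx
  have hJ0 : P.J ≠ 0 := by
    have h := J_sub_ne_zero P 0
    rwa [map_zero, sub_zero] at h
  have hN : (0 : ℤ) < N := by exact_mod_cast Nat.pos_of_ne_zero (NeZero.ne N)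
  obtain ⟨W, e, he, h1, h2, -⟩ := exists_place_of_val P hV (fun x => (P.q x).order)
    (fun x y hx hy => by
      rw [map_mul, HahnSeries.order_mul (hq0 x hx) (hq0 y hy)])
    (fun x y hx hy hxy => by
      rw [map_add]
      exact HahnSeries.min_order_le_order_add (by rw [← map_add]; exact hq0 _ hxy))
    (fun c hc => by
      rw [P.q_algebraMap, HahnSeries.order_C])
    ⟨P.J, hJ0, by
      rw [order_q_J]
      omega⟩
  refine ⟨W, ?_⟩
  have h := h1 _ hJ0
  rw [order_q_J] at h
  have he' : (0 : ℤ) < e := by exact_mod_cast he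
  change -(N : ℤ) = e * W.ord (JM P) at h
  have ho : W.ord (JM P) < 0 := by
    by_contra ho
    have ho' := not_lt.mp ho
    nlinarith
  refine ⟨ho, by nlinarith, h2 T (fun x _ => P.q_T_order x), act_T_pow P⟩

/-! ### The modular model -/

/-- The modular model attached to a pre-model. -/
theorem nonempty_modularModel (P : PreModel N) (hV : ValuationPlaceStatement) :
    Nonempty (ModularModel N) := by
  obtain ⟨θ, hθ⟩ := exists_theta P
  exact ⟨{
    M := MM P
    act := act P
    finite_range := act_finite_range P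
    J := JM P
    J_transc := JM_transc P
    fix_iff := fix_iff P
    F' := Fp P
    J_mem := JM_mem_Fp P
    fixer_eq := fixer_eq P
    θ := θ
    θ_j := hθ
    act_S_sq := act_S_sq P
    act_ST_cube := act_ST_cube P
    place_generic := place_generic P hV
    place_i := place_i P hV
    place_rho := place_rho P hV
    place_infty := place_infty P hV }⟩

end

/-- From the pre-model to the modular model. -/
theorem modularModelStatement :
    PreModelStatement → ValuationPlaceStatement → ModularModelStatement := by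
  intro hP hV N _
  obtain ⟨P⟩ := hP N
  exact nonempty_modularModel P hV

end Fermat.Agent.S24.ModelAlg
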