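/-
S24 — shared basic facts about `AlgebraicCurve.Place.ord` (namespace `Fermat.Agent.S24.OrdBasic`).

For a place `w : Place K F`:
* `ord_nonneg_iff : 0 ≤ w.ord x ↔ x ∈ w.toValuationSubring` (no hypothesis on `x`, as `ord 0 = 0`);
* `ord_lt_zero_iff : w.ord x < 0 ↔ x ∉ w.toValuationSubring`;
* `ord_pos_iff_not_isUnit`, `ord_eq_zero_iff_isUnit`, `ord_pos_iff_mem_maximalIdeal`;
* `ord_add_ge : x + y ≠ 0 → min (w.ord x) (w.ord y) ≤ w.ord (x + y)` and variants;
* `ord_algebraMap : w.ord (algebraMap K F c) = 0`;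
* `ord_neg`, `ord_pow`, `ord_div`, `ord_prod`, `ord_add_eq_of_lt`, ...
-/
import Fermat.Agent.S24.Interfaces

set_option autoImplicit false

open AlgebraicCurve IsDedekindDomain WithZero

namespace Fermat.Agent.S24.OrdBasic

variable {K F : Type*} [Field K] [Field F] [Algebra K F] (w : Place K F)

theorem adicValuation_le_one_of_mem {x : F} (hx : x ∈ w.toValuationSubring) :
    w.adicValuation x ≤ 1 := by
  have h := w.adicValuation_coe ⟨x, hx⟩
  rw [show ((⟨x, hx⟩ : w.toValuationSubring) : F) = x from rfl] at h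
  rw [h]
  exact w.heightOneSpectrum.intValuation_le_one _

theorem mem_of_adicValuation_le_one {x : F} (hx : w.adicValuation x ≤ 1) :
    x ∈ w.toValuationSubring := by
  obtain ⟨a, rfl⟩ := IsDiscreteValuationRing.exists_lift_of_le_one
    (A := w.toValuationSubring) (K := F) hx
  exact a.2

theorem adicValuation_le_one_iff {x : F} :
    w.adicValuation x ≤ 1 ↔ x ∈ w.toValuationSubring :=
  ⟨mem_of_adicValuation_le_one w, adicValuation_le_one_of_mem w⟩

theorem ord_nonneg_of_mem {x : F} (hx : x ∈ w.toValuationSubring) : 0 ≤ w.ord x := by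
  rcases eq_or_ne x 0 with rfl | h0
  · simp
  · have h1 := adicValuation_le_one_of_mem w hx
    have h2 : log (w.adicValuation x) ≤ 0 := by
      rw [log_le_iff_le_exp (w.adicValuation_ne_zero h0)]
      simpa using h1
    unfold Place.ord
    omega

theorem mem_of_ord_nonneg {x : F} (hx : 0 ≤ w.ord x) : x ∈ w.toValuationSubring := by
  rcases eq_or_ne x 0 with rfl | h0
  · exact zero_mem _
  · apply mem_of_adicValuation_le_one
    have h2 : log (w.adicValuation x) ≤ 0 := by
      unfold Place.ord at hx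
      omega
    rw [log_le_iff_le_exp (w.adicValuation_ne_zero h0)] at h2
    simpa using h2

/-- `0 ≤ ord x` iff `x` lies in the valuation ring (no hypothesis on `x`, since `ord 0 = 0`). -/
theorem ord_nonneg_iff {x : F} : 0 ≤ w.ord x ↔ x ∈ w.toValuationSubring :=
  ⟨mem_of_ord_nonneg w, ord_nonneg_of_mem w⟩

theorem ord_lt_zero_iff {x : F} : w.ord x < 0 ↔ x ∉ w.toValuationSubring := by
  rw [← ord_nonneg_iff, not_le]

theorem ne_zero_of_ord_ne_zero {x : F} (hx : w.ord x ≠ 0) : x ≠ 0 := by
  rintro rfl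
  exact hx w.ord_zero

theorem ne_zero_of_ord_pos {x : F} (hx : 0 < w.ord x) : x ≠ 0 :=
  ne_zero_of_ord_ne_zero w hx.ne'

theorem ne_zero_of_ord_neg {x : F} (hx : w.ord x < 0) : x ≠ 0 :=
  ne_zero_of_ord_ne_zero w hx.ne

theorem ord_eq_zero_of_isUnit {a : w.toValuationSubring} (ha : IsUnit a) :
    w.ord (a : F) = 0 := by
  have := w.ord_coe_unit ha.unit
  simpa using this

theorem isUnit_of_ord_eq_zero {a : w.toValuationSubring} (ha : a ≠ 0)
    (h : w.ord (a : F) = 0) : IsUnit a := by
  rw [← w.adicValuation_coe_eq_one_iff]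
  have h0 : (a : F) ≠ 0 := by simpa using ha
  have h2 : log (w.adicValuation (a : F)) = 0 := by
    unfold Place.ord at h
    omega
  have h3 := exp_log (w.adicValuation_ne_zero h0)
  rw [h2] at h3
  simpa using h3.symm

theorem ord_eq_zero_iff_isUnit {a : w.toValuationSubring} (ha : a ≠ 0) :
    w.ord (a : F) = 0 ↔ IsUnit a :=
  ⟨isUnit_of_ord_eq_zero w ha, ord_eq_zero_of_isUnit w⟩

theorem ord_pos_iff_not_isUnit {a : w.toValuationSubring} (ha : a ≠ 0) :
    0 < w.ord (a : F) ↔ ¬ IsUnit a := by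
  rw [← ord_eq_zero_iff_isUnit w ha]
  have := ord_nonneg_of_mem w a.2
  omega

theorem ord_pos_iff_mem_maximalIdeal {a : w.toValuationSubring} (ha : a ≠ 0) :
    0 < w.ord (a : F) ↔ a ∈ IsLocalRing.maximalIdeal w.toValuationSubring := by
  rw [ord_pos_iff_not_isUnit w ha, IsLocalRing.mem_maximalIdeal, mem_nonunits_iff]

/-- Positive order means: in the valuation ring, and a non-unit there. -/
theorem ord_pos_iff {x : F} :
    0 < w.ord x ↔ x ≠ 0 ∧ ∃ hx : x ∈ w.toValuationSubring,
      (⟨x, hx⟩ : w.toValuationSubring) ∈ IsLocalRing.maximalIdeal w.toValuationSubring := by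
  constructor
  · intro h
    have h0 := ne_zero_of_ord_pos w h
    have hx := mem_of_ord_nonneg w h.le
    refine ⟨h0, hx, ?_⟩
    have ha : (⟨x, hx⟩ : w.toValuationSubring) ≠ 0 := by
      intro h'
      exact h0 (congrArg Subtype.val h')
    exact (ord_pos_iff_mem_maximalIdeal w ha).mp h
  · rintro ⟨h0, hx, hm⟩
    have ha : (⟨x, hx⟩ : w.toValuationSubring) ≠ 0 := by
      intro h'
      exact h0 (congrArg Subtype.val h')
    exact (ord_pos_iff_mem_maximalIdeal w ha).mpr hm

theorem ord_neg (x : F) : w.ord (-x) = w.ord x := by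
  unfold Place.ord
  rw [Valuation.map_neg]

theorem ord_sub_comm (x y : F) : w.ord (x - y) = w.ord (y - x) := by
  rw [← ord_neg w (x - y), neg_sub]

theorem ord_pow (x : F) (n : ℕ) : w.ord (x ^ n) = n * w.ord x := by
  have := w.ord_zpow x n
  simpa using this

theorem ord_div {x y : F} (hx : x ≠ 0) (hy : y ≠ 0) : w.ord (x / y) = w.ord x - w.ord y := by
  rw [div_eq_mul_inv, w.ord_mul hx (inv_ne_zero hy), w.ord_inv, sub_eq_add_neg]

/-- The ultrametric inequality for `ord` (only `x + y ≠ 0` is needed, since `ord 0 = 0`). -/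
theorem ord_add_ge {x y : F} (hxy : x + y ≠ 0) : min (w.ord x) (w.ord y) ≤ w.ord (x + y) := by
  rcases eq_or_ne x 0 with rfl | hx
  · simp
  rcases eq_or_ne y 0 with rfl | hy
  · simp
  have h := Valuation.map_add w.adicValuation x y
  have hx' := w.adicValuation_ne_zero hx
  have hy' := w.adicValuation_ne_zero hy
  have hxy' := w.adicValuation_ne_zero hxy
  unfold Place.ord
  rcases le_max_iff.mp h with h1 | h1
  · have := (log_le_log hxy' hx').mpr h1
    apply (min_le_left _ _).trans
    omega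
  · have := (log_le_log hxy' hy').mpr h1
    apply (min_le_right _ _).trans
    omega

theorem ord_sub_ge {x y : F} (hxy : x - y ≠ 0) : min (w.ord x) (w.ord y) ≤ w.ord (x - y) := by
  have h := ord_add_ge w (x := x) (y := -y) (by rwa [← sub_eq_add_neg])
  rwa [ord_neg, ← sub_eq_add_neg] at h

theorem ord_add_eq_of_lt {x y : F} (hx : x ≠ 0) (h : w.ord x < w.ord y) :
    w.ord (x + y) = w.ord x := by
  rcases eq_or_ne y 0 with rfl | hy
  · simp
  have hxy : x + y ≠ 0 := by
    intro h0
    have : x = -y := eq_neg_of_add_eq_zero_left h0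
    rw [this, ord_neg] at h
    exact lt_irrefl _ h
  have h1 := ord_add_ge w hxy
  rw [min_eq_left h.le] at h1
  have h2 : min (w.ord (x + y)) (w.ord y) ≤ w.ord x := by
    have h3 := ord_sub_ge w (x := x + y) (y := y) (by simpa using hx)
    simpa using h3
  rcases min_le_iff.mp h2 with h3 | h3
  · omega
  · omega

theorem ord_sub_eq_of_lt {x y : F} (hx : x ≠ 0) (h : w.ord x < w.ord y) :
    w.ord (x - y) = w.ord x := by
  rw [sub_eq_add_neg]
  exact ord_add_eq_of_lt w hx (by rwa [ord_neg])

/-- Constants have order zero. -/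
theorem ord_algebraMap (c : K) : w.ord (algebraMap K F c) = 0 := by
  rcases eq_or_ne c 0 with rfl | hc
  · simp
  have h1 := ord_nonneg_of_mem w (w.algebraMap_mem' c)
  have h2 := ord_nonneg_of_mem w (w.algebraMap_mem' c⁻¹)
  rw [map_inv₀, w.ord_inv] at h2
  omega

theorem ord_algebraMap_mul (c : K) (hc : c ≠ 0) (x : F) :
    w.ord (algebraMap K F c * x) = w.ord x := by
  rcases eq_or_ne x 0 with rfl | hx
  · simp
  have hc' : algebraMap K F c ≠ 0 := by
    simpa using hc
  rw [w.ord_mul hc' hx, ord_algebraMap, zero_add]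

theorem ord_smul (c : K) (hc : c ≠ 0) (x : F) : w.ord (c • x) = w.ord x := by
  rw [Algebra.smul_def, ord_algebraMap_mul w c hc]

theorem ord_prod {ι : Type*} (s : Finset ι) (f : ι → F) (hf : ∀ i ∈ s, f i ≠ 0) :
    w.ord (∏ i ∈ s, f i) = ∑ i ∈ s, w.ord (f i) := by
  classical
  induction s using Finset.induction_on with
  | empty => simp
  | insert a s ha ih =>
    rw [Finset.prod_insert ha, Finset.sum_insert ha,
      w.ord_mul (hf a (Finset.mem_insert_self a s))
        (Finset.prod_ne_zero_iff.mpr fun i hi => hf i (Finset.mem_insert_of_mem hi)),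
      ih fun i hi => hf i (Finset.mem_insert_of_mem hi)]

/-- If `0 < ord (x - c)` for a constant `c`, then `ord (x - c') = 0` for any other constant. -/
theorem ord_sub_algebraMap_eq_zero {x : F} {c c' : K} (h : 0 < w.ord (x - algebraMap K F c))
    (hc : c ≠ c') : w.ord (x - algebraMap K F c') = 0 := by
  have h1 : x - algebraMap K F c' = algebraMap K F (c - c') + (x - algebraMap K F c) := by
    rw [map_sub]; ring
  have h2 : algebraMap K F (c - c') ≠ 0 := by
    simpa [sub_eq_zero] using hc
  rw [h1, ord_add_eq_of_lt w h2 (by rwa [ord_algebraMap]), ord_algebraMap]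

/-- If `ord x < 0`, then `ord (x - c) = ord x` for any constant `c`. -/
theorem ord_sub_algebraMap_of_neg {x : F} (c : K) (h : w.ord x < 0) :
    w.ord (x - algebraMap K F c) = w.ord x :=
  ord_sub_eq_of_lt w (ne_zero_of_ord_neg w h) (by rwa [ord_algebraMap])

/-- If `0 ≤ ord x`, then `0 ≤ ord (x - c)` for any constant `c`. -/
theorem ord_sub_algebraMap_nonneg {x : F} (c : K) (h : 0 ≤ w.ord x) :
    0 ≤ w.ord (x - algebraMap K F c) := by
  rw [ord_nonneg_iff] at h ⊢
  exact sub_mem h (w.algebraMap_mem' c)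

end Fermat.Agent.S24.OrdBasic
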