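/-
S24 — package `Places`, part 1: places from `ℤ`-valued valuations (`ValuationPlaceStatement`).
-/
import Fermat.Agent.S24.OrdBasic

set_option autoImplicit false

open AlgebraicCurve WithZero
open scoped Pointwise

namespace Fermat.Agent.S24.Places

section ValPlace

variable {K L : Type} [Field K] [Field L] [Algebra K L] (v : L → ℤ)
  (hmul : ∀ x y : L, x ≠ 0 → y ≠ 0 → v (x * y) = v x + v y)
  (hadd : ∀ x y : L, x ≠ 0 → y ≠ 0 → x + y ≠ 0 → min (v x) (v y) ≤ v (x + y))
  (hK : ∀ c : K, c ≠ 0 → v (algebraMap K L c) = 0)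

include hmul in
theorem vp_one : v 1 = 0 := by
  have := hmul 1 1 one_ne_zero one_ne_zero
  rw [mul_one] at this
  omega

include hmul in
theorem vp_inv {x : L} (hx : x ≠ 0) : v x⁻¹ = - v x := by
  have := hmul x x⁻¹ hx (inv_ne_zero hx)
  rw [mul_inv_cancel₀ hx, vp_one v hmul] at this
  omega

include hmul in
theorem vp_pow {x : L} (hx : x ≠ 0) (n : ℕ) : v (x ^ n) = n * v x := by
  induction n with
  | zero => simp [vp_one v hmul]
  | succ n ih =>
    rw [pow_succ, hmul _ _ (pow_ne_zero n hx) hx, ih]
    push_cast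
    ring

include hmul in
theorem vp_zpow {x : L} (hx : x ≠ 0) (n : ℤ) : v (x ^ n) = n * v x := by
  rcases n with n | n
  · simpa using vp_pow v hmul hx n
  · rw [zpow_negSucc, vp_inv v hmul (pow_ne_zero _ hx), vp_pow v hmul hx]
    push_cast
    rw [Int.negSucc_eq]
    ring

open Classical in
/-- The multiplicative valuation attached to `v`. -/
noncomputable def vpVal : Valuation L ℤᵐ⁰ where
  toFun x := if x = 0 then 0 else exp (-(v x))
  map_zero' := by simp
  map_one' := by simp [vp_one v hmul]
  map_mul' x y := by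
    by_cases hx : x = 0
    · simp [hx]
    by_cases hy : y = 0
    · simp [hy]
    simp only [hx, hy, mul_eq_zero, or_self, if_false]
    rw [hmul x y hx hy, neg_add, exp_add]
  map_add_le_max' x y := by
    by_cases hx : x = 0
    · simp [hx]
    by_cases hy : y = 0
    · simp [hy]
    by_cases hxy : x + y = 0
    · simp [hxy]
    simp only [hx, hy, hxy, if_false]
    have := hadd x y hx hy hxy
    rw [le_max_iff, exp_le_exp, exp_le_exp]
    rcases min_le_iff.mp this with h | h
    · left; omega
    · right; omega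

open Classical in
theorem vpVal_apply {x : L} (hx : x ≠ 0) : vpVal v hmul hadd x = exp (-(v x)) := by
  show (if x = 0 then 0 else exp (-(v x))) = _
  rw [if_neg hx]

theorem mem_vpVal_valuationSubring_iff {x : L} :
    x ∈ (vpVal v hmul hadd).valuationSubring ↔ x = 0 ∨ 0 ≤ v x := by
  rw [Valuation.mem_valuationSubring_iff]
  by_cases hx : x = 0
  · simp [hx]
  · rw [vpVal_apply v hmul hadd hx, ← exp_zero, exp_le_exp]
    simp [hx]

/-- The place attached to `v`. -/
noncomputable def vpPlace (hnt : ∃ x : L, x ≠ 0 ∧ v x ≠ 0) : Place K L where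
  toValuationSubring := (vpVal v hmul hadd).valuationSubring
  algebraMap_mem' a := by
    rw [mem_vpVal_valuationSubring_iff]
    by_cases ha : a = 0
    · left; simp [ha]
    · right; rw [hK a ha]
  ne_top' := by
    obtain ⟨x, hx, hvx⟩ := hnt
    intro h
    have h1 : x ∈ (vpVal v hmul hadd).valuationSubring := by rw [h]; exact ValuationSubring.mem_top x
    have h2 : x⁻¹ ∈ (vpVal v hmul hadd).valuationSubring := by
      rw [h]; exact ValuationSubring.mem_top _
    rw [mem_vpVal_valuationSubring_iff] at h1 h2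
    rw [vp_inv v hmul hx] at h2
    rcases h1 with h1 | h1
    · exact hx h1
    rcases h2 with h2 | h2
    · exact inv_ne_zero hx h2
    omega
  isPrincipalIdealRing' := by
    have : IsCyclic (MonoidWithZeroHom.valueGroup (.ofClass (vpVal v hmul hadd))) := inferInstance
    have : Nontrivial (MonoidWithZeroHom.valueGroup (.ofClass (vpVal v hmul hadd))) := by
      obtain ⟨x, hx, hvx⟩ := hnt
      rw [Subgroup.nontrivial_iff_exists_ne_one]
      refine ⟨Units.mk0 (vpVal v hmul hadd x) (by simp [vpVal_apply v hmul hadd hx]), ?_, ?_⟩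
      · apply MonoidWithZeroHom.mem_valueGroup
        exact ⟨x, rfl⟩
      · intro h
        have := congrArg Units.val h
        simp [vpVal_apply v hmul hadd hx] at this
        exact hvx this
    exact Valuation.valuationSubring_isPrincipalIdealRing _

theorem mem_vpPlace_iff (hnt : ∃ x : L, x ≠ 0 ∧ v x ≠ 0) {x : L} :
    x ∈ (vpPlace v hmul hadd hK hnt).toValuationSubring ↔ x = 0 ∨ 0 ≤ v x :=
  mem_vpVal_valuationSubring_iff v hmul hadd

end ValPlace

theorem valuationPlaceStatement : ValuationPlaceStatement := by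
  intro K L _ _ _ v hmul hadd hK hnt
  set W : Place K L := vpPlace v hmul hadd hK hnt with hW
  have hmem : ∀ x : L, x ∈ W.toValuationSubring ↔ x = 0 ∨ 0 ≤ v x :=
    fun x => mem_vpPlace_iff v hmul hadd hK hnt
  obtain ⟨π, hπ⟩ := IsDiscreteValuationRing.exists_irreducible W.toValuationSubring
  have hπ0 : (π : L) ≠ 0 := by
    simpa [ne_eq, ZeroMemClass.coe_eq_zero] using hπ.ne_zero
  -- units have `v = 0`
  have hunit : ∀ u : W.toValuationSubringˣ, v ((u : W.toValuationSubring) : L) = 0 := by
    intro u
    have h1 := (hmem _).mp (u : W.toValuationSubring).2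
    have h2 := (hmem _).mp ((u⁻¹ : W.toValuationSubringˣ) : W.toValuationSubring).2
    have hu0 : ((u : W.toValuationSubring) : L) ≠ 0 := by simp
    have hinv : (((u⁻¹ : W.toValuationSubringˣ) : W.toValuationSubring) : L)
        = ((u : W.toValuationSubring) : L)⁻¹ := by
      apply eq_inv_of_mul_eq_one_left
      rw [← MulMemClass.coe_mul, Units.inv_mul, OneMemClass.coe_one]
    rw [hinv, vp_inv v hmul hu0] at h2
    rcases h1 with h1 | h1
    · exact absurd h1 hu0
    rcases h2 with h2 | h2
    · exact absurd h2 (inv_ne_zero hu0)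
    omega
  have hvπ_pos : 0 < v π := by
    have h1 := (hmem _).mp π.2
    rcases h1 with h1 | h1
    · exact absurd h1 hπ0
    by_contra hle
    have h0 : v π = 0 := by omega
    have hinv : (π : L)⁻¹ ∈ W.toValuationSubring :=
      (hmem _).mpr (Or.inr (by rw [vp_inv v hmul hπ0]; omega))
    have : IsUnit π := by
      refine isUnit_iff_exists_inv.mpr ⟨⟨(π : L)⁻¹, hinv⟩, ?_⟩
      ext
      simp [hπ0]
    exact hπ.not_isUnit this
  refine ⟨W, (v π).toNat, by omega, ?_, ?_⟩
  · intro x hx
    obtain ⟨u, hu⟩ := W.exists_unit_mul_zpow hx hπ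
    have hu0 : ((u : W.toValuationSubring) : L) ≠ 0 := by simp
    have h1 : v x = v (((u : W.toValuationSubring) : L) * (π : L) ^ W.ord x) := congrArg v hu
    rw [h1, hmul _ _ hu0 (zpow_ne_zero _ hπ0), hunit, vp_zpow v hmul hπ0,
      Int.toNat_of_nonneg hvπ_pos.le]
    ring
  · intro σ hσ
    apply Place.ext
    rw [Place.smul_toValuationSubring]
    ext x
    rw [ValuationSubring.mem_pointwise_smul_iff_inv_smul_mem, hmem, hmem]
    have hx : σ⁻¹ • x = σ.symm x := rfl
    rw [hx]
    have h1 : σ.symm x = 0 ↔ x = 0 := by simp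
    rw [h1]
    by_cases hx0 : x = 0
    · simp [hx0]
    · have h2 : v (σ.symm x) = v x := by
        have := hσ (σ.symm x) (by simpa using hx0)
        simpa using this.symm
      rw [h2]

end Fermat.Agent.S24.Places
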