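/-
S24 — package `Places`, parts 2–4: every place of a function field of one variable over an
algebraically closed field has a centre (`CenterStatement`) and degree one (`DegOneStatement`);
principal divisors have finite support and degree zero (`PrincipalStatement`, from
`ZerosStatement` and `PolesStatement`).  Part 1 (`valuationPlaceStatement`) is in `ValPlace.lean`.
-/
import Fermat.Agent.S24.ValPlace

set_option autoImplicit false

open AlgebraicCurve IntermediateField Polynomial

namespace Fermat.Agent.S24.Places

theorem isAlgebraic_adjoin_simple_swap {K F : Type*} [Field K] [Field F] [Algebra K F] {t a : F}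
    (ht : Transcendental K t) (ha : Transcendental K a) (h : IsAlgebraic K⟮t⟯ a) :
    IsAlgebraic K⟮a⟯ t := by
  have h2 : IsAlgebraic (Algebra.adjoin K {t}) a := IntermediateField.isAlgebraic_adjoin_iff.mp h
  have h3 := IsAlgebraic.adjoin_singleton ht ha h2
  exact IntermediateField.isAlgebraic_adjoin_iff.mpr h3

/-- If `F` is finite over `K(t)` with `t` transcendental, then `F` is finite over `K(a)` for
every transcendental `a`. -/
theorem finiteDimensional_adjoin_of_transcendental {K F : Type*} [Field K] [Field F]
    [Algebra K F] {t a : F} (ht : Transcendental K t) (hfin : FiniteDimensional K⟮t⟯ F)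
    (ha : Transcendental K a) : FiniteDimensional K⟮a⟯ F := by
  have halg : IsAlgebraic K⟮a⟯ t :=
    isAlgebraic_adjoin_simple_swap ht ha (Algebra.IsAlgebraic.isAlgebraic a)
  let Fat := restrictScalars K K⟮a⟯⟮t⟯
  let Fta := restrictScalars K K⟮t⟯⟮a⟯
  let : Algebra K⟮a⟯ Fat := K⟮a⟯⟮t⟯.algebra
  let : Module K⟮a⟯ Fat := Algebra.toModule
  let : SMul K⟮a⟯ Fat := Algebra.toSMul
  let : Algebra K⟮t⟯ Fta := K⟮t⟯⟮a⟯.algebra
  let : Module K⟮t⟯ Fta := Algebra.toModule
  let : SMul K⟮t⟯ Fta := Algebra.toSMul
  have : FiniteDimensional K⟮a⟯ Fat :=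
    adjoin.finiteDimensional (isAlgebraic_iff_isIntegral.mp halg)
  have : FiniteDimensional Fat F := by
    unfold Fat
    rw [adjoin_simple_comm]
    have : IsScalarTower K⟮t⟯ Fta F := isScalarTower_mid' K⟮t⟯⟮a⟯
    exact .right K⟮t⟯ Fta F
  have : IsScalarTower K⟮a⟯ Fat F := isScalarTower_mid' K⟮a⟯⟮t⟯
  exact .trans K⟮a⟯ Fat F

section Center

variable {K F : Type*} [Field K] [Field F] [Algebra K F]

/-- An element of a field extension of an algebraically closed field `K` which is algebraic
over `K` is a constant. -/
theorem exists_algebraMap_eq_of_isAlgebraic [IsAlgClosed K] {k : Type*} [Field k] [Algebra K k]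
    {x : k} (hx : IsAlgebraic K x) : ∃ c : K, algebraMap K k c = x := by
  have : Algebra.IsAlgebraic K K⟮x⟯ := by
    rw [IntermediateField.isAlgebraic_adjoin_iff_isAlgebraic]
    rintro y hy
    rw [Set.mem_singleton_iff] at hy
    rw [hy]
    exact hx
  have h := IntermediateField.eq_bot_of_isAlgClosed_of_isAlgebraic K⟮x⟯
  have hx' : x ∈ K⟮x⟯ := mem_adjoin_simple_self K x
  rw [h, IntermediateField.mem_bot] at hx'
  exact hx'

variable (w : Place K F)

/-- If the residue class of `a` is transcendental over `K`, then every nonzero polynomial in `a`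
is a unit of the valuation ring. -/
theorem isUnit_aeval_of_transcendental_residue (a : w.toValuationSubring)
    (ha : Transcendental K (IsLocalRing.residue w.toValuationSubring a)) (p : K[X]) (hp : p ≠ 0) :
    IsUnit (aeval a p) := by
  rw [← IsLocalRing.residue_ne_zero_iff_isUnit]
  have h1 : IsLocalRing.residue w.toValuationSubring (aeval a p)
      = aeval (IsLocalRing.residue w.toValuationSubring a) p := by
    have := Polynomial.aeval_algHom_apply
      (IsScalarTower.toAlgHom K w.toValuationSubring w.ResidueField) a p
    exact this.symm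
  rw [h1]
  intro h0
  exact hp (transcendental_iff.mp ha p h0)

theorem coe_aeval (a : w.toValuationSubring) (p : K[X]) :
    ((aeval a p : w.toValuationSubring) : F) = aeval (a : F) p := by
  have := Polynomial.aeval_algHom_apply
      (IsScalarTower.toAlgHom K w.toValuationSubring F) a p
  exact this.symm

/-- Key step: the residue class of every element of the valuation ring is a constant. -/
theorem exists_residue_eq [IsAlgClosed K] {t : F} (ht : Transcendental K t)
    (hfin : FiniteDimensional K⟮t⟯ F) (a : w.toValuationSubring) :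
    ∃ c : K, algebraMap K w.ResidueField c = IsLocalRing.residue w.toValuationSubring a := by
  by_contra hcon
  have htr : Transcendental K (IsLocalRing.residue w.toValuationSubring a) := by
    intro halg
    exact hcon (exists_algebraMap_eq_of_isAlgebraic halg)
  have hunit := isUnit_aeval_of_transcendental_residue w a htr
  -- `a` is transcendental
  have haF : Transcendental K (a : F) := by
    rw [transcendental_iff]
    intro p hp
    by_contra hp0
    have h1 := (hunit p hp0).ne_zero
    apply h1
    ext
    rw [coe_aeval, hp]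
    rfl
  -- `K(a)` is contained in the valuation ring
  have hsub : ∀ x ∈ K⟮(a : F)⟯, x ∈ w.toValuationSubring := by
    intro x hx
    obtain ⟨r, s, rfl⟩ := (mem_adjoin_simple_iff K x).mp hx
    by_cases hs : s = 0
    · simp [hs]
    · obtain ⟨u, hu⟩ := hunit s hs
      have h1 : aeval (a : F) s = ((u : w.toValuationSubring) : F) := by
        rw [hu, coe_aeval]
      have h2 : (aeval (a : F) s)⁻¹ = (((u⁻¹ : w.toValuationSubringˣ) : w.toValuationSubring) : F) := by
        rw [h1]
        symm
        apply eq_inv_of_mul_eq_one_left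
        rw [← MulMemClass.coe_mul, Units.inv_mul, OneMemClass.coe_one]
      rw [div_eq_mul_inv, h2, ← coe_aeval]
      exact mul_mem (Subtype.mem _) (Subtype.mem _)
  -- `F` is integral over `K(a)`, hence over the valuation ring
  have hfin' : FiniteDimensional K⟮(a : F)⟯ F := finiteDimensional_adjoin_of_transcendental ht hfin haF
  apply w.ne_top'
  rw [eq_top_iff]
  intro x _
  have hx : IsIntegral K⟮(a : F)⟯ x := Algebra.IsIntegral.isIntegral x
  let φ : K⟮(a : F)⟯ →+* w.toValuationSubring :=
    { toFun := fun y => ⟨y.1, hsub y.1 y.2⟩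
      map_one' := rfl
      map_mul' := fun _ _ => rfl
      map_zero' := rfl
      map_add' := fun _ _ => rfl }
  let : Algebra K⟮(a : F)⟯ w.toValuationSubring := φ.toAlgebra
  have : IsScalarTower K⟮(a : F)⟯ w.toValuationSubring F :=
    IsScalarTower.of_algebraMap_eq (fun _ => rfl)
  have hx' : IsIntegral w.toValuationSubring x := hx.tower_top
  obtain ⟨y, rfl⟩ := IsIntegrallyClosed.isIntegral_iff.mp hx'
  exact y.2

end Center

theorem centerStatement : CenterStatement := by
  intro K F _ _ _ _ _ t ht hfin w hw
  have hmem : t ∈ w.toValuationSubring := (OrdBasic.ord_nonneg_iff w).mp hw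
  obtain ⟨c, hc⟩ := exists_residue_eq w ht hfin ⟨t, hmem⟩
  refine ⟨c, ?_⟩
  have hne : t - algebraMap K F c ≠ 0 := by
    intro h
    apply ht
    rw [sub_eq_zero.mp h]
    exact isAlgebraic_algebraMap c
  have hmem' : t - algebraMap K F c ∈ w.toValuationSubring :=
    sub_mem hmem (w.algebraMap_mem' c)
  rw [OrdBasic.ord_pos_iff]
  refine ⟨hne, hmem', ?_⟩
  rw [← IsLocalRing.residue_eq_zero_iff]
  have h1 : (⟨t - algebraMap K F c, hmem'⟩ : w.toValuationSubring)
      = ⟨t, hmem⟩ - algebraMap K w.toValuationSubring c := rfl
  rw [h1, map_sub, ← hc]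
  exact sub_self _

theorem degOneStatement : DegOneStatement := by
  intro K F _ _ _ _ _ t ht hfin w
  have hsurj : Function.Surjective (algebraMap K w.ResidueField) := by
    intro x
    obtain ⟨a, rfl⟩ := IsLocalRing.residue_surjective x
    exact exists_residue_eq w ht hfin a
  have hinj : Function.Injective (algebraMap K w.ResidueField) :=
    (algebraMap K w.ResidueField).injective
  let e : K ≃ₗ[K] w.ResidueField :=
    LinearEquiv.ofBijective (Algebra.linearMap K w.ResidueField) ⟨hinj, hsurj⟩
  unfold Place.deg
  rw [← e.finrank_eq, Module.finrank_self]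

theorem principalStatement : ZerosStatement → PolesStatement → PrincipalStatement := by
  intro hZ hP K F _ _ _ _ _ t ht hfin f hf
  by_cases hfalg : IsAlgebraic K f
  · obtain ⟨c, rfl⟩ := exists_algebraMap_eq_of_isAlgebraic hfalg
    have h0 : ∀ w : Place K F, w.ord (algebraMap K F c) = 0 :=
      fun w => OrdBasic.ord_algebraMap w c
    constructor
    · have : {w : Place K F | w.ord (algebraMap K F c) ≠ 0} = ∅ := by
        ext w
        simp [h0 w]
      rw [this]
      exact Set.finite_empty
    · simp [h0]
  · have hftr : Transcendental K f := hfalg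
    have hfin' : FiniteDimensional K⟮f⟯ F :=
      finiteDimensional_adjoin_of_transcendental ht hfin hftr
    obtain ⟨hZfin, hZsum⟩ := hZ K F f hftr hfin' 0
    obtain ⟨hPfin, hPsum⟩ := hP K F f hftr hfin'
    simp only [map_zero, sub_zero] at hZfin hZsum
    have hset : {w : Place K F | w.ord f ≠ 0}
        = {w : Place K F | 0 < w.ord f} ∪ {w : Place K F | w.ord f < 0} := by
      ext w
      simp only [Set.mem_ofPred_eq, Set.mem_union]
      omega
    have hdisj : Disjoint {w : Place K F | 0 < w.ord f} {w : Place K F | w.ord f < 0} := by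
      rw [Set.disjoint_left]
      intro w h1 h2
      simp only [Set.mem_ofPred_eq] at h1 h2
      omega
    constructor
    · rw [hset]
      exact hZfin.union hPfin
    · have h1 : ∑ᶠ w : Place K F, w.ord f
          = ∑ᶠ w ∈ {w : Place K F | w.ord f ≠ 0}, w.ord f :=
        (finsum_mem_support fun w : Place K F => w.ord f).symm
      have h2 : ∑ᶠ w ∈ {w : Place K F | w.ord f < 0}, w.ord f
          = - ∑ᶠ w ∈ {w : Place K F | w.ord f < 0}, (- w.ord f) := by
        rw [finsum_mem_neg_distrib _ hPfin, neg_neg]
      rw [h1, hset, finsum_mem_union hdisj hZfin hPfin, hZsum, h2, hPsum]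
      ring

end Fermat.Agent.S24.Places
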