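/-
S24 (genus of X₀(N)) — package `PointVal`.

Orders of vanishing at points of the upper half plane as valuations; behaviour under the
`SL(2, ℤ)`-action and at the elliptic points `i` and `ρ`.

Main result: `Fermat.Agent.S24.PointVal.pointValStatement : PointValStatement`.
-/
import Fermat.Agent.S24.AnalyticInterfaces

set_option autoImplicit false

open UpperHalfPlane ModularForm Complex CongruenceSubgroup ModularGroup Filter
open scoped MatrixGroups Manifold Real Topology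

namespace Fermat.Agent.S24.PointVal

noncomputable section

/-! ## Analyticity and finiteness of the order -/

/-- A holomorphic function on `ℍ` gives a function `f ∘ ofComplex` analytic at the points of `ℍ`. -/
theorem analyticAt_comp_ofComplex {f : ℍ → ℂ} (hf : MDifferentiable 𝓘(ℂ) 𝓘(ℂ) f) (τ : ℍ) :
    AnalyticAt ℂ (f ∘ ofComplex) (τ : ℂ) :=
  ((UpperHalfPlane.mdifferentiable_iff.mp hf).analyticOnNhd isOpen_upperHalfPlaneSet) _ τ.im_pos

/-- Identity theorem: a nonzero holomorphic function on `ℍ` has finite order at every point. -/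
theorem order_ne_top {f : ℍ → ℂ} (hf : MDifferentiable 𝓘(ℂ) 𝓘(ℂ) f) (hne : f ≠ 0) (τ : ℍ) :
    analyticOrderAt (f ∘ ofComplex) (τ : ℂ) ≠ ⊤ := by
  intro htop
  apply hne
  rw [analyticOrderAt_eq_top] at htop
  have han := (UpperHalfPlane.mdifferentiable_iff.mp hf).analyticOnNhd isOpen_upperHalfPlaneSet
  have hpre : IsPreconnected {z : ℂ | 0 < z.im} :=
    (Complex.isConnected_of_upperHalfPlane subset_rfl (by grind)).isPreconnected
  have hzero := han.eqOn_zero_of_preconnected_of_eventuallyEq_zero hpre τ.im_pos htop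
  funext w
  have := hzero w.im_pos
  simpa using this

/-! ## The valuation properties -/

theorem ordAt_mul (τ₀ : ℍ) {f g : ℍ → ℂ} (hf : MDifferentiable 𝓘(ℂ) 𝓘(ℂ) f)
    (hg : MDifferentiable 𝓘(ℂ) 𝓘(ℂ) g) (hf0 : f ≠ 0) (hg0 : g ≠ 0) :
    ordAt τ₀ (f * g) = ordAt τ₀ f + ordAt τ₀ g := by
  unfold ordAt
  have e : (f * g) ∘ ofComplex = (f ∘ ofComplex) * (g ∘ ofComplex) := rfl
  rw [e, analyticOrderAt_mul (analyticAt_comp_ofComplex hf τ₀) (analyticAt_comp_ofComplex hg τ₀),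
    ENat.toNat_add (order_ne_top hf hf0 τ₀) (order_ne_top hg hg0 τ₀)]

theorem ordAt_add (τ₀ : ℍ) {f g : ℍ → ℂ} (hf : MDifferentiable 𝓘(ℂ) 𝓘(ℂ) f)
    (hg : MDifferentiable 𝓘(ℂ) 𝓘(ℂ) g) (hf0 : f ≠ 0) (hg0 : g ≠ 0) (hfg : f + g ≠ 0) :
    min (ordAt τ₀ f) (ordAt τ₀ g) ≤ ordAt τ₀ (f + g) := by
  unfold ordAt
  have h := le_analyticOrderAt_add (f := f ∘ ofComplex) (g := g ∘ ofComplex) (z₀ := (τ₀ : ℂ))
  have e : (f + g) ∘ ofComplex = (f ∘ ofComplex) + (g ∘ ofComplex) := rfl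
  obtain ⟨a, ha⟩ := ENat.ne_top_iff_exists.mp (order_ne_top hf hf0 τ₀)
  obtain ⟨b, hb⟩ := ENat.ne_top_iff_exists.mp (order_ne_top hg hg0 τ₀)
  obtain ⟨c, hc⟩ := ENat.ne_top_iff_exists.mp (order_ne_top (hf.add hg) hfg τ₀)
  rw [e] at hc ⊢
  rw [← ha, ← hb, ← hc] at h
  rw [← ha, ← hb, ← hc]
  simp only [ENat.toNat_natCast]
  rcases min_le_iff.mp h with h | h
  · exact min_le_of_left_le (by exact_mod_cast h)
  · exact min_le_of_right_le (by exact_mod_cast h)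

theorem ordAt_eq_zero (τ₀ : ℍ) {f : ℍ → ℂ} (hf : MDifferentiable 𝓘(ℂ) 𝓘(ℂ) f)
    (h : f τ₀ ≠ 0) : ordAt τ₀ f = 0 := by
  unfold ordAt
  rw [(analyticAt_comp_ofComplex hf τ₀).analyticOrderAt_eq_zero.mpr (by simpa using h)]
  rfl

/-! ## The action of `SL(2, ℤ)` -/

theorem det_eq_one (γ : SL(2, ℤ)) :
    ((γ : GL (Fin 2) ℝ) : Matrix (Fin 2) (Fin 2) ℝ).det = 1 :=
  (Matrix.SpecialLinearGroup.map (Int.castRingHom ℝ) γ).det_coe

theorem det_pos (γ : SL(2, ℤ)) : 0 < ((γ : GL (Fin 2) ℝ) : Matrix (Fin 2) (Fin 2) ℝ).det := by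
  rw [det_eq_one]; exact one_pos

theorem mdifferentiable_comp_smul (γ : SL(2, ℤ)) {f : ℍ → ℂ}
    (hf : MDifferentiable 𝓘(ℂ) 𝓘(ℂ) f) :
    MDifferentiable 𝓘(ℂ) 𝓘(ℂ) (fun τ : ℍ => f (γ • τ)) :=
  hf.comp (UpperHalfPlane.mdifferentiable_smul (g := (γ : GL (Fin 2) ℝ)) (det_pos γ))

theorem comp_smul_comp_ofComplex (γ : SL(2, ℤ)) (f : ℍ → ℂ) :
    (fun τ : ℍ => f (γ • τ)) ∘ ofComplex
      = (f ∘ ofComplex) ∘ (fun z : ℂ => (((γ : GL (Fin 2) ℝ) • ofComplex z : ℍ) : ℂ)) := by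
  funext z
  simp [Function.comp_def, ofComplex_apply]

theorem ordAt_comp_smul (τ₀ : ℍ) (γ : SL(2, ℤ)) (f : ℍ → ℂ) :
    ordAt τ₀ (fun τ : ℍ => f (γ • τ)) = ordAt (γ • τ₀) f := by
  unfold ordAt
  rw [comp_smul_comp_ofComplex,
    analyticOrderAt_comp_of_deriv_ne_zero (τ₀.analyticAt_smul (det_pos γ))
      (τ₀.deriv_smul_ne_zero (det_pos γ))]
  simp [ofComplex_apply]

/-! ## The rotation lemma -/

/-- Rotation lemma: if `g` fixes `z₀` with derivative `ζ` there, and `F` is analytic at `z₀` of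
finite order `n` and invariant under `g` near `z₀`, then `ζ ^ n = 1`. -/
theorem rotation_pow_eq_one {F g : ℂ → ℂ} {z₀ ζ : ℂ} {n : ℕ}
    (hg : HasDerivAt g ζ z₀) (hgz : g z₀ = z₀)
    (hF : AnalyticAt ℂ F z₀) (hn : analyticOrderAt F z₀ = n)
    (hinv : ∀ᶠ z in 𝓝 z₀, F (g z) = F z) : ζ ^ n = 1 := by
  obtain ⟨G, hG, hG0, hFG⟩ := hF.analyticOrderAt_eq_natCast.mp hn
  have hgh : ∀ z, g z - z₀ = (z - z₀) * dslope g z₀ z := by
    intro z
    have h := sub_smul_dslope g z₀ z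
    rw [hgz] at h
    rw [← h, smul_eq_mul]
  have hhc : ContinuousAt (dslope g z₀) z₀ := continuousAt_dslope_same.mpr hg.differentiableAt
  have hh0 : dslope g z₀ z₀ = ζ := by rw [dslope_same, hg.deriv]
  have hgc : Tendsto g (𝓝 z₀) (𝓝 z₀) := by
    have h := hg.continuousAt.tendsto
    rwa [hgz] at h
  have hFg : ∀ᶠ z in 𝓝 z₀, F (g z) = (g z - z₀) ^ n • G (g z) := hgc.eventually hFG
  have key : ∀ᶠ z in 𝓝[≠] z₀, dslope g z₀ z ^ n * G (g z) = G z := by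
    have h : ∀ᶠ z in 𝓝 z₀, z ≠ z₀ → dslope g z₀ z ^ n * G (g z) = G z := by
      filter_upwards [hFG, hFg, hinv] with z h1 h2 h3 hz
      rw [h1, h2, hgh z, mul_pow, smul_eq_mul, smul_eq_mul, mul_assoc] at h3
      exact mul_left_cancel₀ (pow_ne_zero n (sub_ne_zero.mpr hz)) h3
    exact eventually_nhdsWithin_iff.mpr h
  have hGc : ContinuousAt G z₀ := hG.continuousAt
  have t1 : Tendsto (fun z => dslope g z₀ z ^ n * G (g z)) (𝓝[≠] z₀)
      (𝓝 (dslope g z₀ z₀ ^ n * G z₀)) := by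
    have h : Tendsto (fun z => dslope g z₀ z ^ n * G (g z)) (𝓝 z₀)
        (𝓝 (dslope g z₀ z₀ ^ n * G z₀)) :=
      (hhc.tendsto.pow n).mul (hGc.tendsto.comp hgc)
    exact h.mono_left nhdsWithin_le_nhds
  have t2 : Tendsto G (𝓝[≠] z₀) (𝓝 (G z₀)) := hGc.tendsto.mono_left nhdsWithin_le_nhds
  have h := tendsto_nhds_unique_of_eventuallyEq t1 t2 key
  rw [hh0] at h
  exact mul_right_cancel₀ hG0 (by rw [h, one_mul])

/-- Elliptic points: if `γ ∈ SL(2, ℤ)` fixes `τ₀` and `f ≠ 0` is holomorphic and `γ`-invariant,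
then `ζ ^ ordAt τ₀ f = 1` for `ζ = 1 / (c τ₀ + d) ^ 2`, the derivative of `γ` at `τ₀`. -/
theorem elliptic_pow_eq_one {γ : SL(2, ℤ)} {τ₀ : ℍ} (hfix : γ • τ₀ = τ₀)
    {f : ℍ → ℂ} (hf : MDifferentiable 𝓘(ℂ) 𝓘(ℂ) f) (hf0 : f ≠ 0)
    (hinv : ∀ τ : ℍ, f (γ • τ) = f τ) :
    (1 / denom (γ : GL (Fin 2) ℝ) τ₀ ^ 2) ^ ordAt τ₀ f = 1 := by
  have hder := (τ₀.hasStrictDerivAt_smul (det_pos γ)).hasDerivAt
  rw [det_eq_one, Complex.ofReal_one] at hder
  refine rotation_pow_eq_one (F := f ∘ ofComplex) hder ?_ (analyticAt_comp_ofComplex hf τ₀) ?_ ?_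
  · rw [ofComplex_apply, ← sl_moeb, hfix]
  · unfold ordAt
    rw [ENat.natCast_toNat (order_ne_top hf hf0 τ₀)]
  · refine Filter.Eventually.of_forall fun z => ?_
    simp only [Function.comp_apply, ofComplex_apply, ← sl_moeb]
    exact hinv _

/-! ## The elliptic points -/

theorem S_smul_ellI : S • ellI = ellI := by
  rw [modular_S_smul]
  ext
  simp [ellI]

theorem ellRho_coe : (ellRho : ℂ) = (-1 / 2 : ℂ) + ((Real.sqrt 3 / 2 : ℝ) : ℂ) * Complex.I := rfl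

theorem ellRho_sq_add : (ellRho : ℂ) ^ 2 + (ellRho : ℂ) + 1 = 0 := by
  have h3 : ((Real.sqrt 3 : ℝ) : ℂ) ^ 2 = 3 := by
    rw [← Complex.ofReal_pow, Real.sq_sqrt (by norm_num : (0 : ℝ) ≤ 3)]
    norm_num
  rw [ellRho_coe]
  push_cast
  ring_nf
  rw [Complex.I_sq, h3]
  ring

theorem ST_smul_ellRho : (S * T) • ellRho = ellRho := by
  rw [mul_smul, modular_T_smul, modular_S_smul]
  ext
  rw [UpperHalfPlane.coe_mk, UpperHalfPlane.coe_vadd]
  have h := ellRho_sq_add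
  refine inv_eq_of_mul_eq_one_right ?_
  push_cast
  linear_combination -h

theorem two_dvd_ordAt_ellI {f : ℍ → ℂ} (hf : MDifferentiable 𝓘(ℂ) 𝓘(ℂ) f) (hf0 : f ≠ 0)
    (hinv : ∀ τ : ℍ, f (S • τ) = f τ) : 2 ∣ ordAt ellI f := by
  have h := elliptic_pow_eq_one S_smul_ellI hf hf0 hinv
  have hd : denom (S : GL (Fin 2) ℝ) ellI = Complex.I := by
    rw [ModularGroup.denom_S]; rfl
  rw [hd, Complex.I_sq] at h
  have e : (1 : ℂ) / -1 = -1 := by norm_num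
  rw [e] at h
  exact even_iff_two_dvd.mp ((neg_one_pow_eq_one_iff_even (by norm_num)).mp h)

theorem three_dvd_ordAt_ellRho {f : ℍ → ℂ} (hf : MDifferentiable 𝓘(ℂ) 𝓘(ℂ) f) (hf0 : f ≠ 0)
    (hinv : ∀ τ : ℍ, f ((S * T) • τ) = f τ) : 3 ∣ ordAt ellRho f := by
  have h := elliptic_pow_eq_one ST_smul_ellRho hf hf0 hinv
  have hd : denom ((S * T : SL(2, ℤ)) : GL (Fin 2) ℝ) ellRho = (ellRho : ℂ) + 1 := by
    have h10 : ((S * T : SL(2, ℤ)) : Matrix (Fin 2) (Fin 2) ℤ) 1 0 = 1 := by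
      rw [Matrix.SpecialLinearGroup.coe_mul]
      simp [S, T, Matrix.mul_apply, Fin.sum_univ_two]
    have h11 : ((S * T : SL(2, ℤ)) : Matrix (Fin 2) (Fin 2) ℤ) 1 1 = 1 := by
      rw [Matrix.SpecialLinearGroup.coe_mul]
      simp [S, T, Matrix.mul_apply, Fin.sum_univ_two]
    rw [ModularGroup.denom_apply, h10, h11]
    push_cast
    ring
  have hρ := ellRho_sq_add
  have hρ0 : (ellRho : ℂ) ≠ 0 := by
    intro h0
    rw [h0] at hρ
    norm_num at hρ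
  have hsq : ((ellRho : ℂ) + 1) ^ 2 = (ellRho : ℂ) := by linear_combination hρ
  rw [hd, hsq] at h
  set ζ : ℂ := 1 / (ellRho : ℂ) with hζ
  have hζ3 : ζ ^ 3 = 1 := by
    rw [hζ, div_pow, one_pow, div_eq_one_iff_eq (pow_ne_zero 3 hρ0)]
    linear_combination (-(ellRho : ℂ) + 1) * hρ
  have hζ1 : ζ ≠ 1 := by
    intro h1
    rw [hζ, div_eq_one_iff_eq hρ0] at h1
    rw [← h1] at hρ
    norm_num at hρ
  have : Fact (Nat.Prime 3) := ⟨Nat.prime_three⟩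
  have ho : orderOf ζ = 3 := orderOf_eq_prime hζ3 hζ1
  rw [← ho]
  exact orderOf_dvd_of_pow_eq_one h

/-! ## The statement -/

theorem pointValStatement : PointValStatement := by
  refine ⟨?_, ?_, ?_, ?_, ?_, ⟨S_smul_ellI, ST_smul_ellRho⟩, ?_, ?_⟩
  · intro f g hf hg h
    exact (UpperHalfPlane.mul_eq_zero_iff hf hg).mp h
  · intro τ₀ f g hf hg hf0 hg0
    exact ordAt_mul τ₀ hf hg hf0 hg0
  · intro τ₀ f g hf hg hf0 hg0 hfg
    exact ordAt_add τ₀ hf hg hf0 hg0 hfg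
  · intro τ₀ f hf h
    exact ordAt_eq_zero τ₀ hf h
  · intro τ₀ γ f hf
    exact ⟨mdifferentiable_comp_smul γ hf, ordAt_comp_smul τ₀ γ f⟩
  · intro f hf hf0 hinv
    exact two_dvd_ordAt_ellI hf hf0 hinv
  · intro f hf hf0 hinv
    exact three_dvd_ordAt_ellRho hf hf0 hinv

end

end Fermat.Agent.S24.PointVal
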