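/-
S24 package `PreModelGens`: generator-level lemmas for the construction of the pre-model
(the conjugates `slConj d γ` of `j(dτ)`, rationality of Laurent coefficients).
-/
import Fermat.Agent.S24.AnalyticInterfaces

set_option autoImplicit false

open UpperHalfPlane ModularForm Complex CongruenceSubgroup ModularGroup
open scoped MatrixGroups Manifold Real

namespace Fermat.Agent.S24.PreModelGens

noncomputable section

/-! ## Algebraic numbers are in the range of `iotaHom` -/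

/-- `ℂ` as a `ℚ̄`-algebra via `iotaHom` (only used locally). -/
@[reducible] def algKC : Algebra Kbar ℂ := iotaHom.toAlgebra

theorem iotaHom_algebraMap_rat (r : ℚ) : iotaHom (algebraMap ℚ Kbar r) = algebraMap ℚ ℂ r := by
  simp

theorem iotaHom_injective : Function.Injective iotaHom := iotaHom.injective

/-- Every complex number algebraic over `ℚ` lies in the range of `iotaHom`. -/
theorem mem_range_iotaHom_of_isAlgebraic (z : ℂ) (hz : IsAlgebraic ℚ z) :
    z ∈ Set.range iotaHom := by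
  let _ : Algebra Kbar ℂ := algKC
  have : IsScalarTower ℚ Kbar ℂ :=
    IsScalarTower.of_algebraMap_eq fun r => (iotaHom_algebraMap_rat r).symm
  have hz' : IsIntegral Kbar z := (hz.tower_top Kbar).isIntegral
  have h1 : (minpoly Kbar z).degree = 1 :=
    IsAlgClosed.degree_eq_one_of_irreducible Kbar (minpoly.irreducible hz')
  exact minpoly.mem_range_of_degree_eq_one Kbar z h1

/-- The roots of unity `exp(2πi·b·m/δ)` are in the range of `iotaHom`. -/
theorem exp_mem_range_iotaHom (b m : ℤ) (δ : ℕ) (hδ : 0 < δ) :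
    Complex.exp (2 * π * Complex.I * b * m / δ) ∈ Set.range iotaHom := by
  apply mem_range_iotaHom_of_isAlgebraic
  apply IsIntegral.isAlgebraic
  apply IsIntegral.of_pow hδ
  have : Complex.exp (2 * π * Complex.I * b * m / δ) ^ δ = 1 := by
    rw [← Complex.exp_nat_mul]
    have hδ' : (δ : ℂ) ≠ 0 := by exact_mod_cast hδ.ne'
    have : (δ : ℂ) * (2 * π * Complex.I * b * m / δ)
        = ((b * m : ℤ) : ℂ) * (2 * π * Complex.I) := by
      field_simp
      push_cast
      ring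
    rw [this]
    exact Complex.exp_int_mul_two_pi_mul_I _
  rw [this]
  exact isIntegral_one

/-! ## Laurent series with coefficients in `ℚ̄` -/

/-- A Laurent series over `ℂ` all of whose coefficients lie in (the image of) `ℚ̄`. -/
def IsRat (x : LaurentSeries ℂ) : Prop := ∀ n : ℤ, x.coeff n ∈ Set.range iotaHom

theorem isRat_iff (x : LaurentSeries ℂ) : IsRat x ↔ ∀ n : ℤ, x.coeff n ∈ iotaHom.range :=
  Iff.rfl

theorem isRat_zero : IsRat 0 := fun n => by
  rw [HahnSeries.coeff_zero]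
  exact ⟨0, map_zero _⟩

theorem isRat_single (k : ℤ) (c : Kbar) : IsRat (HahnSeries.single k (iotaHom c)) := fun n => by
  rw [HahnSeries.coeff_single]
  split_ifs
  · exact ⟨c, rfl⟩
  · exact ⟨0, map_zero _⟩

theorem isRat_C (c : Kbar) : IsRat (HahnSeries.C (iotaHom c)) := by
  rw [HahnSeries.C_apply]
  exact isRat_single 0 c

theorem isRat_one : IsRat 1 := by
  have h := isRat_C 1
  rwa [map_one, map_one] at h

theorem isRat_add {x y : LaurentSeries ℂ} (hx : IsRat x) (hy : IsRat y) : IsRat (x + y) :=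
  fun n => by
    rw [HahnSeries.coeff_add]
    exact iotaHom.range.add_mem (hx n) (hy n)

theorem isRat_neg {x : LaurentSeries ℂ} (hx : IsRat x) : IsRat (-x) := fun n => by
  rw [HahnSeries.coeff_neg]
  exact iotaHom.range.neg_mem (hx n)

theorem isRat_sub {x y : LaurentSeries ℂ} (hx : IsRat x) (hy : IsRat y) : IsRat (x - y) :=
  fun n => by
    rw [HahnSeries.coeff_sub]
    exact iotaHom.range.sub_mem (hx n) (hy n)

theorem isRat_mul {x y : LaurentSeries ℂ} (hx : IsRat x) (hy : IsRat y) : IsRat (x * y) :=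
  fun n => by
    rw [HahnSeries.coeff_mul]
    exact iotaHom.range.sum_mem fun ij _ => iotaHom.range.mul_mem (hx ij.1) (hy ij.2)

theorem isRat_pow {x : LaurentSeries ℂ} (hx : IsRat x) (n : ℕ) : IsRat (x ^ n) := by
  induction n with
  | zero => rw [pow_zero]; exact isRat_one
  | succ n ih => rw [pow_succ]; exact isRat_mul ih hx

theorem isRat_sum {α : Type*} (s : Finset α) (x : α → LaurentSeries ℂ)
    (hx : ∀ i ∈ s, IsRat (x i)) : IsRat (∑ i ∈ s, x i) := fun n => by
  rw [HahnSeries.coeff_sum]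
  exact iotaHom.range.sum_mem fun i hi => hx i hi n

theorem isRat_prod {α : Type*} (s : Finset α) (x : α → LaurentSeries ℂ)
    (hx : ∀ i ∈ s, IsRat (x i)) : IsRat (∏ i ∈ s, x i) := by
  classical
  induction s using Finset.induction_on with
  | empty => rw [Finset.prod_empty]; exact isRat_one
  | insert a s ha ih =>
    rw [Finset.prod_insert ha]
    exact isRat_mul (hx a (Finset.mem_insert_self a s))
      (ih fun i hi => hx i (Finset.mem_insert_of_mem hi))

/-- The `ℚ̄`-rational Laurent series form a subring. -/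
def ratSubring : Subring (LaurentSeries ℂ) where
  carrier := {x | IsRat x}
  mul_mem' := isRat_mul
  one_mem' := isRat_one
  add_mem' := isRat_add
  zero_mem' := isRat_zero
  neg_mem' := isRat_neg

theorem mem_ratSubring (x : LaurentSeries ℂ) : x ∈ ratSubring ↔ IsRat x := Iff.rfl

theorem isRat_coeffMap (y : LaurentSeries Kbar) : IsRat (ModularCurve.coeffMap iotaHom y) :=
  fun n => ⟨y.coeff n, rfl⟩

theorem isRat_coeffMap_rat (y : LaurentSeries ℚ) :
    IsRat (ModularCurve.coeffMap (algebraMap ℚ ℂ) y) := fun n => by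
  rw [ModularCurve.coeffMap_coeff, ← iotaHom_algebraMap_rat]
  exact ⟨_, rfl⟩

theorem isRat_qExpand (N : ℕ) [NeZero N] {x : LaurentSeries ℂ} (hx : IsRat x) :
    IsRat (ModularCurve.qExpand ℂ N x) := fun n => by
  by_cases hn : (N : ℤ) ∣ n
  · obtain ⟨m, rfl⟩ := hn
    rw [ModularCurve.qExpand_coeff_mul]
    exact hx m
  · rw [ModularCurve.qExpand_coeff_of_not_dvd N x hn]
    exact ⟨0, map_zero _⟩

theorem isRat_of_qExpand (N : ℕ) [NeZero N] {x : LaurentSeries ℂ}
    (hx : IsRat (ModularCurve.qExpand ℂ N x)) : IsRat x := fun n => by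
  rw [← ModularCurve.qExpand_coeff_mul N x n]
  exact hx _

/-! ## The conjugates `slConj d γ`: formal properties -/

theorem utGL_one : utGL 1 0 1 = 1 := by
  have h : (((1 : ℕ) : ℝ) * ((1 : ℕ) : ℝ)) ≠ 0 := by norm_num
  rw [utGL, dif_pos h]
  apply Units.ext
  show !![((1 : ℕ) : ℝ), ((0 : ℤ) : ℝ); 0, ((1 : ℕ) : ℝ)] = 1
  rw [Matrix.one_fin_two]
  simp

theorem slConj_apply (d : ℕ) (γ : SL(2, ℤ)) (τ : ℍ) :
    slConj d γ τ = Jfun (utGL d 0 1 • (γ⁻¹ • τ)) := rfl

theorem slConj_one (d : ℕ) : slConj d 1 = fun τ : ℍ => Jfun (utGL d 0 1 • τ) := by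
  funext τ
  rw [slConj_apply, inv_one, one_smul]

theorem slConj_one_one : slConj 1 1 = Jfun := by
  funext τ
  rw [slConj_apply, inv_one, one_smul, utGL_one, one_smul]

theorem slConj_comp (d : ℕ) (γ γ' : SL(2, ℤ)) (τ : ℍ) :
    slConj d γ' (γ⁻¹ • τ) = slConj d (γ * γ') τ := by
  rw [slConj_apply, slConj_apply, mul_inv_rev, mul_smul]

theorem slConj_eq_iff (hC : ConjStatement) (d : ℕ) (hd : 0 < d) (γ γ' : SL(2, ℤ)) :
    slConj d γ = slConj d γ' ↔ γ⁻¹ * γ' ∈ Gamma0 d := by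
  rw [← hC.2.2.1 d (γ⁻¹ * γ') hd]
  constructor
  · intro h τ
    have h1 := congrFun h (γ' • τ)
    rw [slConj_apply, slConj_apply, inv_smul_smul] at h1
    rw [mul_smul]
    exact h1
  · intro h
    funext τ
    have h1 := h (γ'⁻¹ • τ)
    rw [mul_smul, smul_inv_smul] at h1
    exact h1

theorem finite_range_slConj (hC : ConjStatement) (d : ℕ) (hd : 0 < d) :
    (Set.range (slConj d)).Finite := by
  have : NeZero d := ⟨hd.ne'⟩
  have : Finite (SL(2, ℤ) ⧸ Gamma0 d) := Subgroup.finite_quotient_of_finiteIndex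
  let f : SL(2, ℤ) ⧸ Gamma0 d → (ℍ → ℂ) := Quotient.lift (slConj d) (by
    intro a b hab
    exact (slConj_eq_iff hC d hd a b).mpr (QuotientGroup.leftRel_apply.mp hab))
  have hsub : Set.range (slConj d) ⊆ Set.range f := by
    rintro _ ⟨γ, rfl⟩
    exact ⟨(γ : SL(2, ℤ) ⧸ Gamma0 d), rfl⟩
  exact (Set.finite_range f).subset hsub

theorem slConj_stab_iff (hC : ConjStatement) (N : ℕ) [NeZero N] (γ : SL(2, ℤ)) :
    (∀ d : ℕ, d ∣ N → slConj d γ = slConj d 1) ↔ γ ∈ Gamma0 N := by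
  constructor
  · intro h
    have h1 := (slConj_eq_iff hC N (NeZero.pos N) γ 1).mp (h N dvd_rfl)
    rw [mul_one] at h1
    exact inv_mem_iff.mp h1
  · intro h d hd
    have hd0 : 0 < d := Nat.pos_of_dvd_of_pos hd (NeZero.pos N)
    rw [slConj_eq_iff hC d hd0, mul_one, inv_mem_iff]
    rw [Gamma0_mem, ZMod.intCast_zmod_eq_zero_iff_dvd] at h ⊢
    exact (Int.natCast_dvd_natCast.mpr hd).trans h

/-- Hermite normal form: every conjugate `slConj d γ` is of the form `τ ↦ j((aτ + b)/δ)` with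
`a δ = d`, `0 ≤ b < δ`. -/
theorem slConj_eq_utGL (hJB : JBasicStatement) (hC : ConjStatement) (d : ℕ) (hd : 0 < d)
    (γ : SL(2, ℤ)) :
    ∃ (a δ : ℕ) (b : ℤ), 0 < a ∧ 0 < δ ∧ a * δ = d ∧ 0 ≤ b ∧ b < δ ∧
      slConj d γ = fun τ : ℍ => Jfun (utGL a b δ • τ) := by
  obtain ⟨γ', a, δ, b, ha, hδ, had, hb0, hbδ, h⟩ := hC.2.1 d γ⁻¹ hd
  refine ⟨a, δ, b, ha, hδ, had, hb0, hbδ, ?_⟩
  funext τ
  rw [slConj_apply, h τ, hJB.2.1]

set_option linter.unusedVariables false in
/-- If `T ^ k` fixes the conjugate `slConj N S⁻¹ = (τ ↦ j(τ/N))` then `N ∣ k`. -/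
theorem T_pow_order (hJB : JBasicStatement) (hC : ConjStatement) (N : ℕ) [NeZero N] (k : ℕ)
    (h : ∀ τ : ℍ, slConj N S⁻¹ ((T ^ k)⁻¹ • τ) = slConj N S⁻¹ τ) : N ∣ k := by
  have hN : 0 < N := NeZero.pos N
  have key : ∀ τ : ℍ, Jfun (utGL 1 (-(k : ℤ)) N • τ) = Jfun (utGL 1 0 N • τ) := by
    intro τ
    have h1 := h τ
    rw [slConj_apply, slConj_apply, inv_inv, hC.2.2.2.2 N hN, hC.2.2.2.2 N hN] at h1
    rw [← h1]
    congr 1
    apply UpperHalfPlane.ext
    rw [hC.1 1 N _ one_pos hN, hC.1 1 N _ one_pos hN]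
    have h2 : (((T ^ k)⁻¹ • τ : ℍ) : ℂ) = (τ : ℂ) - k := by
      rw [← zpow_natCast, ← zpow_neg, coe_T_zpow_smul_eq]
      push_cast
      ring
    rw [h2]
    push_cast
    ring
  have h3 := hC.2.2.2.1 N (-(k : ℤ)) hN key
  rw [dvd_neg] at h3
  exact Int.natCast_dvd_natCast.mp h3

/-! ## Laurent expansions of the conjugates -/

set_option linter.unusedVariables false in
/-- Every conjugate `slConj d γ`, `d ∣ N`, is holomorphic, meromorphic at the cusp `∞` with
respect to `q_N`, and its Laurent expansion has coefficients in `ℚ̄`. -/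
theorem slConj_props (hJB : JBasicStatement) (hJQ : JQexpStatement) (hQ : QexpStatement)
    (hC : ConjStatement) (N d : ℕ) [NeZero N] (hd : d ∣ N) (γ : SL(2, ℤ)) :
    MDifferentiable 𝓘(ℂ) 𝓘(ℂ) (slConj d γ) ∧ IsCuspMer N (slConj d γ) ∧
      IsRat (Qexp N (slConj d γ)) := by
  have hd0 : 0 < d := Nat.pos_of_dvd_of_pos hd (NeZero.pos N)
  obtain ⟨a, δ, b, ha, hδ, had, hb0, hbδ, h⟩ := slConj_eq_utGL hJB hC d hd0 γ
  have hδN : δ ∣ N := (Dvd.intro_left a had).trans hd
  have hJ1 : IsCuspMer 1 Jfun := ⟨1, hJQ.1⟩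
  obtain ⟨h1, h2⟩ := hQ.2.2.2.2.2.2.2.2 a δ b N ha hδ hδN Jfun hJ1
  rw [h]
  refine ⟨?_, h1, ?_⟩
  · obtain ⟨k, hk⟩ := h1
    exact hk.1
  · intro n
    rw [h2 n]
    split_ifs
    · rw [hJQ.2, ModularCurve.coeffMap_coeff, ← iotaHom_algebraMap_rat]
      exact iotaHom.range.mul_mem
        (exp_mem_range_iotaHom b (n / ((a * (N / δ) : ℕ) : ℤ)) δ hδ) ⟨_, rfl⟩
    · exact ⟨0, map_zero _⟩

set_option linter.unusedVariables false in
/-- The Laurent expansion of `j(dτ)` in `q_N` is the formal series `jq(q^d)` of the prelude. -/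
theorem qexp_slConj_one (hJB : JBasicStatement) (hJQ : JQexpStatement) (hQ : QexpStatement)
    (hC : ConjStatement) (N d : ℕ) [NeZero N] [NeZero d] (hd : d ∣ N) :
    Qexp N (slConj d 1) = ModularCurve.qExpand ℂ N (ModularCurve.coeffMap iotaHom
      (ModularCurve.coeffEmb Kbar (ModularCurve.qExpand ℚ d ModularCurve.jq))) := by
  have hd0 : 0 < d := NeZero.pos d
  have hN0 : 0 < N := NeZero.pos N
  have hJ1 : IsCuspMer 1 Jfun := ⟨1, hJQ.1⟩
  obtain ⟨h1, h2⟩ := hQ.2.2.2.2.2.2.2.2 d 1 0 N hd0 one_pos (one_dvd N) Jfun hJ1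
  rw [slConj_one]
  ext n
  rw [h2 n, Nat.div_one]
  by_cases hn : ((d * N : ℕ) : ℤ) ∣ n
  · rw [if_pos hn]
    obtain ⟨m, rfl⟩ := hn
    have hdN : ((d * N : ℕ) : ℤ) ≠ 0 := by positivity
    rw [Int.mul_ediv_cancel_left _ hdN, hJQ.2, ModularCurve.coeffMap_coeff]
    have e1 : ((d * N : ℕ) : ℤ) * m = (N : ℤ) * ((d : ℤ) * m) := by
      push_cast
      ring
    rw [e1, ModularCurve.qExpand_coeff_mul, ModularCurve.coeffMap_coeff,
      ModularCurve.coeffEmb_coeff, ModularCurve.qExpand_coeff_mul, iotaHom_algebraMap_rat]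
    simp
  · rw [if_neg hn]
    by_cases hnN : (N : ℤ) ∣ n
    · obtain ⟨m, rfl⟩ := hnN
      have hdm : ¬ (d : ℤ) ∣ m := by
        rintro ⟨c, rfl⟩
        exact hn ⟨c, by push_cast; ring⟩
      rw [ModularCurve.qExpand_coeff_mul, ModularCurve.coeffMap_coeff,
        ModularCurve.coeffEmb_coeff, ModularCurve.qExpand_coeff_of_not_dvd d _ hdm, map_zero,
        map_zero]
    · rw [ModularCurve.qExpand_coeff_of_not_dvd N _ hnN]

/-! ## Translation and invariance -/

/-- Two Laurent series whose coefficients differ by nonzero factors have the same order. -/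
theorem order_eq_of_coeff (x y : LaurentSeries ℂ) (u : ℤ → ℂ) (hu : ∀ n, u n ≠ 0)
    (h : ∀ n, x.coeff n = u n * y.coeff n) : x.order = y.order := by
  by_cases hy : y = 0
  · have hx : x = 0 := by
      ext n
      rw [h n, hy]
      simp
    rw [hx, hy]
  · have hx : x ≠ 0 := by
      intro hx
      apply hy
      ext n
      have h1 := h n
      rw [hx, HahnSeries.coeff_zero] at h1
      rcases mul_eq_zero.mp h1.symm with h0 | h0
      · exact absurd h0 (hu n)
      · rw [h0]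
        rfl
    apply le_antisymm
    · apply HahnSeries.order_le_of_coeff_ne_zero
      rw [h]
      exact mul_ne_zero (hu _) (fun h0 => hy (HahnSeries.coeff_order_eq_zero.mp h0))
    · apply HahnSeries.order_le_of_coeff_ne_zero
      intro h0
      have h1 := h x.order
      rw [h0, mul_zero] at h1
      exact hx (HahnSeries.coeff_order_eq_zero.mp h1)

set_option linter.unusedVariables false in
/-- Translating by `T⁻¹` does not change the order of the Laurent expansion. -/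
theorem qexp_translate_order (hQ : QexpStatement) (N : ℕ) [NeZero N] (f : ℍ → ℂ)
    (hf : IsCuspMer N f) (hf' : IsCuspMer N (fun τ : ℍ => f (T⁻¹ • τ))) :
    (Qexp N (fun τ : ℍ => f (T⁻¹ • τ))).order = (Qexp N f).order := by
  have h8 := (hQ.2.2.2.2.2.2.2.1 N (fun τ : ℍ => f (T⁻¹ • τ)) hf').2
  have e : (fun τ : ℍ => (fun τ : ℍ => f (T⁻¹ • τ)) ((1 : ℝ) +ᵥ τ)) = f := by
    funext τ
    show f (T⁻¹ • ((1 : ℝ) +ᵥ τ)) = f τ
    rw [← modular_T_smul, inv_smul_smul]
  rw [e] at h8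
  exact (order_eq_of_coeff _ _ _ (fun n => Complex.exp_ne_zero _) h8).symm

/-- An `SL(2, ℤ)`-invariant function is `1`-periodic (as a function on `ℂ` via `ofComplex`). -/
theorem periodic_of_invariant (f : ℍ → ℂ) (hinv : ∀ (γ : SL(2, ℤ)) (τ : ℍ), f (γ • τ) = f τ) :
    Function.Periodic (f ∘ ofComplex) ((1 : ℝ) : ℂ) := by
  intro z
  show f (ofComplex (z + ((1 : ℝ) : ℂ))) = f (ofComplex z)
  by_cases hz : 0 < z.im
  · have hz' : 0 < (z + ((1 : ℝ) : ℂ)).im := by simpa using hz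
    rw [ofComplex_apply_of_im_pos hz, ofComplex_apply_of_im_pos hz', ← hinv T ⟨z, hz⟩,
      modular_T_smul]
    congr 1
    apply UpperHalfPlane.ext
    rw [coe_vadd]
    show z + ((1 : ℝ) : ℂ) = ((1 : ℝ) : ℂ) + z
    ring
  · have hz1 : z.im ≤ 0 := not_lt.mp hz
    have hz' : (z + ((1 : ℝ) : ℂ)).im ≤ 0 := by simpa using hz1
    rw [ofComplex_apply_of_im_nonpos hz1, ofComplex_apply_of_im_nonpos hz']

/-- `SL(2, ℤ)`-invariant functions that are meromorphic at `∞` (w.r.t. `q_N`) with `ℚ̄`-rational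
Laurent coefficients are polynomials in `j` with coefficients in `ℚ̄`. -/
theorem rat_invariant_mem (hLP : LemmaPStatement) (hQ : QexpStatement) (N : ℕ) [NeZero N]
    (f : ℍ → ℂ) (hf : IsCuspMer N f) (hrat : IsRat (Qexp N f))
    (hinv : ∀ (γ : SL(2, ℤ)) (τ : ℍ), f (γ • τ) = f τ) :
    ∃ p : Polynomial Kbar, ∀ τ : ℍ, f τ = (p.map iotaHom).eval (Jfun τ) := by
  have h1 : IsCuspMer 1 f := hQ.2.2.2.2.2.2.1 N f hf (periodic_of_invariant f hinv)
  have h2 := (hQ.2.2.2.2.2.1 N f h1).2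
  rw [h2] at hrat
  exact hLP f h1 hinv (isRat_of_qExpand N hrat)

end

end Fermat.Agent.S24.PreModelGens
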