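/-
S24 — package `PreModelBuild`: construction of the pre-model from the analytic statements.

`R` is the `ℚ̄`-subalgebra of `ℍ → ℂ` generated by the conjugates `slConj d γ` (`d ∣ N`,
`γ ∈ SL(2, ℤ)`) of the functions `j(dτ)`; `SL(2, ℤ)` acts by precomposition with `γ⁻¹ • ·`.
-/
import Fermat.Agent.S24.AnalyticInterfaces
import Fermat.Agent.S24.PreModelGens

set_option autoImplicit false

open UpperHalfPlane ModularForm Complex CongruenceSubgroup ModularGroup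
open scoped MatrixGroups Manifold Real

namespace Fermat.Agent.S24.PreModelBuild

open Fermat.Agent.S24.PreModelGens

noncomputable section

/-- `ℂ` as a `ℚ̄`-algebra through `iotaHom`. -/
@[reducible] def algKC : Algebra Kbar ℂ := iotaHom.toAlgebra

attribute [local instance] algKC

theorem algebraMap_Kbar_C : algebraMap Kbar ℂ = iotaHom := rfl

theorem iotaHom_injective : Function.Injective iotaHom := iotaHom.injective

/-! ## The ring -/

/-- The generators: the conjugates of `j(dτ)`, `d ∣ N`. -/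
def gens (N : ℕ) : Set (ℍ → ℂ) := {f | ∃ d : ℕ, d ∣ N ∧ ∃ γ : SL(2, ℤ), f = slConj d γ}

theorem slConj_mem_gens {N d : ℕ} (hd : d ∣ N) (γ : SL(2, ℤ)) : slConj d γ ∈ gens N :=
  ⟨d, hd, γ, rfl⟩

/-- The ring generated by the conjugates. -/
def RA (N : ℕ) : Subalgebra Kbar (ℍ → ℂ) := Algebra.adjoin Kbar (gens N)

theorem slConj_mem_RA {N d : ℕ} (hd : d ∣ N) (γ : SL(2, ℤ)) : slConj d γ ∈ RA N :=
  Algebra.subset_adjoin (slConj_mem_gens hd γ)

theorem algebraMap_RA_coe (N : ℕ) (c : Kbar) :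
    ((algebraMap Kbar (RA N) c : RA N) : ℍ → ℂ) = fun _ => iotaHom c := rfl

/-! ## The action of `SL(2, ℤ)` -/

/-- Precomposition with `γ⁻¹ • ·` as an algebra endomorphism of `ℍ → ℂ`. -/
def preAmb (γ : SL(2, ℤ)) : (ℍ → ℂ) →ₐ[Kbar] (ℍ → ℂ) where
  toFun f := fun τ => f (γ⁻¹ • τ)
  map_one' := rfl
  map_mul' _ _ := rfl
  map_zero' := rfl
  map_add' _ _ := rfl
  commutes' _ := rfl

theorem preAmb_apply (γ : SL(2, ℤ)) (f : ℍ → ℂ) (τ : ℍ) : preAmb γ f τ = f (γ⁻¹ • τ) := rfl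

theorem preAmb_slConj (γ γ₁ : SL(2, ℤ)) (d : ℕ) :
    preAmb γ (slConj d γ₁) = slConj d (γ * γ₁) := by
  funext τ
  exact slConj_comp d γ γ₁ τ

theorem preAmb_mem (N : ℕ) (γ : SL(2, ℤ)) {x : ℍ → ℂ} (hx : x ∈ RA N) : preAmb γ x ∈ RA N := by
  induction hx using Algebra.adjoin_induction with
  | mem x hx =>
    obtain ⟨d, hd, γ₁, rfl⟩ := hx
    rw [preAmb_slConj]
    exact slConj_mem_RA hd _
  | algebraMap r =>
    rw [AlgHom.commutes]
    exact Subalgebra.algebraMap_mem _ _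
  | add x y _ _ hx hy =>
    rw [map_add]
    exact add_mem hx hy
  | mul x y _ _ hx hy =>
    rw [map_mul]
    exact mul_mem hx hy

/-- The action of `γ` on the ring, as an algebra endomorphism. -/
def rhoHom (N : ℕ) (γ : SL(2, ℤ)) : RA N →ₐ[Kbar] RA N :=
  ((preAmb γ).comp (RA N).val).codRestrict (RA N) (fun x => preAmb_mem N γ x.2)

theorem rhoHom_apply_coe (N : ℕ) (γ : SL(2, ℤ)) (x : RA N) (τ : ℍ) :
    ((rhoHom N γ x : RA N) : ℍ → ℂ) τ = (x : ℍ → ℂ) (γ⁻¹ • τ) := rfl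

theorem rhoHom_comp_inv (N : ℕ) (γ : SL(2, ℤ)) :
    (rhoHom N γ).comp (rhoHom N γ⁻¹) = AlgHom.id Kbar (RA N) := by
  refine AlgHom.ext fun x => Subtype.ext (funext fun τ => ?_)
  show (x : ℍ → ℂ) (γ⁻¹⁻¹ • (γ⁻¹ • τ)) = (x : ℍ → ℂ) τ
  rw [smul_smul, inv_mul_cancel, one_smul]

/-- The action of `SL(2, ℤ)` on the ring. -/
def rho (N : ℕ) : SL(2, ℤ) →* (RA N ≃ₐ[Kbar] RA N) where
  toFun γ := AlgEquiv.ofAlgHom (rhoHom N γ) (rhoHom N γ⁻¹) (rhoHom_comp_inv N γ)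
    (by simpa using rhoHom_comp_inv N γ⁻¹)
  map_one' := by
    refine AlgEquiv.ext fun x => Subtype.ext (funext fun τ => ?_)
    show (x : ℍ → ℂ) ((1 : SL(2, ℤ))⁻¹ • τ) = (x : ℍ → ℂ) τ
    rw [inv_one, one_smul]
  map_mul' γ₁ γ₂ := by
    refine AlgEquiv.ext fun x => Subtype.ext (funext fun τ => ?_)
    show (x : ℍ → ℂ) ((γ₁ * γ₂)⁻¹ • τ) = (x : ℍ → ℂ) (γ₂⁻¹ • (γ₁⁻¹ • τ))
    rw [mul_inv_rev, mul_smul]

theorem rho_apply_coe (N : ℕ) (γ : SL(2, ℤ)) (x : RA N) (τ : ℍ) :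
    ((rho N γ x : RA N) : ℍ → ℂ) τ = (x : ℍ → ℂ) (γ⁻¹ • τ) := rfl

theorem rho_eq_one_of_smul (N : ℕ) (γ : SL(2, ℤ)) (h : ∀ τ : ℍ, γ • τ = τ) : rho N γ = 1 := by
  refine AlgEquiv.ext fun x => Subtype.ext (funext fun τ => ?_)
  rw [rho_apply_coe]
  have : γ⁻¹ • τ = τ := by
    conv_lhs => rw [← h τ]
    rw [inv_smul_smul]
  rw [this]
  rfl

/-! ## Elements of the ring are cusp-meromorphic with `ℚ̄`-rational Laurent coefficients -/

theorem cusp_of_mem (hJB : JBasicStatement) (hJQ : JQexpStatement) (hQ : QexpStatement)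
    (hC : ConjStatement) (N : ℕ) [NeZero N] {x : ℍ → ℂ} (hx : x ∈ RA N) :
    IsCuspMer N x ∧ IsRat (Qexp N x) := by
  induction hx using Algebra.adjoin_induction with
  | mem x hx =>
    obtain ⟨d, hd, γ, rfl⟩ := hx
    exact (slConj_props hJB hJQ hQ hC N d hd γ).2
  | algebraMap r =>
    have h := hQ.1 N (iotaHom r)
    refine ⟨⟨0, h.1⟩, ?_⟩
    show IsRat (Qexp N (fun _ : ℍ => iotaHom r))
    rw [h.2]
    exact isRat_C r
  | add x y _ _ hx hy =>
    have h := hQ.2.1 N x y hx.1 hy.1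
    refine ⟨h.1, ?_⟩
    rw [h.2.2.1]
    exact isRat_add hx.2 hy.2
  | mul x y _ _ hx hy =>
    have h := hQ.2.1 N x y hx.1 hy.1
    refine ⟨h.2.1, ?_⟩
    rw [h.2.2.2]
    exact isRat_mul hx.2 hy.2

theorem mdiff_of_isCuspMer {h : ℕ} {f : ℍ → ℂ} (hf : IsCuspMer h f) :
    MDifferentiable 𝓘(ℂ) 𝓘(ℂ) f := by
  obtain ⟨k, hk⟩ := hf
  exact hk.1

/-- The package of facts about the elements of the ring that the construction uses. -/
structure Good (N : ℕ) [NeZero N] : Prop where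
  cusp : ∀ x : RA N, IsCuspMer N (x : ℍ → ℂ)
  rat : ∀ x : RA N, IsRat (Qexp N (x : ℍ → ℂ))

theorem good (hJB : JBasicStatement) (hJQ : JQexpStatement) (hQ : QexpStatement)
    (hC : ConjStatement) (N : ℕ) [NeZero N] : Good N where
  cusp x := (cusp_of_mem hJB hJQ hQ hC N x.2).1
  rat x := (cusp_of_mem hJB hJQ hQ hC N x.2).2

theorem Good.mdiff {N : ℕ} [NeZero N] (hG : Good N) (x : RA N) :
    MDifferentiable 𝓘(ℂ) 𝓘(ℂ) (x : ℍ → ℂ) := mdiff_of_isCuspMer (hG.cusp x)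

/-! ## The ring is a domain -/

theorem isDomain_RA (hPV : PointValStatement) {N : ℕ} [NeZero N] (hG : Good N) :
    IsDomain (RA N) := by
  have : NoZeroDivisors (RA N) := by
    refine ⟨fun {a b} hab => ?_⟩
    have h : (a : ℍ → ℂ) * (b : ℍ → ℂ) = 0 := congrArg Subtype.val hab
    rcases hPV.1 _ _ (hG.mdiff a) (hG.mdiff b) h with h | h
    · exact Or.inl (Subtype.ext h)
    · exact Or.inr (Subtype.ext h)
  exact NoZeroDivisors.to_isDomain _

/-! ## The elements `J` and `Jd` -/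

/-- The element `j`. -/
def Jel (N : ℕ) : RA N := ⟨slConj 1 1, slConj_mem_RA (one_dvd N) 1⟩

theorem Jel_coe (N : ℕ) : ((Jel N : RA N) : ℍ → ℂ) = Jfun := slConj_one_one

open Classical in
/-- The elements `j(dτ)`, `d ∣ N`. -/
def Jdel (N : ℕ) (d : ℕ) : RA N :=
  if hd : d ∣ N then ⟨slConj d 1, slConj_mem_RA hd 1⟩ else Jel N

theorem Jdel_one (N : ℕ) : Jdel N 1 = Jel N := by
  rw [Jdel, dif_pos (one_dvd N)]
  rfl

theorem Jdel_coe {N d : ℕ} (hd : d ∣ N) : ((Jdel N d : RA N) : ℍ → ℂ) = slConj d 1 := by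
  rw [Jdel, dif_pos hd]

theorem coe_aeval_Jel (N : ℕ) (p : Polynomial Kbar) (τ : ℍ) :
    ((Polynomial.aeval (Jel N) p : RA N) : ℍ → ℂ) τ = (p.map iotaHom).eval (Jfun τ) := by
  let φ : RA N →ₐ[Kbar] ℂ := (Pi.evalAlgHom Kbar (fun _ : ℍ => ℂ) τ).comp (RA N).val
  have h1 : ((Polynomial.aeval (Jel N) p : RA N) : ℍ → ℂ) τ = φ (Polynomial.aeval (Jel N) p) := rfl
  have h2 : φ (Jel N) = Jfun τ := by
    show ((Jel N : RA N) : ℍ → ℂ) τ = Jfun τ
    rw [Jel_coe]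
  rw [h1, ← Polynomial.aeval_algHom_apply, h2, Polynomial.eval_map, Polynomial.aeval_def]
  rfl

theorem Jel_transc (hJS : JSurjStatement) (N : ℕ) : Transcendental Kbar (Jel N) := by
  rintro ⟨p, hp0, hp⟩
  apply hp0
  have h : p.map iotaHom = 0 := by
    apply Polynomial.funext
    intro c
    obtain ⟨τ, rfl⟩ := hJS c
    rw [← coe_aeval_Jel N p τ, hp]
    simp
  exact (Polynomial.map_eq_zero_iff iotaHom_injective).mp h

theorem rho_Jel (hJB : JBasicStatement) (N : ℕ) (γ : SL(2, ℤ)) : rho N γ (Jel N) = Jel N := by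
  refine Subtype.ext (funext fun τ => ?_)
  rw [rho_apply_coe, Jel_coe]
  exact hJB.2.1 γ⁻¹ τ

theorem inv_iff (hJB : JBasicStatement) (hQ : QexpStatement) (hLP : LemmaPStatement)
    {N : ℕ} [NeZero N] (hG : Good N) (x : RA N) :
    (∀ γ : SL(2, ℤ), rho N γ x = x) ↔ x ∈ Algebra.adjoin Kbar {Jel N} := by
  constructor
  · intro h
    have hinv : ∀ (γ : SL(2, ℤ)) (τ : ℍ), (x : ℍ → ℂ) (γ • τ) = (x : ℍ → ℂ) τ := by
      intro γ τ
      have h1 := congrArg (fun y : RA N => (y : ℍ → ℂ) τ) (h γ⁻¹)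
      simp only [rho_apply_coe, inv_inv] at h1
      exact h1
    obtain ⟨p, hp⟩ := rat_invariant_mem hLP hQ N (x : ℍ → ℂ) (hG.cusp x) (hG.rat x) hinv
    have hx : x = Polynomial.aeval (Jel N) p := by
      refine Subtype.ext (funext fun τ => ?_)
      rw [coe_aeval_Jel, hp]
    rw [hx, Algebra.adjoin_singleton_eq_range_aeval]
    exact ⟨p, rfl⟩
  · intro h γ
    rw [Algebra.adjoin_singleton_eq_range_aeval] at h
    obtain ⟨p, rfl⟩ := h
    show rho N γ (Polynomial.aeval (Jel N) p) = _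
    rw [← Polynomial.aeval_algHom_apply, rho_Jel hJB]
    rfl

theorem stab_iff (hC : ConjStatement) (N : ℕ) [NeZero N] (γ : SL(2, ℤ)) :
    (∀ d : ℕ, d ∣ N → rho N γ (Jdel N d) = Jdel N d) ↔ γ ∈ Gamma0 N := by
  rw [← slConj_stab_iff hC N γ]
  refine forall₂_congr fun d hd => ?_
  constructor
  · intro h
    have h1 := congrArg (fun y : RA N => (y : ℍ → ℂ)) h
    simp only [Jdel_coe hd] at h1
    rw [← h1]
    funext τ
    rw [rho_apply_coe, Jdel_coe hd, slConj_comp, mul_one]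
  · intro h
    refine Subtype.ext (funext fun τ => ?_)
    rw [rho_apply_coe, Jdel_coe hd, slConj_comp, mul_one, h]

/-! ## Finiteness of the image of the action -/

theorem gens_finite (hC : ConjStatement) (N : ℕ) [NeZero N] : (gens N).Finite := by
  have h : (⋃ d ∈ (N.divisors : Set ℕ), Set.range (slConj d)).Finite :=
    Set.Finite.biUnion (Finset.finite_toSet N.divisors) fun d hd =>
      finite_range_slConj hC d (Nat.pos_of_mem_divisors (Finset.mem_coe.mp hd))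
  refine h.subset ?_
  rintro f ⟨d, hd, γ, rfl⟩
  exact Set.mem_biUnion (Finset.mem_coe.mpr (Nat.mem_divisors.mpr ⟨hd, NeZero.ne N⟩)) ⟨γ, rfl⟩

theorem rho_gens (N : ℕ) (γ : SL(2, ℤ)) {f : ℍ → ℂ} (hf : f ∈ gens N) :
    ((rho N γ ⟨f, Algebra.subset_adjoin hf⟩ : RA N) : ℍ → ℂ) ∈ gens N := by
  obtain ⟨d, hd, γ₁, rfl⟩ := hf
  have h : ((rho N γ ⟨slConj d γ₁, Algebra.subset_adjoin (slConj_mem_gens hd γ₁)⟩ : RA N) : ℍ → ℂ)
      = slConj d (γ * γ₁) := preAmb_slConj γ γ₁ d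
  rw [h]
  exact slConj_mem_gens hd _

theorem algEquiv_ext_gens (N : ℕ) (σ₁ σ₂ : RA N ≃ₐ[Kbar] RA N)
    (h : ∀ (f : ℍ → ℂ) (hf : f ∈ gens N),
      σ₁ ⟨f, Algebra.subset_adjoin hf⟩ = σ₂ ⟨f, Algebra.subset_adjoin hf⟩) : σ₁ = σ₂ := by
  have h1 : (σ₁ : RA N →ₐ[Kbar] RA N) = (σ₂ : RA N →ₐ[Kbar] RA N) := by
    refine AlgHom.ext_of_adjoin_eq_top
      (Algebra.adjoin_adjoin_coe_preimage (R := Kbar) (s := gens N)) ?_
    intro y hy
    exact h y.1 hy
  exact AlgEquiv.ext fun x => DFunLike.congr_fun h1 x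

theorem finite_range_rho (hC : ConjStatement) (N : ℕ) [NeZero N] : Finite (rho N).range := by
  have : Finite (gens N) := (gens_finite hC N).to_subtype
  let F : (rho N).range → (gens N → gens N) := fun σ g =>
    ⟨((σ.1 ⟨g.1, Algebra.subset_adjoin g.2⟩ : RA N) : ℍ → ℂ), by
      obtain ⟨γ, hγ⟩ := σ.2
      rw [← hγ]
      exact rho_gens N γ g.2⟩
  refine Finite.of_injective F ?_
  intro σ₁ σ₂ h
  refine Subtype.ext (algEquiv_ext_gens N _ _ fun f hf => ?_)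
  have h1 := congrArg (fun G : gens N → gens N => ((G ⟨f, hf⟩ : gens N) : ℍ → ℂ)) h
  exact Subtype.ext h1

/-! ## The Laurent expansion at `∞` -/

/-- The Laurent expansion at `∞` in the variable `exp(2πiτ/N)`, as a ring homomorphism. -/
def qHom (hQ : QexpStatement) {N : ℕ} [NeZero N] (hG : Good N) : RA N →+* LaurentSeries ℂ where
  toFun x := Qexp N (x : ℍ → ℂ)
  map_one' := by
    show Qexp N (fun _ : ℍ => (1 : ℂ)) = 1
    rw [(hQ.1 N (1 : ℂ)).2, map_one]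
  map_mul' x y := (hQ.2.1 N _ _ (hG.cusp x) (hG.cusp y)).2.2.2
  map_zero' := by
    show Qexp N (fun _ : ℍ => (0 : ℂ)) = 0
    rw [(hQ.1 N (0 : ℂ)).2, map_zero]
  map_add' x y := (hQ.2.1 N _ _ (hG.cusp x) (hG.cusp y)).2.2.1

theorem qHom_apply (hQ : QexpStatement) {N : ℕ} [NeZero N] (hG : Good N) (x : RA N) :
    qHom hQ hG x = Qexp N (x : ℍ → ℂ) := rfl

theorem qHom_injective (hQ : QexpStatement) {N : ℕ} [NeZero N] (hG : Good N) :
    Function.Injective (qHom hQ hG) := by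
  refine (injective_iff_map_eq_zero _).mpr fun x hx => ?_
  exact Subtype.ext (hQ.2.2.1 N (x : ℍ → ℂ) (hG.cusp x) hx)

theorem qHom_algebraMap (hQ : QexpStatement) {N : ℕ} [NeZero N] (hG : Good N) (c : Kbar) :
    qHom hQ hG (algebraMap Kbar (RA N) c) = HahnSeries.C (iotaHom c) :=
  (hQ.1 N (iotaHom c)).2

theorem qHom_Jdel (hJB : JBasicStatement) (hJQ : JQexpStatement) (hQ : QexpStatement)
    (hC : ConjStatement) {N : ℕ} [NeZero N] (hG : Good N) (d : ℕ) [NeZero d] (hd : d ∣ N) :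
    qHom hQ hG (Jdel N d) = ModularCurve.qExpand ℂ N
      (ModularCurve.coeffMap iotaHom
        (ModularCurve.coeffEmb Kbar (ModularCurve.qExpand ℚ d ModularCurve.jq))) := by
  rw [qHom_apply, Jdel_coe hd]
  exact qexp_slConj_one hJB hJQ hQ hC N d hd

theorem qHom_T_order (hQ : QexpStatement) {N : ℕ} [NeZero N] (hG : Good N) (x : RA N) :
    (qHom hQ hG (rho N T x)).order = (qHom hQ hG x).order :=
  qexp_translate_order hQ N (x : ℍ → ℂ) (hG.cusp x) (hG.cusp (rho N T x))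

/-! ## Orders of `T`, `S`, `S * T` -/

theorem T_order (hJB : JBasicStatement) (hC : ConjStatement) (N : ℕ) [NeZero N] (k : ℕ)
    (h : rho N T ^ k = 1) : N ∣ k := by
  refine T_pow_order hJB hC N k fun τ => ?_
  rw [← map_pow] at h
  have h1 := congrArg (fun σ : RA N ≃ₐ[Kbar] RA N =>
    ((σ ⟨slConj N S⁻¹, slConj_mem_RA dvd_rfl S⁻¹⟩ : RA N) : ℍ → ℂ) τ) h
  exact h1

theorem S_sq_smul (τ : ℍ) : (S ^ 2) • τ = τ := by
  have h : (S ^ 2 : SL(2, ℤ)) = -1 := by decide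
  rw [h, SL_neg_smul, one_smul]

theorem ST_cube_smul (τ : ℍ) : ((S * T) ^ 3) • τ = τ := by
  have h : ((S * T) ^ 3 : SL(2, ℤ)) = -1 := by decide
  rw [h, SL_neg_smul, one_smul]

theorem rho_S_sq (N : ℕ) : rho N S ^ 2 = 1 := by
  rw [← map_pow]
  exact rho_eq_one_of_smul N _ S_sq_smul

theorem rho_ST_cube (N : ℕ) : rho N (S * T) ^ 3 = 1 := by
  rw [← map_pow]
  exact rho_eq_one_of_smul N _ ST_cube_smul

/-! ## Valuations at points of the upper half plane -/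

/-- The order of vanishing at `τ₀` on the ring. -/
def valAt (N : ℕ) (τ₀ : ℍ) (x : RA N) : ℕ := ordAt τ₀ (x : ℍ → ℂ)

theorem coe_ne_zero {N : ℕ} {x : RA N} (hx : x ≠ 0) : (x : ℍ → ℂ) ≠ 0 :=
  fun h => hx (Subtype.ext h)

theorem isAddVal_valAt (hPV : PointValStatement) {N : ℕ} [NeZero N] (hG : Good N) (τ₀ : ℍ) :
    IsAddVal (valAt N τ₀) := by
  refine ⟨fun x y hx hy => ?_, fun x y hx hy hxy => ?_, fun c hc => ?_⟩
  · exact hPV.2.1 τ₀ _ _ (hG.mdiff x) (hG.mdiff y) (coe_ne_zero hx) (coe_ne_zero hy)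
  · exact hPV.2.2.1 τ₀ _ _ (hG.mdiff x) (hG.mdiff y) (coe_ne_zero hx) (coe_ne_zero hy)
      (coe_ne_zero hxy)
  · refine hPV.2.2.2.1 τ₀ _ (hG.mdiff _) ?_
    show iotaHom c ≠ 0
    exact (map_ne_zero iotaHom).mpr hc

theorem valAt_rho (hPV : PointValStatement) {N : ℕ} [NeZero N] (hG : Good N) (τ₀ : ℍ)
    (γ : SL(2, ℤ)) (hγ : γ • τ₀ = τ₀) (x : RA N) : valAt N τ₀ (rho N γ x) = valAt N τ₀ x := by
  have h := (hPV.2.2.2.2.1 τ₀ γ⁻¹ (x : ℍ → ℂ) (hG.mdiff x)).2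
  have h2 : γ⁻¹ • τ₀ = τ₀ := inv_smul_eq_iff.mpr hγ.symm
  rw [h2] at h
  exact h

theorem invariant_of_rho_eq_one {N : ℕ} (γ : SL(2, ℤ)) (h : rho N γ = 1) (x : RA N) (τ : ℍ) :
    (x : ℍ → ℂ) (γ • τ) = (x : ℍ → ℂ) τ := by
  have h1 : ((rho N γ x : RA N) : ℍ → ℂ) (γ • τ) = (x : ℍ → ℂ) (γ • τ) := by
    rw [h]
    rfl
  rw [← h1, rho_apply_coe, inv_smul_smul]

theorem val_generic (hJO : JOrdersStatement) (hJS : JSurjStatement) (hPV : PointValStatement)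
    {N : ℕ} [NeZero N] (hG : Good N) (c : Kbar) (hc0 : c ≠ 0) (hc1 : c ≠ 1728) :
    ∃ v : RA N → ℕ, IsAddVal v ∧ v (Jel N - algebraMap Kbar (RA N) c) = 1 := by
  obtain ⟨τ₀, hτ₀⟩ := hJS (iotaHom c)
  refine ⟨valAt N τ₀, isAddVal_valAt hPV hG τ₀, ?_⟩
  have h : ((Jel N - algebraMap Kbar (RA N) c : RA N) : ℍ → ℂ) = fun z => Jfun z - Jfun τ₀ := by
    funext z
    show ((Jel N : RA N) : ℍ → ℂ) z - iotaHom c = Jfun z - Jfun τ₀
    rw [Jel_coe, hτ₀]
  show ordAt τ₀ ((Jel N - algebraMap Kbar (RA N) c : RA N) : ℍ → ℂ) = 1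
  rw [h]
  refine hJO.1 τ₀ ?_ ?_
  · rw [hτ₀]
    exact (map_ne_zero iotaHom).mpr hc0
  · rw [hτ₀]
    intro h1
    apply hc1
    apply iotaHom_injective
    rw [h1]
    exact (map_ofNat iotaHom 1728).symm

theorem val_i (hJO : JOrdersStatement) (hPV : PointValStatement)
    {N : ℕ} [NeZero N] (hG : Good N) :
    ∃ v : RA N → ℕ, IsAddVal v ∧ v (Jel N - algebraMap Kbar (RA N) 1728) = 2 ∧
      (∀ x : RA N, x ≠ 0 → v (rho N S x) = v x) ∧
      (rho N S = 1 → ∀ x : RA N, x ≠ 0 → 2 ∣ v x) := by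
  refine ⟨valAt N ellI, isAddVal_valAt hPV hG ellI, ?_, ?_, ?_⟩
  · have h : ((Jel N - algebraMap Kbar (RA N) 1728 : RA N) : ℍ → ℂ) = fun z => Jfun z - 1728 := by
      funext z
      show ((Jel N : RA N) : ℍ → ℂ) z - iotaHom 1728 = Jfun z - 1728
      rw [Jel_coe, map_ofNat iotaHom 1728]
    show ordAt ellI ((Jel N - algebraMap Kbar (RA N) 1728 : RA N) : ℍ → ℂ) = 2
    rw [h]
    exact hJO.2.1
  · intro x _
    exact valAt_rho hPV hG ellI S hPV.2.2.2.2.2.1.1 x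
  · intro h x hx
    exact hPV.2.2.2.2.2.2.1 (x : ℍ → ℂ) (hG.mdiff x) (coe_ne_zero hx)
      (invariant_of_rho_eq_one S h x)

theorem val_rho (hJO : JOrdersStatement) (hPV : PointValStatement)
    {N : ℕ} [NeZero N] (hG : Good N) :
    ∃ v : RA N → ℕ, IsAddVal v ∧ v (Jel N) = 3 ∧
      (∀ x : RA N, x ≠ 0 → v (rho N (S * T) x) = v x) ∧
      (rho N (S * T) = 1 → ∀ x : RA N, x ≠ 0 → 3 ∣ v x) := by
  refine ⟨valAt N ellRho, isAddVal_valAt hPV hG ellRho, ?_, ?_, ?_⟩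
  · show ordAt ellRho ((Jel N : RA N) : ℍ → ℂ) = 3
    rw [Jel_coe]
    exact hJO.2.2
  · intro x _
    exact valAt_rho hPV hG ellRho (S * T) hPV.2.2.2.2.2.1.2 x
  · intro h x hx
    exact hPV.2.2.2.2.2.2.2 (x : ℍ → ℂ) (hG.mdiff x) (coe_ne_zero hx)
      (invariant_of_rho_eq_one (S * T) h x)

/-! ## The pre-model -/

/-- The pre-model of level `N`. -/
def preModel (hJB : JBasicStatement) (hJO : JOrdersStatement) (hJS : JSurjStatement)
    (hJQ : JQexpStatement) (hQ : QexpStatement) (hLP : LemmaPStatement) (hC : ConjStatement)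
    (hPV : PointValStatement) (N : ℕ) [NeZero N] : PreModel N :=
  have hG : Good N := good hJB hJQ hQ hC N
  { R := RA N
    instIsDomain := isDomain_RA hPV hG
    ρ := rho N
    finite_range := finite_range_rho hC N
    J := Jel N
    J_transc := Jel_transc hJS N
    inv_iff := inv_iff hJB hQ hLP hG
    Jd := Jdel N
    Jd_one := Jdel_one N
    stab_iff := stab_iff hC N
    q := qHom hQ hG
    q_injective := qHom_injective hQ hG
    q_algebraMap := qHom_algebraMap hQ hG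
    q_Jd := fun d _ hd => qHom_Jdel hJB hJQ hQ hC hG d hd
    q_T_order := qHom_T_order hQ hG
    T_order := T_order hJB hC N
    ρ_S_sq := rho_S_sq N
    ρ_ST_cube := rho_ST_cube N
    val_generic := val_generic hJO hJS hPV hG
    val_i := val_i hJO hPV hG
    val_rho := val_rho hJO hPV hG }

/-- (PM-exists) from the analytic statements. -/
theorem preModelStatement : JBasicStatement → JOrdersStatement → JSurjStatement →
    JQexpStatement → QexpStatement → LemmaPStatement → ConjStatement → PointValStatement →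
    PreModelStatement :=
  fun hJB hJO hJS hJQ hQ hLP hC hPV N _ => ⟨preModel hJB hJO hJS hJQ hQ hLP hC hPV N⟩

end

end Fermat.Agent.S24.PreModelBuild
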