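/-
S24 / package `Qexp` — basic facts (part 1): the parameter `q_h`, periodicity on `ℍ`,
holomorphy of compositions, and the normalised Laurent series `L h k f`.
-/
import Fermat.Agent.S24.AnalyticInterfaces

set_option autoImplicit false

open Function Complex Filter
open UpperHalfPlane hiding I
open scoped Real Manifold Topology MatrixGroups

namespace Fermat.Agent.S24.Qexp

noncomputable section

local notation "𝕢" => Function.Periodic.qParam

/-! ## Periodicity -/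

theorem ofComplex_add_real (x : ℝ) (τ : ℍ) : ofComplex ((τ : ℂ) + (x : ℂ)) = x +ᵥ τ := by
  have h : ((τ : ℂ) + (x : ℂ)) = ((x +ᵥ τ : ℍ) : ℂ) := by
    rw [coe_vadd]; ring
  rw [h, ofComplex_apply]

/-- Periodicity of `f ∘ ofComplex` expressed on the upper half plane. -/
theorem periodic_iff (f : ℍ → ℂ) (x : ℝ) :
    Periodic (f ∘ ofComplex) (x : ℂ) ↔ ∀ τ : ℍ, f (x +ᵥ τ) = f τ := by
  constructor
  · intro hper τ
    have h := hper (τ : ℂ)
    simp only [comp_apply, ofComplex_add_real, ofComplex_apply] at h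
    exact h
  · intro hf w
    by_cases hw : 0 < w.im
    · have hw' : 0 < (w + (x : ℂ)).im := by simpa using hw
      have h := hf ⟨w, hw⟩
      simp only [comp_apply, ofComplex_apply_of_im_pos hw', ofComplex_apply_of_im_pos hw]
      rw [← h]
      congr 1
      ext
      rw [coe_vadd]
      simp [add_comm]
    · have hw1 : w.im ≤ 0 := not_lt.mp hw
      have hw' : (w + (x : ℂ)).im ≤ 0 := by simpa using hw1
      simp [ofComplex_apply_of_im_nonpos hw', ofComplex_apply_of_im_nonpos hw1]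

/-! ## Holomorphy of restrictions and compositions -/

theorem mdiff_of_differentiable {F : ℂ → ℂ} (hF : Differentiable ℂ F) :
    MDiff (fun τ : ℍ => F τ) := by
  rw [mdifferentiable_iff]
  refine hF.differentiableOn.congr fun z hz => ?_
  simp [ofComplex_apply_of_im_pos hz]

theorem mdiff_comp {f : ℍ → ℂ} (hf : MDiff f) (φ : ℍ → ℍ) {Φ : ℂ → ℂ}
    (hΦ : Differentiable ℂ Φ) (hφ : ∀ τ : ℍ, ((φ τ : ℍ) : ℂ) = Φ τ) :
    MDiff (fun τ : ℍ => f (φ τ)) := by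
  rw [mdifferentiable_iff] at hf ⊢
  have hmaps : Set.MapsTo Φ {z | 0 < z.im} {z | 0 < z.im} := by
    intro z hz
    have h1 := hφ ⟨z, hz⟩
    show 0 < (Φ z).im
    have h2 : Φ z = ((φ ⟨z, hz⟩ : ℍ) : ℂ) := h1.symm
    rw [h2]
    exact (φ ⟨z, hz⟩).im_pos
  refine (hf.comp hΦ.differentiableOn hmaps).congr fun z hz => ?_
  simp only [comp_apply, ofComplex_apply_of_im_pos hz]
  congr 1
  have h1 := hφ ⟨z, hz⟩
  have h2 : Φ z = ((φ ⟨z, hz⟩ : ℍ) : ℂ) := h1.symm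
  rw [h2, ofComplex_apply]

/-! ## The parameter `q_h` -/

theorem qParam_add_period {h : ℝ} (hh : h ≠ 0) (z : ℂ) : 𝕢 h (z + h) = 𝕢 h z := by
  unfold Periodic.qParam
  have hc : (h : ℂ) ≠ 0 := by exact_mod_cast hh
  have : 2 * π * I * (z + h) / h = 2 * π * I * z / h + 2 * π * I := by
    field_simp
  rw [this, Complex.exp_add, Complex.exp_two_pi_mul_I, mul_one]

theorem qParam_vadd {h : ℝ} (hh : h ≠ 0) (τ : ℍ) : 𝕢 h ((h +ᵥ τ : ℍ) : ℂ) = 𝕢 h (τ : ℂ) := by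
  rw [coe_vadd, add_comm, qParam_add_period hh]

theorem norm_qParam_lt_one' {h : ℝ} (hh : 0 < h) (τ : ℍ) : ‖𝕢 h (τ : ℂ)‖ < 1 :=
  Periodic.norm_qParam_lt_one hh τ.im_pos

theorem norm_qParam_pow_le_one {h : ℝ} (hh : 0 < h) (τ : ℍ) (k : ℕ) :
    ‖𝕢 h (τ : ℂ) ^ k‖ ≤ 1 := by
  rw [norm_pow]
  exact pow_le_one₀ (norm_nonneg _) (norm_qParam_lt_one' hh τ).le

/-- The function `q_h^k` on the upper half plane. -/
def qpow (h : ℝ) (k : ℕ) : ℍ → ℂ := fun τ => 𝕢 h (τ : ℂ) ^ k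

theorem qpow_apply (h : ℝ) (k : ℕ) (τ : ℍ) : qpow h k τ = 𝕢 h (τ : ℂ) ^ k := rfl

theorem mdiff_qpow (h : ℝ) (k : ℕ) : MDiff (qpow h k) :=
  mdiff_of_differentiable (F := fun z => 𝕢 h z ^ k)
    ((Periodic.differentiable_qParam (h := h)).pow k)

theorem periodic_qpow {h : ℝ} (hh : h ≠ 0) (k : ℕ) : Periodic (qpow h k ∘ ofComplex) (h : ℂ) := by
  rw [periodic_iff]
  intro τ
  simp only [qpow_apply, qParam_vadd hh]

theorem bdd_qpow {h : ℝ} (hh : 0 < h) (k : ℕ) : IsBoundedAtImInfty (qpow h k) := by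
  rw [isBoundedAtImInfty_iff]
  exact ⟨1, 0, fun τ _ => norm_qParam_pow_le_one hh τ k⟩

/-! ## Uniqueness of `q`-expansions for plain functions -/

theorem coeff_unique {h : ℝ} {f : ℍ → ℂ} {c : ℕ → ℂ} (hh : 0 < h)
    (hfanalytic : AnalyticAt ℂ (cuspFunction h f) 0)
    (hf : ∀ τ : ℍ, HasSum (fun m ↦ c m • 𝕢 h τ ^ m) (f τ)) (m : ℕ) :
    c m = (qExpansion h f).coeff m := by
  have h1 := (hasFPowerSeriesOnBall_cuspFunction hh hfanalytic hf).hasFPowerSeriesAt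
  have h2 : HasFPowerSeriesAt (cuspFunction h f)
      (FormalMultilinearSeries.ofScalars ℂ (fun m => (qExpansion h f).coeff m)) 0 := by
    simpa [qExpansion_coeff, div_eq_mul_inv, mul_comm] using hfanalytic.hasFPowerSeriesAt
  have h3 := h1.eq_formalMultilinearSeries h2
  simpa [FormalMultilinearSeries.coeff_ofScalars] using
    congr_arg (FormalMultilinearSeries.coeff · m) h3

/-- Holomorphic, periodic, bounded functions: the basic package of consequences. -/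
theorem analyticAt_cusp {h : ℝ} {g : ℍ → ℂ} (hh : 0 < h) (hhol : MDiff g)
    (hper : Periodic (g ∘ ofComplex) (h : ℂ)) (hbdd : IsBoundedAtImInfty g) :
    AnalyticAt ℂ (cuspFunction h g) 0 :=
  analyticAt_cuspFunction_zero hh hper hhol hbdd

theorem qExpansion_qpow {h : ℝ} (hh : 0 < h) (k : ℕ) :
    qExpansion h (qpow h k) = PowerSeries.X ^ k := by
  ext m
  have han := analyticAt_cusp hh (mdiff_qpow h k) (periodic_qpow hh.ne' k) (bdd_qpow hh k)
  have hs : ∀ τ : ℍ, HasSum (fun m : ℕ => (if m = k then (1 : ℂ) else 0) • 𝕢 h τ ^ m)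
      (qpow h k τ) := by
    intro τ
    rw [qpow_apply]
    convert hasSum_ite_eq k (𝕢 h (τ : ℂ) ^ k) using 2 with m
    split_ifs with hm
    · subst hm; simp
    · simp
  rw [← coeff_unique hh han hs m, PowerSeries.coeff_X_pow]

/-! ## The twist `q_h^k · f` and the normalised Laurent series -/

theorem hpos (h : ℕ) [NeZero h] : (0 : ℝ) < (h : ℝ) := Nat.cast_pos.mpr (NeZero.pos h)

/-- The twist `q_h^k · f`. -/
def tw (h k : ℕ) (f : ℍ → ℂ) : ℍ → ℂ := fun τ => 𝕢 (h : ℝ) (τ : ℂ) ^ k * f τ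

theorem tw_apply (h k : ℕ) (f : ℍ → ℂ) (τ : ℍ) : tw h k f τ = 𝕢 (h : ℝ) (τ : ℂ) ^ k * f τ := rfl

theorem tw_eq_mul (h k : ℕ) (f : ℍ → ℂ) : tw h k f = qpow (h : ℝ) k * f := rfl

theorem tw_add (h m k : ℕ) (f : ℍ → ℂ) : tw h (m + k) f = qpow (h : ℝ) m * tw h k f := by
  funext τ
  simp only [tw_apply, Pi.mul_apply, qpow_apply, pow_add]
  ring

theorem tw_zero (h : ℕ) (f : ℍ → ℂ) : tw h 0 f = f := by
  funext τ
  simp [tw_apply]

section cm

variable {h : ℕ} [NeZero h] {k : ℕ} {f : ℍ → ℂ}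

theorem cm_iff : IsCuspMerOrder h k f ↔
    MDiff f ∧ Periodic (f ∘ ofComplex) ((h : ℝ) : ℂ) ∧ IsBoundedAtImInfty (tw h k f) := Iff.rfl

theorem cm_mdiff (hf : IsCuspMerOrder h k f) : MDiff f := hf.1

theorem cm_periodic (hf : IsCuspMerOrder h k f) : Periodic (f ∘ ofComplex) ((h : ℝ) : ℂ) := hf.2.1

theorem cm_vadd (hf : IsCuspMerOrder h k f) (τ : ℍ) : f ((h : ℝ) +ᵥ τ) = f τ :=
  (periodic_iff f h).mp hf.2.1 τ

theorem cm_bdd_tw (hf : IsCuspMerOrder h k f) : IsBoundedAtImInfty (tw h k f) := hf.2.2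

theorem cm_mdiff_tw (hf : IsCuspMerOrder h k f) : MDiff (tw h k f) :=
  (mdiff_qpow (h : ℝ) k).mul hf.1

theorem periodic_tw (hf : Periodic (f ∘ ofComplex) ((h : ℝ) : ℂ)) (k : ℕ) :
    Periodic (tw h k f ∘ ofComplex) ((h : ℝ) : ℂ) := by
  rw [periodic_iff] at hf ⊢
  intro τ
  simp only [tw_apply, qParam_vadd (hpos h).ne', hf τ]

theorem cm_periodic_tw (hf : IsCuspMerOrder h k f) :
    Periodic (tw h k f ∘ ofComplex) ((h : ℝ) : ℂ) :=
  periodic_tw hf.2.1 k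

theorem cm_analytic_tw (hf : IsCuspMerOrder h k f) :
    AnalyticAt ℂ (cuspFunction (h : ℝ) (tw h k f)) 0 :=
  analyticAt_cusp (hpos h) (cm_mdiff_tw hf) (cm_periodic_tw hf) (cm_bdd_tw hf)

theorem cm_hasSum_tw (hf : IsCuspMerOrder h k f) (τ : ℍ) :
    HasSum (fun m : ℕ => (qExpansion (h : ℝ) (tw h k f)).coeff m • 𝕢 (h : ℝ) (τ : ℂ) ^ m)
      (tw h k f τ) :=
  hasSum_qExpansion (hpos h) (cm_periodic_tw hf) (cm_mdiff_tw hf) (cm_bdd_tw hf) τ

theorem cm_add_left (hf : IsCuspMerOrder h k f) (m : ℕ) : IsCuspMerOrder h (m + k) f := by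
  refine ⟨hf.1, hf.2.1, ?_⟩
  show IsBoundedAtImInfty (tw h (m + k) f)
  rw [tw_add]
  exact Filter.BoundedAtFilter.mul (bdd_qpow (hpos h) m) (cm_bdd_tw hf)

theorem cm_mono (hf : IsCuspMerOrder h k f) {k' : ℕ} (hk : k ≤ k') : IsCuspMerOrder h k' f := by
  obtain ⟨m, rfl⟩ := Nat.exists_eq_add_of_le' hk
  exact cm_add_left hf m

theorem qExpansion_tw_add (hf : IsCuspMerOrder h k f) (m : ℕ) :
    qExpansion (h : ℝ) (tw h (m + k) f) = PowerSeries.X ^ m * qExpansion (h : ℝ) (tw h k f) := by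
  rw [tw_add, qExpansion_mul
    (analyticAt_cusp (hpos h) (mdiff_qpow _ m) (periodic_qpow (hpos h).ne' m) (bdd_qpow (hpos h) m))
    (cm_analytic_tw hf), qExpansion_qpow (hpos h)]

end cm

/-- The Laurent series attached to `f` and a pole order bound `k`. -/
def L (h k : ℕ) (f : ℍ → ℂ) : LaurentSeries ℂ :=
  HahnSeries.single (-(k : ℤ)) (1 : ℂ) *
    HahnSeries.ofPowerSeries ℤ ℂ (qExpansion (h : ℝ) (tw h k f))

theorem coeff_L (h k : ℕ) (f : ℍ → ℂ) (n : ℤ) :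
    (L h k f).coeff n
      = if 0 ≤ n + k then (qExpansion (h : ℝ) (tw h k f)).coeff (n + k).toNat else 0 := by
  rw [L, HahnSeries.coeff_single_mul, one_mul, sub_neg_eq_add]
  split_ifs with hn
  · conv_lhs => rw [← Int.toNat_of_nonneg hn]
    rw [HahnSeries.ofPowerSeries_apply_coeff]
  · exact ModularCurve.ofPowerSeries_coeff_of_neg _ (not_le.mp hn)

section cm2

variable {h : ℕ} [NeZero h] {k : ℕ} {f : ℍ → ℂ}

theorem L_add (hf : IsCuspMerOrder h k f) (m : ℕ) : L h (m + k) f = L h k f := by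
  rw [L, L, qExpansion_tw_add hf, map_mul, HahnSeries.ofPowerSeries_X_pow, ← mul_assoc,
    HahnSeries.single_mul_single, one_mul]
  have h1 : -((m + k : ℕ) : ℤ) + (m : ℤ) = -(k : ℤ) := by push_cast; ring
  rw [h1]

theorem L_mono (hf : IsCuspMerOrder h k f) {k' : ℕ} (hk : k ≤ k') : L h k' f = L h k f := by
  obtain ⟨m, rfl⟩ := Nat.exists_eq_add_of_le' hk
  exact L_add hf m

/-- Independence of the chosen pole order bound. -/
theorem Qexp_eq_L (hf : IsCuspMerOrder h k f) : Qexp h f = L h k f := by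
  have hf' : IsCuspMer h f := ⟨k, hf⟩
  have h0 : IsCuspMerOrder h hf'.choose f := hf'.choose_spec
  have h1 : Qexp h f = L h hf'.choose f := by
    unfold Qexp
    rw [dif_pos hf']
    rfl
  rw [h1]
  rcases le_total hf'.choose k with hle | hle
  · exact (L_mono h0 hle).symm
  · exact L_mono hf hle

theorem coeff_Qexp (hf : IsCuspMerOrder h k f) (n : ℤ) :
    (Qexp h f).coeff n
      = if 0 ≤ n + k then (qExpansion (h : ℝ) (tw h k f)).coeff (n + k).toNat else 0 := by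
  rw [Qexp_eq_L hf, coeff_L]

theorem coeff_Qexp_of_lt (hf : IsCuspMerOrder h k f) {n : ℤ} (hn : n < -(k : ℤ)) :
    (Qexp h f).coeff n = 0 := by
  rw [coeff_Qexp hf, if_neg (by omega)]

theorem coeff_Qexp_sub (hf : IsCuspMerOrder h k f) (m : ℕ) :
    (Qexp h f).coeff ((m : ℤ) - k) = (qExpansion (h : ℝ) (tw h k f)).coeff m := by
  rw [coeff_Qexp hf, if_pos (by omega)]
  congr 2
  omega

/-- The Laurent expansion converges to the function. -/
theorem hasSum_Qexp (hf : IsCuspMerOrder h k f) (τ : ℍ) :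
    HasSum (fun m : ℕ => (Qexp h f).coeff ((m : ℤ) - k) • 𝕢 (h : ℝ) (τ : ℂ) ^ m)
      (𝕢 (h : ℝ) (τ : ℂ) ^ k * f τ) := by
  simp only [coeff_Qexp_sub hf]
  exact cm_hasSum_tw hf τ

/-- A holomorphic periodic function with a convergent Laurent expansion is meromorphic at the
cusp. -/
theorem cm_of_hasSum {F : ℍ → ℂ} (hhol : MDiff F) (hper : ∀ τ : ℍ, F ((h : ℝ) +ᵥ τ) = F τ)
    (K : ℕ) (C : ℤ → ℂ)
    (hs : ∀ τ : ℍ, HasSum (fun m : ℕ => C ((m : ℤ) - K) • 𝕢 (h : ℝ) (τ : ℂ) ^ m)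
      (𝕢 (h : ℝ) (τ : ℂ) ^ K * F τ)) :
    IsCuspMerOrder h K F :=
  ⟨hhol, (periodic_iff F h).mpr hper,
    isBoundedAtImInfty_of_hasSum_qExpansion (hpos h) (f := tw h K F) hs⟩

/-- ... and the Laurent coefficients are the given ones. -/
theorem coeff_Qexp_of_hasSum {F : ℍ → ℂ} (hhol : MDiff F)
    (hper : ∀ τ : ℍ, F ((h : ℝ) +ᵥ τ) = F τ)
    (K : ℕ) (C : ℤ → ℂ) (hC : ∀ n : ℤ, n < -(K : ℤ) → C n = 0)
    (hs : ∀ τ : ℍ, HasSum (fun m : ℕ => C ((m : ℤ) - K) • 𝕢 (h : ℝ) (τ : ℂ) ^ m)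
      (𝕢 (h : ℝ) (τ : ℂ) ^ K * F τ)) (n : ℤ) :
    (Qexp h F).coeff n = C n := by
  have hF : IsCuspMerOrder h K F := cm_of_hasSum hhol hper K C hs
  rw [coeff_Qexp hF]
  split_ifs with hn
  · rw [← coeff_unique (hpos h) (cm_analytic_tw hF) (c := fun m : ℕ => C ((m : ℤ) - K)) hs]
    congr 1
    omega
  · exact (hC n (by omega)).symm

end cm2

end

end Fermat.Agent.S24.Qexp
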