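/-
S24 / package `Qexp` — part 2: constants, sums, products, injectivity, lowering the pole order.
-/
import Fermat.Agent.S24.QexpBasic

set_option autoImplicit false

open Function Complex Filter
open UpperHalfPlane hiding I
open scoped Real Manifold Topology MatrixGroups

namespace Fermat.Agent.S24.Qexp

noncomputable section

local notation "𝕢" => Function.Periodic.qParam

variable {h : ℕ} [NeZero h]

/-! ## Constants -/

theorem cm_const (h : ℕ) [NeZero h] (c : ℂ) : IsCuspMerOrder h 0 (fun _ : ℍ => c) := by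
  refine ⟨mdifferentiable_const, (periodic_iff _ _).mpr fun τ => rfl, ?_⟩
  show IsBoundedAtImInfty (tw h 0 (fun _ : ℍ => c))
  rw [tw_zero]
  exact Filter.const_boundedAtFilter atImInfty c

theorem qExpansion_const (h : ℕ) [NeZero h] (c : ℂ) :
    qExpansion (h : ℝ) (fun _ : ℍ => c) = PowerSeries.C c := by
  have hc := cm_const h c
  have han := cm_analytic_tw hc
  rw [tw_zero] at han
  ext m
  have hs : ∀ τ : ℍ, HasSum (fun m : ℕ => (if m = 0 then c else 0) • 𝕢 (h : ℝ) (τ : ℂ) ^ m)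
      ((fun _ : ℍ => c) τ) := by
    intro τ
    convert hasSum_ite_eq 0 c using 2 with m
    split_ifs with hm
    · subst hm; simp
    · simp
  rw [← coeff_unique (hpos h) han hs m, PowerSeries.coeff_C]

theorem Qexp_const (h : ℕ) [NeZero h] (c : ℂ) : Qexp h (fun _ : ℍ => c) = HahnSeries.C c := by
  rw [Qexp_eq_L (cm_const h c), L, tw_zero, qExpansion_const, HahnSeries.ofPowerSeries_C,
    Nat.cast_zero, neg_zero, HahnSeries.single_zero_one, one_mul]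

/-! ## Sums -/

theorem tw_add_fun (h k : ℕ) (f g : ℍ → ℂ) : tw h k (f + g) = tw h k f + tw h k g := by
  funext τ
  simp only [tw_apply, Pi.add_apply, mul_add]

theorem cm_add {k : ℕ} {f g : ℍ → ℂ} (hf : IsCuspMerOrder h k f) (hg : IsCuspMerOrder h k g) :
    IsCuspMerOrder h k (f + g) := by
  refine ⟨hf.1.add hg.1, (periodic_iff _ _).mpr fun τ => ?_, ?_⟩
  · simp only [Pi.add_apply, cm_vadd hf, cm_vadd hg]
  · show IsBoundedAtImInfty (tw h k (f + g))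
    rw [tw_add_fun]
    exact Filter.BoundedAtFilter.add (cm_bdd_tw hf) (cm_bdd_tw hg)

theorem L_add_fun {k : ℕ} {f g : ℍ → ℂ} (hf : IsCuspMerOrder h k f)
    (hg : IsCuspMerOrder h k g) : L h k (f + g) = L h k f + L h k g := by
  rw [L, L, L, tw_add_fun, qExpansion_add (cm_analytic_tw hf) (cm_analytic_tw hg), map_add,
    mul_add]

theorem isCuspMer_add {f g : ℍ → ℂ} (hf : IsCuspMer h f) (hg : IsCuspMer h g) :
    IsCuspMer h (f + g) := by
  obtain ⟨k₁, hf⟩ := hf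
  obtain ⟨k₂, hg⟩ := hg
  exact ⟨max k₁ k₂, cm_add (cm_mono hf (le_max_left _ _)) (cm_mono hg (le_max_right _ _))⟩

theorem Qexp_add {f g : ℍ → ℂ} (hf : IsCuspMer h f) (hg : IsCuspMer h g) :
    Qexp h (f + g) = Qexp h f + Qexp h g := by
  obtain ⟨k₁, hf⟩ := hf
  obtain ⟨k₂, hg⟩ := hg
  have hf' := cm_mono hf (le_max_left k₁ k₂)
  have hg' := cm_mono hg (le_max_right k₁ k₂)
  rw [Qexp_eq_L (cm_add hf' hg'), Qexp_eq_L hf', Qexp_eq_L hg', L_add_fun hf' hg']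

/-! ## Products -/

theorem tw_mul_fun (h k₁ k₂ : ℕ) (f g : ℍ → ℂ) :
    tw h (k₁ + k₂) (f * g) = tw h k₁ f * tw h k₂ g := by
  funext τ
  simp only [tw_apply, Pi.mul_apply, pow_add]
  ring

theorem cm_mul {k₁ k₂ : ℕ} {f g : ℍ → ℂ} (hf : IsCuspMerOrder h k₁ f)
    (hg : IsCuspMerOrder h k₂ g) : IsCuspMerOrder h (k₁ + k₂) (f * g) := by
  refine ⟨hf.1.mul hg.1, (periodic_iff _ _).mpr fun τ => ?_, ?_⟩
  · simp only [Pi.mul_apply, cm_vadd hf, cm_vadd hg]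
  · show IsBoundedAtImInfty (tw h (k₁ + k₂) (f * g))
    rw [tw_mul_fun]
    exact Filter.BoundedAtFilter.mul (cm_bdd_tw hf) (cm_bdd_tw hg)

theorem L_mul_fun {k₁ k₂ : ℕ} {f g : ℍ → ℂ} (hf : IsCuspMerOrder h k₁ f)
    (hg : IsCuspMerOrder h k₂ g) : L h (k₁ + k₂) (f * g) = L h k₁ f * L h k₂ g := by
  rw [L, L, L, tw_mul_fun, qExpansion_mul (cm_analytic_tw hf) (cm_analytic_tw hg), map_mul]
  have h1 : HahnSeries.single (-((k₁ + k₂ : ℕ) : ℤ)) (1 : ℂ)
      = HahnSeries.single (-(k₁ : ℤ)) (1 : ℂ) * HahnSeries.single (-(k₂ : ℤ)) (1 : ℂ) := by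
    rw [HahnSeries.single_mul_single, one_mul]
    have h2 : -((k₁ + k₂ : ℕ) : ℤ) = -(k₁ : ℤ) + -(k₂ : ℤ) := by push_cast; ring
    rw [h2]
  rw [h1]
  ring

theorem isCuspMer_mul {f g : ℍ → ℂ} (hf : IsCuspMer h f) (hg : IsCuspMer h g) :
    IsCuspMer h (f * g) := by
  obtain ⟨k₁, hf⟩ := hf
  obtain ⟨k₂, hg⟩ := hg
  exact ⟨k₁ + k₂, cm_mul hf hg⟩

theorem Qexp_mul {f g : ℍ → ℂ} (hf : IsCuspMer h f) (hg : IsCuspMer h g) :
    Qexp h (f * g) = Qexp h f * Qexp h g := by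
  obtain ⟨k₁, hf⟩ := hf
  obtain ⟨k₂, hg⟩ := hg
  rw [Qexp_eq_L (cm_mul hf hg), Qexp_eq_L hf, Qexp_eq_L hg, L_mul_fun hf hg]

/-! ## Injectivity -/

theorem eq_zero_of_Qexp_eq_zero {f : ℍ → ℂ} (hf : IsCuspMer h f) (h0 : Qexp h f = 0) :
    f = 0 := by
  obtain ⟨k, hf⟩ := hf
  have hP : qExpansion (h : ℝ) (tw h k f) = 0 := by
    ext m
    rw [← coeff_Qexp_sub hf m, h0]
    simp
  have htw : tw h k f = 0 :=
    (qExpansion_eq_zero_iff (hpos h) (cm_periodic_tw hf) (cm_mdiff_tw hf) (cm_bdd_tw hf)).mp hP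
  funext τ
  have h1 := congrFun htw τ
  rw [tw_apply] at h1
  simpa [Periodic.qParam_ne_zero] using h1

/-! ## Lowering the pole order -/

theorem cm_lower {k : ℕ} {f : ℍ → ℂ} (hf : IsCuspMerOrder h (k + 1) f)
    (hc : (Qexp h f).coeff (-((k : ℤ) + 1)) = 0) : IsCuspMerOrder h k f := by
  have h0 : (qExpansion (h : ℝ) (tw h (k + 1) f)).coeff 0 = 0 := by
    have e : ((0 : ℕ) : ℤ) - ((k + 1 : ℕ) : ℤ) = -((k : ℤ) + 1) := by omega
    rw [← coeff_Qexp_sub hf 0, e]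
    exact hc
  have hval : valueAtInfty (tw h (k + 1) f) = 0 := by
    rw [← qExpansion_coeff_zero (hpos h) (cm_analytic_tw hf) (cm_periodic_tw hf)]
    exact h0
  have hO := exp_decay_sub_atImInfty (hpos h) (cm_periodic_tw hf) (cm_mdiff_tw hf) (cm_bdd_tw hf)
  rw [hval] at hO
  simp only [sub_zero] at hO
  obtain ⟨C, hC⟩ := hO.bound
  refine ⟨hf.1, hf.2.1, ?_⟩
  show IsBoundedAtImInfty (tw h k f)
  rw [IsBoundedAtImInfty, BoundedAtFilter, Asymptotics.isBigO_iff]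
  refine ⟨C, hC.mono fun τ hτ => ?_⟩
  have hq : ‖𝕢 (h : ℝ) (τ : ℂ)‖ = Real.exp (-2 * π * τ.im / h) := by
    rw [Periodic.norm_qParam, coe_im]
  have hqpos : 0 < ‖𝕢 (h : ℝ) (τ : ℂ)‖ := norm_pos_iff.mpr (Periodic.qParam_ne_zero _)
  have h1 : tw h (k + 1) f τ = 𝕢 (h : ℝ) (τ : ℂ) * tw h k f τ := by
    simp only [tw_apply, pow_succ]
    ring
  rw [h1, norm_mul, Real.norm_of_nonneg (Real.exp_pos _).le, ← hq] at hτ
  simp only [Pi.one_apply, norm_one, mul_one]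
  exact le_of_mul_le_mul_left (by linarith) hqpos

end

end Fermat.Agent.S24.Qexp
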