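/-
S24 / package `Qexp` — part 3: substitutions `τ ↦ φ τ` with `q_{h₁}(φ τ) = ζ · q_{h₂}(τ)^e`:
change of period, translation, and `τ ↦ (a τ + b) / d`.
-/
import Fermat.Agent.S24.QexpAlg

set_option autoImplicit false

open Function Complex Filter
open UpperHalfPlane hiding I
open scoped Real Manifold Topology MatrixGroups

namespace Fermat.Agent.S24.Qexp

noncomputable section

local notation "𝕢" => Function.Periodic.qParam

/-- General substitution principle. -/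
theorem subst_general {h₁ h₂ : ℕ} [NeZero h₁] [NeZero h₂] {k : ℕ} {f : ℍ → ℂ}
    (hf : IsCuspMerOrder h₁ k f) (φ : ℍ → ℍ) {Φ : ℂ → ℂ} (hΦ : Differentiable ℂ Φ)
    (hφ : ∀ τ : ℍ, ((φ τ : ℍ) : ℂ) = Φ τ) (ζ : ℂ) (hζ : ζ ≠ 0) (e : ℕ) (he : 0 < e)
    (hq : ∀ τ : ℍ, 𝕢 (h₁ : ℝ) ((φ τ : ℍ) : ℂ) = ζ * 𝕢 (h₂ : ℝ) (τ : ℂ) ^ e)
    (hper : ∀ τ : ℍ, f (φ ((h₂ : ℝ) +ᵥ τ)) = f (φ τ)) :
    IsCuspMerOrder h₂ (e * k) (fun τ => f (φ τ)) ∧
    ∀ n : ℤ, (Qexp h₂ (fun τ => f (φ τ))).coeff n =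
      if (e : ℤ) ∣ n then ζ ^ (n / (e : ℤ)) * (Qexp h₁ f).coeff (n / (e : ℤ)) else 0 := by
  set F : ℍ → ℂ := fun τ => f (φ τ) with hF
  set C : ℤ → ℂ := fun n =>
    if (e : ℤ) ∣ n then ζ ^ (n / (e : ℤ)) * (Qexp h₁ f).coeff (n / (e : ℤ)) else 0 with hCdef
  have he' : (0 : ℤ) < (e : ℤ) := by exact_mod_cast he
  have hhol : MDiff F := mdiff_comp hf.1 φ hΦ hφ
  have hC : ∀ n : ℤ, n < -((e * k : ℕ) : ℤ) → C n = 0 := by
    intro n hn
    simp only [hCdef]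
    split_ifs with hdvd
    · obtain ⟨m, rfl⟩ := hdvd
      rw [Int.mul_ediv_cancel_left _ he'.ne']
      have hm : m < -(k : ℤ) := by
        push_cast at hn
        nlinarith
      rw [coeff_Qexp_of_lt hf hm, mul_zero]
    · rfl
  have hs : ∀ τ : ℍ,
      HasSum (fun m : ℕ => C ((m : ℤ) - ((e * k : ℕ) : ℤ)) • 𝕢 (h₂ : ℝ) (τ : ℂ) ^ m)
      (𝕢 (h₂ : ℝ) (τ : ℂ) ^ (e * k) * F τ) := by
    intro τ
    have h1 := hasSum_Qexp hf (φ τ)
    simp only [hq τ] at h1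
    have h2 := h1.mul_left ((ζ ^ k)⁻¹)
    have h3 : (ζ ^ k)⁻¹ * ((ζ * 𝕢 (h₂ : ℝ) (τ : ℂ) ^ e) ^ k * f (φ τ))
        = 𝕢 (h₂ : ℝ) (τ : ℂ) ^ (e * k) * F τ := by
      rw [mul_pow, ← pow_mul, mul_assoc, inv_mul_cancel_left₀ (pow_ne_zero k hζ)]
    rw [h3] at h2
    refine (Function.Injective.hasSum_iff (g := fun m : ℕ => e * m)
      (mul_right_injective₀ he.ne') ?_).mp ?_
    · intro n hn
      have hnd : ¬ (e : ℤ) ∣ ((n : ℤ) - ((e * k : ℕ) : ℤ)) := by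
        intro hd
        apply hn
        have h4 : (e : ℤ) ∣ (n : ℤ) := by
          have h5 := dvd_add hd (Dvd.intro (k : ℤ) rfl : (e : ℤ) ∣ (e : ℤ) * k)
          simpa using h5
        obtain ⟨m, hm⟩ := Int.natCast_dvd_natCast.mp h4
        exact ⟨m, hm.symm⟩
      simp only [hCdef, if_neg hnd, zero_smul]
    · have h4 : ((fun n : ℕ => C ((n : ℤ) - ((e * k : ℕ) : ℤ)) • 𝕢 (h₂ : ℝ) (τ : ℂ) ^ n) ∘
          fun m : ℕ => e * m)
          = fun i : ℕ => (ζ ^ k)⁻¹ *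
              (Qexp h₁ f).coeff ((i : ℤ) - k) • (ζ * 𝕢 (h₂ : ℝ) (τ : ℂ) ^ e) ^ i := by
        funext m
        have e1 : ((e * m : ℕ) : ℤ) - ((e * k : ℕ) : ℤ) = (e : ℤ) * ((m : ℤ) - k) := by
          push_cast; ring
        simp only [comp_apply, hCdef]
        rw [e1, if_pos (dvd_mul_right _ _), Int.mul_ediv_cancel_left _ he'.ne', zpow_sub₀ hζ,
          zpow_natCast, zpow_natCast, smul_eq_mul, smul_eq_mul, mul_pow, pow_mul]
        field_simp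
      rw [h4]
      exact h2
  exact ⟨cm_of_hasSum hhol hper (e * k) C hs, coeff_Qexp_of_hasSum hhol hper (e * k) C hC hs⟩

/-! ## Invariance under integer translations -/

theorem vadd_nat_of_vadd_one {f : ℍ → ℂ} (hf : ∀ τ : ℍ, f ((1 : ℝ) +ᵥ τ) = f τ) (n : ℕ)
    (τ : ℍ) : f ((n : ℝ) +ᵥ τ) = f τ := by
  induction n with
  | zero => simp
  | succ n ih =>
    have h1 : ((n + 1 : ℕ) : ℝ) +ᵥ τ = (1 : ℝ) +ᵥ ((n : ℝ) +ᵥ τ) := by
      rw [← add_vadd]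
      congr 1
      push_cast
      ring
    rw [h1, hf, ih]

theorem cm_one_vadd {k : ℕ} {f : ℍ → ℂ} (hf : IsCuspMerOrder 1 k f) (τ : ℍ) :
    f ((1 : ℝ) +ᵥ τ) = f τ := by
  have h1 := cm_vadd hf τ
  simpa using h1

/-! ## Change of period -/

theorem qParam_one_eq_pow (N : ℕ) [NeZero N] (z : ℂ) :
    𝕢 ((1 : ℕ) : ℝ) z = 𝕢 (N : ℝ) z ^ N := by
  unfold Periodic.qParam
  rw [← Complex.exp_nat_mul]
  congr 1
  have hN : (N : ℂ) ≠ 0 := Nat.cast_ne_zero.mpr (NeZero.ne N)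
  push_cast
  field_simp

theorem cm_period_mul {N : ℕ} [NeZero N] {k : ℕ} {f : ℍ → ℂ} (hf : IsCuspMerOrder 1 k f) :
    IsCuspMerOrder N (N * k) f ∧
    ∀ n : ℤ, (Qexp N f).coeff n = if (N : ℤ) ∣ n then (Qexp 1 f).coeff (n / N) else 0 := by
  have h1 := subst_general (h₁ := 1) (h₂ := N) hf id differentiable_id (fun τ => rfl) 1
    one_ne_zero N (NeZero.pos N) (fun τ => by rw [one_mul]; exact qParam_one_eq_pow N _)
    (fun τ => vadd_nat_of_vadd_one (cm_one_vadd hf) N τ)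
  simpa using h1

/-- Change of period from `1` to `N`. -/
theorem Qexp_period_mul {N : ℕ} [NeZero N] {f : ℍ → ℂ} (hf : IsCuspMer 1 f) :
    IsCuspMer N f ∧ Qexp N f = ModularCurve.qExpand ℂ N (Qexp 1 f) := by
  obtain ⟨k, hf⟩ := hf
  obtain ⟨h1, h2⟩ := cm_period_mul (N := N) hf
  refine ⟨⟨_, h1⟩, ?_⟩
  ext n
  rw [h2]
  split_ifs with hn
  · obtain ⟨m, rfl⟩ := hn
    rw [ModularCurve.qExpand_coeff_mul,
      Int.mul_ediv_cancel_left _ (by exact_mod_cast NeZero.ne N)]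
  · rw [ModularCurve.qExpand_coeff_of_not_dvd N _ hn]

/-- Change of period from `N` back to `1`. -/
theorem cm_period_one {N : ℕ} [NeZero N] {k : ℕ} {f : ℍ → ℂ} (hf : IsCuspMerOrder N k f)
    (hper : Periodic (f ∘ ofComplex) ((1 : ℝ) : ℂ)) : IsCuspMerOrder 1 k f := by
  refine ⟨hf.1, by rw [Nat.cast_one]; exact hper, ?_⟩
  show IsBoundedAtImInfty (tw 1 k f)
  have h1 : tw 1 k f = qpow (N : ℝ) ((N - 1) * k) * tw N k f := by
    funext τ
    simp only [tw_apply, Pi.mul_apply, qpow_apply]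
    rw [qParam_one_eq_pow N, ← mul_assoc, ← pow_mul, ← pow_add]
    congr 2
    obtain ⟨M, rfl⟩ : ∃ M, N = M + 1 := ⟨N - 1, by have := NeZero.pos N; omega⟩
    simp only [Nat.add_sub_cancel]
    ring
  rw [h1]
  exact Filter.BoundedAtFilter.mul (bdd_qpow (hpos N) _) (cm_bdd_tw hf)

/-! ## Translation -/

theorem cm_translate {h : ℕ} [NeZero h] {k : ℕ} {f : ℍ → ℂ} (hf : IsCuspMerOrder h k f) :
    IsCuspMerOrder h k (fun τ : ℍ => f ((1 : ℝ) +ᵥ τ)) ∧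
    ∀ n : ℤ, (Qexp h (fun τ : ℍ => f ((1 : ℝ) +ᵥ τ))).coeff n
      = Complex.exp (2 * π * Complex.I * n / h) * (Qexp h f).coeff n := by
  have hh : (h : ℂ) ≠ 0 := Nat.cast_ne_zero.mpr (NeZero.ne h)
  have key := subst_general (h₁ := h) (h₂ := h) hf (fun τ => (1 : ℝ) +ᵥ τ)
    (Φ := fun z => 1 + z) (by fun_prop) (fun τ => by rw [coe_vadd]; simp)
    (Complex.exp (2 * π * Complex.I / h)) (Complex.exp_ne_zero _) 1 one_pos ?_ ?_
  · obtain ⟨h1, h2⟩ := key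
    refine ⟨by simpa using h1, fun n => ?_⟩
    rw [h2 n]
    simp only [Nat.cast_one, one_dvd, if_true, Int.ediv_one]
    rw [← Complex.exp_int_mul]
    congr 2
    ring
  · intro τ
    rw [coe_vadd, pow_one]
    unfold Periodic.qParam
    rw [← Complex.exp_add]
    congr 1
    push_cast
    field_simp
  · intro τ
    have h1 : (1 : ℝ) +ᵥ ((h : ℝ) +ᵥ τ) = (h : ℝ) +ᵥ ((1 : ℝ) +ᵥ τ) := by
      rw [← add_vadd, ← add_vadd, add_comm]
    rw [h1]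
    exact cm_vadd hf _

/-! ## The substitution `τ ↦ (a τ + b) / d` -/

theorem coe_utGL_smul {a d : ℕ} (b : ℤ) (ha : 0 < a) (hd : 0 < d) (τ : ℍ) :
    ((utGL a b d • τ : ℍ) : ℂ) = ((a : ℂ) * (τ : ℂ) + (b : ℂ)) / (d : ℂ) := by
  have ha' : (0 : ℝ) < a := Nat.cast_pos.mpr ha
  have hd' : (0 : ℝ) < d := Nat.cast_pos.mpr hd
  have hne : ((a : ℝ) * (d : ℝ)) ≠ 0 := (mul_pos ha' hd').ne'
  have hdet : 0 < (utGL a b d).det.val := by
    rw [utGL, dif_pos hne]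
    simpa [Matrix.det_fin_two_of] using mul_pos ha' hd'
  rw [coe_smul_of_det_pos hdet]
  simp [utGL, ha.ne', hd.ne', num, denom]

theorem cm_utGL {a d : ℕ} (b : ℤ) {h : ℕ} [NeZero h] (ha : 0 < a) (hd : 0 < d) (hdh : d ∣ h)
    {k : ℕ} {f : ℍ → ℂ} (hf : IsCuspMerOrder 1 k f) :
    IsCuspMerOrder h (a * (h / d) * k) (fun τ : ℍ => f (utGL a b d • τ)) ∧
    ∀ n : ℤ, (Qexp h (fun τ : ℍ => f (utGL a b d • τ))).coeff n
      = if ((a * (h / d) : ℕ) : ℤ) ∣ n then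
          Complex.exp (2 * π * Complex.I * b * (n / ((a * (h / d) : ℕ) : ℤ) : ℤ) / d)
            * (Qexp 1 f).coeff (n / ((a * (h / d) : ℕ) : ℤ))
        else 0 := by
  have hdc : (d : ℂ) ≠ 0 := Nat.cast_ne_zero.mpr hd.ne'
  have hhc : (h : ℂ) ≠ 0 := Nat.cast_ne_zero.mpr (NeZero.ne h)
  have hhd : d * (h / d) = h := Nat.mul_div_cancel' hdh
  have hcpos : 0 < h / d := Nat.div_pos (Nat.le_of_dvd (NeZero.pos h) hdh) hd
  have hcast : (d : ℂ) * ((h / d : ℕ) : ℂ) = (h : ℂ) := by exact_mod_cast congrArg (Nat.cast (R := ℂ)) hhd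
  have hcc : ((h / d : ℕ) : ℂ) ≠ 0 := Nat.cast_ne_zero.mpr hcpos.ne'
  have key := subst_general (h₁ := 1) (h₂ := h) hf (fun τ => utGL a b d • τ)
    (Φ := fun z => ((a : ℂ) * z + (b : ℂ)) / (d : ℂ)) (by fun_prop)
    (fun τ => coe_utGL_smul b ha hd τ)
    (Complex.exp (2 * π * Complex.I * b / d)) (Complex.exp_ne_zero _) (a * (h / d))
    (Nat.mul_pos ha hcpos) ?_ ?_
  · obtain ⟨h1, h2⟩ := key
    refine ⟨h1, fun n => ?_⟩
    rw [h2 n]
    refine if_congr Iff.rfl ?_ rfl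
    rw [← Complex.exp_int_mul]
    congr 2
    ring
  · intro τ
    rw [coe_utGL_smul b ha hd]
    unfold Periodic.qParam
    rw [← Complex.exp_nat_mul, ← Complex.exp_add]
    congr 1
    push_cast
    rw [← hcast]
    field_simp
    ring
  · intro τ
    have h1 : utGL a b d • ((h : ℝ) +ᵥ τ) = ((a * (h / d) : ℕ) : ℝ) +ᵥ (utGL a b d • τ) := by
      ext
      rw [coe_utGL_smul b ha hd, coe_vadd, coe_vadd, coe_utGL_smul b ha hd]
      push_cast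
      rw [← hcast]
      field_simp
      ring
    rw [h1]
    exact vadd_nat_of_vadd_one (cm_one_vadd hf) _ _

end

end Fermat.Agent.S24.Qexp
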