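/-
S24 / package `Qexp` — Laurent expansions at the cusp `∞`: proof of `QexpStatement`.

The individual clauses are proved in `QexpBasic.lean` (independence of the pole order bound,
coefficient formulas, convergence and characterisation of the expansion), `QexpAlg.lean`
(constants, sums, products, injectivity, lowering the pole order) and `QexpSubst.lean`
(change of period, translation, substitution `τ ↦ (a τ + b) / d`).
-/
import Fermat.Agent.S24.QexpSubst

set_option autoImplicit false

open UpperHalfPlane

namespace Fermat.Agent.S24.Qexp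

/-- (Q) Basic theory of `Qexp`. -/
theorem qexpStatement : QexpStatement := by
  refine ⟨?_, ?_, ?_, ?_, ?_, ?_, ?_, ?_, ?_⟩
  · intro h _ c
    exact ⟨cm_const h c, Qexp_const h c⟩
  · intro h _ f g hf hg
    exact ⟨isCuspMer_add hf hg, isCuspMer_mul hf hg, Qexp_add hf hg, Qexp_mul hf hg⟩
  · intro h _ f hf h0
    exact eq_zero_of_Qexp_eq_zero hf h0
  · intro h _ k f hf
    exact Qexp_eq_L hf
  · intro h _ k f hf hc
    exact cm_lower hf hc
  · intro N _ f hf
    exact Qexp_period_mul hf
  · intro N _ f hf hper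
    obtain ⟨k, hf⟩ := hf
    exact ⟨k, cm_period_one hf hper⟩
  · intro h _ f hf
    obtain ⟨k, hf⟩ := hf
    obtain ⟨h1, h2⟩ := cm_translate hf
    exact ⟨⟨k, h1⟩, h2⟩
  · intro a d b h _ ha hd hdh f hf
    obtain ⟨k, hf⟩ := hf
    obtain ⟨h1, h2⟩ := cm_utGL b ha hd hdh hf
    exact ⟨⟨_, h1⟩, h2⟩

end Fermat.Agent.S24.Qexp
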