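/-
S24 — dictionary between the prelude's `Place K F` and height-one primes of a Dedekind domain
`B` with fraction field `F` (package `Zeros`, reusable by the other S24 packages).

Main statements (all in namespace `Fermat.Agent.S24.Dict`):
* `mem_iff_ord_nonneg`, `ord_pos_iff`, `ord_add_ge`, `ord_algebraMap`, `ext_of_le`, … : basic
  facts on `Place.ord` and the valuation ring of a place;
* `ord_ofHeightOneSpectrum` : `(Place.ofHeightOneSpectrum v).ord x = -log (v.valuation F x)`;
* `ofHeightOneSpectrum_injective`;
* `exists_eq_ofHeightOneSpectrum` : a place which is nonnegative on `B` and positive somewhere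
  on `B ∖ {0}` is `Place.ofHeightOneSpectrum v` for the prime `v = {b | 0 < ord b}`;
* `ord_nonneg_of_isIntegral` : valuation rings of places are integrally closed;
* `ord_ofHeightOneSpectrum_algebraMap`, `ord_eq_ramificationIdx` : the order at `v` of an element
  of `B` is the multiplicity of `v` in the ideal it generates, resp. a ramification index;
* `range_ofHeightOneSpectrum` : the image of `v ↦ Place.ofHeightOneSpectrum v`;
* `smul_ofHeightOneSpectrum`, `smul_ofHeightOneSpectrum_eq_iff` : compatibility with the action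
  of `F ≃ₐ[K] F` on places.
-/
import Fermat.Agent.S24.Interfaces

set_option autoImplicit false

open AlgebraicCurve IsDedekindDomain WithZero

namespace Fermat.Agent.S24.Dict

noncomputable section

variable {K F : Type*} [Field K] [Field F] [Algebra K F]

/-! ### Basic facts on `Place.ord` -/

theorem adicValuation_eq_exp_neg_ord (w : Place K F) {f : F} (hf : f ≠ 0) :
    w.adicValuation f = exp (-w.ord f) := by
  unfold Place.ord
  rw [neg_neg, exp_log (w.adicValuation_ne_zero hf)]

theorem adicValuation_le_one_of_mem (w : Place K F) {x : F} (hx : x ∈ w.toValuationSubring) :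
    w.adicValuation x ≤ 1 := by
  have h := (w.adicValuation_coe ⟨x, hx⟩).trans_le
    (w.heightOneSpectrum.intValuation_le_one ⟨x, hx⟩)
  simpa using h

theorem ord_nonneg_of_mem (w : Place K F) {f : F} (hf : f ∈ w.toValuationSubring) :
    0 ≤ w.ord f := by
  rcases eq_or_ne f 0 with rfl | hf0
  · simp
  have h := adicValuation_le_one_of_mem w hf
  rw [adicValuation_eq_exp_neg_ord w hf0, ← exp_zero, exp_le_exp] at h
  omega

theorem mem_of_ord_nonneg (w : Place K F) {f : F} (h : 0 ≤ w.ord f) :
    f ∈ w.toValuationSubring := by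
  rcases eq_or_ne f 0 with rfl | hf
  · exact zero_mem _
  obtain ⟨π, hπ⟩ := IsDiscreteValuationRing.exists_irreducible w.toValuationSubring
  obtain ⟨u, hu⟩ := w.exists_unit_mul_zpow hf hπ
  rw [hu, show w.ord f = (((w.ord f).toNat : ℕ) : ℤ) from (Int.toNat_of_nonneg h).symm,
    zpow_natCast]
  exact mul_mem (u : w.toValuationSubring).2 (pow_mem (π : w.toValuationSubring).2 _)

/-- The valuation ring of a place is `{f | 0 ≤ ord f}` (recall `ord 0 = 0`). -/
theorem mem_iff_ord_nonneg (w : Place K F) {f : F} :
    f ∈ w.toValuationSubring ↔ 0 ≤ w.ord f :=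
  ⟨ord_nonneg_of_mem w, mem_of_ord_nonneg w⟩

theorem not_mem_iff_ord_neg (w : Place K F) {f : F} :
    f ∉ w.toValuationSubring ↔ w.ord f < 0 := by
  rw [mem_iff_ord_nonneg, not_le]

/-- Constants have order `0`. -/
theorem ord_algebraMap (w : Place K F) (a : K) : w.ord (algebraMap K F a) = 0 := by
  rcases eq_or_ne a 0 with rfl | ha
  · simp
  have h1 := ord_nonneg_of_mem w (w.algebraMap_mem' a)
  have h2 := ord_nonneg_of_mem w (w.algebraMap_mem' a⁻¹)
  rw [map_inv₀, w.ord_inv] at h2
  omega

theorem ord_neg (w : Place K F) (f : F) : w.ord (-f) = w.ord f := by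
  simp [Place.ord]

/-- The order of a nonzero element of the valuation ring is positive iff it lies in the maximal
ideal. -/
theorem ord_pos_iff_mem_maximalIdeal (w : Place K F) (x : w.toValuationSubring) :
    0 < w.ord (x : F) ↔ x ≠ 0 ∧ x ∈ IsLocalRing.maximalIdeal w.toValuationSubring := by
  rcases eq_or_ne x 0 with rfl | hx
  · simp
  have hxF : (x : F) ≠ 0 := by simpa [ne_eq, ZeroMemClass.coe_eq_zero] using hx
  have h1 : w.adicValuation (x : F) < 1 ↔ x ∈ IsLocalRing.maximalIdeal w.toValuationSubring := by
    rw [w.adicValuation_coe, HeightOneSpectrum.intValuation_lt_one_iff_mem,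
      Place.heightOneSpectrum_asIdeal]
  rw [← h1, adicValuation_eq_exp_neg_ord w hxF, ← exp_zero, exp_lt_exp]
  constructor
  · intro h
    exact ⟨hx, by omega⟩
  · rintro ⟨-, h⟩
    omega

/-- Elements of order `0` of the valuation ring are the units. -/
theorem ord_eq_zero_iff_isUnit (w : Place K F) (x : w.toValuationSubring) (hx : x ≠ 0) :
    w.ord (x : F) = 0 ↔ IsUnit x := by
  have h1 := ord_pos_iff_mem_maximalIdeal w x
  have h2 := ord_nonneg_of_mem w x.2
  rw [IsLocalRing.mem_maximalIdeal, mem_nonunits_iff] at h1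
  constructor
  · intro h
    by_contra hu
    have := h1.mpr ⟨hx, hu⟩
    omega
  · intro hu
    by_contra h
    have hpos : 0 < w.ord (x : F) := by omega
    exact (h1.mp hpos).2 hu

/-- The ultrametric inequality for `ord`. -/
theorem ord_add_ge (w : Place K F) {x y : F} (hx : x ≠ 0) (hy : y ≠ 0) (hxy : x + y ≠ 0) :
    min (w.ord x) (w.ord y) ≤ w.ord (x + y) := by
  have h := w.adicValuation.map_add x y
  rw [adicValuation_eq_exp_neg_ord w hx, adicValuation_eq_exp_neg_ord w hy,
    adicValuation_eq_exp_neg_ord w hxy] at h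
  rcases le_max_iff.mp h with h | h
  · rw [exp_le_exp] at h
    exact (min_le_left _ _).trans (by omega)
  · rw [exp_le_exp] at h
    exact (min_le_right _ _).trans (by omega)

/-- If `ord x < ord y` then `ord (x + y) = ord x`. -/
theorem ord_add_eq_of_lt (w : Place K F) {x y : F} (hx : x ≠ 0) (hy : y ≠ 0)
    (h : w.ord x < w.ord y) : w.ord (x + y) = w.ord x := by
  have hxy : x + y ≠ 0 := by
    intro h0
    have : x = -y := eq_neg_of_add_eq_zero_left h0
    rw [this, ord_neg] at h
    exact lt_irrefl _ h
  have h1 := ord_add_ge w hx hy hxy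
  have h2 : min (w.ord (x + y)) (w.ord (-y)) ≤ w.ord ((x + y) + -y) :=
    ord_add_ge w hxy (neg_ne_zero.mpr hy) (by simpa using hx)
  rw [ord_neg, add_neg_cancel_right] at h2
  rw [min_eq_left h.le] at h1
  rcases min_le_iff.mp h2 with h3 | h3
  · omega
  · omega

/-- Two places with comparable valuation rings are equal. -/
theorem ext_of_le {v w : Place K F} (h : v.toValuationSubring ≤ w.toValuationSubring) : v = w :=
  Place.ext (ValuationSubring.eq_of_le_of_ne_top _ h w.ne_top')

/-- Two places are equal as soon as nonnegativity of `ord` transfers from one to the other. -/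
theorem ext_of_ord_nonneg {v w : Place K F} (h : ∀ f : F, 0 ≤ v.ord f → 0 ≤ w.ord f) : v = w :=
  ext_of_le fun f hf => mem_of_ord_nonneg w (h f (ord_nonneg_of_mem v hf))

theorem ext_of_ord {v w : Place K F} (h : ∀ f : F, v.ord f = w.ord f) : v = w :=
  ext_of_ord_nonneg fun f hf => (h f) ▸ hf

/-- Valuation rings of places are integrally closed: if `0 ≤ ord` on the image of a ring `A`,
then `0 ≤ ord x` for every `x` integral over `A`. -/
theorem ord_nonneg_of_isIntegral (w : Place K F) {A : Type*} [CommRing A] [Algebra A F]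
    (hA : ∀ a : A, 0 ≤ w.ord (algebraMap A F a)) {x : F} (hx : IsIntegral A x) :
    0 ≤ w.ord x := by
  obtain ⟨p, hp, hpx⟩ := hx
  let φ : A →+* w.toValuationSubring :=
    (algebraMap A F).codRestrict w.toValuationSubring.toSubring
      fun a => mem_of_ord_nonneg w (hA a)
  have hφ : (algebraMap w.toValuationSubring F).comp φ = algebraMap A F := by
    ext a
    rfl
  have hint : IsIntegral w.toValuationSubring x := by
    refine ⟨p.map φ, hp.map φ, ?_⟩
    rw [Polynomial.eval₂_map, hφ]
    exact hpx
  obtain ⟨y, hy⟩ := IsIntegrallyClosed.isIntegral_iff.mp hint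
  rw [← hy]
  exact ord_nonneg_of_mem w y.2

/-! ### Places attached to height-one primes of a Dedekind domain -/

section Dedekind

variable {B : Type*} [CommRing B] [IsDedekindDomain B] [Algebra K B] [Algebra B F]
  [IsScalarTower K B F] [IsFractionRing B F]

theorem mem_ofHeightOneSpectrum_iff (v : HeightOneSpectrum B) (x : F) :
    x ∈ (Place.ofHeightOneSpectrum (K := K) (F := F) v).toValuationSubring ↔ v.valuation F x ≤ 1 :=
  Iff.rfl

/-- Units of the valuation ring of `Place.ofHeightOneSpectrum v` have `v`-adic valuation `1`. -/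
theorem valuation_unit (v : HeightOneSpectrum B)
    (u : (Place.ofHeightOneSpectrum (K := K) (F := F) v).toValuationSubringˣ) :
    v.valuation F ((u : (Place.ofHeightOneSpectrum (K := K) (F := F) v).toValuationSubring) : F) = 1 :=
  (Valuation.Integers.isUnit_iff_valuation_eq_one
    (Valuation.valuationSubring.integers (v.valuation F))).mp u.isUnit

theorem log_valuation_irreducible (v : HeightOneSpectrum B)
    {ϖ : (Place.ofHeightOneSpectrum (K := K) (F := F) v).toValuationSubring} (hϖ : Irreducible ϖ) :
    log (v.valuation F (ϖ : F)) = -1 := by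
  obtain ⟨π, hπ⟩ := v.valuation_exists_uniformizer F
  have hπ0 : π ≠ 0 := by
    rintro rfl
    rw [map_zero] at hπ
    exact exp_ne_zero hπ.symm
  obtain ⟨u, hu⟩ := (Place.ofHeightOneSpectrum (K := K) (F := F) v).exists_unit_mul_zpow hπ0 hϖ
  have hϖ0 : (ϖ : F) ≠ 0 := by simpa [ne_eq, ZeroMemClass.coe_eq_zero] using hϖ.ne_zero
  have hne : v.valuation F (ϖ : F) ≠ 0 := (Valuation.ne_zero_iff _).mpr hϖ0
  have hle : v.valuation F (ϖ : F) ≤ 1 := ϖ.2
  have hle' : log (v.valuation F (ϖ : F)) ≤ 0 := by
    rw [← exp_le_exp, exp_log hne, exp_zero]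
    exact hle
  have h := congrArg (fun y => log (v.valuation F y)) hu
  simp only [map_mul, valuation_unit, one_mul, map_zpow₀, log_zpow, hπ, log_exp, smul_eq_mul] at h
  rcases Int.eq_one_or_neg_one_of_mul_eq_neg_one' h.symm with ⟨h1, h2⟩ | ⟨h1, h2⟩
  · exact h2
  · omega

/-- **Dictionary (i)**: the prelude's order function of the place attached to a height-one prime
`v` of a Dedekind domain is (minus the logarithm of) Mathlib's `v`-adic valuation. -/
theorem ord_ofHeightOneSpectrum (v : HeightOneSpectrum B) (x : F) :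
    (Place.ofHeightOneSpectrum (K := K) (F := F) v).ord x = -(log (v.valuation F x)) := by
  rcases eq_or_ne x 0 with rfl | hx
  · simp
  obtain ⟨ϖ, hϖ⟩ := IsDiscreteValuationRing.exists_irreducible
    (Place.ofHeightOneSpectrum (K := K) (F := F) v).toValuationSubring
  obtain ⟨u, hu⟩ := (Place.ofHeightOneSpectrum (K := K) (F := F) v).exists_unit_mul_zpow hx hϖ
  have h := congrArg (fun y => log (v.valuation F y)) hu
  simp only [map_mul, valuation_unit, one_mul, map_zpow₀, log_zpow, smul_eq_mul,
    log_valuation_irreducible v hϖ] at h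
  rw [h]
  ring

/-- Variant of `ord_ofHeightOneSpectrum`: the valuation in terms of `ord`. -/
theorem valuation_eq_exp_neg_ord (v : HeightOneSpectrum B) {x : F} (hx : x ≠ 0) :
    v.valuation F x = exp (-(Place.ofHeightOneSpectrum (K := K) (F := F) v).ord x) := by
  rw [ord_ofHeightOneSpectrum, neg_neg, exp_log ((Valuation.ne_zero_iff _).mpr hx)]

/-- The order at `Place.ofHeightOneSpectrum v` is nonnegative on `B`. -/
theorem ord_ofHeightOneSpectrum_nonneg (v : HeightOneSpectrum B) (b : B) :
    0 ≤ (Place.ofHeightOneSpectrum (K := K) (F := F) v).ord (algebraMap B F b) :=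
  ord_nonneg_of_mem _ (v.valuation_le_one b)

/-- A nonzero element of `B` lies in the prime `v` iff it has positive order at the place
attached to `v`. -/
theorem mem_asIdeal_iff_ord_pos (v : HeightOneSpectrum B) {b : B} (hb : b ≠ 0) :
    b ∈ v.asIdeal ↔ 0 < (Place.ofHeightOneSpectrum (K := K) (F := F) v).ord (algebraMap B F b) := by
  have hbF : algebraMap B F b ≠ 0 := by
    simpa using (IsFractionRing.injective B F).ne hb
  rw [← v.valuation_lt_one_iff_mem (K := F), valuation_eq_exp_neg_ord (K := K) v hbF, ← exp_zero,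
    exp_lt_exp]
  omega

/-- The place attached to a height-one prime determines the prime. -/
theorem ofHeightOneSpectrum_injective :
    Function.Injective (Place.ofHeightOneSpectrum (K := K) (F := F) (R := B)) := by
  intro v v' h
  ext b
  rcases eq_or_ne b 0 with rfl | hb
  · simp
  · rw [mem_asIdeal_iff_ord_pos (K := K) (F := F) v hb,
      mem_asIdeal_iff_ord_pos (K := K) (F := F) v' hb, h]

/-- **Dictionary (ii)**: a place `w` of `F` whose order function is nonnegative on the Dedekind
domain `B` and positive at some nonzero element of `B` is the place attached to the height-one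
prime `{b | b = 0 ∨ 0 < ord_w b}` of `B`. -/
theorem exists_eq_ofHeightOneSpectrum (w : Place K F)
    (h1 : ∀ b : B, 0 ≤ w.ord (algebraMap B F b))
    (h2 : ∃ b : B, b ≠ 0 ∧ 0 < w.ord (algebraMap B F b)) :
    ∃ v : HeightOneSpectrum B, w = Place.ofHeightOneSpectrum (K := K) (F := F) v ∧
      ∀ b : B, b ≠ 0 → (b ∈ v.asIdeal ↔ 0 < w.ord (algebraMap B F b)) := by
  let φ : B →+* w.toValuationSubring :=
    (algebraMap B F).codRestrict w.toValuationSubring.toSubring
      fun b => mem_of_ord_nonneg w (h1 b)
  have hφ : ∀ b : B, ((φ b : w.toValuationSubring) : F) = algebraMap B F b := fun _ => rfl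
  have hφ0 : ∀ b : B, b ≠ 0 → φ b ≠ 0 := by
    intro b hb h0
    have h := congrArg (Subtype.val) h0
    rw [hφ] at h
    exact hb ((IsFractionRing.injective B F) (by simpa using h))
  have hmem : ∀ b : B, b ≠ 0 →
      (b ∈ (IsLocalRing.maximalIdeal w.toValuationSubring).comap φ ↔
        0 < w.ord (algebraMap B F b)) := by
    intro b hb
    rw [Ideal.mem_comap, ← hφ, ord_pos_iff_mem_maximalIdeal]
    exact ⟨fun h => ⟨hφ0 b hb, h⟩, fun h => h.2⟩
  have hne : (IsLocalRing.maximalIdeal w.toValuationSubring).comap φ ≠ ⊥ := by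
    obtain ⟨b, hb, hpos⟩ := h2
    intro hbot
    have : b ∈ (IsLocalRing.maximalIdeal w.toValuationSubring).comap φ := (hmem b hb).mpr hpos
    rw [hbot, Ideal.mem_bot] at this
    exact hb this
  let v : HeightOneSpectrum B :=
    ⟨(IsLocalRing.maximalIdeal w.toValuationSubring).comap φ, inferInstance, hne⟩
  refine ⟨v, ?_, hmem⟩
  symm
  apply ext_of_ord_nonneg
  intro x hx
  rcases eq_or_ne x 0 with rfl | hx0
  · simp
  have hx1 : v.valuation F x ≤ 1 := mem_of_ord_nonneg _ hx
  obtain ⟨n, d, hnd⟩ := v.exists_primeCompl_mul_eq_of_integer x hx1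
  have hd0 : (d : B) ≠ 0 := by
    intro h0
    exact d.2 (h0 ▸ v.asIdeal.zero_mem)
  have hdF : algebraMap B F d ≠ 0 := by
    simpa using (IsFractionRing.injective B F).ne hd0
  have hd : w.ord (algebraMap B F d) = 0 := by
    have h3 := h1 d
    have h4 : ¬ 0 < w.ord (algebraMap B F d) := fun h => d.2 ((hmem d hd0).mpr h)
    omega
  have h5 := w.ord_mul hx0 hdF
  rw [hnd, hd, add_zero] at h5
  rw [← h5]
  exact h1 n

/-- The height-one prime of `B` attached to a place as in `exists_eq_ofHeightOneSpectrum` is
unique. -/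
theorem existsUnique_eq_ofHeightOneSpectrum (w : Place K F)
    (h1 : ∀ b : B, 0 ≤ w.ord (algebraMap B F b))
    (h2 : ∃ b : B, b ≠ 0 ∧ 0 < w.ord (algebraMap B F b)) :
    ∃! v : HeightOneSpectrum B, w = Place.ofHeightOneSpectrum (K := K) (F := F) v := by
  obtain ⟨v, hv, -⟩ := exists_eq_ofHeightOneSpectrum w h1 h2
  exact ⟨v, hv, fun v' hv' => ofHeightOneSpectrum_injective (K := K) (F := F) (hv'.symm.trans hv)⟩

/-- **Dictionary (iv)**: the order at `v` of a nonzero element `b` of `B` is the multiplicity of
`v` in the ideal `(b)`. -/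
theorem ord_ofHeightOneSpectrum_algebraMap (v : HeightOneSpectrum B) {b : B} (hb : b ≠ 0) :
    (Place.ofHeightOneSpectrum (K := K) (F := F) v).ord (algebraMap B F b) =
      (multiplicity v.asIdeal (Ideal.span {b}) : ℤ) := by
  rw [ord_ofHeightOneSpectrum, HeightOneSpectrum.valuation_of_algebraMap,
    v.intValuation_eq_exp_neg_multiplicity hb, log_exp, neg_neg]

/-- **Dictionary (iv')**: the order at `v` of a nonzero element `b` of `B` is the exponent of
`v` in the prime factorisation of the ideal `(b)`. -/
theorem ord_ofHeightOneSpectrum_algebraMap_eq_count (v : HeightOneSpectrum B) {b : B}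
    (hb : b ≠ 0) :
    (Place.ofHeightOneSpectrum (K := K) (F := F) v).ord (algebraMap B F b) =
      ((UniqueFactorizationMonoid.normalizedFactors (Ideal.span {b})).count v.asIdeal : ℤ) := by
  have hsr : Ideal.span {b} ≠ 0 := Submodule.span_singleton_eq_bot.mp.mt hb
  rw [ord_ofHeightOneSpectrum, HeightOneSpectrum.valuation_of_algebraMap,
    v.intValuation_if_neg hb, log_exp, neg_neg,
    Ideal.count_associates_factors_eq hsr v.isPrime v.ne_bot]

/-- **Dictionary (iv'')**: if the height-one prime `v` of `B` lies over the principal ideal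
`(a)` of a subring `A`, then the order of `a` at `v` is the ramification index of `v` over `A`. -/
theorem ord_eq_ramificationIdx {A : Type*} [CommRing A] [Algebra A B] (v : HeightOneSpectrum B)
    (a : A) (ha : algebraMap A B a ≠ 0) [v.asIdeal.LiesOver (Ideal.span {a})] :
    (Place.ofHeightOneSpectrum (K := K) (F := F) v).ord (algebraMap B F (algebraMap A B a)) =
      (v.asIdeal.ramificationIdx A : ℤ) := by
  have hmap : (Ideal.span {a}).map (algebraMap A B) = Ideal.span {algebraMap A B a} := by
    rw [Ideal.map_span, Set.image_singleton]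
  have hne : (Ideal.span {a}).map (algebraMap A B) ≠ ⊥ := by
    rw [hmap]
    exact Submodule.span_singleton_eq_bot.mp.mt ha
  have := v.isPrime
  rw [ord_ofHeightOneSpectrum_algebraMap v ha,
    Ideal.IsDedekindDomain.ramificationIdx_eq_multiplicity (Ideal.span {a}) v.asIdeal hne, hmap]

/-- Summary of the dictionary: `v ↦ Place.ofHeightOneSpectrum v` is a bijection (it is injective
by `ofHeightOneSpectrum_injective`) from the height-one primes of `B` onto the set of places of
`F` that are nonnegative on `B` and positive at some nonzero element of `B`. -/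
theorem range_ofHeightOneSpectrum :
    Set.range (Place.ofHeightOneSpectrum (K := K) (F := F) (R := B)) =
      {w : Place K F | (∀ b : B, 0 ≤ w.ord (algebraMap B F b)) ∧
        ∃ b : B, b ≠ 0 ∧ 0 < w.ord (algebraMap B F b)} := by
  ext w
  constructor
  · rintro ⟨v, rfl⟩
    refine ⟨ord_ofHeightOneSpectrum_nonneg v, ?_⟩
    obtain ⟨b, hbv, hb0⟩ := Submodule.exists_mem_ne_zero_of_ne_bot v.ne_bot
    exact ⟨b, hb0, (mem_asIdeal_iff_ord_pos v hb0).mp hbv⟩
  · rintro ⟨h1, h2⟩
    obtain ⟨v, hv, -⟩ := exists_eq_ofHeightOneSpectrum w h1 h2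
    exact ⟨v, hv.symm⟩

/-- Compatibility of the dictionary with automorphisms: if the `K`-automorphism `σ` of `F`
restricts to the ring automorphism `τ` of `B` and `τ` maps the prime `v` into the prime `v'`,
then `σ` maps the place attached to `v` to the place attached to `v'`. -/
theorem smul_ofHeightOneSpectrum (σ : F ≃ₐ[K] F) (τ : B ≃+* B)
    (hτ : ∀ b : B, algebraMap B F (τ b) = σ (algebraMap B F b))
    (v v' : HeightOneSpectrum B) (hv : ∀ b : B, b ∈ v.asIdeal → τ b ∈ v'.asIdeal) :
    σ • Place.ofHeightOneSpectrum (K := K) (F := F) v =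
      Place.ofHeightOneSpectrum (K := K) (F := F) v' := by
  symm
  apply ext_of_ord_nonneg
  intro x hx
  rcases eq_or_ne x 0 with rfl | hx0
  · simp
  have hx1 : v'.valuation F x ≤ 1 := mem_of_ord_nonneg _ hx
  obtain ⟨n, d, hnd⟩ := v'.exists_primeCompl_mul_eq_of_integer x hx1
  have hd0 : (d : B) ≠ 0 := fun h0 => d.2 (h0 ▸ v'.asIdeal.zero_mem)
  have hdF : algebraMap B F d ≠ 0 := by
    simpa using (IsFractionRing.injective B F).ne hd0
  have key : ∀ b : B,
      (σ • Place.ofHeightOneSpectrum (K := K) (F := F) v).ord (algebraMap B F b) =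
        (Place.ofHeightOneSpectrum (K := K) (F := F) v).ord (algebraMap B F (τ.symm b)) := by
    intro b
    have h := Place.ord_smul σ (Place.ofHeightOneSpectrum (K := K) (F := F) v)
      (algebraMap B F (τ.symm b))
    rw [← hτ, RingEquiv.apply_symm_apply] at h
    exact h
  have hd : (σ • Place.ofHeightOneSpectrum (K := K) (F := F) v).ord (algebraMap B F d) = 0 := by
    rw [key]
    have hd1 : τ.symm (d : B) ≠ 0 := by simpa using hd0
    have hd2 : τ.symm (d : B) ∉ v.asIdeal := fun h => d.2 (by simpa using hv _ h)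
    have h3 := ord_ofHeightOneSpectrum_nonneg (K := K) (F := F) v (τ.symm d)
    have h4 := (mem_asIdeal_iff_ord_pos (K := K) (F := F) v hd1).not.mp hd2
    omega
  have h5 := (σ • Place.ofHeightOneSpectrum (K := K) (F := F) v).ord_mul hx0 hdF
  rw [hnd, hd, add_zero] at h5
  rw [← h5, key]
  exact ord_ofHeightOneSpectrum_nonneg v _

/-- Compatibility of the dictionary with automorphisms, as an equivalence: if `σ` restricts to
the ring automorphism `τ` of `B`, then `σ • (place of v) = (place of v')` iff `τ` maps `v` onto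
`v'`. -/
theorem smul_ofHeightOneSpectrum_eq_iff (σ : F ≃ₐ[K] F) (τ : B ≃+* B)
    (hτ : ∀ b : B, algebraMap B F (τ b) = σ (algebraMap B F b))
    (v v' : HeightOneSpectrum B) :
    σ • Place.ofHeightOneSpectrum (K := K) (F := F) v =
        Place.ofHeightOneSpectrum (K := K) (F := F) v' ↔
      ∀ b : B, b ∈ v.asIdeal ↔ τ b ∈ v'.asIdeal := by
  constructor
  · intro h b
    rcases eq_or_ne b 0 with rfl | hb
    · simp
    have hb' : τ b ≠ 0 := by simpa using hb
    rw [mem_asIdeal_iff_ord_pos (K := K) (F := F) v hb,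
      mem_asIdeal_iff_ord_pos (K := K) (F := F) v' hb', ← h, hτ, Place.ord_smul]
  · intro h
    exact smul_ofHeightOneSpectrum σ τ hτ v v' fun b hb => (h b).mp hb

end Dedekind

end

end Fermat.Agent.S24.Dict
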