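/-
S24 — package `Zeros`: the fundamental identity `∑ ord_w (t - c) = [F : K(t)]` over the zeros of
`t - c` (and the analogous statement at the poles of `t`).
-/
import Fermat.Agent.S24.Dict

set_option autoImplicit false

open AlgebraicCurve IsDedekindDomain IntermediateField

namespace Fermat.Agent.S24.Zeros

noncomputable section

/-! ### Abstract version: a Dedekind domain `B` finite flat over a domain `A` -/

section Abstract

variable {K F A B : Type*} [Field K] [Field F] [Algebra K F]
  [CommRing A] [Algebra K A] [Algebra A F] [IsScalarTower K A F]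
  [CommRing B] [IsDedekindDomain B] [Algebra K B] [Algebra A B] [Algebra B F]
  [IsScalarTower K A B] [IsScalarTower A B F] [IsScalarTower K B F] [IsFractionRing B F]

/-- The height-one prime of `B` given by a prime lying over the principal ideal `(a)` of `A`. -/
def primeOver (a : A) (ha : algebraMap A B a ≠ 0) (q : (Ideal.span {a}).primesOver B) :
    HeightOneSpectrum B :=
  ⟨q.1, q.2.1, fun hbot => ha (by
    have h1 : a ∈ q.1.under A := by
      rw [← q.2.2.over]
      exact Ideal.subset_span rfl
    have h2 : algebraMap A B a ∈ q.1 := h1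
    rw [hbot, Ideal.mem_bot] at h2
    exact h2)⟩

@[simp]
theorem primeOver_asIdeal (a : A) (ha : algebraMap A B a ≠ 0)
    (q : (Ideal.span {a}).primesOver B) : (primeOver a ha q).asIdeal = q.1 := rfl

variable (K F) in
/-- The place of `F` given by a prime of `B` lying over the principal ideal `(a)` of `A`. -/
def placeOver (a : A) (ha : algebraMap A B a ≠ 0) (q : (Ideal.span {a}).primesOver B) :
    Place K F :=
  Place.ofHeightOneSpectrum (K := K) (F := F) (primeOver a ha q)

theorem placeOver_injective (a : A) (ha : algebraMap A B a ≠ 0) :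
    Function.Injective (placeOver K F a ha) := by
  intro q q' h
  have h1 := Dict.ofHeightOneSpectrum_injective (K := K) (F := F) h
  exact Subtype.ext (congrArg HeightOneSpectrum.asIdeal h1)

theorem ord_placeOver (a : A) (ha : algebraMap A B a ≠ 0) (q : (Ideal.span {a}).primesOver B) :
    (placeOver K F a ha q).ord (algebraMap A F a) = (q.1.ramificationIdx A : ℤ) := by
  have : (primeOver a ha q).asIdeal.LiesOver (Ideal.span {a}) := q.2.2
  rw [IsScalarTower.algebraMap_apply A B F]
  exact Dict.ord_eq_ramificationIdx (K := K) (F := F) (primeOver a ha q) a ha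

theorem range_placeOver (a : A) (ha : algebraMap A B a ≠ 0) [Algebra.IsIntegral A B]
    (hmax : (Ideal.span {a}).IsMaximal)
    (hA : ∀ w : Place K F, 0 < w.ord (algebraMap A F a) →
      ∀ x : A, 0 ≤ w.ord (algebraMap A F x)) :
    Set.range (placeOver K F a ha) = {w : Place K F | 0 < w.ord (algebraMap A F a)} := by
  ext w
  constructor
  · rintro ⟨q, rfl⟩
    have h1 : a ∈ q.1.under A := by
      rw [← q.2.2.over]
      exact Ideal.subset_span rfl
    have h2 : algebraMap A B a ∈ (primeOver a ha q).asIdeal := h1
    have h3 := (Dict.mem_asIdeal_iff_ord_pos (K := K) (F := F) (primeOver a ha q) ha).mp h2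
    rw [Set.mem_ofPred_eq, IsScalarTower.algebraMap_apply A B F]
    exact h3
  · intro hw
    rw [Set.mem_ofPred_eq] at hw
    have hB : ∀ b : B, 0 ≤ w.ord (algebraMap B F b) := by
      intro b
      apply Dict.ord_nonneg_of_isIntegral w (hA w hw)
      have hb : IsIntegral A b := Algebra.IsIntegral.isIntegral b
      exact hb.map (IsScalarTower.toAlgHom A B F)
    obtain ⟨v, hv, hmem⟩ := Dict.exists_eq_ofHeightOneSpectrum w hB
      ⟨algebraMap A B a, ha, by rw [← IsScalarTower.algebraMap_apply A B F]; exact hw⟩
    have hav : algebraMap A B a ∈ v.asIdeal :=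
      (hmem _ ha).mpr (by rw [← IsScalarTower.algebraMap_apply A B F]; exact hw)
    have hle : Ideal.span {a} ≤ v.asIdeal.under A := by
      rw [Ideal.span_le, Set.singleton_subset_iff]
      exact hav
    have hover : v.asIdeal.LiesOver (Ideal.span {a}) :=
      ⟨hmax.eq_of_le (Ideal.IsPrime.under A v.asIdeal).ne_top hle⟩
    refine ⟨⟨v.asIdeal, v.isPrime, hover⟩, ?_⟩
    rw [hv]
    rfl

/-- Over an algebraically closed field of constants all inertia degrees are `1`. -/
theorem inertiaDeg_eq_one [IsAlgClosed K] (a : A) [Algebra.IsIntegral A B]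
    (hmax : (Ideal.span {a}).IsMaximal)
    (hK : ∀ x : A, ∃ k : K, x - algebraMap K A k ∈ Ideal.span {a})
    (q : Ideal B) [q.IsPrime] [q.LiesOver (Ideal.span {a})] : q.inertiaDeg A = 1 := by
  have := hmax
  have : q.IsMaximal := Ideal.IsMaximal.of_liesOver_isMaximal q (Ideal.span {a})
  rw [Ideal.inertiaDeg_eq_of_isMaximal (Ideal.span {a}) q]
  have hsurjK : Function.Surjective (algebraMap K (A ⧸ Ideal.span {a})) := by
    intro x
    obtain ⟨x, rfl⟩ := Ideal.Quotient.mk_surjective x
    obtain ⟨k, hk⟩ := hK x
    refine ⟨k, ?_⟩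
    rw [IsScalarTower.algebraMap_apply K A (A ⧸ Ideal.span {a})]
    exact (Ideal.Quotient.eq.mpr hk).symm
  have : Algebra.IsIntegral K (A ⧸ Ideal.span {a}) := Algebra.isIntegral_of_surjective hsurjK
  have : Algebra.IsIntegral K (B ⧸ q) := Algebra.IsIntegral.trans (A ⧸ Ideal.span {a})
  have hbij : Function.Bijective (algebraMap K (B ⧸ q)) :=
    IsAlgClosed.algebraMap_bijective_of_isIntegral
  have hsurj : Function.Surjective (algebraMap (A ⧸ Ideal.span {a}) (B ⧸ q)) := by
    intro y
    obtain ⟨k, hk⟩ := hbij.2 y
    exact ⟨algebraMap K _ k, by rw [← IsScalarTower.algebraMap_apply]; exact hk⟩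
  have hinj : Function.Injective (algebraMap (A ⧸ Ideal.span {a}) (B ⧸ q)) :=
    FaithfulSMul.algebraMap_injective _ _
  have e : (A ⧸ Ideal.span {a}) ≃ₗ[A ⧸ Ideal.span {a}] (B ⧸ q) :=
    LinearEquiv.ofBijective (Algebra.linearMap (A ⧸ Ideal.span {a}) (B ⧸ q)) ⟨hinj, hsurj⟩
  rw [← e.finrank_eq, Module.finrank_self]

/-- **Fundamental identity, abstract version**: let `B` be a Dedekind domain with fraction
field `F`, finite and flat over the domain `A`, everything over the algebraically closed field
`K`.  Let `a : A` generate a maximal ideal with residue field `K`, and assume that every place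
of `F` at which `a` vanishes is nonnegative on `A`.  Then the places of `F` at which `a`
vanishes are finitely many, and the orders of vanishing add up to the rank of `B` over `A`. -/
theorem finite_and_sum_ord_eq_finrank [IsAlgClosed K] [IsDomain A] [Module.Finite A B]
    [Module.Flat A B] (a : A) (ha : algebraMap A B a ≠ 0)
    (hmax : (Ideal.span {a}).IsMaximal)
    (hK : ∀ x : A, ∃ k : K, x - algebraMap K A k ∈ Ideal.span {a})
    (hA : ∀ w : Place K F, 0 < w.ord (algebraMap A F a) →
      ∀ x : A, 0 ≤ w.ord (algebraMap A F x)) :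
    {w : Place K F | 0 < w.ord (algebraMap A F a)}.Finite ∧
      ∑ᶠ w ∈ {w : Place K F | 0 < w.ord (algebraMap A F a)}, w.ord (algebraMap A F a)
        = (Module.finrank A B : ℤ) := by
  have := hmax
  have hfin : Finite ((Ideal.span {a}).primesOver B) :=
    (Algebra.QuasiFinite.finite_primesOver (Ideal.span {a})).to_subtype
  have := Fintype.ofFinite ((Ideal.span {a}).primesOver B)
  rw [← range_placeOver (K := K) (F := F) a ha hmax hA]
  refine ⟨Set.finite_range _, ?_⟩
  rw [finsum_mem_range (placeOver_injective a ha), finsum_eq_sum_of_fintype,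
    ← Ideal.sum_ramification_inertia_eq_finrank (Ideal.span {a}) B, Nat.cast_sum]
  refine Finset.sum_congr rfl fun q _ => ?_
  rw [ord_placeOver, inertiaDeg_eq_one (K := K) a hmax hK q.1, mul_one]

end Abstract

/-! ### The case `A = K[t]`, `B` = the integral closure of `K[t]` in `F` -/

section Concrete

open Polynomial
open IntermediateField.algebraAdjoinAdjoin

variable {K F : Type*} [Field K] [Field F] [Algebra K F]

/-- If `t - c` vanishes at the place `w` then `w` is nonnegative on `K[t]`. -/
theorem ord_nonneg_of_mem_adjoin (w : Place K F) (t : F) (c : K)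
    (hw : 0 < w.ord (t - algebraMap K F c)) {x : F} (hx : x ∈ Algebra.adjoin K ({t} : Set F)) :
    0 ≤ w.ord x := by
  let S : Subalgebra K F :=
    { w.toValuationSubring.toSubring with algebraMap_mem' := w.algebraMap_mem' }
  have ht : t ∈ S := by
    have h1 : t - algebraMap K F c ∈ w.toValuationSubring := Dict.mem_of_ord_nonneg w hw.le
    have h2 : algebraMap K F c ∈ w.toValuationSubring := w.algebraMap_mem' c
    have h3 := add_mem h1 h2
    rw [sub_add_cancel] at h3
    exact h3
  have hle : Algebra.adjoin K ({t} : Set F) ≤ S :=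
    Algebra.adjoin_le (Set.singleton_subset_iff.mpr ht)
  exact Dict.ord_nonneg_of_mem w (hle hx)

theorem zeros_aux [IsAlgClosed K] [CharZero K] (t : F) (ht : Transcendental K t)
    (hfin : FiniteDimensional K⟮t⟯ F) (c : K) :
    {w : Place K F | 0 < w.ord (t - algebraMap K F c)}.Finite ∧
      ∑ᶠ w ∈ {w : Place K F | 0 < w.ord (t - algebraMap K F c)}, w.ord (t - algebraMap K F c)
        = (Module.finrank K⟮t⟯ F : ℤ) := by
  let A := Algebra.adjoin K ({t} : Set F)
  let e : K[X] ≃ₐ[K] A := Polynomial.algEquivOfTranscendental K t ht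
  have : IsPrincipalIdealRing A := IsPrincipalIdealRing.of_surjective e.toRingEquiv e.surjective
  have : IsDedekindDomain A := inferInstance
  have : CharZero F := charZero_of_injective_algebraMap (algebraMap K F).injective
  have : CharZero K⟮t⟯ := charZero_of_injective_algebraMap (algebraMap K K⟮t⟯).injective
  have : Algebra.IsSeparable K⟮t⟯ F := inferInstance
  let B := integralClosure A F
  have : IsDedekindDomain B := IsIntegralClosure.isDedekindDomain A K⟮t⟯ F B
  have : IsFractionRing B F := integralClosure.isFractionRing_of_finite_extension K⟮t⟯ F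
  have : Module.Finite A B := IsIntegralClosure.finite A K⟮t⟯ F B
  have : Module.Flat A B := inferInstance
  let a : A := e (X - C c)
  have haF : algebraMap A F a = t - algebraMap K F c := by
    simp [a, e, A]
  have hirr : Irreducible a := (MulEquiv.irreducible_iff e).mpr (irreducible_X_sub_C c)
  have ha : algebraMap A B a ≠ 0 := by
    intro h
    have h1 := congrArg (algebraMap B F) h
    rw [← IsScalarTower.algebraMap_apply A B F, map_zero] at h1
    exact hirr.ne_zero (Subtype.val_injective h1)
  have hmax : (Ideal.span {a}).IsMaximal := PrincipalIdealRing.isMaximal_of_irreducible hirr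
  have hK : ∀ x : A, ∃ k : K, x - algebraMap K A k ∈ Ideal.span {a} := by
    intro x
    refine ⟨(e.symm x).eval c, ?_⟩
    obtain ⟨g, hg⟩ := X_sub_C_dvd_sub_C_eval (a := c) (p := e.symm x)
    have h1 : x - algebraMap K A ((e.symm x).eval c) = a * e g := by
      have h2 := congrArg e hg
      rw [map_sub, map_mul, AlgEquiv.apply_symm_apply, ← algebraMap_eq, AlgEquiv.commutes] at h2
      exact h2
    rw [h1]
    exact Ideal.mul_mem_right _ _ (Ideal.subset_span rfl)
  have hA : ∀ w : Place K F, 0 < w.ord (algebraMap A F a) →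
      ∀ x : A, 0 ≤ w.ord (algebraMap A F x) := by
    intro w hw x
    rw [haF] at hw
    exact ord_nonneg_of_mem_adjoin w t c hw x.2
  have key := finite_and_sum_ord_eq_finrank (K := K) (F := F) (A := A) (B := B) a ha hmax hK hA
  rw [haF, ← IsFractionRing.finrank_eq A K⟮t⟯ B F] at key
  exact key

end Concrete

/-! ### The statements -/

/-- (A1) The fundamental identity at a finite value `c` of `t`. -/
theorem zerosStatement : ZerosStatement :=
  fun _ _ _ _ _ _ _ t ht hfin c => zeros_aux t ht hfin c

/-- (A1') The fundamental identity at `t = ∞`. -/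
theorem polesStatement : PolesStatement := by
  intro K F _ _ _ _ _ t ht hfin
  have ht' : Transcendental K t⁻¹ := fun h => ht (by simpa using h.inv)
  have hEq : K⟮t⁻¹⟯ = K⟮t⟯ :=
    le_antisymm (adjoin_simple_le_iff.mpr (inv_mem (mem_adjoin_simple_self K t)))
      (adjoin_simple_le_iff.mpr (by simpa using inv_mem (mem_adjoin_simple_self K t⁻¹)))
  have key : ∀ E E' : IntermediateField K F, E = E' → FiniteDimensional E F →
      FiniteDimensional E' F ∧ Module.finrank E' F = Module.finrank E F := by
    rintro E _ rfl h
    exact ⟨h, rfl⟩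
  obtain ⟨hfin', hrank⟩ := key K⟮t⟯ K⟮t⁻¹⟯ hEq.symm hfin
  have h := zeros_aux t⁻¹ ht' hfin' (0 : K)
  have hset : {w : Place K F | 0 < w.ord (t⁻¹ - algebraMap K F 0)} =
      {w : Place K F | w.ord t < 0} := by
    ext w
    simp [Place.ord_inv]
  have hfun : ∀ w : Place K F, w.ord (t⁻¹ - algebraMap K F 0) = - w.ord t := by
    intro w
    simp [Place.ord_inv]
  rw [hset, hrank] at h
  simp only [hfun] at h
  exact h

end

end Fermat.Agent.S24.Zeros
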