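/-
S24 — shared model for the left cosets `SL(2, ℤ) ⧸ Γ₀(N)`.

The coset `γ Γ₀(N)` is determined by the first column `(γ 0 0, γ 1 0)` of `γ` reduced mod `N`, up
to a unit of `ZMod N`; every unimodular column mod `N` occurs; left multiplication by `g` acts on
columns by the matrix `g`.

Main declarations (all in namespace `Fermat.Agent.S24.CosetModel`):
* `col N γ : ZMod N × ZMod N` — the first column of `γ` mod `N`;
  `col_mul`, `col_S_mul`, `col_T_mul`, `col_ST_mul`, `col_T_zpow_mul`, `col_neg`, `isCoprime_col`;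
* `mk_eq_mk_iff` — `(γ : SL(2, ℤ) ⧸ Γ₀(N)) = γ' ↔ a * c' = c * a'`;
* `cross_eq_iff_exists_unit` — for unimodular pairs over any commutative ring,
  `a * c' = c * a' ↔ ∃ u : Rˣ, a' = u * a ∧ c' = u * c`;
* `exists_col_eq` — every unimodular pair mod `N` is the column of some `γ ∈ SL(2, ℤ)`;
* `coset N a c : SL(2, ℤ) ⧸ Γ₀(N)` — the coset with column `(a, c)` (junk value, the class of `1`,
  if `(a, c)` is not unimodular), with `coset_col`, `coset_eq_coset_iff`, `exists_eq_coset`,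
  `smul_coset`, `S_smul_coset`, `T_smul_coset`, `T_zpow_smul_coset`, `ST_smul_coset`.
-/
import Fermat.Agent.S24.Interfaces

set_option autoImplicit false

open scoped MatrixGroups
open CongruenceSubgroup ModularGroup Matrix

namespace Fermat.Agent.S24.CosetModel

/-! ### The first column mod `N` -/

/-- The first column of `γ`, reduced mod `N`. -/
def col (N : ℕ) (γ : SL(2, ℤ)) : ZMod N × ZMod N :=
  (((γ 0 0 : ℤ) : ZMod N), ((γ 1 0 : ℤ) : ZMod N))

theorem col_fst (N : ℕ) (γ : SL(2, ℤ)) : (col N γ).1 = ((γ 0 0 : ℤ) : ZMod N) := rfl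

theorem col_snd (N : ℕ) (γ : SL(2, ℤ)) : (col N γ).2 = ((γ 1 0 : ℤ) : ZMod N) := rfl

theorem col_one (N : ℕ) : col N 1 = (1, 0) := by
  simp [col]

/-- Left multiplication acts on first columns through the matrix. -/
theorem col_mul (N : ℕ) (g γ : SL(2, ℤ)) :
    col N (g * γ) =
      (((g 0 0 : ℤ) : ZMod N) * (col N γ).1 + ((g 0 1 : ℤ) : ZMod N) * (col N γ).2,
        ((g 1 0 : ℤ) : ZMod N) * (col N γ).1 + ((g 1 1 : ℤ) : ZMod N) * (col N γ).2) := by
  have h := Matrix.two_mul_expl g.1 γ.1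
  simp only [col, Matrix.SpecialLinearGroup.coe_mul]
  rw [h.1, h.2.2.1]
  push_cast
  rfl

theorem col_S_mul (N : ℕ) (γ : SL(2, ℤ)) : col N (S * γ) = (-(col N γ).2, (col N γ).1) := by
  rw [col_mul]
  simp [coe_S]

theorem col_T_mul (N : ℕ) (γ : SL(2, ℤ)) :
    col N (T * γ) = ((col N γ).1 + (col N γ).2, (col N γ).2) := by
  rw [col_mul]
  simp [coe_T]

theorem col_T_zpow_mul (N : ℕ) (k : ℤ) (γ : SL(2, ℤ)) :
    col N (T ^ k * γ) = ((col N γ).1 + (k : ZMod N) * (col N γ).2, (col N γ).2) := by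
  rw [col_mul]
  simp [coe_T_zpow]

theorem col_ST_mul (N : ℕ) (γ : SL(2, ℤ)) :
    col N (S * T * γ) = (-(col N γ).2, (col N γ).1 + (col N γ).2) := by
  rw [mul_assoc, col_S_mul, col_T_mul]

theorem col_neg (N : ℕ) (γ : SL(2, ℤ)) : col N (-γ) = (-(col N γ).1, -(col N γ).2) := by
  simp [col]

/-- The first column of a matrix of determinant one is unimodular. -/
theorem isCoprime_col (N : ℕ) (γ : SL(2, ℤ)) : IsCoprime (col N γ).1 (col N γ).2 := by
  have h := (Matrix.SpecialLinearGroup.isCoprime_col γ 0).map (Int.castRingHom (ZMod N))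
  simpa [col] using h

/-! ### The coset criterion -/

theorem inv_mul_mem_Gamma0_iff (N : ℕ) (γ γ' : SL(2, ℤ)) :
    γ⁻¹ * γ' ∈ Gamma0 N ↔ (col N γ).1 * (col N γ').2 = (col N γ).2 * (col N γ').1 := by
  rw [Gamma0_mem]
  have h := Matrix.two_mul_expl (γ⁻¹).1 γ'.1
  have h2 : ((γ⁻¹ * γ' : SL(2, ℤ)) 1 0 : ℤ) = -(γ 1 0) * (γ' 0 0) + (γ 0 0) * (γ' 1 0) := by
    rw [Matrix.SpecialLinearGroup.coe_mul, h.2.2.1, Matrix.SpecialLinearGroup.SL2_inv_expl]
    simp
  rw [h2]
  simp only [col]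
  push_cast
  constructor
  · intro h3
    linear_combination h3
  · intro h3
    linear_combination h3

/-- Two elements of `SL(2, ℤ)` lie in the same left coset of `Γ₀(N)` iff their first columns
`(a, c)`, `(a', c')` mod `N` satisfy `a * c' = c * a'`. -/
theorem mk_eq_mk_iff (N : ℕ) (γ γ' : SL(2, ℤ)) :
    (γ : SL(2, ℤ) ⧸ Gamma0 N) = (γ' : SL(2, ℤ) ⧸ Gamma0 N) ↔
      (col N γ).1 * (col N γ').2 = (col N γ).2 * (col N γ').1 := by
  rw [QuotientGroup.eq, inv_mul_mem_Gamma0_iff]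

theorem smul_mk (N : ℕ) (g γ : SL(2, ℤ)) :
    g • (γ : SL(2, ℤ) ⧸ Gamma0 N) = ((g * γ : SL(2, ℤ)) : SL(2, ℤ) ⧸ Gamma0 N) := rfl

/-- `-1` acts trivially on the cosets. -/
theorem neg_smul_eq (N : ℕ) (g : SL(2, ℤ)) (x : SL(2, ℤ) ⧸ Gamma0 N) : (-g) • x = g • x := by
  induction x using QuotientGroup.induction_on with
  | H γ =>
    rw [smul_mk, smul_mk, mk_eq_mk_iff, show -g * γ = -(g * γ) by simp, col_neg]
    ring

/-! ### Proportionality of unimodular pairs -/

/-- For unimodular pairs `(a, c)`, `(a', c')` over a commutative ring, the "cross product"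
vanishes iff the pairs differ by a unit. -/
theorem cross_eq_iff_exists_unit {R : Type*} [CommRing R] {a c a' c' : R}
    (h : IsCoprime a c) (h' : IsCoprime a' c') :
    a * c' = c * a' ↔ ∃ u : Rˣ, a' = u * a ∧ c' = u * c := by
  constructor
  · intro hx
    obtain ⟨x, y, hxy⟩ := h
    obtain ⟨x', y', hxy'⟩ := h'
    have h1 : (x * a' + y * c') * a = a' := by
      linear_combination y * hx + a' * hxy
    have h2 : (x * a' + y * c') * c = c' := by
      linear_combination (-x) * hx + c' * hxy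
    have h3 : (x * a' + y * c') * (x' * a + y' * c) = 1 := by
      linear_combination x' * h1 + y' * h2 + hxy'
    refine ⟨⟨x * a' + y * c', x' * a + y' * c, h3, by rw [mul_comm]; exact h3⟩, ?_, ?_⟩
    · exact h1.symm
    · exact h2.symm
  · rintro ⟨u, rfl, rfl⟩
    ring

/-- The scaling action of units on unimodular pairs is free. -/
theorem unit_eq_one_of_smul_eq {R : Type*} [CommRing R] {a c : R} (h : IsCoprime a c) (u : Rˣ)
    (ha : (u : R) * a = a) (hc : (u : R) * c = c) : u = 1 := by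
  obtain ⟨x, y, hxy⟩ := h
  ext
  have : (u : R) * (x * a + y * c) = x * a + y * c := by
    linear_combination x * ha + y * hc
  rw [hxy, mul_one] at this
  simpa using this

theorem mk_eq_mk_iff_exists_unit (N : ℕ) (γ γ' : SL(2, ℤ)) :
    (γ : SL(2, ℤ) ⧸ Gamma0 N) = (γ' : SL(2, ℤ) ⧸ Gamma0 N) ↔
      ∃ u : (ZMod N)ˣ, (col N γ').1 = u * (col N γ).1 ∧ (col N γ').2 = u * (col N γ).2 := by
  rw [mk_eq_mk_iff, cross_eq_iff_exists_unit (isCoprime_col N γ) (isCoprime_col N γ')]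

/-! ### Every unimodular column occurs -/

/-- If `gcd(a, N, c) = 1` and `c ≠ 0`, then `a + k * N` is coprime to `c` for some `k`. -/
theorem exists_coprime_add_mul (a N c : ℕ) (hc : c ≠ 0) (h : Nat.gcd a (Nat.gcd N c) = 1) :
    ∃ k : ℕ, Nat.Coprime (a + k * N) c := by
  let ps : Finset ℕ := {p ∈ c.primeFactors | ¬p ∣ a}
  refine ⟨ps.prod id, ?_⟩
  apply Nat.coprime_of_dvd
  intro p pp hp hpc
  by_cases hpa : p ∣ a
  · have h1 := (Nat.dvd_add_right hpa).mp hp
    rcases pp.dvd_mul.mp h1 with h2 | h2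
    · have ⟨q, hq, hq'⟩ := (pp.prime.dvd_finsetProd_iff id).mp h2
      rw [Finset.mem_filter, Nat.mem_primeFactors,
        ← (Nat.prime_dvd_prime_iff_eq pp hq.1.1).mp hq'] at hq
      exact hq.2 hpa
    · have h3 : p ∣ Nat.gcd a (Nat.gcd N c) := Nat.dvd_gcd hpa (Nat.dvd_gcd h2 hpc)
      rw [h] at h3
      exact pp.one_lt.ne' (Nat.dvd_one.mp h3)
  · have pps : p ∈ ps := Finset.mem_filter.mpr ⟨Nat.mem_primeFactors.mpr ⟨pp, hpc, hc⟩, hpa⟩
    have h1 : p ∣ ps.prod id * N := (Finset.dvd_prod_of_mem id pps).mul_right N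
    exact hpa ((Nat.dvd_add_left h1).mp hp)

/-- Every unimodular pair mod `N` lifts to a coprime pair of integers. -/
theorem exists_isCoprime_lift (N : ℕ) [NeZero N] (a c : ZMod N) (h : IsCoprime a c) :
    ∃ a₁ c₁ : ℤ, IsCoprime a₁ c₁ ∧ (a₁ : ZMod N) = a ∧ (c₁ : ZMod N) = c := by
  obtain ⟨x, y, hxy⟩ := h
  -- natural lifts, the second one positive
  set a₀ : ℕ := a.val with ha₀
  set c₀ : ℕ := c.val + N with hc₀
  have hN : N ≠ 0 := NeZero.ne N
  have hc₀pos : c₀ ≠ 0 := by omega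
  have haa : ((a₀ : ℕ) : ZMod N) = a := ZMod.natCast_zmod_val a
  have hcc : ((c₀ : ℕ) : ZMod N) = c := by
    rw [hc₀]; push_cast; rw [ZMod.natCast_zmod_val, ZMod.natCast_self, add_zero]
  have hgcd : Nat.gcd a₀ (Nat.gcd N c₀) = 1 := by
    have h1 : ((x.val * a₀ + y.val * c₀ : ℕ) : ZMod N) = ((1 : ℕ) : ZMod N) := by
      push_cast
      rw [haa, hcc, ZMod.natCast_zmod_val, ZMod.natCast_zmod_val, hxy]
    have h2 : (N : ℤ) ∣ ((x.val * a₀ + y.val * c₀ : ℕ) : ℤ) - ((1 : ℕ) : ℤ) := by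
      rw [← ZMod.intCast_eq_intCast_iff_dvd_sub]
      push_cast
      push_cast at h1
      exact h1.symm
    set d := Nat.gcd a₀ (Nat.gcd N c₀) with hd
    have hda : (d : ℤ) ∣ (a₀ : ℤ) := Int.natCast_dvd_natCast.mpr (Nat.gcd_dvd_left _ _)
    have hdN : (d : ℤ) ∣ (N : ℤ) :=
      Int.natCast_dvd_natCast.mpr ((Nat.gcd_dvd_right _ _).trans (Nat.gcd_dvd_left _ _))
    have hdc : (d : ℤ) ∣ (c₀ : ℤ) :=
      Int.natCast_dvd_natCast.mpr ((Nat.gcd_dvd_right _ _).trans (Nat.gcd_dvd_right _ _))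
    have h3 : (d : ℤ) ∣ ((x.val * a₀ + y.val * c₀ : ℕ) : ℤ) := by
      push_cast
      exact dvd_add (hda.mul_left _) (hdc.mul_left _)
    have h4 : (d : ℤ) ∣ ((1 : ℕ) : ℤ) := by
      have := dvd_sub h3 (hdN.trans h2)
      simpa using this
    exact Nat.dvd_one.mp (Int.natCast_dvd_natCast.mp h4)
  obtain ⟨k, hk⟩ := exists_coprime_add_mul a₀ N c₀ hc₀pos hgcd
  refine ⟨((a₀ + k * N : ℕ) : ℤ), (c₀ : ℤ), Nat.isCoprime_iff_coprime.mpr hk, ?_, ?_⟩
  · push_cast
    rw [haa, ZMod.natCast_self, mul_zero, add_zero]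
  · push_cast
    exact_mod_cast hcc

/-- Every unimodular pair mod `N` is the first column mod `N` of a matrix in `SL(2, ℤ)`. -/
theorem exists_col_eq (N : ℕ) [NeZero N] (a c : ZMod N) (h : IsCoprime a c) :
    ∃ γ : SL(2, ℤ), col N γ = (a, c) := by
  obtain ⟨a₁, c₁, h1, rfl, rfl⟩ := exists_isCoprime_lift N a c h
  obtain ⟨g, hg0, hg1⟩ := h1.exists_SL2_col 0
  exact ⟨g, by simp [col, hg0, hg1]⟩

/-! ### Cosets from columns -/

open Classical in
/-- The coset in `SL(2, ℤ) ⧸ Γ₀(N)` with first column `(a, c)` mod `N` (the class of `1` if the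
pair `(a, c)` is not unimodular). -/
noncomputable def coset (N : ℕ) [NeZero N] (a c : ZMod N) : SL(2, ℤ) ⧸ Gamma0 N :=
  if h : IsCoprime a c then (((exists_col_eq N a c h).choose : SL(2, ℤ)) : SL(2, ℤ) ⧸ Gamma0 N)
  else ((1 : SL(2, ℤ)) : SL(2, ℤ) ⧸ Gamma0 N)

/-- The coset of `γ` is the coset attached to any pair proportional to its first column. -/
theorem coset_eq_mk (N : ℕ) [NeZero N] {a c : ZMod N} (h : IsCoprime a c) (γ : SL(2, ℤ))
    (hγ : a * (col N γ).2 = c * (col N γ).1) :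
    coset N a c = (γ : SL(2, ℤ) ⧸ Gamma0 N) := by
  rw [coset, dif_pos h, mk_eq_mk_iff, (exists_col_eq N a c h).choose_spec]
  exact hγ

theorem coset_col (N : ℕ) [NeZero N] (γ : SL(2, ℤ)) :
    coset N (col N γ).1 (col N γ).2 = (γ : SL(2, ℤ) ⧸ Gamma0 N) :=
  coset_eq_mk N (isCoprime_col N γ) γ (mul_comm _ _)

/-- Every coset is the coset of a unimodular pair. -/
theorem exists_eq_coset (N : ℕ) [NeZero N] (x : SL(2, ℤ) ⧸ Gamma0 N) :
    ∃ a c : ZMod N, IsCoprime a c ∧ x = coset N a c := by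
  induction x using QuotientGroup.induction_on with
  | H γ => exact ⟨_, _, isCoprime_col N γ, (coset_col N γ).symm⟩

theorem coset_eq_coset_iff (N : ℕ) [NeZero N] {a c a' c' : ZMod N} (h : IsCoprime a c)
    (h' : IsCoprime a' c') : coset N a c = coset N a' c' ↔ a * c' = c * a' := by
  obtain ⟨γ', hγ'⟩ := exists_col_eq N a' c' h'
  have e' : coset N a' c' = (γ' : SL(2, ℤ) ⧸ Gamma0 N) := by
    have := coset_col N γ'
    rwa [hγ'] at this
  obtain ⟨γ, hγ⟩ := exists_col_eq N a c h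
  have e : coset N a c = (γ : SL(2, ℤ) ⧸ Gamma0 N) := by
    have := coset_col N γ
    rwa [hγ] at this
  rw [e, e', mk_eq_mk_iff, hγ, hγ']

theorem coset_eq_coset_iff_exists_unit (N : ℕ) [NeZero N] {a c a' c' : ZMod N}
    (h : IsCoprime a c) (h' : IsCoprime a' c') :
    coset N a c = coset N a' c' ↔ ∃ u : (ZMod N)ˣ, a' = u * a ∧ c' = u * c := by
  rw [coset_eq_coset_iff N h h', cross_eq_iff_exists_unit h h']

/-- Unimodularity is preserved by the action of `SL(2, ℤ)` on columns. -/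
theorem isCoprime_smul (N : ℕ) (g : SL(2, ℤ)) {a c : ZMod N} (h : IsCoprime a c) :
    IsCoprime (((g 0 0 : ℤ) : ZMod N) * a + ((g 0 1 : ℤ) : ZMod N) * c)
      (((g 1 0 : ℤ) : ZMod N) * a + ((g 1 1 : ℤ) : ZMod N) * c) := by
  obtain ⟨x, y, hxy⟩ := h
  have hdet : ((g 0 0 : ℤ) : ZMod N) * ((g 1 1 : ℤ) : ZMod N)
      - ((g 0 1 : ℤ) : ZMod N) * ((g 1 0 : ℤ) : ZMod N) = 1 := by
    have h1 := g.det_coe
    rw [Matrix.det_fin_two] at h1
    have h2 := congrArg (Int.cast : ℤ → ZMod N) h1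
    push_cast at h2
    exact h2
  refine ⟨x * ((g 1 1 : ℤ) : ZMod N) - y * ((g 1 0 : ℤ) : ZMod N),
    y * ((g 0 0 : ℤ) : ZMod N) - x * ((g 0 1 : ℤ) : ZMod N), ?_⟩
  linear_combination (x * a + y * c) * hdet + hxy

/-- The left multiplication action on cosets, in terms of columns. -/
theorem smul_coset (N : ℕ) [NeZero N] (g : SL(2, ℤ)) {a c : ZMod N} (h : IsCoprime a c) :
    g • coset N a c =
      coset N (((g 0 0 : ℤ) : ZMod N) * a + ((g 0 1 : ℤ) : ZMod N) * c)
        (((g 1 0 : ℤ) : ZMod N) * a + ((g 1 1 : ℤ) : ZMod N) * c) := by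
  obtain ⟨γ, hγ⟩ := exists_col_eq N a c h
  have e : coset N a c = (γ : SL(2, ℤ) ⧸ Gamma0 N) := by
    have := coset_col N γ
    rwa [hγ] at this
  rw [e, smul_mk, ← coset_col N (g * γ), col_mul, hγ]

theorem S_smul_coset (N : ℕ) [NeZero N] {a c : ZMod N} (h : IsCoprime a c) :
    S • coset N a c = coset N (-c) a := by
  rw [smul_coset N S h]
  simp [coe_S]

theorem T_smul_coset (N : ℕ) [NeZero N] {a c : ZMod N} (h : IsCoprime a c) :
    T • coset N a c = coset N (a + c) c := by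
  rw [smul_coset N T h]
  simp [coe_T]

theorem T_zpow_smul_coset (N : ℕ) [NeZero N] (k : ℤ) {a c : ZMod N} (h : IsCoprime a c) :
    T ^ k • coset N a c = coset N (a + (k : ZMod N) * c) c := by
  rw [smul_coset N (T ^ k) h]
  simp [coe_T_zpow]

theorem ST_smul_coset (N : ℕ) [NeZero N] {a c : ZMod N} (h : IsCoprime a c) :
    (S * T) • coset N a c = coset N (-c) (a + c) := by
  have h1 : IsCoprime (a + c) c := by
    have := isCoprime_smul N T h
    simpa [coe_T] using this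
  rw [mul_smul, T_smul_coset N h, S_smul_coset N h1]

end Fermat.Agent.S24.CosetModel
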