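/-
S24 — package `CombIndex`, part (C2): the orbit counts of the elliptic elements `S` and `S * T`
on `SL(2, ℤ) ⧸ Γ₀(N)`.

Main results (namespace `Fermat.Agent.S24.CombIndex`):
* `prime_mul_card_orbits` — if `g ^ p` acts trivially on a finite set `X` (`p` prime), then
  `p * #orbits(⟨g⟩) = |X| + (p - 1) * #fixed points(g)`;
* `card_fixed_S`, `card_fixed_ST` — the fixed points of `S`, `S * T` on the cosets are counted by
  `nuTwo N`, `nuThree N`;
* `combEllipticStatement : CombEllipticStatement`.
-/
import Fermat.Agent.S24.Interfaces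
import Fermat.Agent.S24.CosetModel

set_option autoImplicit false

open scoped MatrixGroups
open CongruenceSubgroup ModularGroup Matrix

namespace Fermat.Agent.S24.CombIndex

open Fermat.Agent.S24.CosetModel

/-! ## Orbits of an element whose prime power acts trivially -/

section Orbits

variable {G X : Type*} [Group G] [MulAction G X]

/-- The cardinality of a finite `G`-set is the sum of the minimal periods of `g` over the orbits
of the cyclic group generated by `g`. -/
theorem card_eq_sum_minimalPeriod [Finite X] (g : G)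
    [Fintype (MulAction.orbitRel.Quotient (Subgroup.zpowers g) X)] :
    Nat.card X = ∑ q : MulAction.orbitRel.Quotient (Subgroup.zpowers g) X,
      Function.minimalPeriod (g • ·) q.out := by
  have e := (MulAction.selfEquivSigmaOrbits (Subgroup.zpowers g) X).trans
    (Equiv.sigmaCongrRight fun q => MulAction.orbitZPowersEquiv g q.out)
  rw [Nat.card_congr e, Nat.card_sigma]
  simp

/-- A point fixed by `g` is the chosen representative of its orbit under `⟨g⟩`. -/
theorem out_mk_eq_of_fixed (g : G) (x : X) (hx : g • x = x) :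
    (Quotient.mk'' x : MulAction.orbitRel.Quotient (Subgroup.zpowers g) X).out = x := by
  have h1 : (Quotient.mk'' x : MulAction.orbitRel.Quotient (Subgroup.zpowers g) X).out
      ∈ MulAction.orbit (Subgroup.zpowers g) x := by
    rw [← MulAction.orbitRel_apply]
    exact Quotient.exact (Quotient.out_eq' _)
  obtain ⟨h, hh⟩ := h1
  have h2 : Subgroup.zpowers g ≤ MulAction.stabilizer G x :=
    Subgroup.zpowers_le.mpr (MulAction.mem_stabilizer_iff.mpr hx)
  have h3 : (h : G) • x = x := MulAction.mem_stabilizer_iff.mp (h2 h.2)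
  rw [← hh]
  exact h3

/-- The fixed points of `g` correspond to the orbits of `⟨g⟩` of size one. -/
theorem card_fixed_eq [Finite X] (g : G) :
    Nat.card {x : X // g • x = x} =
      Nat.card {q : MulAction.orbitRel.Quotient (Subgroup.zpowers g) X //
        Function.minimalPeriod (g • ·) q.out = 1} := by
  refine Nat.card_congr
    { toFun := fun x => ⟨Quotient.mk'' x.1, ?_⟩
      invFun := fun q => ⟨q.1.out, ?_⟩
      left_inv := ?_
      right_inv := ?_ }
  · rw [out_mk_eq_of_fixed g x.1 x.2, Function.minimalPeriod_eq_one_iff_isFixedPt]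
    exact x.2
  · exact Function.minimalPeriod_eq_one_iff_isFixedPt.mp q.2
  · intro x
    exact Subtype.ext (out_mk_eq_of_fixed g x.1 x.2)
  · intro q
    exact Subtype.ext (Quotient.out_eq' q.1)

/-- If `g ^ p` acts trivially on the finite set `X`, `p` prime, then
`p * #orbits(⟨g⟩) = |X| + (p - 1) * #fixed points(g)`. -/
theorem prime_mul_card_orbits [Finite X] (g : G) (p : ℕ) (hp : p.Prime)
    (h : ∀ x : X, g ^ p • x = x) :
    p * Nat.card (MulAction.orbitRel.Quotient (Subgroup.zpowers g) X) =
      Nat.card X + (p - 1) * Nat.card {x : X // g • x = x} := by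
  classical
  have : Fintype (MulAction.orbitRel.Quotient (Subgroup.zpowers g) X) := Fintype.ofFinite _
  have hm : ∀ q : MulAction.orbitRel.Quotient (Subgroup.zpowers g) X,
      Function.minimalPeriod (g • ·) q.out = 1 ∨ Function.minimalPeriod (g • ·) q.out = p := by
    intro q
    apply (Nat.dvd_prime hp).mp
    apply Function.IsPeriodicPt.minimalPeriod_dvd
    rw [Function.IsPeriodicPt, Function.IsFixedPt, smul_iterate]
    exact h _
  have hX := card_eq_sum_minimalPeriod (X := X) g
  have hF : Nat.card {x : X // g • x = x} =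
      ∑ q : MulAction.orbitRel.Quotient (Subgroup.zpowers g) X,
        if Function.minimalPeriod (g • ·) q.out = 1 then 1 else 0 := by
    rw [card_fixed_eq g, Nat.card_eq_fintype_card, Fintype.card_subtype, Finset.card_filter]
  have hΩ : Nat.card (MulAction.orbitRel.Quotient (Subgroup.zpowers g) X) =
      ∑ _q : MulAction.orbitRel.Quotient (Subgroup.zpowers g) X, 1 := by
    rw [Nat.card_eq_fintype_card, Fintype.card, Finset.card_eq_sum_ones]
  rw [hX, hF, hΩ, Finset.mul_sum, Finset.mul_sum, ← Finset.sum_add_distrib]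
  refine Finset.sum_congr rfl fun q _ => ?_
  rcases hm q with h1 | h1
  · rw [h1, if_pos rfl]
    have := hp.one_lt
    omega
  · rw [h1, if_neg hp.one_lt.ne', mul_zero, add_zero, mul_one]

end Orbits

/-! ## (C2) the elliptic elements -/

section Elliptic

theorem S_sq_smul (N : ℕ) (x : SL(2, ℤ) ⧸ Gamma0 N) : S ^ 2 • x = x := by
  have h : S ^ 2 = -1 := by decide
  rw [h, neg_smul_eq, one_smul]

theorem ST_cube_smul (N : ℕ) (x : SL(2, ℤ) ⧸ Gamma0 N) : (S * T) ^ 3 • x = x := by
  have h : (S * T) ^ 3 = -1 := by decide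
  rw [h, neg_smul_eq, one_smul]

variable (N : ℕ) [NeZero N]

/-- A fixed point of a "rotation" has a unit in the second coordinate: if `(a, c)` is unimodular
and `c ∣ a ^ 2`, then `c` is a unit. -/
theorem isUnit_of_isCoprime_of_dvd_sq {R : Type*} [CommRing R] {a c : R} (h : IsCoprime a c)
    (hd : c ∣ a ^ 2) : IsUnit c := by
  obtain ⟨u, v, huv⟩ := h
  obtain ⟨d, hd⟩ := hd
  refine isUnit_iff_exists_inv.mpr ⟨u ^ 2 * d + 2 * u * v * a + v ^ 2 * c, ?_⟩
  have : (u * a + v * c) ^ 2 = 1 := by rw [huv, one_pow]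
  linear_combination this - u ^ 2 * hd

/-- The fixed points of `S` on `SL(2, ℤ) ⧸ Γ₀(N)` are in bijection with the roots of `x ^ 2 + 1`
in `ZMod N`. -/
theorem card_fixed_S :
    Nat.card {x : SL(2, ℤ) ⧸ Gamma0 N // S • x = x} = ModularCurve.nuTwo N := by
  rw [ModularCurve.nuTwo]
  symm
  have hfix : ∀ r : ZMod N, r ^ 2 + 1 = 0 → S • coset N r 1 = coset N r 1 := by
    intro r hr
    rw [S_smul_coset N isCoprime_one_right,
      coset_eq_coset_iff N isCoprime_one_left.neg_left isCoprime_one_right]
    linear_combination (-1 : ZMod N) * hr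
  refine Nat.card_congr (Equiv.ofBijective
    (fun r : {x : ZMod N // x ^ 2 + 1 = 0} =>
      (⟨coset N r.1 1, hfix r.1 r.2⟩ : {x : SL(2, ℤ) ⧸ Gamma0 N // S • x = x})) ⟨?_, ?_⟩)
  · intro r r' hrr
    have h1 : coset N r.1 1 = coset N r'.1 1 := congrArg Subtype.val hrr
    rw [coset_eq_coset_iff N isCoprime_one_right isCoprime_one_right] at h1
    exact Subtype.ext (by simpa using h1)
  · rintro ⟨x, hx⟩
    obtain ⟨a, c, hac, rfl⟩ := exists_eq_coset N x
    rw [S_smul_coset N hac, coset_eq_coset_iff N hac.symm.neg_left hac] at hx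
    -- hx : -c * c = a * a
    have hc : IsUnit c := isUnit_of_isCoprime_of_dvd_sq hac ⟨-c, by linear_combination -hx⟩
    obtain ⟨w, hw⟩ := isUnit_iff_exists_inv.mp hc
    have hr : (a * w) ^ 2 + 1 = 0 := by
      linear_combination (-w ^ 2) * hx - (1 + c * w) * hw
    refine ⟨⟨a * w, hr⟩, Subtype.ext ?_⟩
    show coset N (a * w) 1 = coset N a c
    rw [coset_eq_coset_iff N isCoprime_one_right hac]
    linear_combination a * hw

/-- The fixed points of `S * T` on `SL(2, ℤ) ⧸ Γ₀(N)` are in bijection with the roots of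
`x ^ 2 + x + 1` in `ZMod N`. -/
theorem card_fixed_ST :
    Nat.card {x : SL(2, ℤ) ⧸ Gamma0 N // (S * T) • x = x} = ModularCurve.nuThree N := by
  rw [ModularCurve.nuThree]
  symm
  have hcop : ∀ r : ZMod N, IsCoprime (-1 : ZMod N) (r + 1) := fun r =>
    isCoprime_one_left.neg_left
  have hfix : ∀ r : ZMod N, r ^ 2 + r + 1 = 0 → (S * T) • coset N r 1 = coset N r 1 := by
    intro r hr
    rw [ST_smul_coset N isCoprime_one_right,
      coset_eq_coset_iff N (hcop r) isCoprime_one_right]
    linear_combination (-1 : ZMod N) * hr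
  refine Nat.card_congr (Equiv.ofBijective
    (fun r : {x : ZMod N // x ^ 2 + x + 1 = 0} =>
      (⟨coset N r.1 1, hfix r.1 r.2⟩ : {x : SL(2, ℤ) ⧸ Gamma0 N // (S * T) • x = x})) ⟨?_, ?_⟩)
  · intro r r' hrr
    have h1 : coset N r.1 1 = coset N r'.1 1 := congrArg Subtype.val hrr
    rw [coset_eq_coset_iff N isCoprime_one_right isCoprime_one_right] at h1
    exact Subtype.ext (by simpa using h1)
  · rintro ⟨x, hx⟩
    obtain ⟨a, c, hac, rfl⟩ := exists_eq_coset N x
    have hac' : IsCoprime (-c) (a + c) := by
      have := isCoprime_smul N (S * T) hac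
      simpa [show ((S * T : SL(2, ℤ)) : Matrix (Fin 2) (Fin 2) ℤ) = !![0, -1; 1, 1] by decide]
        using this
    rw [ST_smul_coset N hac, coset_eq_coset_iff N hac' hac] at hx
    -- hx : -c * c = (a + c) * a
    have hc : IsUnit c :=
      isUnit_of_isCoprime_of_dvd_sq hac ⟨-c - a, by linear_combination -hx⟩
    obtain ⟨w, hw⟩ := isUnit_iff_exists_inv.mp hc
    have hr : (a * w) ^ 2 + a * w + 1 = 0 := by
      linear_combination (-w ^ 2) * hx - (1 + c * w + a * w) * hw
    refine ⟨⟨a * w, hr⟩, Subtype.ext ?_⟩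
    show coset N (a * w) 1 = coset N a c
    rw [coset_eq_coset_iff N isCoprime_one_right hac]
    linear_combination a * hw

/-- (C2) Orbits of `S` and `S * T` on the cosets. -/
theorem combEllipticStatement : CombEllipticStatement := by
  intro N _
  constructor
  · have h := prime_mul_card_orbits (X := SL(2, ℤ) ⧸ Gamma0 N) S 2 Nat.prime_two (S_sq_smul N)
    rw [card_fixed_S N] at h
    have h' : 2 * cycleCount N S =
        Nat.card (SL(2, ℤ) ⧸ Gamma0 N) + (2 - 1) * ModularCurve.nuTwo N := h
    simpa using h'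
  · have h := prime_mul_card_orbits (X := SL(2, ℤ) ⧸ Gamma0 N) (S * T) 3 Nat.prime_three
      (ST_cube_smul N)
    rw [card_fixed_ST N] at h
    exact h

end Elliptic

end Fermat.Agent.S24.CombIndex
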