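/-
S24 — package `CombIndex`: the index of `Γ₀(N)` in `SL(2, ℤ)` is `ψ(N)` (C1).  Part (C2), the
orbit counts of the elliptic elements, is in `Fermat/Agent/S24/CombIndexElliptic.lean`, which is
imported here, so that this module provides both

* `Fermat.Agent.S24.CombIndex.combIndexStatement : CombIndexStatement` and
* `Fermat.Agent.S24.CombIndex.combEllipticStatement : CombEllipticStatement`.

Proof of (C1).  Let `U(N)` be the set of unimodular pairs in `(ZMod N)²`.  By the coset model
(`CosetModel`), `(SL(2, ℤ) ⧸ Γ₀(N)) × (ZMod N)ˣ ≃ U(N)` (units act freely on `U(N)`, the orbits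
are the cosets), so `|U(N)| = [SL(2, ℤ) : Γ₀(N)] * φ(N)`.  The function `N ↦ |U(N)|` is
multiplicative (Chinese remainder theorem) and `|U(p ^ (k + 1))| = p ^ (2 k) * (p ^ 2 - 1)`
(a pair is unimodular iff one of its entries is a unit).  The same holds for `ψ * φ`.
-/
import Fermat.Agent.S24.Interfaces
import Fermat.Agent.S24.CosetModel
import Fermat.Agent.S24.CombIndexElliptic

set_option autoImplicit false

open scoped MatrixGroups
open CongruenceSubgroup ModularGroup Matrix

namespace Fermat.Agent.S24.CombIndex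

open Fermat.Agent.S24.CosetModel

/-! ## Unimodular pairs and cosets -/

/-- The number of unimodular pairs in `(ZMod N)²`. -/
noncomputable def unimodCount (N : ℕ) : ℕ :=
  Nat.card {v : ZMod N × ZMod N // IsCoprime v.1 v.2}

section Rep

variable (N : ℕ) [NeZero N]

theorem exists_rep (x : SL(2, ℤ) ⧸ Gamma0 N) :
    ∃ v : ZMod N × ZMod N, IsCoprime v.1 v.2 ∧ coset N v.1 v.2 = x := by
  obtain ⟨a, c, h, rfl⟩ := exists_eq_coset N x
  exact ⟨(a, c), h, rfl⟩

/-- A chosen unimodular pair representing a coset. -/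
noncomputable def rep (x : SL(2, ℤ) ⧸ Gamma0 N) : ZMod N × ZMod N := (exists_rep N x).choose

theorem isCoprime_rep (x : SL(2, ℤ) ⧸ Gamma0 N) : IsCoprime (rep N x).1 (rep N x).2 :=
  (exists_rep N x).choose_spec.1

theorem coset_rep (x : SL(2, ℤ) ⧸ Gamma0 N) : coset N (rep N x).1 (rep N x).2 = x :=
  (exists_rep N x).choose_spec.2

/-- The unimodular pairs are the unit multiples of the representatives of the cosets. -/
theorem unimodCount_eq : unimodCount N = Nat.card (SL(2, ℤ) ⧸ Gamma0 N) * N.totient := by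
  have hbij : Function.Bijective (fun xu : (SL(2, ℤ) ⧸ Gamma0 N) × (ZMod N)ˣ =>
      (⟨((xu.2 : ZMod N) * (rep N xu.1).1, (xu.2 : ZMod N) * (rep N xu.1).2),
        (isCoprime_mul_unit_left xu.2.isUnit _ _).mpr (isCoprime_rep N xu.1)⟩ :
        {v : ZMod N × ZMod N // IsCoprime v.1 v.2})) := by
    constructor
    · rintro ⟨x, u⟩ ⟨y, v⟩ h
      have h1 : (u : ZMod N) * (rep N x).1 = v * (rep N y).1 := congrArg (fun w => w.1.1) h
      have h2 : (u : ZMod N) * (rep N x).2 = v * (rep N y).2 := congrArg (fun w => w.1.2) h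
      have hv : ((v⁻¹ : (ZMod N)ˣ) : ZMod N) * (v : ZMod N) = 1 := by
        rw [← Units.val_mul, inv_mul_cancel, Units.val_one]
      have hxy : x = y := by
        rw [← coset_rep N x, ← coset_rep N y,
          coset_eq_coset_iff_exists_unit N (isCoprime_rep N x) (isCoprime_rep N y)]
        refine ⟨v⁻¹ * u, ?_, ?_⟩
        · rw [Units.val_mul]
          linear_combination (-(rep N y).1) * hv - ((v⁻¹ : (ZMod N)ˣ) : ZMod N) * h1
        · rw [Units.val_mul]
          linear_combination (-(rep N y).2) * hv - ((v⁻¹ : (ZMod N)ˣ) : ZMod N) * h2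
      subst hxy
      have huv : v⁻¹ * u = 1 := by
        refine unit_eq_one_of_smul_eq (isCoprime_rep N x) (v⁻¹ * u) ?_ ?_
        · rw [Units.val_mul]
          linear_combination (rep N x).1 * hv + ((v⁻¹ : (ZMod N)ˣ) : ZMod N) * h1
        · rw [Units.val_mul]
          linear_combination (rep N x).2 * hv + ((v⁻¹ : (ZMod N)ˣ) : ZMod N) * h2
      have : u = v := by rw [← mul_one v, ← huv, mul_inv_cancel_left]
      rw [this]
    · rintro ⟨⟨a, c⟩, hac⟩
      have h := coset_rep N (coset N a c)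
      rw [coset_eq_coset_iff_exists_unit N (isCoprime_rep N _) hac] at h
      obtain ⟨u, hu1, hu2⟩ := h
      exact ⟨(coset N a c, u), Subtype.ext (Prod.ext hu1.symm hu2.symm)⟩
  rw [unimodCount, ← Nat.card_congr (Equiv.ofBijective _ hbij), Nat.card_prod,
    Nat.card_eq_fintype_card (α := (ZMod N)ˣ), ZMod.card_units_eq_totient]

end Rep

/-! ## Multiplicativity of the number of unimodular pairs -/

theorem isCoprime_prod_iff {A B : Type*} [CommRing A] [CommRing B] (x y : A × B) :
    IsCoprime x y ↔ IsCoprime x.1 y.1 ∧ IsCoprime x.2 y.2 := by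
  constructor
  · intro h
    exact ⟨by simpa using h.map (RingHom.fst A B), by simpa using h.map (RingHom.snd A B)⟩
  · rintro ⟨⟨u, v, h1⟩, ⟨u', v', h2⟩⟩
    exact ⟨(u, u'), (v, v'), Prod.ext h1 h2⟩

theorem isCoprime_ringEquiv_iff {R S : Type*} [CommRing R] [CommRing S] (e : R ≃+* S) (a c : R) :
    IsCoprime (e a) (e c) ↔ IsCoprime a c := by
  constructor
  · intro h
    simpa using h.map (e.symm : S →+* R)
  · intro h
    exact h.map (e : R →+* S)

/-- The unimodular pairs over a product ring. -/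
def unimodProdEquiv {R A B : Type*} [CommRing R] [CommRing A] [CommRing B] (e : R ≃+* A × B) :
    {v : R × R // IsCoprime v.1 v.2} ≃
      {v : A × A // IsCoprime v.1 v.2} × {v : B × B // IsCoprime v.1 v.2} where
  toFun v :=
    (⟨((e v.1.1).1, (e v.1.2).1),
        ((isCoprime_prod_iff _ _).mp ((isCoprime_ringEquiv_iff e _ _).mpr v.2)).1⟩,
      ⟨((e v.1.1).2, (e v.1.2).2),
        ((isCoprime_prod_iff _ _).mp ((isCoprime_ringEquiv_iff e _ _).mpr v.2)).2⟩)
  invFun w :=
    ⟨(e.symm (w.1.1.1, w.2.1.1), e.symm (w.1.1.2, w.2.1.2)), by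
      rw [← isCoprime_ringEquiv_iff e, isCoprime_prod_iff]
      simpa using And.intro w.1.2 w.2.2⟩
  left_inv v := by
    ext <;> simp
  right_inv w := by
    ext <;> simp

theorem unimodCount_mul {m n : ℕ} (h : m.Coprime n) :
    unimodCount (m * n) = unimodCount m * unimodCount n := by
  rw [unimodCount, Nat.card_congr (unimodProdEquiv (ZMod.chineseRemainder h)), Nat.card_prod]
  rfl

theorem unimodCount_one : unimodCount 1 = 1 := by
  rw [unimodCount, Nat.card_eq_one_iff_unique]
  refine ⟨inferInstance, ⟨⟨(0, 0), 0, 0, Subsingleton.elim _ _⟩⟩⟩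

/-! ## Prime powers -/

theorem isUnit_or_isUnit_of_isCoprime {p k : ℕ} (hp : p.Prime) (hk : 0 < k) {a c : ZMod (p ^ k)}
    (h : IsCoprime a c) : IsUnit a ∨ IsUnit c := by
  have : NeZero (p ^ k) := ⟨pow_ne_zero _ hp.ne_zero⟩
  obtain ⟨x, y, hxy⟩ := h
  by_contra hcon
  obtain ⟨ha, hc⟩ := not_or.mp hcon
  have ha' : p ∣ a.val := by
    by_contra hpa
    exact ha (by
      rw [← ZMod.natCast_zmod_val a]
      exact (ZMod.isUnit_natCast_iff_not_dvd_pow hp hk).mpr hpa)
  have hc' : p ∣ c.val := by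
    by_contra hpc
    exact hc (by
      rw [← ZMod.natCast_zmod_val c]
      exact (ZMod.isUnit_natCast_iff_not_dvd_pow hp hk).mpr hpc)
  have h1 : IsUnit ((x.val * a.val + y.val * c.val : ℕ) : ZMod (p ^ k)) := by
    push_cast
    rw [ZMod.natCast_zmod_val, ZMod.natCast_zmod_val, ZMod.natCast_zmod_val,
      ZMod.natCast_zmod_val, hxy]
    exact isUnit_one
  rw [ZMod.isUnit_natCast_iff_not_dvd_pow hp hk] at h1
  exact h1 (dvd_add (ha'.mul_left _) (hc'.mul_left _))

theorem unimodCount_prime_pow {p : ℕ} (hp : p.Prime) (k : ℕ) :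
    unimodCount (p ^ (k + 1)) = (p ^ (k + 1) + p ^ k) * (p ^ (k + 1)).totient := by
  classical
  have htot : (p ^ (k + 1)).totient = p ^ k * (p - 1) := Nat.totient_prime_pow_succ hp k
  generalize hq : p ^ (k + 1) = q at htot ⊢
  have : NeZero q := ⟨by rw [← hq]; exact pow_ne_zero _ hp.ne_zero⟩
  have hiff : ∀ v : ZMod q × ZMod q,
      IsCoprime v.1 v.2 ↔ ¬(¬IsUnit v.1 ∧ ¬IsUnit v.2) := by
    intro v
    constructor
    · intro h
      subst hq
      rcases isUnit_or_isUnit_of_isCoprime hp (Nat.succ_pos k) h with h1 | h1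
      · exact fun h2 => h2.1 h1
      · exact fun h2 => h2.2 h1
    · intro h
      by_cases h1 : IsUnit v.1
      · obtain ⟨w, hw⟩ := isUnit_iff_exists_inv.mp h1
        exact ⟨w, 0, by rw [zero_mul, add_zero, mul_comm]; exact hw⟩
      · have h2 : IsUnit v.2 := by
          by_contra h2
          exact h ⟨h1, h2⟩
        obtain ⟨w, hw⟩ := isUnit_iff_exists_inv.mp h2
        exact ⟨0, w, by rw [zero_mul, zero_add, mul_comm]; exact hw⟩
  have hunits : Fintype.card {a : ZMod q // IsUnit a} = q.totient := by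
    rw [← ZMod.card_units_eq_totient q]
    exact Fintype.card_congr
      ⟨fun a => a.2.unit, fun u => ⟨u, u.isUnit⟩, fun a => Subtype.ext (IsUnit.unit_spec a.2),
        fun u => IsUnit.unit_of_val_units u.isUnit⟩
  have hnon : Fintype.card {a : ZMod q // ¬IsUnit a} = q - q.totient := by
    rw [Fintype.card_subtype_compl, hunits, ZMod.card]
  have hcompl : Fintype.card {v : ZMod q × ZMod q // ¬IsUnit v.1 ∧ ¬IsUnit v.2} =
      (q - q.totient) * (q - q.totient) := by
    rw [Fintype.card_congr (Equiv.subtypeProdEquivProd (p := fun a : ZMod q => ¬IsUnit a)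
      (q := fun a : ZMod q => ¬IsUnit a)), Fintype.card_prod, hnon]
  have hU : unimodCount q = q * q - (q - q.totient) * (q - q.totient) := by
    rw [unimodCount, Nat.card_eq_fintype_card, Fintype.card_congr (Equiv.subtypeEquivRight hiff),
      Fintype.card_subtype_compl, hcompl, Fintype.card_prod, ZMod.card]
  rw [hU, htot, ← hq]
  obtain ⟨p', rfl⟩ : ∃ p', p = p' + 1 := ⟨p - 1, (Nat.succ_pred_eq_of_pos hp.pos).symm⟩
  simp only [Nat.add_sub_cancel]
  have h1 : (p' + 1) ^ (k + 1) - (p' + 1) ^ k * p' = (p' + 1) ^ k := by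
    apply Nat.sub_eq_of_eq_add
    ring
  rw [h1]
  apply Nat.sub_eq_of_eq_add
  ring

/-! ## The Dedekind `ψ` function -/

/-- The indicator function of the squarefree numbers, as an arithmetic function. -/
def sqf : ArithmeticFunction ℕ :=
  ⟨fun n => if Squarefree n then 1 else 0, by simp⟩

theorem sqf_apply (n : ℕ) : sqf n = if Squarefree n then 1 else 0 := rfl

theorem sqf_isMultiplicative : sqf.IsMultiplicative := by
  refine ⟨by simp [sqf_apply], ?_⟩
  intro m n h
  simp only [sqf_apply, Nat.squarefree_mul_iff]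
  by_cases hm : Squarefree m <;> by_cases hn : Squarefree n <;> simp [hm, hn, h]

theorem dedekindPsi_eq (N : ℕ) :
    ModularCurve.dedekindPsi N = (sqf * ArithmeticFunction.id) N := by
  rw [ModularCurve.dedekindPsi, ArithmeticFunction.mul_apply,
    Nat.sum_divisorsAntidiagonal (f := fun a b => sqf a * ArithmeticFunction.id b),
    Finset.sum_filter]
  refine Finset.sum_congr rfl fun d _ => ?_
  by_cases hd : Squarefree d <;> simp [sqf_apply, hd]

theorem dedekindPsi_mul {m n : ℕ} (h : m.Coprime n) :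
    ModularCurve.dedekindPsi (m * n) = ModularCurve.dedekindPsi m * ModularCurve.dedekindPsi n := by
  rw [dedekindPsi_eq, dedekindPsi_eq, dedekindPsi_eq]
  exact (sqf_isMultiplicative.mul ArithmeticFunction.isMultiplicative_id).map_mul_of_coprime h

theorem dedekindPsi_prime_pow {p : ℕ} (hp : p.Prime) (k : ℕ) :
    ModularCurve.dedekindPsi (p ^ (k + 1)) = p ^ (k + 1) + p ^ k := by
  rw [ModularCurve.dedekindPsi, Finset.sum_filter, Nat.sum_divisors_prime_pow hp,
    Finset.sum_range_succ', Finset.sum_range_succ']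
  have h0 : ∀ i ∈ Finset.range k,
      (if Squarefree (p ^ (i + 1 + 1)) then p ^ (k + 1) / p ^ (i + 1 + 1) else 0) = 0 := by
    intro i _
    rw [if_neg]
    intro hsq
    have h1 : IsUnit p := hsq p ⟨p ^ i, by ring⟩
    exact hp.ne_one (Nat.isUnit_iff.mp h1)
  rw [Finset.sum_eq_zero h0, zero_add]
  have h2 : p ^ (k + 1) / p = p ^ k := by
    rw [pow_succ]
    exact Nat.mul_div_cancel _ hp.pos
  simp [hp.prime.squarefree, h2, add_comm]

/-! ## (C1) the index -/

theorem unimodCount_eq_psi_mul_totient (N : ℕ) :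
    N ≠ 0 → unimodCount N = ModularCurve.dedekindPsi N * N.totient := by
  induction N using Nat.recOnPosPrimePosCoprime with
  | prime_pow p n hp hn =>
    intro _
    obtain ⟨k, rfl⟩ : ∃ k, n = k + 1 := ⟨n - 1, by omega⟩
    rw [unimodCount_prime_pow hp k, dedekindPsi_prime_pow hp k]
  | zero => intro h; exact absurd rfl h
  | one =>
    intro _
    rw [unimodCount_one, ModularCurve.dedekindPsi_one, Nat.totient_one]
  | coprime a b ha hb hab iha ihb =>
    intro _
    rw [unimodCount_mul hab, iha (by omega), ihb (by omega), dedekindPsi_mul hab,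
      Nat.totient_mul hab]
    ring

/-- (C1) `[SL(2, ℤ) : Γ₀(N)] = ψ(N)`. -/
theorem combIndexStatement : CombIndexStatement := by
  intro N _
  have h1 := unimodCount_eq N
  have h2 := unimodCount_eq_psi_mul_totient N (NeZero.ne N)
  have h3 : 0 < N.totient := Nat.totient_pos.mpr (NeZero.pos N)
  exact Nat.eq_of_mul_eq_mul_right h3 (h1.symm.trans h2)

end Fermat.Agent.S24.CombIndex
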