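/-
S24 package `ModelCounts`: from the modular model and the Galois counting statement to the place
counts of the function field of `X₀(N)` over `ℚ̄` relative to `j`.
-/
import Fermat.Agent.S24.Interfaces

set_option autoImplicit false

open AlgebraicCurve IntermediateField
open scoped MatrixGroups

namespace Fermat.Agent.S24.ModelCounts

noncomputable section

/-! ## Transport of places along an isomorphism of fields over `K` -/

section Transport

variable {K F F' : Type} [Field K] [Field F] [Field F'] [Algebra K F] [Algebra K F']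

/-- The ring isomorphism between a valuation subring `A` of `F` and its image in `F'` under an
isomorphism `e : F ≃ₐ[K] F'` (described as the comap along `e.symm`). -/
def comapRingEquiv (e : F ≃ₐ[K] F') (A : ValuationSubring F) :
    A ≃+* (A.comap ((e.symm : F' ≃+* F) : F' →+* F) : ValuationSubring F') where
  toFun x := ⟨e x, by
    rw [ValuationSubring.mem_comap]
    simp⟩
  invFun y := ⟨e.symm y, by
    have h := y.2
    rw [ValuationSubring.mem_comap] at h
    simpa using h⟩
  left_inv x := by ext; simp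
  right_inv y := by ext; simp
  map_mul' x y := Subtype.ext (map_mul e (x : F) (y : F))
  map_add' x y := Subtype.ext (map_add e (x : F) (y : F))

theorem coe_comapRingEquiv_apply (e : F ≃ₐ[K] F') (A : ValuationSubring F) (x : A) :
    ((comapRingEquiv e A x : (A.comap ((e.symm : F' ≃+* F) : F' →+* F) : ValuationSubring F')) : F')
      = e x := rfl

/-- Transport of a place along an isomorphism of fields over `K`. -/
def placeMap (e : F ≃ₐ[K] F') (v : Place K F) : Place K F' where
  toValuationSubring := v.toValuationSubring.comap ((e.symm : F' ≃+* F) : F' →+* F)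
  algebraMap_mem' := fun a => by
    rw [ValuationSubring.mem_comap]
    simpa using v.algebraMap_mem' a
  ne_top' := fun h => v.ne_top' <| by
    ext x
    have hx : e x ∈ (⊤ : ValuationSubring F') := ValuationSubring.mem_top _
    rw [← h, ValuationSubring.mem_comap] at hx
    have hx' : x ∈ v.toValuationSubring := by simpa using hx
    exact ⟨fun _ => ValuationSubring.mem_top x, fun _ => hx'⟩
  isPrincipalIdealRing' :=
    IsPrincipalIdealRing.of_surjective
      (comapRingEquiv e v.toValuationSubring : _ ≃+* _)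
      (comapRingEquiv e v.toValuationSubring).surjective

theorem placeMap_toValuationSubring (e : F ≃ₐ[K] F') (v : Place K F) :
    (placeMap e v).toValuationSubring
      = v.toValuationSubring.comap ((e.symm : F' ≃+* F) : F' →+* F) := rfl

/-- The ring isomorphism between the valuation rings of a place and of its transport. -/
def placeMapRingEquiv (e : F ≃ₐ[K] F') (v : Place K F) :
    v.toValuationSubring ≃+* (placeMap e v).toValuationSubring :=
  comapRingEquiv e v.toValuationSubring

theorem coe_placeMapRingEquiv_apply (e : F ≃ₐ[K] F') (v : Place K F) (x : v.toValuationSubring) :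
    ((placeMapRingEquiv e v x : (placeMap e v).toValuationSubring) : F') = e x := rfl

theorem mem_placeMap (e : F ≃ₐ[K] F') (v : Place K F) (y : F') :
    y ∈ (placeMap e v).toValuationSubring ↔ e.symm y ∈ v.toValuationSubring := by
  rw [placeMap_toValuationSubring, ValuationSubring.mem_comap]
  rfl

theorem placeMap_ord (e : F ≃ₐ[K] F') (v : Place K F) (f : F) :
    (placeMap e v).ord (e f) = v.ord f := by
  rcases eq_or_ne f 0 with rfl | hf
  · simp
  obtain ⟨π, hπ⟩ := IsDiscreteValuationRing.exists_irreducible v.toValuationSubring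
  obtain ⟨u, hu⟩ := v.exists_unit_mul_zpow hf hπ
  set n := v.ord f with hn
  set E := placeMapRingEquiv e v with hE
  have hπ' : Irreducible (E π) := (MulEquiv.irreducible_iff E).mpr hπ
  have hu' : IsUnit (E (u : v.toValuationSubring)) := u.isUnit.map E
  have hcoeu : ((hu'.unit : (placeMap e v).toValuationSubring) : F')
      = e ((u : v.toValuationSubring) : F) := by
    rw [IsUnit.unit_spec]
    rfl
  have hcoeπ : ((E π : (placeMap e v).toValuationSubring) : F') = e (π : F) := rfl
  have key : e f = ((hu'.unit : (placeMap e v).toValuationSubring) : F')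
      * (((E π : (placeMap e v).toValuationSubring) : F') ^ n) := by
    rw [hcoeu, hcoeπ, hu, map_mul, map_zpow₀]
  rw [key, (placeMap e v).ord_unit_smul_zpow hu'.unit hπ' n]

theorem placeMap_symm_placeMap (e : F ≃ₐ[K] F') (v : Place K F) :
    placeMap e.symm (placeMap e v) = v := by
  apply Place.ext
  ext x
  rw [mem_placeMap, mem_placeMap]
  simp

theorem placeMap_placeMap_symm (e : F ≃ₐ[K] F') (v : Place K F') :
    placeMap e (placeMap e.symm v) = v := by
  apply Place.ext
  ext x
  rw [mem_placeMap, mem_placeMap]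
  simp

/-- The bijection between the places of two isomorphic fields over `K`. -/
def placeEquiv (e : F ≃ₐ[K] F') : Place K F ≃ Place K F' where
  toFun := placeMap e
  invFun := placeMap e.symm
  left_inv := placeMap_symm_placeMap e
  right_inv := placeMap_placeMap_symm e

theorem placeEquiv_ord (e : F ≃ₐ[K] F') (v : Place K F) (f : F) :
    (placeEquiv e v).ord (e f) = v.ord f := placeMap_ord e v f

/-- The isomorphism `K⟮t⟯ ≃ K⟮e t⟯` induced by `e`. -/
def adjoinEquiv (e : F ≃ₐ[K] F') (t : F) : K⟮t⟯ ≃ₐ[K] K⟮e t⟯ :=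
  (intermediateFieldMap e K⟮t⟯).trans
    (IntermediateField.equivOfEq (by
      rw [IntermediateField.adjoin_map, Set.image_singleton]
      rfl))

theorem coe_adjoinEquiv (e : F ≃ₐ[K] F') (t : F) (x : K⟮t⟯) :
    ((adjoinEquiv e t x : K⟮e t⟯) : F') = e (x : F) := rfl

theorem adjoin_comm (e : F ≃ₐ[K] F') (t : F) :
    (algebraMap K⟮e t⟯ F').comp ((adjoinEquiv e t).toRingEquiv.toRingHom)
      = (e.toRingEquiv.toRingHom).comp (algebraMap K⟮t⟯ F) := by
  ext x
  rfl

theorem finrank_transport (e : F ≃ₐ[K] F') (t : F) :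
    Module.finrank K⟮t⟯ F = Module.finrank K⟮e t⟯ F' :=
  Algebra.finrank_eq_of_equiv_equiv (adjoinEquiv e t).toRingEquiv e.toRingEquiv
    (adjoin_comm e t)

theorem finiteDimensional_transport (e : F ≃ₐ[K] F') (t : F)
    (h : FiniteDimensional K⟮e t⟯ F') : FiniteDimensional K⟮t⟯ F := by
  have := h
  refine Module.Finite.of_equiv_equiv (adjoinEquiv e t).toRingEquiv.symm e.toRingEquiv.symm ?_
  ext x
  show (algebraMap K⟮t⟯ F) ((adjoinEquiv e t).symm x) = e.symm (algebraMap K⟮e t⟯ F' x)
  apply e.injective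
  rw [AlgEquiv.apply_symm_apply]
  have h1 := coe_adjoinEquiv e t ((adjoinEquiv e t).symm x)
  rw [AlgEquiv.apply_symm_apply] at h1
  exact h1.symm

theorem transcendental_transport (e : F ≃ₐ[K] F') (t : F)
    (h : Transcendental K (e t)) : Transcendental K t := by
  intro halg
  exact h (halg.algHom e.toAlgHom)

end Transport

/-! ## Orbits of subgroups on coset spaces -/

section Orbits

variable {Γ G : Type} [Group Γ] [Group G]

theorem smul_coset_eq_of_act_eq (act : Γ →* G) (H : Subgroup Γ) (hker : act.ker ≤ H)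
    (d d' : Γ) (hdd : act d = act d') (x : Γ ⧸ H) : d • x = d' • x := by
  induction x using QuotientGroup.induction_on with
  | H g =>
    rw [MulAction.Quotient.smul_mk, MulAction.Quotient.smul_mk, QuotientGroup.eq]
    apply hker
    rw [MonoidHom.mem_ker]
    simp [hdd]

theorem orbitRel_le_of_map_le (act : Γ →* G) (H D D' : Subgroup Γ) (hker : act.ker ≤ H)
    (hDD : D.map act ≤ D'.map act) (x y : Γ ⧸ H)
    (h : (MulAction.orbitRel D (Γ ⧸ H)) x y) : (MulAction.orbitRel D' (Γ ⧸ H)) x y := by
  rw [MulAction.orbitRel_apply, MulAction.mem_orbit_iff] at h ⊢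
  obtain ⟨d, hd⟩ := h
  obtain ⟨d', hd', hdd⟩ := Subgroup.mem_map.mp (hDD (Subgroup.mem_map_of_mem act d.2))
  refine ⟨⟨d', hd'⟩, ?_⟩
  rw [← hd]
  show d' • y = (d : Γ) • y
  exact smul_coset_eq_of_act_eq act H hker d' d hdd y

theorem orbitRel_eq_of_map_eq (act : Γ →* G) (H D D' : Subgroup Γ) (hker : act.ker ≤ H)
    (hDD : D.map act = D'.map act) :
    MulAction.orbitRel D (Γ ⧸ H) = MulAction.orbitRel D' (Γ ⧸ H) := by
  ext x y
  exact ⟨orbitRel_le_of_map_le act H D D' hker hDD.le x y,
    orbitRel_le_of_map_le act H D' D hker hDD.ge x y⟩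

theorem card_orbits_eq_of_map_eq (act : Γ →* G) (H D D' : Subgroup Γ) (hker : act.ker ≤ H)
    (hDD : D.map act = D'.map act) :
    Nat.card (MulAction.orbitRel.Quotient D (Γ ⧸ H))
      = Nat.card (MulAction.orbitRel.Quotient D' (Γ ⧸ H)) := by
  unfold MulAction.orbitRel.Quotient
  rw [orbitRel_eq_of_map_eq act H D D' hker hDD]

theorem card_orbits_bot (H : Subgroup Γ) :
    Nat.card (MulAction.orbitRel.Quotient (⊥ : Subgroup Γ) (Γ ⧸ H)) = Nat.card (Γ ⧸ H) := by
  symm
  refine Nat.card_congr (Equiv.ofBijective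
    (Quotient.mk (MulAction.orbitRel (⊥ : Subgroup Γ) (Γ ⧸ H))) ⟨?_, Quotient.mk_surjective⟩)
  intro x y hxy
  have h : (MulAction.orbitRel (⊥ : Subgroup Γ) (Γ ⧸ H)) x y := Quotient.exact hxy
  rw [MulAction.orbitRel_apply, MulAction.mem_orbit_iff] at h
  obtain ⟨d, hd⟩ := h
  have hd1 : (d : Γ) = 1 := Subgroup.mem_bot.mp d.2
  rw [← hd]
  show (d : Γ) • y = y
  rw [hd1, one_smul]

theorem zpowers_eq_of_mem (D' : Subgroup G) (g : G) (hg : g ∈ D')
    (hpos : 0 < Nat.card D') (h : ∀ k : ℕ, 0 < k → g ^ k = 1 → Nat.card D' ≤ k) :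
    Subgroup.zpowers g = D' := by
  have : Finite D' := Nat.finite_of_card_ne_zero hpos.ne'
  have hle : Subgroup.zpowers g ≤ D' := (Subgroup.zpowers_le).mpr hg
  refine Subgroup.eq_of_le_of_card_ge hle ?_
  rw [Nat.card_zpowers]
  have hdvd : orderOf g ∣ Nat.card D' := by
    rw [← Nat.card_zpowers]
    exact Subgroup.card_dvd_of_le hle
  have hop : 0 < orderOf g := Nat.pos_of_dvd_of_pos hdvd hpos
  exact h _ hop (pow_orderOf_eq_one g)

end Orbits

/-! ## The abstract counting argument -/

section Abstract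

variable {K M Γ : Type} [Field K] [Field M] [Algebra K M] [Group Γ]
  (act : Γ →* (M ≃ₐ[K] M))

theorem ker_le_fixer (F' : IntermediateField K M) : act.ker ≤ fixer act F' := by
  intro γ hγ x _
  rw [MonoidHom.mem_ker] at hγ
  rw [hγ]
  rfl

theorem map_placeStab_eq_zpowers (W : Place K M) (ε : Γ) (e : ℤ)
    (hcard : (Nat.card ((placeStab act W).map act) : ℤ) = e) (hepos : 0 < e)
    (hε : act ε • W = W) (hk : ∀ k : ℕ, 0 < k → act ε ^ k = 1 → e ≤ k) :
    (placeStab act W).map act = (Subgroup.zpowers ε).map act := by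
  rw [MonoidHom.map_zpowers]
  symm
  apply zpowers_eq_of_mem
  · exact Subgroup.mem_map_of_mem act ((mem_placeStab act W ε).mpr hε)
  · have h0 : (0 : ℤ) < (Nat.card ((placeStab act W).map act) : ℤ) := hcard ▸ hepos
    exact_mod_cast h0
  · intro k hk0 hk1
    have h1 := hk k hk0 hk1
    rw [← hcard] at h1
    exact_mod_cast h1

theorem card_orbits_placeStab (F' : IntermediateField K M) (W : Place K M) (ε : Γ) (e : ℤ)
    (hcard : (Nat.card ((placeStab act W).map act) : ℤ) = e) (hepos : 0 < e)
    (hε : act ε • W = W) (hk : ∀ k : ℕ, 0 < k → act ε ^ k = 1 → e ≤ k) :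
    Nat.card (MulAction.orbitRel.Quotient (placeStab act W) (Γ ⧸ fixer act F'))
      = Nat.card (MulAction.orbitRel.Quotient (Subgroup.zpowers ε) (Γ ⧸ fixer act F')) :=
  card_orbits_eq_of_map_eq act _ _ _ (ker_le_fixer act F')
    (map_placeStab_eq_zpowers act W ε e hcard hepos hε hk)

theorem transcendental_mk (t : M) (htr : Transcendental K t) (F' : IntermediateField K M)
    (htF : t ∈ F') : Transcendental K (⟨t, htF⟩ : F') :=
  (transcendental_algebraMap_iff (R := K) (S := F') (A := M) (a := (⟨t, htF⟩ : F'))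
    (algebraMap F' M).injective).mp htr

variable [IsAlgClosed K] [CharZero K]

theorem ord_le_one_of_generic (hGal : GalStatement) (hZeros : ZerosStatement) (t : M)
    (hfin : Finite act.range) (htr : Transcendental K t)
    (hfix : ∀ x : M, (∀ γ : Γ, act γ x = x) ↔ x ∈ K⟮t⟯)
    (F' : IntermediateField K M) (htF : t ∈ F') (c : K) (W : Place K M)
    (hW : W.ord (t - algebraMap K M c) = 1) (w : Place K F') :
    w.ord ((⟨t, htF⟩ : F') - algebraMap K F' c) ≤ 1 := by
  obtain ⟨⟨hfd, hrank⟩, hzero, -⟩ := hGal K M Γ act t hfin htr hfix F' htF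
  obtain ⟨hcard, hcount⟩ := hzero c W (by rw [hW]; exact one_pos)
  rw [hW] at hcard
  have hbot : (placeStab act W).map act = (⊥ : Subgroup Γ).map act := by
    rw [Subgroup.map_bot]
    exact Subgroup.eq_bot_of_card_eq _ (by exact_mod_cast hcard)
  have hcount2 : Nat.card {w : Place K F' // 0 < w.ord ((⟨t, htF⟩ : F') - algebraMap K F' c)}
      = Module.finrank K⟮(⟨t, htF⟩ : F')⟯ F' := by
    rw [hcount, card_orbits_eq_of_map_eq act _ _ _ (ker_le_fixer act F') hbot, card_orbits_bot,
      hrank]
    rfl
  obtain ⟨hSfin, hsum⟩ := hZeros K F' ⟨t, htF⟩ (transcendental_mk t htr F' htF) hfd c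
  rw [finsum_mem_eq_finite_toFinset_sum _ hSfin] at hsum
  have hcard3 : hSfin.toFinset.card = Module.finrank K⟮(⟨t, htF⟩ : F')⟯ F' := by
    rw [← hcount2]
    exact (Nat.card_eq_card_finite_toFinset hSfin).symm
  by_cases hw : 0 < w.ord ((⟨t, htF⟩ : F') - algebraMap K F' c)
  · have hmem : w ∈ hSfin.toFinset := (Set.Finite.mem_toFinset hSfin).mpr hw
    have hsum0 : ∑ w ∈ hSfin.toFinset, (w.ord ((⟨t, htF⟩ : F') - algebraMap K F' c) - 1) = 0 := by
      rw [Finset.sum_sub_distrib, hsum, Finset.sum_const, ← hcard3]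
      simp
    have hnonneg : ∀ w ∈ hSfin.toFinset,
        0 ≤ w.ord ((⟨t, htF⟩ : F') - algebraMap K F' c) - 1 := by
      intro w' hw'
      have h1 : 0 < w'.ord ((⟨t, htF⟩ : F') - algebraMap K F' c) :=
        (Set.Finite.mem_toFinset hSfin).mp hw'
      omega
    have h2 := (Finset.sum_eq_zero_iff_of_nonneg hnonneg).mp hsum0 w hmem
    omega
  · omega

/-- The abstract form of the package: all the data of `ModelCountsStatement` for a field `F`
isomorphic (over `K`) to an intermediate field `F'` of a Galois model `M`. -/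
theorem main_abstract (hGal : GalStatement) (hZeros : ZerosStatement)
    {F : Type} [Field F] [Algebra K F]
    (t : M) (hfin : Finite act.range) (htr : Transcendental K t)
    (hfix : ∀ x : M, (∀ γ : Γ, act γ x = x) ↔ x ∈ K⟮t⟯)
    (F' : IntermediateField K M) (htF : t ∈ F') (H : Subgroup Γ) (hH : fixer act F' = H)
    (θ : F ≃ₐ[K] F') (j : F) (hθ : θ j = ⟨t, htF⟩) :
    Transcendental K j ∧ FiniteDimensional K⟮j⟯ F ∧
    Module.finrank K⟮j⟯ F = Nat.card (Γ ⧸ H) ∧
    (∀ c : K, (∃ W : Place K M, W.ord (t - algebraMap K M c) = 1) →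
      ∀ w : Place K F, w.ord (j - algebraMap K F c) ≤ 1) ∧
    (∀ (c : K) (W : Place K M) (ε : Γ), 0 < W.ord (t - algebraMap K M c) → act ε • W = W →
      (∀ k : ℕ, 0 < k → act ε ^ k = 1 → W.ord (t - algebraMap K M c) ≤ k) →
      Nat.card {w : Place K F // 0 < w.ord (j - algebraMap K F c)}
        = Nat.card (MulAction.orbitRel.Quotient (Subgroup.zpowers ε) (Γ ⧸ H))) ∧
    (∀ (W : Place K M) (ε : Γ), W.ord t < 0 → act ε • W = W →
      (∀ k : ℕ, 0 < k → act ε ^ k = 1 → - W.ord t ≤ k) →
      Nat.card {w : Place K F // w.ord j < 0}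
        = Nat.card (MulAction.orbitRel.Quotient (Subgroup.zpowers ε) (Γ ⧸ H))) := by
  subst hH
  obtain ⟨⟨hfd, hrank⟩, hzero, hpole⟩ := hGal K M Γ act t hfin htr hfix F' htF
  have htr' := transcendental_mk t htr F' htF
  have hfd' : FiniteDimensional K⟮θ j⟯ F' := by rw [hθ]; exact hfd
  have hrank' : Module.finrank K⟮θ j⟯ F' = (fixer act F').index := by rw [hθ]; exact hrank
  have hθsub : ∀ c : K, θ (j - algebraMap K F c) = (⟨t, htF⟩ : F') - algebraMap K F' c := by
    intro c
    rw [map_sub, hθ, AlgEquiv.commutes]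
  have hord : ∀ (w : Place K F) (c : K),
      (placeEquiv θ w).ord ((⟨t, htF⟩ : F') - algebraMap K F' c)
        = w.ord (j - algebraMap K F c) := by
    intro w c
    rw [← hθsub, placeEquiv_ord]
  have hord' : ∀ w : Place K F, (placeEquiv θ w).ord (⟨t, htF⟩ : F') = w.ord j := by
    intro w
    rw [← hθ, placeEquiv_ord]
  refine ⟨transcendental_transport θ j (by rw [hθ]; exact htr'),
    finiteDimensional_transport θ j hfd', (finrank_transport θ j).trans hrank', ?_, ?_, ?_⟩
  · rintro c ⟨W, hW⟩ w
    rw [← hord]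
    exact ord_le_one_of_generic act hGal hZeros t hfin htr hfix F' htF c W hW _
  · intro c W ε hpos hε hk
    obtain ⟨hcard, hcount⟩ := hzero c W hpos
    rw [← card_orbits_placeStab act F' W ε _ hcard hpos hε hk, ← hcount]
    exact Nat.card_congr ((placeEquiv θ).subtypeEquiv (fun w => by rw [hord]))
  · intro W ε hneg hε hk
    obtain ⟨hcard, hcount⟩ := hpole W hneg
    rw [← card_orbits_placeStab act F' W ε _ hcard (by omega) hε hk, ← hcount]
    exact Nat.card_congr ((placeEquiv θ).subtypeEquiv (fun w => by rw [hord']))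

end Abstract

/-! ## The modular case -/

open CongruenceSubgroup ModularGroup

/-- (MC) The place counts for the function field of `X₀(N)` over `ℚ̄`, relative to `j`. -/
theorem modelCountsStatement :
    GalStatement → ZerosStatement → ModularModelStatement → ModelCountsStatement := by
  intro hGal hZeros hModel N _
  obtain ⟨m⟩ := hModel N
  obtain ⟨h1, h2, h3, h4, h5, h6⟩ := main_abstract m.act hGal hZeros m.J m.finite_range
    m.J_transc m.fix_iff m.F' m.J_mem (Gamma0 N) m.fixer_eq m.θ (jBar N) m.θ_j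
  refine ⟨h1, h2, h3, ?_, ?_, ?_, ?_⟩
  · intro c hc0 hc1728
    exact h4 c (m.place_generic c hc0 hc1728)
  · obtain ⟨W, hW, hS, hS1⟩ := m.place_i
    refine h5 1728 W S (by rcases hW with h | h <;> rw [h] <;> norm_num) hS ?_
    intro k hk0 hk
    rcases hW with h | h
    · rw [h]
      exact_mod_cast hk0
    · have hk1 : k ≠ 1 := by
        rintro rfl
        rw [pow_one] at hk
        have h' := hS1 hk
        omega
      rw [h]
      have h2k : 2 ≤ k := by omega
      exact_mod_cast h2k
  · obtain ⟨W, hW, hST, hST1⟩ := m.place_rho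
    have hW0 : W.ord (m.J - algebraMap Kbar m.M 0) = W.ord m.J := by rw [map_zero, sub_zero]
    refine h5 0 W (S * T) (by rw [hW0]; rcases hW with h | h <;> rw [h] <;> norm_num) hST ?_
    intro k hk0 hk
    rw [hW0]
    rcases hW with h | h
    · rw [h]
      exact_mod_cast hk0
    · have hk1 : k ≠ 1 := by
        rintro rfl
        rw [pow_one] at hk
        have h' := hST1 hk
        omega
      have hk2 : k ≠ 2 := by
        rintro rfl
        have h3' := m.act_ST_cube
        have h1' : m.act (S * T) = 1 := by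
          have hp : m.act (S * T) ^ 3 = m.act (S * T) ^ 2 * m.act (S * T) := pow_succ _ 2
          rw [h3', hk, one_mul] at hp
          exact hp.symm
        have h' := hST1 h1'
        omega
      rw [h]
      have h3k : 3 ≤ k := by omega
      exact_mod_cast h3k
  · obtain ⟨W, hW, hWN, hT, hTk⟩ := m.place_infty
    refine h6 W T hW hT ?_
    intro k hk0 hk
    have hle : N ≤ k := Nat.le_of_dvd hk0 (hTk k hk)
    have hle' : (N : ℤ) ≤ k := by exact_mod_cast hle
    omega

end

end Fermat.Agent.S24.ModelCounts
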