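/-
S24 (genus of X₀(N)) — package `LemmaPC`.

Variant of `LemmaP` with complex coefficients and a degree bound: an `SL(2, ℤ)`-invariant
holomorphic function on the upper half plane with a pole of order at most `k` at `∞` is a
polynomial of degree at most `k` in `j`.
-/
import Fermat.Agent.S24.LemmaP

set_option autoImplicit false

open UpperHalfPlane ModularForm Complex CongruenceSubgroup ModularGroup
open scoped MatrixGroups Manifold Real

namespace Fermat.Agent.S24.LemmaPC

noncomputable section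

open Fermat.Agent.S24.LemmaP

/-- (PC) An `SL(2, ℤ)`-invariant holomorphic function with a pole of order at most `k` at `∞` is a
polynomial in `j` of degree at most `k`, with complex coefficients. -/
theorem lemmaPC (hJB : JBasicStatement) (hJQ : JQexpStatement) (hQ : QexpStatement) (k : ℕ)
    (f : ℍ → ℂ) (hf : IsCuspMerOrder 1 k f)
    (hinv : ∀ (γ : SL(2, ℤ)) (τ : ℍ), f (γ • τ) = f τ) :
    ∃ p : Polynomial ℂ, p.natDegree ≤ k ∧ ∀ τ : ℍ, f τ = p.eval (Jfun τ) := by
  induction k generalizing f with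
  | zero =>
    obtain ⟨c, rfl⟩ := const_of_invariant_bounded f hf.1 hinv (isCuspMerOrder_zero_bounded hf)
    refine ⟨Polynomial.C c, ?_, fun τ => ?_⟩
    · rw [Polynomial.natDegree_C]
    · rw [Polynomial.eval_C]
  | succ k ih =>
    obtain ⟨a, ha⟩ : ∃ a : ℂ, a = (Qexp 1 f).coeff (-((k : ℤ) + 1)) := ⟨_, rfl⟩
    have hconst := hQ.1 1 (-a)
    have hJpow := jfun_pow_isCuspMerOrder hJQ hQ (k + 1)
    have hprod : IsCuspMerOrder 1 (k + 1) ((fun _ : ℍ => -a) * Jfun ^ (k + 1)) := by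
      have h1 := isCuspMerOrder_mul hconst.1 hJpow
      rwa [zero_add] at h1
    have hg1 : IsCuspMerOrder 1 (k + 1) (f + (fun _ : ℍ => -a) * Jfun ^ (k + 1)) :=
      isCuspMerOrder_add hf hprod
    have hQg : Qexp 1 (f + (fun _ : ℍ => -a) * Jfun ^ (k + 1))
        = Qexp 1 f + HahnSeries.C (-a)
            * (ModularCurve.coeffMap (algebraMap ℚ ℂ) (ModularCurve.jq ^ (k + 1))) := by
      rw [(hQ.2.1 1 f _ ⟨_, hf⟩ ⟨_, hprod⟩).2.2.1,
        (hQ.2.1 1 _ _ ⟨_, hconst.1⟩ ⟨_, hJpow⟩).2.2.2, hconst.2, qexp_jfun_pow hJQ hQ, hJQ.2,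
        map_pow]
    have hlead : (Qexp 1 (f + (fun _ : ℍ => -a) * Jfun ^ (k + 1))).coeff
        (-((k : ℤ) + 1)) = 0 := by
      rw [hQg, HahnSeries.coeff_add, HahnSeries.C_mul_eq_smul, HahnSeries.coeff_smul,
        ModularCurve.coeffMap_coeff, smul_eq_mul, ← ha,
        show (-((k : ℤ) + 1)) = -((k + 1 : ℕ) : ℤ) by push_cast; ring,
        ModularCurve.coeff_jq_pow_self, map_one, mul_one, add_neg_cancel]
    have hg0 := hQ.2.2.2.2.1 1 k _ hg1 hlead
    have hginv : ∀ (γ : SL(2, ℤ)) (τ : ℍ),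
        (f + (fun _ : ℍ => -a) * Jfun ^ (k + 1)) (γ • τ)
          = (f + (fun _ : ℍ => -a) * Jfun ^ (k + 1)) τ := by
      intro γ τ
      simp only [Pi.add_apply, Pi.mul_apply, Pi.pow_apply, hinv γ τ, hJB.2.1 γ τ]
    obtain ⟨p, hpdeg, hp⟩ := ih _ hg0 hginv
    refine ⟨p + Polynomial.C a * Polynomial.X ^ (k + 1), ?_, fun τ => ?_⟩
    · exact (Polynomial.natDegree_add_le _ _).trans
        (max_le (hpdeg.trans (Nat.le_succ k)) (Polynomial.natDegree_C_mul_X_pow_le a (k + 1)))
    · have h1 := hp τ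
      simp only [Pi.add_apply, Pi.mul_apply, Pi.pow_apply] at h1
      rw [Polynomial.eval_add, ← h1, Polynomial.eval_mul, Polynomial.eval_C,
        Polynomial.eval_pow, Polynomial.eval_X]
      ring

end

end Fermat.Agent.S24.LemmaPC
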