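/-
S24 package `CombCusp`: the number of orbits of `T` on `SL(2, ℤ) ⧸ Γ₀(N)` is the number of cusps
`∑ d ∣ N, φ(gcd(d, N/d))`.

Strategy.  The left coset `γ Γ₀(N)` only depends on the first column `(a, c)` of `γ`, and two
matrices `γ, γ'` give cosets in the same `⟨T⟩`-orbit iff
`∃ k, N ∣ (a' + k c') c - a c'` (`proj_eq_iff`).  For a coprime pair `(a, c)` put
`δ = gcd(c, N)`, `g = gcd(δ, N/δ)` and `r = a * (c/δ)⁻¹ mod g`; then `(δ, r)` is a complete
invariant for that relation (`inv_eq_iff`), and its values are exactly the pairs `(d, r)` with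
`d ∣ N`, `0 ≤ r < gcd(d, N/d)`, `r` coprime to `gcd(d, N/d)` (`inv_mem`, `inv_surj`).
-/
import Fermat.Agent.S24.Interfaces

set_option autoImplicit false

open CongruenceSubgroup ModularGroup Matrix
open scoped MatrixGroups

namespace Fermat.Agent.S24.CombCusp

/-! ### Group theoretic reduction -/

/-- The projection from `SL(2, ℤ)` onto the set of `T`-orbits on `SL(2, ℤ) ⧸ Γ₀(N)`. -/
def proj (N : ℕ) (γ : SL(2, ℤ)) :
    MulAction.orbitRel.Quotient (Subgroup.zpowers T) (SL(2, ℤ) ⧸ Gamma0 N) :=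
  Quotient.mk'' (γ : SL(2, ℤ) ⧸ Gamma0 N)

theorem proj_surjective (N : ℕ) : Function.Surjective (proj N) := by
  intro q
  induction q using Quotient.inductionOn' with
  | _ x =>
    induction x using QuotientGroup.induction_on with
    | _ γ => exact ⟨γ, rfl⟩

theorem entry_formula (k : ℤ) (γ γ' : SL(2, ℤ)) :
    ((T ^ k * γ')⁻¹ * γ : SL(2, ℤ)) 1 0 =
      (γ' 0 0 + k * γ' 1 0) * γ 1 0 - γ 0 0 * γ' 1 0 := by
  rw [Matrix.SpecialLinearGroup.coe_mul, Matrix.SpecialLinearGroup.coe_inv,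
    Matrix.SpecialLinearGroup.coe_mul, coe_T_zpow, Matrix.adjugate_fin_two, Matrix.mul_apply]
  simp [Fin.sum_univ_two, Matrix.mul_apply]
  ring

theorem proj_eq_iff (N : ℕ) (γ γ' : SL(2, ℤ)) :
    proj N γ = proj N γ' ↔
      ∃ k : ℤ, (N : ℤ) ∣ (γ' 0 0 + k * γ' 1 0) * γ 1 0 - γ 0 0 * γ' 1 0 := by
  unfold proj
  rw [Quotient.eq'', MulAction.orbitRel_apply, MulAction.mem_orbit_iff]
  constructor
  · rintro ⟨⟨t, ht⟩, h⟩
    obtain ⟨k, rfl⟩ := Subgroup.mem_zpowers_iff.mp ht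
    refine ⟨k, ?_⟩
    have h2 : ((T ^ k * γ' : SL(2, ℤ)) : SL(2, ℤ) ⧸ Gamma0 N) = (γ : SL(2, ℤ) ⧸ Gamma0 N) := h
    rw [QuotientGroup.eq, Gamma0_mem, ZMod.intCast_zmod_eq_zero_iff_dvd, entry_formula] at h2
    exact h2
  · rintro ⟨k, hk⟩
    refine ⟨⟨T ^ k, Subgroup.zpow_mem_zpowers T k⟩, ?_⟩
    show ((T ^ k * γ' : SL(2, ℤ)) : SL(2, ℤ) ⧸ Gamma0 N) = (γ : SL(2, ℤ) ⧸ Gamma0 N)
    rw [QuotientGroup.eq, Gamma0_mem, ZMod.intCast_zmod_eq_zero_iff_dvd, entry_formula]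
    exact hk

theorem isCoprime_col (γ : SL(2, ℤ)) : IsCoprime (γ 0 0) (γ 1 0) := by
  have h := γ.det_coe
  rw [Matrix.det_fin_two] at h
  exact ⟨γ 1 1, -γ 0 1, by linarith⟩

theorem exists_col (a c : ℤ) (h : IsCoprime a c) : ∃ γ : SL(2, ℤ), γ 0 0 = a ∧ γ 1 0 = c := by
  obtain ⟨u, v, huv⟩ := h
  refine ⟨⟨!![a, -v; c, u], ?_⟩, ?_, ?_⟩
  · rw [Matrix.det_fin_two_of]
    linarith
  · rfl
  · rfl

/-! ### The arithmetic core -/

/-- The abstract arithmetic statement behind the classification of cusps. -/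
theorem core_iff (δ N₁ g : ℕ) (hδ : 0 < δ) (hgδ : g ∣ δ) (hgN : g ∣ N₁)
    (x y : ℤ) (hxy : (δ : ℤ) * x + N₁ * y = g)
    (a a' c₁ c₁' A A' : ℤ) (h1 : IsCoprime c₁ (N₁ : ℤ)) (h1' : IsCoprime c₁' (N₁ : ℤ))
    (hA : (g : ℤ) ∣ c₁ * A - 1) (hA' : (g : ℤ) ∣ c₁' * A' - 1) :
    (∃ k : ℤ, ((δ : ℤ) * N₁) ∣ (a' + k * (δ * c₁')) * (δ * c₁) - a * (δ * c₁')) ↔
      (g : ℤ) ∣ a * A - a' * A' := by
  have hgδ' : ((δ : ℤ) : ZMod g) = 0 := by
    rw [ZMod.intCast_zmod_eq_zero_iff_dvd]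
    exact_mod_cast hgδ
  have hgN' : ((N₁ : ℤ) : ZMod g) = 0 := by
    rw [ZMod.intCast_zmod_eq_zero_iff_dvd]
    exact_mod_cast hgN
  rw [← ZMod.intCast_zmod_eq_zero_iff_dvd] at hA hA'
  push_cast at hA hA' hgδ' hgN'
  constructor
  · rintro ⟨k, m, hm⟩
    have hm' : (a' + k * (δ * c₁')) * c₁ - a * c₁' = N₁ * m := by
      have hδ' : (δ : ℤ) ≠ 0 := by exact_mod_cast hδ.ne'
      apply mul_left_cancel₀ hδ'
      linear_combination hm
    rw [← ZMod.intCast_zmod_eq_zero_iff_dvd]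
    have hm2 := congrArg (Int.cast : ℤ → ZMod g) hm'
    push_cast at hm2 ⊢
    linear_combination (-(A : ZMod g) * A') * hm2 - ((a : ZMod g) * A) * hA'
      + ((a' : ZMod g) * A') * hA + (-(A : ZMod g) * A' * m) * hgN'
      + ((A : ZMod g) * A' * k * c₁' * c₁) * hgδ'
  · intro hg
    have hg2 : (g : ℤ) ∣ a' * c₁ - a * c₁' := by
      rw [← ZMod.intCast_zmod_eq_zero_iff_dvd] at hg ⊢
      push_cast at hg ⊢
      linear_combination (-(c₁ : ZMod g) * c₁') * hg + ((a : ZMod g) * c₁') * hA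
        - ((a' : ZMod g) * c₁) * hA'
    obtain ⟨m, hm⟩ := hg2
    obtain ⟨B, v, hB⟩ := h1
    obtain ⟨B', v', hB'⟩ := h1'
    have e1 : (B * c₁) * (B' * c₁') = (1 - v * N₁) * (1 - v' * N₁) := by
      rw [eq_sub_of_add_eq hB, eq_sub_of_add_eq hB']
    refine ⟨-(m * x * B * B'), m * y + m * x * δ * (v + v' - v * v' * N₁), ?_⟩
    linear_combination (δ : ℤ) * hm - (δ * m : ℤ) * hxy - (m * x * δ ^ 2 : ℤ) * e1

/-! ### The invariant -/

/-- `δ = gcd(c, N)`. -/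
def dOf (N : ℕ) (c : ℤ) : ℕ := Int.gcd c N

/-- `g = gcd(δ, N/δ)`. -/
def gOf (N : ℕ) (c : ℤ) : ℕ := Nat.gcd (dOf N c) (N / dOf N c)

/-- The second invariant `a * (c/δ)⁻¹ mod g`, as a natural number `< g`. -/
def rOf (N : ℕ) (a c : ℤ) : ℕ :=
  ((a * Int.gcdA (c / dOf N c) (gOf N c)) % (gOf N c)).toNat

/-- The complete invariant. -/
def inv (N : ℕ) (a c : ℤ) : Σ _ : ℕ, ℕ := ⟨dOf N c, rOf N a c⟩

/-- The set of values of the invariant. -/
def cuspSet (N : ℕ) : Finset (Σ _ : ℕ, ℕ) :=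
  N.divisors.sigma (fun d =>
    (Finset.range (Nat.gcd d (N / d))).filter (fun r => (Nat.gcd d (N / d)).Coprime r))

theorem card_cuspSet (N : ℕ) : (cuspSet N).card = ModularCurve.cuspCount N := by
  unfold cuspSet ModularCurve.cuspCount
  rw [Finset.card_sigma]
  rfl

section

variable (N : ℕ) [NeZero N]

theorem dOf_pos (c : ℤ) : 0 < dOf N c :=
  Int.gcd_pos_of_ne_zero_right c (by exact_mod_cast NeZero.ne N)

omit [NeZero N] in
theorem dOf_dvd (c : ℤ) : dOf N c ∣ N :=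
  Int.natCast_dvd_natCast.mp (Int.gcd_dvd_right c N)

omit [NeZero N] in
theorem dOf_dvd_self (c : ℤ) : (dOf N c : ℤ) ∣ c := Int.gcd_dvd_left c N

omit [NeZero N] in
theorem dOf_mul (c : ℤ) : (dOf N c : ℤ) * (c / dOf N c) = c :=
  Int.mul_ediv_cancel' (dOf_dvd_self N c)

omit [NeZero N] in
theorem dOf_mul_nat (c : ℤ) : dOf N c * (N / dOf N c) = N :=
  Nat.mul_div_cancel' (dOf_dvd N c)

theorem isCoprime_div (c : ℤ) : IsCoprime (c / dOf N c) ((N / dOf N c : ℕ) : ℤ) := by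
  rw [Int.isCoprime_iff_gcd_eq_one, Int.natCast_div]
  exact Int.gcd_div_gcd_div_gcd (dOf_pos N c)

theorem gOf_pos (c : ℤ) : 0 < gOf N c :=
  Nat.gcd_pos_of_pos_left _ (dOf_pos N c)

omit [NeZero N] in
theorem gOf_dvd_left (c : ℤ) : gOf N c ∣ dOf N c := Nat.gcd_dvd_left _ _

omit [NeZero N] in
theorem gOf_dvd_right (c : ℤ) : gOf N c ∣ N / dOf N c := Nat.gcd_dvd_right _ _

omit [NeZero N] in
theorem gOf_bezout (c : ℤ) :
    (dOf N c : ℤ) * Nat.gcdA (dOf N c) (N / dOf N c)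
      + (N / dOf N c : ℕ) * Nat.gcdB (dOf N c) (N / dOf N c) = gOf N c :=
  (Nat.gcd_eq_gcd_ab (dOf N c) (N / dOf N c)).symm

theorem gcdA_spec (c : ℤ) :
    (gOf N c : ℤ) ∣ (c / dOf N c) * Int.gcdA (c / dOf N c) (gOf N c) - 1 := by
  have h1 : IsCoprime (c / dOf N c) (gOf N c : ℤ) :=
    (isCoprime_div N c).of_isCoprime_of_dvd_right
      (Int.natCast_dvd_natCast.mpr (gOf_dvd_right N c))
  rw [Int.isCoprime_iff_gcd_eq_one] at h1
  have h2 := Int.gcd_eq_gcd_ab (c / dOf N c) (gOf N c)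
  rw [h1] at h2
  refine ⟨-Int.gcdB (c / dOf N c) (gOf N c), ?_⟩
  push_cast at h2
  linear_combination -h2

omit [NeZero N] in
theorem dOf_eq_of_rel (a c a' c' : ℤ) (h : IsCoprime a c) (h' : IsCoprime a' c')
    (hk : ∃ k : ℤ, (N : ℤ) ∣ (a' + k * c') * c - a * c') : dOf N c = dOf N c' := by
  obtain ⟨k, hk⟩ := hk
  apply Nat.dvd_antisymm
  · refine Int.dvd_gcd ?_ (Int.gcd_dvd_right c N)
    have hp : (dOf N c : ℤ) ∣ a * c' := by
      have h1 : (dOf N c : ℤ) ∣ (a' + k * c') * c - a * c' := (Int.gcd_dvd_right c N).trans hk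
      have h2 : (dOf N c : ℤ) ∣ (a' + k * c') * c := Dvd.dvd.mul_left (dOf_dvd_self N c) _
      have h3 := dvd_sub h2 h1
      simpa using h3
    have hc : IsCoprime (dOf N c : ℤ) a := (h.of_isCoprime_of_dvd_right (dOf_dvd_self N c)).symm
    exact hc.dvd_of_dvd_mul_left hp
  · refine Int.dvd_gcd ?_ (Int.gcd_dvd_right c' N)
    have hp : (dOf N c' : ℤ) ∣ (a' + k * c') * c := by
      have h1 : (dOf N c' : ℤ) ∣ (a' + k * c') * c - a * c' := (Int.gcd_dvd_right c' N).trans hk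
      have h2 : (dOf N c' : ℤ) ∣ a * c' := Dvd.dvd.mul_left (dOf_dvd_self N c') _
      have h3 := dvd_add h1 h2
      simpa using h3
    have hc : IsCoprime (dOf N c' : ℤ) (a' + k * c') :=
      ((h'.add_mul_right_left k).of_isCoprime_of_dvd_right (dOf_dvd_self N c')).symm
    exact hc.dvd_of_dvd_mul_left hp

theorem rOf_eq_iff (a c a' c' : ℤ) (hd : dOf N c = dOf N c') :
    rOf N a c = rOf N a' c' ↔ ∃ k : ℤ, (N : ℤ) ∣ (a' + k * c') * c - a * c' := by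
  have hg : gOf N c' = gOf N c := by
    unfold gOf
    rw [hd]
  have hcore := core_iff (dOf N c) (N / dOf N c) (gOf N c) (dOf_pos N c) (gOf_dvd_left N c)
    (gOf_dvd_right N c) _ _ (gOf_bezout N c) a a' (c / dOf N c) (c' / dOf N c)
    (Int.gcdA (c / dOf N c) (gOf N c)) (Int.gcdA (c' / dOf N c) (gOf N c))
    (isCoprime_div N c) (by have := isCoprime_div N c'; rwa [← hd] at this) (gcdA_spec N c)
    (by have := gcdA_spec N c'; rwa [hg, ← hd] at this)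
  have hc : (dOf N c : ℤ) * (c / dOf N c) = c := dOf_mul N c
  have hc' : (dOf N c : ℤ) * (c' / dOf N c) = c' := by
    have := dOf_mul N c'
    rwa [← hd] at this
  have hN : ((dOf N c : ℤ)) * ((N / dOf N c : ℕ) : ℤ) = (N : ℤ) := by
    exact_mod_cast dOf_mul_nat N c
  rw [hc, hc', hN] at hcore
  rw [hcore]
  unfold rOf
  rw [hg, ← hd]
  have hgpos : ((gOf N c : ℕ) : ℤ) ≠ 0 := by exact_mod_cast (gOf_pos N c).ne'
  constructor
  · intro h
    have h2 := congrArg (Nat.cast : ℕ → ℤ) h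
    rw [Int.toNat_of_nonneg (Int.emod_nonneg _ hgpos),
      Int.toNat_of_nonneg (Int.emod_nonneg _ hgpos)] at h2
    rw [Int.emod_eq_emod_iff_emod_sub_eq_zero] at h2
    exact Int.dvd_of_emod_eq_zero h2
  · intro h
    have h2 : (a * Int.gcdA (c / dOf N c) (gOf N c)) % (gOf N c : ℤ)
        = (a' * Int.gcdA (c' / dOf N c) (gOf N c)) % (gOf N c : ℤ) := by
      rw [Int.emod_eq_emod_iff_emod_sub_eq_zero]
      exact Int.emod_eq_zero_of_dvd h
    rw [h2]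

theorem inv_eq_iff (a c a' c' : ℤ) (h : IsCoprime a c) (h' : IsCoprime a' c') :
    inv N a c = inv N a' c' ↔ ∃ k : ℤ, (N : ℤ) ∣ (a' + k * c') * c - a * c' := by
  unfold inv
  rw [Sigma.mk.injEq, heq_eq_eq]
  constructor
  · rintro ⟨hd, hr⟩
    exact (rOf_eq_iff N a c a' c' hd).mp hr
  · intro hk
    have hd := dOf_eq_of_rel N a c a' c' h h' hk
    exact ⟨hd, (rOf_eq_iff N a c a' c' hd).mpr hk⟩

theorem inv_mem (a c : ℤ) (h : IsCoprime a c) : inv N a c ∈ cuspSet N := by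
  unfold inv cuspSet
  rw [Finset.mem_sigma, Finset.mem_filter, Finset.mem_range, Nat.mem_divisors]
  have hgpos : (0 : ℤ) < (gOf N c : ℕ) := by exact_mod_cast gOf_pos N c
  refine ⟨⟨dOf_dvd N c, NeZero.ne N⟩, ?_, ?_⟩
  · show rOf N a c < gOf N c
    unfold rOf
    rw [Int.toNat_lt (Int.emod_nonneg _ hgpos.ne')]
    exact Int.emod_lt_of_pos _ hgpos
  · show (gOf N c).Coprime (rOf N a c)
    rw [← Nat.isCoprime_iff_coprime]
    unfold rOf
    rw [Int.toNat_of_nonneg (Int.emod_nonneg _ hgpos.ne'), Int.emod_def]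
    have hga : IsCoprime (gOf N c : ℤ) a :=
      (h.of_isCoprime_of_dvd_right
        ((Int.natCast_dvd_natCast.mpr (gOf_dvd_left N c)).trans (dOf_dvd_self N c))).symm
    have hgA : IsCoprime (gOf N c : ℤ) (Int.gcdA (c / dOf N c) (gOf N c)) := by
      obtain ⟨u, hu⟩ := gcdA_spec N c
      exact ⟨-u, c / dOf N c, by linear_combination hu⟩
    have := (hga.mul_right hgA).add_mul_left_right
      (-(a * Int.gcdA (c / dOf N c) (gOf N c) / (gOf N c : ℤ)))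
    rw [mul_neg, ← sub_eq_add_neg] at this
    exact this

/-- Lifting units: if `x` is coprime to `n` then some `x + k * n` is coprime to `m ≠ 0`.
(This is the core of Mathlib's `ZMod.unitsMap_surjective`.) -/
theorem exists_coprime_add_mul (n m : ℕ) (hm : m ≠ 0) (x : ℕ) (hx : x.Coprime n) :
    ∃ k : ℕ, (x + k * n).Coprime m := by
  let ps : Finset ℕ := {p ∈ m.primeFactors | ¬p ∣ x}
  use ps.prod id
  apply Nat.coprime_of_dvd
  intro p pp hp hpn
  by_cases hpx : p ∣ x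
  · have h := Nat.dvd_sub hp hpx
    rw [add_comm, Nat.add_sub_cancel] at h
    rcases pp.dvd_mul.mp h with h | h
    · have ⟨q, hq, hq'⟩ := (pp.prime.dvd_finsetProd_iff id).mp h
      rw [Finset.mem_filter, Nat.mem_primeFactors,
        ← (Nat.prime_dvd_prime_iff_eq pp hq.1.1).mp hq'] at hq
      exact hq.2 hpx
    · exact Nat.Prime.not_coprime_iff_dvd.mpr ⟨p, pp, hpx, h⟩ hx
  · have pps : p ∈ ps := Finset.mem_filter.mpr ⟨Nat.mem_primeFactors.mpr ⟨pp, hpn, hm⟩, hpx⟩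
    have h := Nat.dvd_sub hp ((Finset.dvd_prod_of_mem id pps).mul_right n)
    rw [Nat.add_sub_cancel] at h
    contradiction

theorem inv_surj (y : Σ _ : ℕ, ℕ) (hy : y ∈ cuspSet N) :
    ∃ a c : ℤ, IsCoprime a c ∧ inv N a c = y := by
  obtain ⟨d, r⟩ := y
  unfold cuspSet at hy
  rw [Finset.mem_sigma, Finset.mem_filter, Finset.mem_range, Nat.mem_divisors] at hy
  obtain ⟨⟨hdN, -⟩, hr, hcop⟩ := hy
  have hd0 : d ≠ 0 := fun h0 => NeZero.ne N (by rw [h0] at hdN; exact zero_dvd_iff.mp hdN)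
  obtain ⟨k, hk⟩ := exists_coprime_add_mul (Nat.gcd d (N / d)) d hd0 r hcop.symm
  have hdd : dOf N (d : ℤ) = d := by
    unfold dOf
    rw [Int.gcd_natCast_natCast]
    exact Nat.gcd_eq_left hdN
  have hgg : gOf N (d : ℤ) = Nat.gcd d (N / d) := by
    unfold gOf
    rw [hdd]
  refine ⟨((r + k * Nat.gcd d (N / d) : ℕ) : ℤ), (d : ℤ), Nat.isCoprime_iff_coprime.mpr hk, ?_⟩
  unfold inv
  rw [Sigma.mk.injEq, heq_eq_eq]
  refine ⟨hdd, ?_⟩
  obtain ⟨u, hu⟩ := gcdA_spec N (d : ℤ)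
  unfold rOf
  rw [hdd, Int.ediv_self (by exact_mod_cast hd0)] at hu ⊢
  rw [hgg] at hu ⊢
  have e : ((r + k * Nat.gcd d (N / d) : ℕ) : ℤ) * Int.gcdA 1 (Nat.gcd d (N / d) : ℕ)
      = (r : ℤ) + (Nat.gcd d (N / d) : ℕ) *
        (k * Int.gcdA 1 (Nat.gcd d (N / d) : ℕ) + r * u) := by
    push_cast
    linear_combination (r : ℤ) * hu
  rw [e, Int.add_mul_emod_self_left, Int.emod_eq_of_lt (by positivity) (by exact_mod_cast hr)]
  rfl

/-- The invariant of a matrix, as an element of `cuspSet N`. -/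
def invG (γ : SL(2, ℤ)) : cuspSet N :=
  ⟨inv N (γ 0 0) (γ 1 0), inv_mem N _ _ (isCoprime_col γ)⟩

theorem invG_surjective : Function.Surjective (invG N) := by
  rintro ⟨y, hy⟩
  obtain ⟨a, c, hac, rfl⟩ := inv_surj N y hy
  obtain ⟨γ, rfl, rfl⟩ := exists_col a c hac
  exact ⟨γ, rfl⟩

theorem ker_eq : Setoid.ker (proj N) = Setoid.ker (invG N) := by
  ext γ γ'
  rw [Setoid.ker_def, Setoid.ker_def, proj_eq_iff, invG, invG, Subtype.mk.injEq,
    inv_eq_iff N _ _ _ _ (isCoprime_col γ) (isCoprime_col γ')]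

end

/-- (C3) The number of orbits of `T` on `SL(2, ℤ) ⧸ Γ₀(N)` is the number of cusps. -/
theorem combCuspStatement : CombCuspStatement := by
  intro N _
  unfold cycleCount
  have e1 := Setoid.quotientKerEquivOfSurjective (proj N) (proj_surjective N)
  have e2 := Setoid.quotientKerEquivOfSurjective (invG N) (invG_surjective N)
  rw [← Nat.card_congr e1, ker_eq N, Nat.card_congr e2, Nat.card_eq_finsetCard, card_cuspSet]

end Fermat.Agent.S24.CombCusp
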