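/-
S24 / package Diff (route B), auxiliary file: `π`-adic power series expansions.

For a commutative `K`-algebra `O` (a domain) with a non-unit `π ≠ 0` such that every element of `O`
is congruent modulo `π` to a constant from `K`, and `⋂ πⁿ O = 0`, we construct an injective
`K`-algebra homomorphism `O →ₐ[K] K⟦X⟧` sending `π` to `X`.
-/
import Fermat.Agent.S24.Interfaces

set_option autoImplicit false

open PowerSeries

namespace Fermat.Agent.S24.DiffB

noncomputable section

section Expansion

variable {K O : Type*} [Field K] [CommRing O] [Algebra K O]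

/-- The relation "the power series `f` is a `π`-adic expansion of `u`": for every `n`, the
truncation of `f` at degree `n`, evaluated at `π`, is congruent to `u` modulo `π ^ n`. -/
def IsExpansion (π : O) (u : O) (f : K⟦X⟧) : Prop :=
  ∀ n : ℕ, π ^ n ∣ u - Polynomial.aeval π (trunc n f)

theorem pow_dvd_aeval_sub_aeval_trunc (π : O) (p : Polynomial K) (n : ℕ) :
    π ^ n ∣ Polynomial.aeval π p - Polynomial.aeval π (trunc n (p : K⟦X⟧)) := by
  have h : (Polynomial.X : Polynomial K) ^ n ∣ p - trunc n (p : K⟦X⟧) := by
    rw [Polynomial.X_pow_dvd_iff]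
    intro d hd
    rw [Polynomial.coeff_sub, coeff_trunc, if_pos hd, Polynomial.coeff_coe, sub_self]
  have h2 := map_dvd (Polynomial.aeval π) h
  simpa using h2

theorem IsExpansion.add {π u u' : O} {f f' : K⟦X⟧} (h : IsExpansion π u f)
    (h' : IsExpansion π u' f') : IsExpansion π (u + u') (f + f') := by
  intro n
  have h2 := dvd_add (h n) (h' n)
  rw [map_add, map_add]
  convert h2 using 1
  ring

theorem IsExpansion.mul {π u u' : O} {f f' : K⟦X⟧} (h : IsExpansion π u f)
    (h' : IsExpansion π u' f') : IsExpansion π (u * u') (f * f') := by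
  intro n
  have h1 := pow_dvd_aeval_sub_aeval_trunc π (trunc n f * trunc n f') n
  rw [Polynomial.coe_mul, trunc_trunc_mul_trunc, map_mul] at h1
  have h2 : π ^ n ∣ u * u' - Polynomial.aeval π (trunc n f) * Polynomial.aeval π (trunc n f') := by
    have e : u * u' - Polynomial.aeval π (trunc n f) * Polynomial.aeval π (trunc n f')
        = (u - Polynomial.aeval π (trunc n f)) * u'
          + Polynomial.aeval π (trunc n f) * (u' - Polynomial.aeval π (trunc n f')) := by ring
    rw [e]
    exact dvd_add (Dvd.dvd.mul_right (h n) _) (Dvd.dvd.mul_left (h' n) _)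
  have h3 := dvd_add h2 h1
  convert h3 using 1
  ring

theorem IsExpansion.algebraMap (π : O) (c : K) :
    IsExpansion π (algebraMap K O c) (C c : K⟦X⟧) := by
  intro n
  cases n with
  | zero => simp
  | succ n => rw [trunc_C, Polynomial.aeval_C, sub_self]; exact dvd_zero _

theorem IsExpansion.self (π : O) : IsExpansion π π (X : K⟦X⟧) := by
  intro n
  rcases n with _ | _ | n
  · simp
  · simp
  · rw [trunc_X, Polynomial.aeval_X, sub_self]; exact dvd_zero _

theorem eq_zero_of_forall_dvd_aeval_trunc [IsDomain O] {π : O} (hπ0 : π ≠ 0) (hπu : ¬ IsUnit π)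
    {g : K⟦X⟧} (h : ∀ n, π ^ n ∣ Polynomial.aeval π (trunc n g)) : g = 0 := by
  ext k
  induction k using Nat.strong_induction_on with
  | _ k ih =>
    rw [map_zero]
    by_contra hk
    have htr : trunc (k + 1) g = Polynomial.monomial k (coeff k g) := by
      ext d
      rw [coeff_trunc, Polynomial.coeff_monomial]
      split_ifs with h1 h2 h2
      · subst h2; rfl
      · have := ih d (by omega)
        rwa [map_zero] at this
      · omega
      · rfl
    have h2 := h (k + 1)
    rw [htr, Polynomial.aeval_monomial, pow_succ, mul_comm (algebraMap K O _)] at h2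
    have h3 := (mul_dvd_mul_iff_left (pow_ne_zero k hπ0)).mp h2
    exact hπu (isUnit_of_dvd_unit h3 ((isUnit_iff_ne_zero.mpr hk).map (algebraMap K O)))

theorem IsExpansion.unique [IsDomain O] {π : O} (hπ0 : π ≠ 0) (hπu : ¬ IsUnit π) {u : O}
    {f f' : K⟦X⟧} (h : IsExpansion π u f) (h' : IsExpansion π u f') : f = f' := by
  rw [← sub_eq_zero]
  apply eq_zero_of_forall_dvd_aeval_trunc hπ0 hπu
  intro n
  have h2 := dvd_sub (h' n) (h n)
  rw [trunc_sub, map_sub]
  convert h2 using 1
  ring

theorem exists_isExpansion {π : O} (hres : ∀ u : O, ∃ c : K, π ∣ u - algebraMap K O c) (u : O) :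
    ∃ f : K⟦X⟧, IsExpansion π u f := by
  choose c hc using hres
  choose s hs using hc
  refine ⟨PowerSeries.mk fun n => c (s^[n] u), ?_⟩
  intro n
  induction n generalizing u with
  | zero => simp
  | succ n ih =>
    have key : Polynomial.aeval π (trunc (n + 1) (PowerSeries.mk fun k => c (s^[k] u))) =
        algebraMap K O (c u)
          + π * Polynomial.aeval π (trunc n (PowerSeries.mk fun k => c (s^[k] (s u)))) := by
      rw [Polynomial.aeval_def, eval₂_trunc_eq_sum_range, Polynomial.aeval_def,
        eval₂_trunc_eq_sum_range, Finset.sum_range_succ', Finset.mul_sum]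
      simp only [coeff_mk, Function.iterate_succ, Function.comp_apply, Function.iterate_zero,
        id_eq, pow_zero, mul_one]
      rw [add_comm]
      congr 1
      apply Finset.sum_congr rfl
      intro i _
      ring
    rw [key]
    have e : u - (algebraMap K O (c u)
          + π * Polynomial.aeval π (trunc n (PowerSeries.mk fun k => c (s^[k] (s u)))))
        = π * (s u - Polynomial.aeval π (trunc n (PowerSeries.mk fun k => c (s^[k] (s u))))) := by
      rw [mul_sub, ← hs u]; ring
    rw [e, pow_succ']
    exact mul_dvd_mul_left π (ih (s u))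

/-- **`π`-adic expansion.**  Let `O` be a `K`-algebra which is a domain, and `π ∈ O` a nonzero
non-unit such that every element of `O` is congruent to a constant modulo `π` and
`⋂ₙ πⁿ O = 0`.  Then there is an injective `K`-algebra homomorphism `O → K⟦X⟧` with `π ↦ X`. -/
theorem exists_expansion_algHom [IsDomain O] (π : O) (hπ0 : π ≠ 0) (hπu : ¬ IsUnit π)
    (hres : ∀ u : O, ∃ c : K, π ∣ u - algebraMap K O c)
    (hsep : ∀ u : O, (∀ n : ℕ, π ^ n ∣ u) → u = 0) :
    ∃ φ : O →ₐ[K] K⟦X⟧, φ π = X ∧ Function.Injective φ := by
  choose φ hφ using exists_isExpansion (K := K) hres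
  have huniq : ∀ {u : O} {f : K⟦X⟧}, IsExpansion π u f → φ u = f :=
    fun {u f} h => IsExpansion.unique hπ0 hπu (hφ u) h
  have h1 : φ 1 = 1 := by
    have := IsExpansion.algebraMap (K := K) π 1
    rw [map_one, map_one] at this
    exact huniq this
  have h0 : φ 0 = 0 := by
    have := IsExpansion.algebraMap (K := K) π 0
    rw [map_zero, map_zero] at this
    exact huniq this
  let Φ : O →ₐ[K] K⟦X⟧ :=
    { toFun := φ
      map_one' := h1
      map_mul' := fun u u' => huniq ((hφ u).mul (hφ u'))
      map_zero' := h0
      map_add' := fun u u' => huniq ((hφ u).add (hφ u'))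
      commutes' := fun c => huniq (IsExpansion.algebraMap π c) }
  refine ⟨Φ, huniq (IsExpansion.self π), ?_⟩
  rw [injective_iff_map_eq_zero]
  intro u hu
  apply hsep
  intro n
  have h2 := hφ u n
  have h3 : φ u = 0 := hu
  rw [h3, map_zero, map_zero, sub_zero] at h2
  exact h2

end Expansion

end

end Fermat.Agent.S24.DiffB
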