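/-
S24 / package Diff (route B): Kähler differentials at places, via `π`-adic power series expansions.
-/
import Fermat.Agent.S24.DiffBExpansion

set_option autoImplicit false

open AlgebraicCurve IntermediateField KaehlerDifferential

namespace Fermat.Agent.S24.DiffB

noncomputable section

variable {K F : Type} [Field K] [Field F] [Algebra K F]

section Basic

variable (w : Place K F)

theorem adicValuation_le_one_of_mem {f : F} (hf : f ∈ w.toValuationSubring) :
    w.adicValuation f ≤ 1 := by
  have h := w.adicValuation_coe ⟨f, hf⟩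
  rw [show ((⟨f, hf⟩ : w.toValuationSubring) : F) = f from rfl] at h
  rw [h]
  exact IsDedekindDomain.HeightOneSpectrum.intValuation_le_one _ _

theorem mem_iff_adicValuation_le_one (f : F) :
    f ∈ w.toValuationSubring ↔ w.adicValuation f ≤ 1 := by
  refine ⟨adicValuation_le_one_of_mem w, fun h => ?_⟩
  by_contra hf
  have hinv : f⁻¹ ∈ w.toValuationSubring :=
    (w.toValuationSubring.mem_or_inv_mem f).resolve_left hf
  have hf0 : f ≠ 0 := fun h0 => hf (h0 ▸ zero_mem _)
  have h1 := adicValuation_le_one_of_mem w hinv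
  rw [map_inv₀] at h1
  have hv0 : w.adicValuation f ≠ 0 := w.adicValuation_ne_zero hf0
  have h2 : w.adicValuation f = 1 :=
    le_antisymm h ((inv_le_one₀ (zero_lt_iff.mpr hv0)).mp h1)
  have h3 : w.adicValuation ((⟨f⁻¹, hinv⟩ : w.toValuationSubring) : F) = 1 := by
    show w.adicValuation f⁻¹ = 1
    rw [map_inv₀, h2, inv_one]
  rw [w.adicValuation_coe_eq_one_iff] at h3
  obtain ⟨b, hb⟩ := isUnit_iff_exists_inv.mp h3
  have hb' : f⁻¹ * (b : F) = 1 := by
    have := congrArg (Subtype.val) hb
    simpa using this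
  have hbf : (b : F) = f := by
    field_simp at hb'
    exact hb'
  exact hf (hbf ▸ b.2)

theorem adicValuation_eq_exp {f : F} (hf : f ≠ 0) :
    w.adicValuation f = WithZero.exp (-(w.ord f)) := by
  rw [Place.ord, neg_neg, WithZero.exp_log (w.adicValuation_ne_zero hf)]

theorem mem_iff_ord_nonneg {f : F} (hf : f ≠ 0) :
    f ∈ w.toValuationSubring ↔ 0 ≤ w.ord f := by
  rw [mem_iff_adicValuation_le_one, adicValuation_eq_exp w hf, ← WithZero.exp_zero,
    WithZero.exp_le_exp]
  omega

theorem adicValuation_lt_one_iff {f : F} (hf : f ≠ 0) :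
    w.adicValuation f < 1 ↔ 0 < w.ord f := by
  rw [adicValuation_eq_exp w hf, ← WithZero.exp_zero, WithZero.exp_lt_exp]
  omega

theorem ord_add_eq_of_lt {x y : F} (hx : x ≠ 0) (hy : y ≠ 0) (h : w.ord x < w.ord y) :
    w.ord (x + y) = w.ord x := by
  have hv : w.adicValuation y < w.adicValuation x := by
    rw [adicValuation_eq_exp w hx, adicValuation_eq_exp w hy, WithZero.exp_lt_exp]
    omega
  rw [Place.ord, Place.ord, Valuation.map_add_eq_of_lt_left _ hv]

/-- The valuation of a place is trivial on the constants. -/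
theorem isTrivialOn : w.adicValuation.IsTrivialOn K where
  eq_one a ha := by
    have h1 := adicValuation_le_one_of_mem w (w.algebraMap_mem' a)
    have h2 := adicValuation_le_one_of_mem w (w.algebraMap_mem' a⁻¹)
    rw [map_inv₀, map_inv₀] at h2
    have hv0 : w.adicValuation (algebraMap K F a) ≠ 0 :=
      w.adicValuation_ne_zero (by simpa using ha)
    exact le_antisymm h1 ((inv_le_one₀ (zero_lt_iff.mpr hv0)).mp h2)

theorem ord_algebraMap (a : K) : w.ord (algebraMap K F a) = 0 := by
  rcases eq_or_ne a 0 with rfl | ha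
  · simp
  · rw [Place.ord, (isTrivialOn w).eq_one a ha]
    simp

/-- An element of nonzero order is transcendental over the constants. -/
theorem transcendental_of_ord_ne_zero {x : F} (hx : w.ord x ≠ 0) : Transcendental K x := by
  have := isTrivialOn w
  have hx0 : x ≠ 0 := fun h => hx (h ▸ w.ord_zero)
  refine Valuation.transcendental_of_ne_one (v := w.adicValuation) K x hx0 ?_
  intro h1
  apply hx
  rw [Place.ord, h1]
  simp

end Basic

section Transc

variable [IsAlgClosed K]

/-- Over an algebraically closed field of constants, algebraic elements are constants. -/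
theorem mem_range_of_isAlgebraic {x : F} (hx : IsAlgebraic K x) :
    x ∈ Set.range (algebraMap K F) := by
  have hint : IsIntegral K x := hx.isIntegral
  exact minpoly.mem_range_of_degree_eq_one K x
    (IsAlgClosed.degree_eq_one_of_irreducible K (minpoly.irreducible hint))

omit [IsAlgClosed K] in
open scoped IntermediateField.algebraAdjoinAdjoin in
/-- If `F` is algebraic over `K(t)`, then `F` is algebraic over `K(x)` for every `x`
transcendental over `K`. -/
theorem isAlgebraic_adjoin_simple (t : F) [Algebra.IsAlgebraic K⟮t⟯ F] {x : F}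
    (hx : Transcendental K x) : Algebra.IsAlgebraic K⟮x⟯ F := by
  have h1 : Algebra.IsAlgebraic (Algebra.adjoin K {t}) F :=
    Algebra.IsAlgebraic.trans (Algebra.adjoin K {t}) K⟮t⟯ F
  have h2 : Algebra.trdeg K F ≤ 1 := by
    have := Algebra.IsAlgebraic.trdeg_le_cardinalMk K ({t} : Set F)
    simpa using this
  have hind : AlgebraicIndependent K (fun _ : Unit => x) :=
    (algebraicIndependent_unique_type_iff (x := fun _ : Unit => x)).mpr hx
  have hb : IsTranscendenceBasis K (fun _ : Unit => x) :=
    hind.isTranscendenceBasis_of_trdeg_le_of_finite (by simpa using h2)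
  have h3 := hb.isAlgebraic_field
  have e : Set.range (fun _ : Unit => x) = {x} := Set.range_const
  rw [e] at h3
  exact h3

/-- The residue field of a place is `K`: every element of the valuation ring is congruent to a
constant modulo the maximal ideal. -/
theorem exists_adicValuation_sub_lt_one (t : F) [Algebra.IsAlgebraic K⟮t⟯ F] (w : Place K F)
    {u : F} (hu : u ∈ w.toValuationSubring) :
    ∃ c : K, w.adicValuation (u - algebraMap K F c) < 1 := by
  by_contra hcon
  have h1 : ∀ c : K, w.adicValuation (u - algebraMap K F c) = 1 := fun c =>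
    le_antisymm (adicValuation_le_one_of_mem w (sub_mem hu (w.algebraMap_mem' c)))
      (not_lt.mp fun h => hcon ⟨c, h⟩)
  -- `u` is not a constant
  have hu_tr : Transcendental K u := by
    intro halg
    obtain ⟨c, hc⟩ := mem_range_of_isAlgebraic halg
    have h2 := h1 c
    rw [hc, sub_self, map_zero] at h2
    exact zero_ne_one h2
  -- the valuation of nonzero polynomials in `u` is `1`
  have hpoly : ∀ p : Polynomial K, p ≠ 0 → w.adicValuation (Polynomial.aeval u p) = 1 := by
    intro p hp
    have hsplit := (IsAlgClosed.splits p).eq_prod_roots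
    rw [hsplit, map_mul, Polynomial.aeval_C, map_mul,
      (isTrivialOn w).eq_one _ (Polynomial.leadingCoeff_ne_zero.mpr hp), one_mul,
      map_multiset_prod, map_multiset_prod]
    apply Multiset.prod_eq_one
    intro x hx
    simp only [Multiset.map_map, Multiset.mem_map, Function.comp] at hx
    obtain ⟨a, -, rfl⟩ := hx
    simpa using h1 a
  -- hence the valuation is trivial on `K(u)`
  have htriv : w.adicValuation.IsTrivialOn K⟮u⟯ := by
    constructor
    intro a ha
    obtain ⟨r, s, hrs⟩ := (IntermediateField.mem_adjoin_simple_iff K (a : F)).mp a.2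
    have hr : r ≠ 0 := by
      rintro rfl
      simp at hrs
      exact ha hrs
    have hs : s ≠ 0 := by
      rintro rfl
      simp at hrs
      exact ha hrs
    show w.adicValuation (a : F) = 1
    rw [hrs, map_div₀, hpoly r hr, hpoly s hs, div_one]
  -- but a uniformizer is algebraic over `K(u)`
  obtain ⟨ϖ, hϖ⟩ := IsDiscreteValuationRing.exists_irreducible w.toValuationSubring
  have hord : w.ord (ϖ : F) = 1 := w.ord_coe_irreducible hϖ
  have halg := isAlgebraic_adjoin_simple t hu_tr
  have hϖ0 : (ϖ : F) ≠ 0 := fun h => by simp [h] at hord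
  have htr : Transcendental K⟮u⟯ (ϖ : F) := by
    refine Valuation.transcendental_of_ne_one (v := w.adicValuation) K⟮u⟯ (ϖ : F) hϖ0 ?_
    intro h2
    rw [Place.ord, h2] at hord
    simp at hord
  exact htr (halg.isAlgebraic _)

/-- The `ϖ`-adic power series expansion at a place: an injective `K`-algebra homomorphism from the
valuation ring to `K⟦X⟧` sending the uniformizer to `X`. -/
theorem exists_place_expansion (t : F) [Algebra.IsAlgebraic K⟮t⟯ F] (w : Place K F)
    {ϖ : w.toValuationSubring} (hϖ : Irreducible ϖ) :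
    ∃ φ : w.toValuationSubring →ₐ[K] PowerSeries K,
      φ ϖ = PowerSeries.X ∧ Function.Injective φ := by
  apply exists_expansion_algHom ϖ hϖ.ne_zero hϖ.not_isUnit
  · intro u
    obtain ⟨c, hc⟩ := exists_adicValuation_sub_lt_one t w u.2
    refine ⟨c, ?_⟩
    have h1 : w.adicValuation
        ((u - algebraMap K w.toValuationSubring c : w.toValuationSubring) : F) < 1 := hc
    rw [w.adicValuation_coe, IsDedekindDomain.HeightOneSpectrum.intValuation_lt_one_iff_mem,
      w.heightOneSpectrum_asIdeal, hϖ.maximalIdeal_eq, Ideal.mem_span_singleton] at h1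
    exact h1
  · intro u hu
    by_contra hu0
    obtain ⟨n, hn⟩ := FiniteMultiplicity.of_not_isUnit hϖ.not_isUnit hu0
    exact hn (hu (n + 1))

end Transc

section Span

/-- A `K`-derivation `F → F` vanishing on an intermediate field `E` is an `E`-derivation. -/
def derivationOfVanish (E : IntermediateField K F) (d : Derivation K F F)
    (h : ∀ z : E, d (z : F) = 0) : Derivation E F F where
  toLinearMap :=
    { toFun := d
      map_add' := d.map_add
      map_smul' := fun a y => by
        simp only [RingHom.id_apply]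
        rw [Algebra.smul_def, d.leibniz, Algebra.smul_def]
        have h2 : d (algebraMap E F a) = 0 := h a
        rw [h2, smul_zero, add_zero]
        rfl }
  map_one_eq_zero' := d.map_one_eq_zero
  leibniz' := d.leibniz

theorem derivationOfVanish_apply (E : IntermediateField K F) (d : Derivation K F F)
    (h : ∀ z : E, d (z : F) = 0) (y : F) : derivationOfVanish E d h y = d y := rfl

/-- If `F` is algebraic over `K(x)` (characteristic zero), then a `K`-derivation of `F` killing `x`
is zero. -/
theorem derivation_eq_zero_of_apply_eq_zero [CharZero K] {x : F} [Algebra.IsAlgebraic K⟮x⟯ F]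
    (d : Derivation K F F) (hx : d x = 0) : d = 0 := by
  have hvan' : ∀ z ∈ K⟮x⟯, d z = 0 := by
    intro z hz
    induction hz using IntermediateField.adjoin_induction with
    | mem y hy =>
      rw [Set.mem_singleton_iff] at hy
      rw [hy]; exact hx
    | algebraMap c => exact d.map_algebraMap c
    | add a b _ _ ha hb => rw [map_add, ha, hb, add_zero]
    | inv a _ ha => rw [Derivation.leibniz_inv, ha, smul_zero]
    | mul a b _ _ ha hb => rw [d.leibniz, ha, hb, smul_zero, smul_zero, add_zero]
  have hvan : ∀ z : K⟮x⟯, d (z : F) = 0 := fun z => hvan' z z.2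
  have : Algebra.FormallyUnramified K⟮x⟯ F := Algebra.FormallyUnramified.of_isSeparable K⟮x⟯ F
  ext y
  have h2 := Derivation.liftKaehlerDifferential_comp_D (derivationOfVanish K⟮x⟯ d hvan) y
  rw [Subsingleton.elim (D K⟮x⟯ F y) 0, map_zero] at h2
  exact h2.symm

/-- If `F` is algebraic over `K(x)` (characteristic zero), then `dx` spans `Ω[F⁄K]`. -/
theorem span_D_eq_top [CharZero K] (x : F) [Algebra.IsAlgebraic K⟮x⟯ F] :
    Submodule.span F {D K F x} = ⊤ := by
  by_contra hne
  obtain ⟨ℓ, hℓ0, hℓ⟩ := Submodule.exists_le_ker_of_lt_top _ (lt_top_iff_ne_top.mpr hne)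
  apply hℓ0
  have hd : ℓ.compDer (D K F) = 0 := derivation_eq_zero_of_apply_eq_zero _ (by
    show ℓ (D K F x) = 0
    exact hℓ (Submodule.subset_span rfl))
  refine Derivation.liftKaehlerDifferential_unique ℓ 0 ?_
  rw [hd]
  ext y
  rfl

theorem exists_eq_smul_D [CharZero K] (x : F) [Algebra.IsAlgebraic K⟮x⟯ F] (ω : Ω[F⁄K]) :
    ∃ a : F, ω = a • D K F x := by
  have hω : ω ∈ (⊤ : Submodule F Ω[F⁄K]) := Submodule.mem_top
  rw [← span_D_eq_top x, Submodule.mem_span_singleton] at hω
  exact hω.imp fun _ hf => hf.symm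

end Span

section KeyLemma

variable [IsAlgClosed K]

/-- **Key lemma.**  At a place `w` with uniformizer `ϖ`: `dϖ ≠ 0` in `Ω[F⁄K]`, and if `u` lies in
the valuation ring and `du = a • dϖ`, then `a` lies in the valuation ring. -/
theorem key (t : F) [Algebra.IsAlgebraic K⟮t⟯ F] (w : Place K F) {ϖ : w.toValuationSubring}
    (hϖ : Irreducible ϖ) :
    D K F (ϖ : F) ≠ 0 ∧
    ∀ (u : w.toValuationSubring) (a : F), D K F (u : F) = a • D K F (ϖ : F) →
      a ∈ w.toValuationSubring := by
  obtain ⟨φ, hφX, hφinj⟩ := exists_place_expansion t w hϖ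
  let : Algebra w.toValuationSubring (PowerSeries K) := φ.toRingHom.toAlgebra
  have : IsScalarTower K w.toValuationSubring (PowerSeries K) :=
    IsScalarTower.of_algebraMap_eq (fun c => (φ.commutes c).symm)
  let δ : Derivation K w.toValuationSubring (PowerSeries K) :=
    (PowerSeries.derivative K).compAlgebraMap w.toValuationSubring
  let ℓ := δ.liftKaehlerDifferential
  have hℓ : ∀ u, ℓ (D K w.toValuationSubring u) = PowerSeries.derivative K (φ u) :=
    fun u => Derivation.liftKaehlerDifferential_comp_D δ u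
  have hsmul : ∀ (b : w.toValuationSubring) (f : PowerSeries K), b • f = φ b * f :=
    fun b f => Algebra.smul_def b f
  have hloc : ∀ ω : Ω[w.toValuationSubring⁄K],
      KaehlerDifferential.map K K w.toValuationSubring F ω = 0 → ℓ ω = 0 := by
    intro ω hω
    obtain ⟨s, hs⟩ := (IsLocalizedModule.eq_zero_iff (nonZeroDivisors w.toValuationSubring)
      (KaehlerDifferential.map K K w.toValuationSubring F)).mp hω
    have h2 := congrArg ℓ hs
    rw [map_zero, Submonoid.smul_def, map_smul, hsmul] at h2
    rcases mul_eq_zero.mp h2 with h3 | h3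
    · exfalso
      have h4 : (s : w.toValuationSubring) = 0 := hφinj (by rw [h3, map_zero])
      exact nonZeroDivisors.coe_ne_zero s h4
    · exact h3
  constructor
  · intro h0
    have h1 := hloc (D K _ ϖ) (by rw [KaehlerDifferential.map_D]; exact h0)
    rw [hℓ, hφX, PowerSeries.derivative_X] at h1
    exact one_ne_zero h1
  · intro u a ha
    by_contra hmem
    have ha0 : a ≠ 0 := fun h => hmem (h ▸ zero_mem _)
    have hinv : a⁻¹ ∈ w.toValuationSubring :=
      (w.toValuationSubring.mem_or_inv_mem a).resolve_left hmem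
    -- `b = a⁻¹` is a non-unit of the valuation ring, hence divisible by `ϖ`
    obtain ⟨b', hb'⟩ : ϖ ∣ (⟨a⁻¹, hinv⟩ : w.toValuationSubring) := by
      rw [← Ideal.mem_span_singleton, ← hϖ.maximalIdeal_eq, IsLocalRing.mem_maximalIdeal,
        mem_nonunits_iff]
      intro hunit
      obtain ⟨c, hc⟩ := isUnit_iff_exists_inv.mp hunit
      have hc' : a⁻¹ * (c : F) = 1 := by
        have := congrArg (Subtype.val) hc
        simpa using this
      have hca : (c : F) = a := by
        field_simp at hc'
        exact hc'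
      exact hmem (hca ▸ c.2)
    have h1 := hloc ((⟨a⁻¹, hinv⟩ : w.toValuationSubring) • D K _ u - D K _ ϖ) (by
      rw [map_sub, map_smul, KaehlerDifferential.map_D, KaehlerDifferential.map_D,
        ← algebraMap_smul F (⟨a⁻¹, hinv⟩ : w.toValuationSubring)]
      show a⁻¹ • D K F (u : F) - D K F (ϖ : F) = 0
      rw [ha, smul_smul, inv_mul_cancel₀ ha0, one_smul, sub_self])
    rw [map_sub, map_smul, hℓ, hℓ, hsmul, hb', map_mul, hφX, PowerSeries.derivative_X,
      sub_eq_zero] at h1
    have h2 := congrArg (PowerSeries.constantCoeff (R := K)) h1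
    simp at h2

end KeyLemma

section Coeff

/-- The coefficient of a differential with respect to `dϖ`, as a linear map. -/
def coeffLin (w : Place K F) [w.DCoordGenerates] [Nontrivial Ω[F⁄K]] : Ω[F⁄K] →ₗ[F] F where
  toFun := w.differentialCoeff
  map_add' ω η := w.differentialCoeff_unique (by
    rw [add_smul, w.differentialCoeff_smul_dCoord, w.differentialCoeff_smul_dCoord])
  map_smul' c ω := by
    simp only [RingHom.id_apply, smul_eq_mul]
    exact w.differentialCoeff_smul c ω

/-- The derivation `d/dϖ` of `F` attached to a place `w` (with its chosen uniformizer `ϖ`). -/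
def dPi (w : Place K F) [w.DCoordGenerates] [Nontrivial Ω[F⁄K]] : Derivation K F F :=
  (coeffLin w).compDer (D K F)

theorem dPi_apply (w : Place K F) [w.DCoordGenerates] [Nontrivial Ω[F⁄K]] (y : F) :
    dPi w y = w.differentialCoeff (D K F y) := rfl

theorem dPi_smul_dCoord (w : Place K F) [w.DCoordGenerates] [Nontrivial Ω[F⁄K]] (y : F) :
    dPi w y • w.dCoord = D K F y := by
  rw [dPi_apply, w.differentialCoeff_smul_dCoord]

theorem ord_neg (w : Place K F) (f : F) : w.ord (-f) = w.ord f := by
  rw [Place.ord, Place.ord, Valuation.map_neg]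

theorem exists_irreducible_dCoord (w : Place K F) :
    ∃ ϖ : w.toValuationSubring, Irreducible ϖ ∧ w.dCoord = D K F (ϖ : F) :=
  ⟨_, (IsDiscreteValuationRing.exists_irreducible w.toValuationSubring).choose_spec, rfl⟩

end Coeff

section Final

variable [IsAlgClosed K] [CharZero K]

omit [IsAlgClosed K] in
theorem dCoordGenerates (t : F) [Algebra.IsAlgebraic K⟮t⟯ F] (w : Place K F) :
    w.DCoordGenerates := by
  obtain ⟨ϖ, hϖ, hdc⟩ := exists_irreducible_dCoord w
  have htr : Transcendental K (ϖ : F) :=
    transcendental_of_ord_ne_zero w (by rw [w.ord_coe_irreducible hϖ]; exact one_ne_zero)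
  have := isAlgebraic_adjoin_simple t htr
  exact ⟨by rw [hdc]; exact span_D_eq_top _⟩

omit [CharZero K] in
theorem nontrivial_of_place (t : F) [Algebra.IsAlgebraic K⟮t⟯ F] (w : Place K F) :
    Nontrivial Ω[F⁄K] := by
  obtain ⟨ϖ, hϖ⟩ := IsDiscreteValuationRing.exists_irreducible w.toValuationSubring
  exact ⟨⟨_, 0, (key t w hϖ).1⟩⟩

/-- The order of `dx/dϖ` at a zero `x` of order `e > 0` is `e - 1`. -/
theorem ord_dPi_of_pos (t : F) [Algebra.IsAlgebraic K⟮t⟯ F] (w : Place K F)
    [w.DCoordGenerates] [Nontrivial Ω[F⁄K]] {x : F} (hx : 0 < w.ord x) :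
    w.ord (dPi w x) = w.ord x - 1 := by
  obtain ⟨ϖ, hϖ, hdc⟩ := exists_irreducible_dCoord w
  have hx0 : x ≠ 0 := fun h => by simp [h] at hx
  obtain ⟨u, hu⟩ := w.exists_unit_mul_zpow hx0 hϖ
  obtain ⟨n, hn⟩ := Int.eq_ofNat_of_zero_le hx.le
  have hn1 : 1 ≤ n := by omega
  rw [hn, zpow_natCast] at hu
  have hϖ1 : dPi w (ϖ : F) = 1 := by
    rw [dPi_apply, ← hdc]
    exact w.differentialCoeff_dCoord
  have hmem : dPi w ((u : w.toValuationSubring) : F) ∈ w.toValuationSubring := by
    apply (key t w hϖ).2 (u : w.toValuationSubring)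
    rw [← hdc, dPi_smul_dCoord]
  have hcalc : dPi w x = ((u : w.toValuationSubring) : F) * ((n : F) * (ϖ : F) ^ (n - 1))
      + (ϖ : F) ^ n * dPi w ((u : w.toValuationSubring) : F) := by
    rw [hu, Derivation.leibniz, Derivation.leibniz_pow, hϖ1]
    simp [smul_eq_mul, nsmul_eq_mul]
  have : CharZero F := charZero_of_injective_algebraMap (algebraMap K F).injective
  have hϖ0 : (ϖ : F) ≠ 0 := by
    simpa [ne_eq, ZeroMemClass.coe_eq_zero] using hϖ.ne_zero
  have hu0 : ((u : w.toValuationSubring) : F) ≠ 0 := by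
    simp [ne_eq, ZeroMemClass.coe_eq_zero]
  have hn0 : (n : F) ≠ 0 := by
    rw [Nat.cast_ne_zero]; omega
  have hordn : w.ord (n : F) = 0 := by
    rw [← map_natCast (algebraMap K F) n]
    exact ord_algebraMap w _
  have hordpow : ∀ k : ℕ, w.ord ((ϖ : F) ^ k) = k := by
    intro k
    rw [← zpow_natCast, w.ord_zpow, w.ord_coe_irreducible hϖ, mul_one]
  have hA0 : ((u : w.toValuationSubring) : F) * ((n : F) * (ϖ : F) ^ (n - 1)) ≠ 0 :=
    mul_ne_zero hu0 (mul_ne_zero hn0 (pow_ne_zero _ hϖ0))
  have hA : w.ord (((u : w.toValuationSubring) : F) * ((n : F) * (ϖ : F) ^ (n - 1)))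
      = (n : ℤ) - 1 := by
    rw [w.ord_mul hu0 (mul_ne_zero hn0 (pow_ne_zero _ hϖ0)), w.ord_coe_unit,
      w.ord_mul hn0 (pow_ne_zero _ hϖ0), hordn, hordpow]
    push_cast [hn1]
    ring
  rw [hcalc, hn]
  by_cases hB : dPi w ((u : w.toValuationSubring) : F) = 0
  · rw [hB, mul_zero, add_zero, hA]
  · have hBord : w.ord ((ϖ : F) ^ n * dPi w ((u : w.toValuationSubring) : F))
        = n + w.ord (dPi w ((u : w.toValuationSubring) : F)) := by
      rw [w.ord_mul (pow_ne_zero _ hϖ0) hB, hordpow]
    have hnonneg : 0 ≤ w.ord (dPi w ((u : w.toValuationSubring) : F)) :=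
      (mem_iff_ord_nonneg w hB).mp hmem
    rw [ord_add_eq_of_lt w hA0 (mul_ne_zero (pow_ne_zero _ hϖ0) hB) (by rw [hA, hBord]; omega),
      hA]

/-- All clauses of the statement for a given `t`, assuming `Ω[F⁄K] ≠ 0`. -/
theorem diff_aux (t : F) [Algebra.IsAlgebraic K⟮t⟯ F] [Nontrivial Ω[F⁄K]] :
    (D K F t ≠ 0) ∧
    (∀ ω : Ω[F⁄K], ∃ f : F, ω = f • D K F t) ∧
    (∀ (w : Place K F) (f : F), f ≠ 0 →
      w.ordDifferential (f • D K F t) = w.ord f + w.ordDifferential (D K F t)) ∧
    (∀ (w : Place K F) (c : K), 0 < w.ord (t - algebraMap K F c) →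
      w.ordDifferential (D K F t) = w.ord (t - algebraMap K F c) - 1) ∧
    (∀ w : Place K F, w.ord t < 0 → w.ordDifferential (D K F t) = w.ord t - 1) := by
  have h1 : D K F t ≠ 0 := by
    intro h0
    obtain ⟨ω, hω⟩ := exists_ne (0 : Ω[F⁄K])
    obtain ⟨a, ha⟩ := exists_eq_smul_D t ω
    rw [h0, smul_zero] at ha
    exact hω ha
  have hcoeff : ∀ w : Place K F, ∀ [w.DCoordGenerates], dPi w t ≠ 0 := by
    intro w _ h0
    apply h1
    rw [← dPi_smul_dCoord w t, h0, zero_smul]
  refine ⟨h1, exists_eq_smul_D t, ?_, ?_, ?_⟩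
  · intro w f hf
    have := dCoordGenerates t w
    exact w.ordDifferential_smul hf (hcoeff w)
  · intro w c hc
    have := dCoordGenerates t w
    have h2 := ord_dPi_of_pos t w hc
    rw [map_sub, Derivation.map_algebraMap, sub_zero] at h2
    exact h2
  · intro w hw
    have := dCoordGenerates t w
    have ht0 : t ≠ 0 := fun h => by simp [h] at hw
    have hpos : 0 < w.ord t⁻¹ := by rw [w.ord_inv]; omega
    have h2 := ord_dPi_of_pos t w hpos
    have h3 : t⁻¹ ^ 2 ≠ 0 := pow_ne_zero _ (inv_ne_zero ht0)
    rw [Derivation.leibniz_inv, smul_eq_mul, neg_mul, ord_neg, w.ord_mul h3 (hcoeff w),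
      ← zpow_natCast, w.ord_zpow, w.ord_inv] at h2
    show w.ord (dPi w t) = w.ord t - 1
    push_cast at h2
    omega

end Final

/-- **(A4) Differentials**, assuming the fundamental identity (A1) (used only to know that `F`
has at least one place, whence `Ω[F⁄K] ≠ 0`). -/
theorem diffStatement (hZ : ZerosStatement) : DiffStatement := by
  intro K F _ _ _ _ _ t ht hfin
  have : Algebra.IsAlgebraic K⟮t⟯ F := Algebra.IsAlgebraic.of_finite _ _
  obtain ⟨-, hsum⟩ := hZ K F t ht hfin 0
  have hpos : 0 < Module.finrank K⟮t⟯ F := Module.finrank_pos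
  obtain ⟨w, -⟩ : ∃ w : Place K F, 0 < w.ord (t - algebraMap K F 0) := by
    by_contra hne
    have hempty : {w : Place K F | 0 < w.ord (t - algebraMap K F 0)} = ∅ :=
      Set.eq_empty_iff_forall_notMem.mpr fun w h => hne ⟨w, h⟩
    rw [hempty, finsum_mem_empty] at hsum
    omega
  have := nontrivial_of_place t w
  exact diff_aux t

end

end Fermat.Agent.S24.DiffB
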