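/-
S24 (genus of X₀(N)) — package `RH`: assembly of the abstract Riemann–Hurwitz formula
(`RHStatement`) from the fundamental identities at zeros and poles, the degree-one statement,
the centre statement, the degree of principal divisors and the local computation of `ord (dt)`.
-/
import Fermat.Agent.S24.Interfaces

set_option autoImplicit false

open AlgebraicCurve IntermediateField KaehlerDifferential

namespace Fermat.Agent.S24.RH

section ord

variable {K F : Type} [Field K] [Field F] [Algebra K F]

/-- Ultrametric inequality for `Place.ord`. -/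
theorem ord_add_ge (w : Place K F) {x y : F} (hx : x ≠ 0) (hy : y ≠ 0) (hxy : x + y ≠ 0) :
    min (w.ord x) (w.ord y) ≤ w.ord (x + y) := by
  have h := Valuation.map_add w.adicValuation x y
  rcases le_max_iff.mp h with h | h
  · refine (min_le_left _ _).trans ?_
    unfold Place.ord
    rw [neg_le_neg_iff]
    exact (WithZero.log_le_log (w.adicValuation_ne_zero hxy) (w.adicValuation_ne_zero hx)).mpr h
  · refine (min_le_right _ _).trans ?_
    unfold Place.ord
    rw [neg_le_neg_iff]
    exact (WithZero.log_le_log (w.adicValuation_ne_zero hxy) (w.adicValuation_ne_zero hy)).mpr h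

/-- Nonzero constants have order zero at every place. -/
theorem ord_algebraMap (w : Place K F) {c : K} (hc : c ≠ 0) : w.ord (algebraMap K F c) = 0 := by
  have hu : IsUnit (algebraMap K w.toValuationSubring c) := (IsUnit.mk0 c hc).map _
  have h1 := (w.adicValuation_coe_eq_one_iff _).mpr hu
  rw [Place.coe_algebraMap] at h1
  simp [Place.ord, h1]

theorem ord_neg (w : Place K F) (x : F) : w.ord (-x) = w.ord x := by
  simp [Place.ord, Valuation.map_neg]

/-- A zero of `t - c` is not a pole of `t`. -/
theorem ord_nonneg_of_zero (w : Place K F) (t : F) (c : K)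
    (hz : 0 < w.ord (t - algebraMap K F c)) : 0 ≤ w.ord t := by
  by_contra hneg
  rw [not_le] at hneg
  rcases eq_or_ne c 0 with rfl | hc
  · rw [map_zero, sub_zero] at hz
    omega
  · have ht : t ≠ 0 := by
      rintro rfl
      simp at hneg
    have htc : t - algebraMap K F c ≠ 0 := by
      intro h
      rw [h] at hz
      simp at hz
    have hc' : algebraMap K F c ≠ 0 := by simpa using hc
    have h := ord_add_ge w htc hc' (by simpa using ht)
    rw [sub_add_cancel, ord_algebraMap w hc] at h
    omega

/-- A place is a zero of `t - c` for at most one constant `c`. -/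
theorem zero_unique (w : Place K F) (t : F) {c c' : K}
    (hz : 0 < w.ord (t - algebraMap K F c)) (hz' : 0 < w.ord (t - algebraMap K F c')) :
    c = c' := by
  by_contra hcc
  have hx : t - algebraMap K F c ≠ 0 := by
    intro h
    rw [h] at hz
    simp at hz
  have hy : -(t - algebraMap K F c') ≠ 0 := by
    intro h
    rw [neg_eq_zero] at h
    rw [h] at hz'
    simp at hz'
  have hsum : (t - algebraMap K F c) + -(t - algebraMap K F c') = algebraMap K F (c' - c) := by
    rw [map_sub]
    ring
  have hne : c' - c ≠ 0 := sub_ne_zero.mpr (Ne.symm hcc)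
  have hxy : (t - algebraMap K F c) + -(t - algebraMap K F c') ≠ 0 := by
    rw [hsum]
    exact (map_ne_zero (algebraMap K F)).mpr hne
  have h := ord_add_ge w hx hy hxy
  rw [hsum, ord_algebraMap w hne, ord_neg] at h
  omega

end ord

/-- The degree of the canonical divisor of any nonzero differential, computed by
Riemann–Hurwitz. -/
theorem degree_canonicalDivisorOf (hZ : ZerosStatement) (hP : PolesStatement)
    (hDeg : DegOneStatement) (hCen : CenterStatement) (hPrin : PrincipalStatement)
    (hDiff : DiffStatement)
    {K F : Type} [Field K] [Field F] [Algebra K F] [IsAlgClosed K] [CharZero K]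
    [HasCanonicalDivisor (K := K) (F := F)] (t : F)
    (htr : Transcendental K t) (hfd : FiniteDimensional K⟮t⟯ F)
    (B : Finset K) (hB : ∀ c : K, c ∉ B → ∀ w : Place K F, w.ord (t - algebraMap K F c) ≤ 1)
    {ω : Ω[F⁄K]} (hω : ω ≠ 0) :
    Divisor.degree (canonicalDivisorOf hω) =
      (∑ c ∈ B, ((Module.finrank K⟮t⟯ F : ℤ)
              - (Nat.card {w : Place K F // 0 < w.ord (t - algebraMap K F c)} : ℤ)))
            - (Module.finrank K⟮t⟯ F : ℤ)
            - (Nat.card {w : Place K F // w.ord t < 0} : ℤ) := by
  classical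
  obtain ⟨hDt, hspan, hsmul, hzero, hpole⟩ := hDiff K F t htr hfd
  obtain ⟨f, rfl⟩ := hspan ω
  have hf : f ≠ 0 := by
    rintro rfl
    simp at hω
  obtain ⟨hfsupp, hfsum⟩ := hPrin K F t htr hfd f hf
  have hPfin := (hP K F t htr hfd).1
  have hPsum := (hP K F t htr hfd).2
  have hZfin := fun c => (hZ K F t htr hfd c).1
  have hZsum := fun c => (hZ K F t htr hfd c).2
  -- the order of `dt`
  set b : Place K F → ℤ := fun w => w.ordDifferential (D K F t) with hb
  -- the finite set carrying the support of `b`
  set T : Finset (Place K F) :=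
    hPfin.toFinset ∪ B.biUnion (fun c => (hZfin c).toFinset) with hT
  have hbT : Function.support b ⊆ ↑T := by
    intro w hw
    rw [Function.mem_support] at hw
    by_contra hwT
    apply hw
    have hwT' : w ∉ T := hwT
    rw [hT, Finset.mem_union, not_or, Set.Finite.mem_toFinset, Finset.mem_biUnion] at hwT'
    obtain ⟨h1, h2⟩ := hwT'
    obtain ⟨c, hc⟩ := hCen K F t htr hfd w (not_lt.mp h1)
    have hcB : c ∉ B := fun h => h2 ⟨c, h, (Set.Finite.mem_toFinset _).mpr hc⟩
    have h3 := hB c hcB w
    show w.ordDifferential (D K F t) = 0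
    rw [hzero w c hc]
    omega
  have hbfin : (Function.support b).Finite := T.finite_toSet.subset hbT
  -- the degree is the finsum of the values
  have hdeg : Divisor.degree (canonicalDivisorOf hω) = ∑ᶠ w, (canonicalDivisorOf hω) w := by
    rw [finsum_eq_sum_of_support_subset _ (Finsupp.fun_support_eq (canonicalDivisorOf hω)).subset,
      Divisor.degree, Finsupp.liftAddHom_apply, Finsupp.sum]
    refine Finset.sum_congr rfl (fun w _ => ?_)
    rw [AddMonoidHom.mulRight_apply, hDeg K F t htr hfd w]
    simp
  have hval : ∀ w : Place K F, (canonicalDivisorOf hω) w = w.ord f + b w := fun w => by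
    rw [canonicalDivisorOf_apply hω w, hsmul w f hf]
  rw [hdeg, finsum_congr hval, finsum_add_distrib hfsupp hbfin, hfsum, zero_add,
    finsum_eq_sum_of_support_subset b hbT, hT]
  -- disjointness
  have hdisj1 : Disjoint hPfin.toFinset (B.biUnion (fun c => (hZfin c).toFinset)) := by
    rw [Finset.disjoint_left]
    intro w hw1 hw2
    rw [Set.Finite.mem_toFinset] at hw1
    rw [Finset.mem_biUnion] at hw2
    obtain ⟨c, -, hc⟩ := hw2
    rw [Set.Finite.mem_toFinset] at hc
    have h1 : w.ord t < 0 := hw1
    have h2 := ord_nonneg_of_zero w t c hc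
    omega
  have hdisj2 : (B : Set K).PairwiseDisjoint (fun c => (hZfin c).toFinset) := by
    intro c _ c' _ hcc
    show Disjoint (hZfin c).toFinset (hZfin c').toFinset
    rw [Finset.disjoint_left]
    intro w hw1 hw2
    rw [Set.Finite.mem_toFinset] at hw1 hw2
    exact hcc (zero_unique w t hw1 hw2)
  rw [Finset.sum_union hdisj1, Finset.sum_biUnion hdisj2]
  -- the contribution of the poles
  have hpoles : ∑ w ∈ hPfin.toFinset, b w
      = - (Module.finrank K⟮t⟯ F : ℤ) - (Nat.card {w : Place K F // w.ord t < 0} : ℤ) := by
    have hcard : Nat.card {w : Place K F // w.ord t < 0} = hPfin.toFinset.card :=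
      Nat.card_eq_card_finite_toFinset hPfin
    rw [finsum_mem_eq_finite_toFinset_sum _ hPfin] at hPsum
    rw [hcard, ← hPsum, Finset.sum_neg_distrib, neg_neg]
    have : ∀ w ∈ hPfin.toFinset, b w = w.ord t - 1 := fun w hw =>
      hpole w (show w ∈ {w : Place K F | w.ord t < 0} from (Set.Finite.mem_toFinset hPfin).mp hw)
    rw [Finset.sum_congr rfl this, Finset.sum_sub_distrib]
    simp
  -- the contribution of the zeros of `t - c`
  have hzeros : ∀ c : K, ∑ w ∈ (hZfin c).toFinset, b w
      = (Module.finrank K⟮t⟯ F : ℤ)
        - (Nat.card {w : Place K F // 0 < w.ord (t - algebraMap K F c)} : ℤ) := by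
    intro c
    have hcard : Nat.card {w : Place K F // 0 < w.ord (t - algebraMap K F c)}
        = (hZfin c).toFinset.card := Nat.card_eq_card_finite_toFinset (hZfin c)
    have hs := hZsum c
    rw [finsum_mem_eq_finite_toFinset_sum _ (hZfin c)] at hs
    rw [hcard, ← hs]
    have : ∀ w ∈ (hZfin c).toFinset, b w = w.ord (t - algebraMap K F c) - 1 := fun w hw =>
      hzero w c (show w ∈ {w : Place K F | 0 < w.ord (t - algebraMap K F c)} from
        (Set.Finite.mem_toFinset (hZfin c)).mp hw)
    rw [Finset.sum_congr rfl this, Finset.sum_sub_distrib]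
    simp
  rw [hpoles, Finset.sum_congr rfl (fun c _ => hzeros c)]
  ring

/-- (A5) Riemann–Hurwitz, assembled from the other statements of Part A. -/
theorem rhStatement : ZerosStatement → PolesStatement → DegOneStatement → CenterStatement →
    PrincipalStatement → DiffStatement → RHStatement := by
  intro hZ hP hDeg hCen hPrin hDiff K F _ _ _ _ _ _ t htr hfd B hB
  have hDt : D K F t ≠ 0 := (hDiff K F t htr hfd).1
  have hex : ∃ ω : Ω[F⁄K], ω ≠ 0 := ⟨_, hDt⟩
  have hg : genus K F
      = (Divisor.degree (canonicalDivisorOf hex.choose_spec) + 2).toNat / 2 := by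
    unfold genus
    rw [dif_pos hex]
  rw [hg, degree_canonicalDivisorOf hZ hP hDeg hCen hPrin hDiff t htr hfd B hB hex.choose_spec]

end Fermat.Agent.S24.RH
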