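/-
S24, package `Ree`: Ree's inequality with parity.

If `G = ⟨a, b⟩` acts transitively on a finite nonempty set `X` and `c(g)` denotes the number of
orbits of `⟨g⟩` on `X`, then `c(a) + c(b) + c(a * b) = |X| + 2 - 2 g` for a natural number `g`.

* Inequality `c(a) + c(b) + c(a * b) ≤ |X| + 2`: linear algebra (Scott's lemma) on the
  permutation module `X → ℚ`.
* Parity: the sign of the permutation induced by `g` is `(-1) ^ (|X| + c(g))`.
-/
import Fermat.Agent.S24.Interfaces

set_option autoImplicit false

namespace Fermat.Agent.S24.Ree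

open Module

/-! ## Linear algebra: Scott's lemma for two endomorphisms -/

section LinAlg

variable {k V W : Type*} [Field k] [AddCommGroup V] [Module k V] [AddCommGroup W] [Module k W]

/-- Rank–nullity for the restriction of a linear map to a subspace, as an inequality. -/
theorem finrank_le_map_add_inf_ker [FiniteDimensional k V] (f : V →ₗ[k] W) (K : Submodule k V) :
    finrank k K ≤ finrank k (K.map f) + finrank k ↥(K ⊓ LinearMap.ker f) := by
  have h := LinearMap.finrank_range_add_finrank_ker (f.domRestrict K)
  rw [LinearMap.range_domRestrict, LinearMap.ker_domRestrict] at h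
  have h2 : finrank k ↥(Submodule.comap K.subtype (LinearMap.ker f))
      = finrank k ↥(K ⊓ LinearMap.ker f) := by
    have h3 : Submodule.comap K.subtype (LinearMap.ker f)
        = Submodule.comap K.subtype (K ⊓ LinearMap.ker f) := by
      ext x
      simp
    rw [h3]
    exact (Submodule.comapSubtypeEquivOfLe (inf_le_left)).finrank_eq
  omega

/-- Scott's lemma for two endomorphisms `A`, `B` of a finite-dimensional space: the dimension of
the fixed space of `A * B` is bounded in terms of the common fixed space of `A`, `B`, the ranks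
of `1 - A`, `1 - B` and the dimension of the sum of their ranges. -/
theorem scott [FiniteDimensional k V] (A B : V →ₗ[k] V) :
    finrank k (LinearMap.ker (1 - A * B))
        + finrank k ↥(LinearMap.range (1 - A) ⊔ LinearMap.range (1 - B))
      ≤ finrank k ↥(LinearMap.ker (1 - A) ⊓ LinearMap.ker (1 - B))
        + finrank k (LinearMap.range (1 - A)) + finrank k (LinearMap.range (1 - B)) := by
  have h1 := finrank_le_map_add_inf_ker (1 - B) (LinearMap.ker (1 - A * B))
  have h2 : (LinearMap.ker (1 - A * B)).map (1 - B)
      ≤ LinearMap.range (1 - A) ⊓ LinearMap.range (1 - B) := by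
    rintro _ ⟨v, hv, rfl⟩
    have hv' : v = A (B v) := by
      have := LinearMap.mem_ker.mp hv
      simpa [sub_eq_zero] using this
    refine ⟨⟨-(B v), ?_⟩, ⟨v, rfl⟩⟩
    simp only [LinearMap.sub_apply, Module.End.one_apply, map_neg]
    rw [← hv']
    abel
  have h3 : LinearMap.ker (1 - A * B) ⊓ LinearMap.ker (1 - B)
      ≤ LinearMap.ker (1 - A) ⊓ LinearMap.ker (1 - B) := by
    rintro v ⟨hv, hB⟩
    refine ⟨?_, hB⟩
    have hv' : v = A (B v) := by
      have := LinearMap.mem_ker.mp hv
      simpa [sub_eq_zero] using this
    have hB' : v = B v := by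
      have := LinearMap.mem_ker.mp hB
      simpa [sub_eq_zero] using this
    rw [SetLike.mem_coe, LinearMap.mem_ker, LinearMap.sub_apply, Module.End.one_apply, sub_eq_zero]
    rw [← hB'] at hv'
    exact hv'
  have h4 := Submodule.finrank_sup_add_finrank_inf_eq
    (LinearMap.range (1 - A)) (LinearMap.range (1 - B))
  have h5 := Submodule.finrank_mono h2
  have h6 := Submodule.finrank_mono h3
  omega

end LinAlg

/-! ## The permutation module `X → ℚ` -/

section Perm

variable {X G : Type} [Group G] [MulAction G X]

/-- The (contravariant) permutation representation of `G` on `X → ℚ`. -/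
noncomputable def P (g : G) : (X → ℚ) →ₗ[ℚ] (X → ℚ) :=
  LinearMap.funLeft ℚ ℚ (fun x => g • x)

theorem P_apply (g : G) (v : X → ℚ) (x : X) : P g v x = v (g • x) := rfl

theorem P_mul (g h : G) : P (X := X) (g * h) = P h * P g := by
  refine LinearMap.ext fun v => funext fun x => ?_
  simp only [Module.End.mul_apply, P_apply, mul_smul]

theorem mem_ker_iff (g : G) (v : X → ℚ) :
    v ∈ LinearMap.ker (1 - P g) ↔ ∀ x, v (g • x) = v x := by
  rw [LinearMap.mem_ker, LinearMap.sub_apply, sub_eq_zero, Module.End.one_apply]
  constructor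
  · intro h x
    exact (congrFun h x).symm
  · intro h
    funext x
    exact (h x).symm

/-- The subgroup of elements of `G` leaving a function invariant. -/
def stab (v : X → ℚ) : Subgroup G where
  carrier := {h | ∀ x, v (h • x) = v x}
  mul_mem' := by
    intro g h hg hh x
    rw [mul_smul, hg, hh]
  one_mem' := by
    intro x
    rw [one_smul]
  inv_mem' := by
    intro g hg x
    have := hg (g⁻¹ • x)
    rw [smul_inv_smul] at this
    exact this.symm

theorem mem_stab_iff (v : X → ℚ) (h : G) : h ∈ stab (G := G) v ↔ ∀ x, v (h • x) = v x := Iff.rfl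

/-- The number of orbits of the cyclic group generated by `g`. -/
noncomputable def cyc (X : Type) {G : Type} [Group G] [MulAction G X] (g : G) : ℕ :=
  Nat.card (MulAction.orbitRel.Quotient (Subgroup.zpowers g) X)

variable [Fintype X]

/-- The fixed space of `g` has dimension the number of cycles of `g`. -/
theorem finrank_ker (g : G) : finrank ℚ (LinearMap.ker (1 - P (X := X) g)) = cyc X g := by
  classical
  let _ : Fintype (MulAction.orbitRel.Quotient (Subgroup.zpowers g) X) := Fintype.ofFinite _
  let q : X → MulAction.orbitRel.Quotient (Subgroup.zpowers g) X := Quotient.mk''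
  have hq : Function.Surjective q := Quotient.mk''_surjective
  have hinj := LinearMap.funLeft_injective_of_surjective ℚ ℚ q hq
  have hrange : LinearMap.range (LinearMap.funLeft ℚ ℚ q) = LinearMap.ker (1 - P g) := by
    ext v
    rw [mem_ker_iff]
    constructor
    · rintro ⟨w, rfl⟩ x
      show w (q (g • x)) = w (q x)
      congr 1
      apply Quotient.sound'
      exact ⟨⟨g, Subgroup.mem_zpowers g⟩, rfl⟩
    · intro hv
      have hstab : Subgroup.zpowers g ≤ stab v := by
        rw [Subgroup.zpowers_le]
        exact hv
      refine ⟨Quotient.lift v ?_, ?_⟩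
      · rintro x y ⟨⟨h, hh⟩, rfl⟩
        exact hstab hh y
      · funext x
        rfl
  rw [← hrange, LinearMap.finrank_range_of_inj hinj, Module.finrank_fintype_fun_eq_card, cyc,
    Nat.card_eq_fintype_card]

theorem finrank_range (g : G) :
    finrank ℚ (LinearMap.range (1 - P (X := X) g)) + cyc X g = Fintype.card X := by
  rw [← finrank_ker, LinearMap.finrank_range_add_finrank_ker, Module.finrank_fintype_fun_eq_card]

omit [Fintype X] in
/-- If `a`, `b` generate a transitive group, the common fixed space is at most a line. -/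
theorem finrank_fix_le_one [MulAction.IsPretransitive G X] (a b : G)
    (hab : Subgroup.closure {a, b} = ⊤) :
    finrank ℚ ↥(LinearMap.ker (1 - P (X := X) a) ⊓ LinearMap.ker (1 - P b)) ≤ 1 := by
  have hle : LinearMap.ker (1 - P (X := X) a) ⊓ LinearMap.ker (1 - P b)
      ≤ Submodule.span ℚ {fun _ => (1 : ℚ)} := by
    rintro v ⟨ha, hb⟩
    rw [SetLike.mem_coe, mem_ker_iff] at ha hb
    have htop : stab (G := G) v = ⊤ := by
      rw [eq_top_iff, ← hab, Subgroup.closure_le]
      rintro g (rfl | rfl)
      · exact ha
      · exact hb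
    have hconst : ∀ x y, v x = v y := by
      intro x y
      obtain ⟨g, rfl⟩ := MulAction.exists_smul_eq G y x
      have hg : g ∈ stab (G := G) v := htop ▸ Subgroup.mem_top g
      exact hg y
    rw [Submodule.mem_span_singleton]
    rcases isEmpty_or_nonempty X with hX | ⟨⟨x₀⟩⟩
    · exact ⟨0, funext fun x => (hX.false x).elim⟩
    · exact ⟨v x₀, funext fun x => by simp [hconst x x₀]⟩
  refine (Submodule.finrank_mono hle).trans ?_
  exact (finrank_span_le_card _).trans (by simp)

/-- The sum functional. -/
noncomputable def sumL : (X → ℚ) →ₗ[ℚ] ℚ := ∑ x, LinearMap.proj x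

theorem sumL_apply (v : X → ℚ) : sumL v = ∑ x, v x := by
  simp [sumL]

variable [DecidableEq X]

omit [Fintype X] in
theorem one_sub_P_single (g : G) (x : X) :
    (1 - P g) (Pi.single (g • x) (1 : ℚ)) = Pi.single (g • x) 1 - Pi.single x 1 := by
  funext y
  simp only [LinearMap.sub_apply, Module.End.one_apply, Pi.sub_apply, P_apply]
  congr 1
  simp [Pi.single_apply]

/-- The subgroup of `h` such that `e (h • x) - e x ∈ W` for all `x`. -/
def diffSub (W : Submodule ℚ (X → ℚ)) : Subgroup G where
  carrier := {h | ∀ x, (Pi.single (h • x) (1 : ℚ) - Pi.single x 1 : X → ℚ) ∈ W}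
  mul_mem' := by
    intro g h hg hh x
    have := W.add_mem (hg (h • x)) (hh x)
    rw [sub_add_sub_cancel] at this
    rw [mul_smul]
    exact this
  one_mem' := by
    intro x
    simp
  inv_mem' := by
    intro g hg x
    have := W.neg_mem (hg (g⁻¹ • x))
    rw [smul_inv_smul, neg_sub] at this
    exact this

theorem ker_sumL_le [MulAction.IsPretransitive G X] (a b : G)
    (hab : Subgroup.closure {a, b} = ⊤) :
    LinearMap.ker (sumL (X := X))
      ≤ LinearMap.range (1 - P (X := X) a) ⊔ LinearMap.range (1 - P b) := by
  have htop : diffSub (G := G)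
      (LinearMap.range (1 - P (X := X) a) ⊔ LinearMap.range (1 - P b)) = ⊤ := by
    rw [eq_top_iff, ← hab, Subgroup.closure_le]
    rintro g (rfl | rfl)
    · intro x
      exact Submodule.mem_sup_left ⟨_, one_sub_P_single g x⟩
    · intro x
      exact Submodule.mem_sup_right ⟨_, one_sub_P_single g x⟩
  have hdiff : ∀ x y : X, (Pi.single y (1 : ℚ) - Pi.single x 1 : X → ℚ)
      ∈ LinearMap.range (1 - P (X := X) a) ⊔ LinearMap.range (1 - P b) := by
    intro x y
    obtain ⟨g, rfl⟩ := MulAction.exists_smul_eq G x y
    have hg : g ∈ diffSub (G := G)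
        (LinearMap.range (1 - P (X := X) a) ⊔ LinearMap.range (1 - P b)) :=
      htop ▸ Subgroup.mem_top g
    exact hg x
  intro v hv
  rw [LinearMap.mem_ker, sumL_apply] at hv
  rcases isEmpty_or_nonempty X with hX | ⟨⟨x₀⟩⟩
  · have hv0 : v = 0 := funext fun x => (hX.false x).elim
    rw [hv0]
    exact Submodule.zero_mem _
  · have hv' : v = ∑ x, v x • (Pi.single x (1 : ℚ) - Pi.single x₀ 1 : X → ℚ) := by
      simp only [smul_sub, Finset.sum_sub_distrib, ← Finset.sum_smul, hv, zero_smul, sub_zero]
      funext y
      simp [Pi.single_apply]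
    rw [hv']
    exact Submodule.sum_mem _ fun x _ => Submodule.smul_mem _ _ (hdiff x₀ x)

theorem card_le_finrank_sup_add_one [MulAction.IsPretransitive G X] (a b : G)
    (hab : Subgroup.closure {a, b} = ⊤) :
    Fintype.card X
      ≤ finrank ℚ ↥(LinearMap.range (1 - P (X := X) a) ⊔ LinearMap.range (1 - P b)) + 1 := by
  have h1 := Submodule.finrank_mono (ker_sumL_le (X := X) a b hab)
  have h2 := LinearMap.finrank_range_add_finrank_ker (sumL (X := X))
  have h3 : finrank ℚ (LinearMap.range (sumL (X := X))) ≤ 1 := by
    have := Submodule.finrank_le (LinearMap.range (sumL (X := X)))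
    simpa using this
  rw [Module.finrank_fintype_fun_eq_card] at h2
  omega

/-- Ree's inequality for two generators of a transitive group. -/
theorem ree_le [MulAction.IsPretransitive G X] (a b : G)
    (hab : Subgroup.closure {a, b} = ⊤) :
    cyc X a + cyc X b + cyc X (a * b) ≤ Fintype.card X + 2 := by
  have hab' : Subgroup.closure {b, a} = ⊤ := by rwa [Set.pair_comm]
  have h := scott (P (X := X) b) (P a)
  rw [← P_mul, finrank_ker] at h
  have h1 := finrank_fix_le_one (X := X) b a hab'
  have h2 := card_le_finrank_sup_add_one (X := X) b a hab'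
  have h3 := finrank_range (X := X) a
  have h4 := finrank_range (X := X) b
  omega

/-! ## Parity -/

/-- Number of cycles (including fixed points) of a permutation via its cycle type. -/
theorem card_sameCycle_quotient (f : Equiv.Perm X) :
    Nat.card (Quotient (Equiv.Perm.SameCycle.setoid f))
      = Multiset.card f.cycleType + (Fintype.card X - f.cycleType.sum) := by
  classical
  let _ : Fintype (Quotient (Equiv.Perm.SameCycle.setoid f)) := Fintype.ofFinite _
  let Ψ : Quotient (Equiv.Perm.SameCycle.setoid f) → Equiv.Perm X ⊕ X :=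
    Quotient.lift (fun x => if f x = x then Sum.inr x else Sum.inl (f.cycleOf x)) (by
      intro x y hxy
      have hxy' : f.SameCycle x y := hxy
      by_cases hx : f x = x
      · have hy : f y = y := hxy'.apply_eq_self_iff.mp hx
        have : x = y := hxy'.eq_of_left hx
        simp [hy, this]
      · have hy : ¬ f y = y := fun hy => hx (hxy'.apply_eq_self_iff.mpr hy)
        simp [hx, hy, hxy'.cycleOf_eq])
  have hΨ : ∀ x, Ψ (Quotient.mk _ x) = if f x = x then Sum.inr x else Sum.inl (f.cycleOf x) :=
    fun x => rfl
  have hinj : Function.Injective Ψ := by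
    intro q₁ q₂
    induction q₁ using Quotient.inductionOn with
    | h x =>
    induction q₂ using Quotient.inductionOn with
    | h y =>
    intro h
    rw [hΨ, hΨ] at h
    apply Quotient.sound
    show f.SameCycle x y
    by_cases hx : f x = x <;> by_cases hy : f y = y
    · simp only [hx, hy, if_true, Sum.inr.injEq] at h
      rw [h]
    · simp [hx, hy] at h
    · simp [hx, hy] at h
    · simp only [hx, hy, if_false, Sum.inl.injEq] at h
      exact (Equiv.Perm.sameCycle_iff_cycleOf_eq_of_mem_support
        (Equiv.Perm.mem_support.mpr hx) (Equiv.Perm.mem_support.mpr hy)).mpr h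
  have himage : Finset.univ.image Ψ = f.cycleFactorsFinset.disjSum (f.supportᶜ) := by
    ext z
    rw [Finset.mem_image]
    constructor
    · rintro ⟨q, -, rfl⟩
      induction q using Quotient.inductionOn with
      | h x =>
      rw [hΨ]
      by_cases hx : f x = x
      · rw [if_pos hx, Finset.inr_mem_disjSum, Finset.mem_compl, Equiv.Perm.notMem_support]
        exact hx
      · rw [if_neg hx, Finset.inl_mem_disjSum, Equiv.Perm.cycleOf_mem_cycleFactorsFinset_iff,
          Equiv.Perm.mem_support]
        exact hx
    · intro hz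
      rcases z with c | y
      · rw [Finset.inl_mem_disjSum] at hz
        obtain ⟨x, hx⟩ := (Equiv.Perm.mem_cycleFactorsFinset_iff.mp hz).1.nonempty_support
        have hc : c = f.cycleOf x := Equiv.Perm.cycle_is_cycleOf hx hz
        have hfx : f x ≠ x :=
          Equiv.Perm.mem_support.mp (Equiv.Perm.mem_cycleFactorsFinset_support_le hz hx)
        refine ⟨Quotient.mk _ x, Finset.mem_univ _, ?_⟩
        rw [hΨ, if_neg hfx, hc]
      · rw [Finset.inr_mem_disjSum, Finset.mem_compl, Equiv.Perm.notMem_support] at hz
        refine ⟨Quotient.mk _ y, Finset.mem_univ _, ?_⟩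
        rw [hΨ, if_pos hz]
  have hcard : Fintype.card (Quotient (Equiv.Perm.SameCycle.setoid f))
      = (Finset.univ.image Ψ).card := by
    rw [Finset.card_image_of_injective _ hinj, Finset.card_univ]
  rw [Nat.card_eq_fintype_card, hcard, himage, Finset.card_disjSum, Finset.card_compl,
    Equiv.Perm.sum_cycleType, Equiv.Perm.cycleType_def, Multiset.card_map]
  rfl

omit [Fintype X] [DecidableEq X] in
theorem orbitRel_zpowers_eq (g : G) :
    MulAction.orbitRel (Subgroup.zpowers g) X
      = Equiv.Perm.SameCycle.setoid (MulAction.toPerm g) := by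
  ext x y
  show x ∈ MulAction.orbit (Subgroup.zpowers g) y ↔ Equiv.Perm.SameCycle (MulAction.toPerm g) x y
  rw [Equiv.Perm.sameCycle_comm]
  constructor
  · rintro ⟨⟨h, hh⟩, rfl⟩
    obtain ⟨i, rfl⟩ := Subgroup.mem_zpowers_iff.mp hh
    refine ⟨i, ?_⟩
    rw [← MulAction.toPermHom_apply, ← map_zpow]
    rfl
  · rintro ⟨i, rfl⟩
    refine ⟨⟨g ^ i, Subgroup.zpow_mem_zpowers g i⟩, ?_⟩
    rw [← MulAction.toPermHom_apply, ← map_zpow]
    rfl

theorem cyc_eq (g : G) :
    cyc X g = Multiset.card (MulAction.toPerm g : Equiv.Perm X).cycleType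
      + (Fintype.card X - (MulAction.toPerm g : Equiv.Perm X).cycleType.sum) := by
  rw [← card_sameCycle_quotient, cyc, MulAction.orbitRel.Quotient, orbitRel_zpowers_eq]

theorem sign_toPerm (g : G) :
    Equiv.Perm.sign (MulAction.toPerm g : Equiv.Perm X) = (-1 : ℤˣ) ^ (Fintype.card X + cyc X g) := by
  have hle := (MulAction.toPerm g : Equiv.Perm X).sum_cycleType_le
  have h : Fintype.card X + cyc X g
      = ((MulAction.toPerm g : Equiv.Perm X).cycleType.sum
          + Multiset.card (MulAction.toPerm g : Equiv.Perm X).cycleType)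
        + 2 * (Fintype.card X - (MulAction.toPerm g : Equiv.Perm X).cycleType.sum) := by
    rw [cyc_eq]
    omega
  rw [h, pow_add, pow_mul, Equiv.Perm.sign_of_cycleType]
  simp

theorem even_card_add (a b : G) :
    Even (3 * Fintype.card X + (cyc X a + cyc X b + cyc X (a * b))) := by
  have h : Equiv.Perm.sign (MulAction.toPerm (a * b) : Equiv.Perm X)
      = Equiv.Perm.sign (MulAction.toPerm a : Equiv.Perm X)
        * Equiv.Perm.sign (MulAction.toPerm b : Equiv.Perm X) := by
    rw [← map_mul]
    congr 1
    exact map_mul (MulAction.toPermHom G X) a b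
  rw [sign_toPerm, sign_toPerm, sign_toPerm, ← pow_add] at h
  have h2 : (-1 : ℤˣ) ^ (3 * Fintype.card X + (cyc X a + cyc X b + cyc X (a * b))) = 1 := by
    have e : 3 * Fintype.card X + (cyc X a + cyc X b + cyc X (a * b))
        = (Fintype.card X + cyc X (a * b)) + (Fintype.card X + cyc X a + (Fintype.card X + cyc X b)) := by
      ring
    rw [e, pow_add, h, ← pow_add, ← two_mul, pow_mul]
    simp
  exact (neg_one_pow_eq_one_iff_even (by decide)).mp h2

end Perm

/-- **Ree's inequality with parity.** -/
theorem reeStatement : ReeStatement := by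
  intro X G _ _ _ _ _ a b hab
  classical
  let _ : Fintype X := Fintype.ofFinite X
  have hle := ree_le (X := X) a b hab
  obtain ⟨m, hm⟩ := even_card_add (X := X) a b
  refine ⟨(Fintype.card X + 2 - (cyc X a + cyc X b + cyc X (a * b))) / 2, ?_⟩
  rw [Nat.card_eq_fintype_card (α := X)]
  change 2 * ((Fintype.card X + 2 - (cyc X a + cyc X b + cyc X (a * b))) / 2)
    + (cyc X a + cyc X b + cyc X (a * b)) = Fintype.card X + 2
  omega

end Fermat.Agent.S24.Ree
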