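/-
S24 (genus of X₀(N)) — package `Top`: final assembly of the genus formula from the interface
statements (Riemann–Hurwitz, the modular place counts, the combinatorics of `SL(2, ℤ) ⧸ Γ₀(N)`
and Ree's parity statement).
-/
import Fermat.Agent.S24.Interfaces

set_option autoImplicit false

open AlgebraicCurve IntermediateField KaehlerDifferential
open scoped MatrixGroups
open CongruenceSubgroup ModularGroup

namespace Fermat.Agent.S24.Top

/-- Pure arithmetic: from the Riemann–Hurwitz count and Ree's identity to the value of the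
`toNat / 2` expression. -/
theorem toNat_half_eq (n cS cST cT g : ℕ) (hree : 2 * g + (cS + cT + cST) = n + 2) :
    ((((n : ℤ) - (cST : ℤ)) + ((n : ℤ) - (cS : ℤ)) - (n : ℤ) - (cT : ℤ) + 2).toNat / 2 : ℕ) = g := by
  have h : (((n : ℤ) - (cST : ℤ)) + ((n : ℤ) - (cS : ℤ)) - (n : ℤ) - (cT : ℤ) + 2) = ((2 * g : ℕ) : ℤ) := by
    push_cast
    omega
  rw [h, Int.toNat_natCast]
  omega

/-- Pure arithmetic: the genus formula in `ℚ`. -/
theorem genusFormula_arith (n cS cST cT g psi nu2 nu3 cusps : ℕ)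
    (hree : 2 * g + (cS + cT + cST) = n + 2)
    (hn : n = psi) (h2 : 2 * cS = n + nu2) (h3 : 3 * cST = n + 2 * nu3) (hc : cT = cusps) :
    (g : ℚ) = 1 + (psi : ℚ) / 12 - (nu2 : ℚ) / 4 - (nu3 : ℚ) / 3 - (cusps : ℚ) / 2 := by
  subst hn hc
  have hree' : (2 : ℚ) * g + (cS + cT + cST) = n + 2 := by exact_mod_cast hree
  have h2' : (2 : ℚ) * cS = n + nu2 := by exact_mod_cast h2
  have h3' : (3 : ℚ) * cST = n + 2 * nu3 := by exact_mod_cast h3
  linarith

theorem genus_eq_genusFormula (hRH : RHStatement) (hMC : ModelCountsStatement)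
    (hI : CombIndexStatement) (hE : CombEllipticStatement) (hC : CombCuspStatement)
    (hR : ReeStatement)
    (N : ℕ) [NeZero N]
    [AlgebraicCurve.HasCanonicalDivisor (K := AlgebraicClosure ℚ)
      (F := ↥(ModularCurve.modularFunctionFieldBar N))] :
    (AlgebraicCurve.genus (AlgebraicClosure ℚ) ↥(ModularCurve.modularFunctionFieldBar N) : ℚ)
      = ModularCurve.genusFormula N := by
  classical
  obtain ⟨htr, hfd, hn, hunr, h1728, h0, hinf⟩ := hMC N
  have hne : (0 : Kbar) ≠ 1728 := by norm_num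
  have hB := hRH Kbar ↥(ModularCurve.modularFunctionFieldBar N) (jBar N) htr hfd
    ({0, 1728} : Finset Kbar) (fun c hc w => hunr c
      (fun h => hc (by simp [h])) (fun h => hc (by simp [h])) w)
  rw [Finset.sum_pair hne, h1728, h0, hinf, hn] at hB
  -- Ree's statement for `SL(2, ℤ)` acting on the cosets of `Γ₀(N)`
  obtain ⟨g, hg⟩ := hR (SL(2, ℤ) ⧸ Gamma0 N) SL(2, ℤ) S T SpecialLinearGroup.SL2Z_generators
  change 2 * g + (cycleCount N S + cycleCount N T + cycleCount N (S * T))
      = Nat.card (SL(2, ℤ) ⧸ Gamma0 N) + 2 at hg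
  have hgen : genus Kbar ↥(ModularCurve.modularFunctionFieldBar N) = g := by
    have := toNat_half_eq _ _ _ _ _ hg
    rw [this] at hB
    exact_mod_cast hB
  obtain ⟨hS, hST⟩ := hE N
  show ((genus Kbar ↥(ModularCurve.modularFunctionFieldBar N) : ℕ) : ℚ) = _
  rw [hgen, ModularCurve.genusFormula]
  exact genusFormula_arith _ _ _ _ _ _ _ _ _ hg (hI N) hS hST (hC N)

end Fermat.Agent.S24.Top
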