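/-
S24 / package `Diff` (helper A), part 1: basic facts on function fields of one variable.

* exchange: if `F` is algebraic (finite) over `K(t)` and `x` is transcendental over `K`, then `F`
  is algebraic (finite) over `K(x)`;
* elements integral over a subring of a valuation ring lie in the valuation ring;
* the residue field of a place is `K` (for `K` algebraically closed);
* `Ω[F⁄K]` is free of rank one on `D x` for every `x` transcendental over `K` (char. 0).
-/
import Fermat.Agent.S24.Interfaces

set_option autoImplicit false

open AlgebraicCurve IntermediateField KaehlerDifferential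

namespace Fermat.Agent.S24.Diff

noncomputable section

variable {K F : Type} [Field K] [Field F] [Algebra K F]

open scoped IntermediateField.algebraAdjoinAdjoin in
/-- If `F` is algebraic over `K(t)` and `x` is transcendental over `K`, then `F` is algebraic
over `K[x]`. -/
theorem isAlgebraic_algebraAdjoin_of_transcendental (t : F) [Algebra.IsAlgebraic K⟮t⟯ F]
    (x : F) (hx : Transcendental K x) : Algebra.IsAlgebraic (Algebra.adjoin K {x}) F := by
  have halg : Algebra.IsAlgebraic (Algebra.adjoin K (Set.range (fun _ : Unit => t))) F := by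
    have hr : Set.range (fun _ : Unit => t) = {t} := by
      ext y; simp [eq_comm]
    rw [hr]
    exact Algebra.IsAlgebraic.trans (Algebra.adjoin K {t}) K⟮t⟯ F
  have hle : Algebra.trdeg K F ≤ 1 := by
    have := Algebra.IsAlgebraic.trdeg_le_cardinalMk K (Set.range (fun _ : Unit => t))
    refine this.trans ?_
    simp
  have hind : AlgebraicIndependent K (fun _ : Unit => x) :=
    algebraicIndependent_unique_type_iff.mpr hx
  have hb : IsTranscendenceBasis K (fun _ : Unit => x) :=
    hind.isTranscendenceBasis_of_trdeg_le_of_finite (by simpa using hle)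
  have := hb.isAlgebraic
  have hr : Set.range (fun _ : Unit => x) = {x} := by
    ext y; simp [eq_comm]
  rwa [hr] at this

open scoped IntermediateField.algebraAdjoinAdjoin in
/-- If `F` is algebraic over `K(t)` and `x` is transcendental over `K`, then `F` is algebraic
over `K(x)`. -/
theorem isAlgebraic_adjoin_of_transcendental (t : F) [Algebra.IsAlgebraic K⟮t⟯ F]
    (x : F) (hx : Transcendental K x) : Algebra.IsAlgebraic K⟮x⟯ F := by
  have := isAlgebraic_algebraAdjoin_of_transcendental (K := K) t x hx
  exact Algebra.IsAlgebraic.extendScalars (R := Algebra.adjoin K {x})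
    (Subalgebra.inclusion_injective _)

/-- If `F` is finite over `K(t)` and `x` is transcendental over `K`, then `F` is finite
over `K(x)`. -/
theorem finiteDimensional_adjoin_of_transcendental (t : F) [FiniteDimensional K⟮t⟯ F]
    (x : F) (hx : Transcendental K x) : FiniteDimensional K⟮x⟯ F := by
  have := isAlgebraic_adjoin_of_transcendental (K := K) t x hx
  have : Algebra.EssFiniteType K K⟮t⟯ :=
    IntermediateField.essFiniteType_iff.mpr
      (IntermediateField.fg_adjoin_of_finite (Set.finite_singleton t))
  have : Algebra.EssFiniteType K F := Algebra.EssFiniteType.comp K K⟮t⟯ F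
  have : Algebra.EssFiniteType K⟮x⟯ F := Algebra.EssFiniteType.of_comp K K⟮x⟯ F
  exact Algebra.finite_of_essFiniteType_of_isAlgebraic

/-- An element integral over a ring mapping into a valuation subring lies in it. -/
theorem mem_valuationSubring_of_isIntegral {R : Type*} [CommRing R] [Algebra R F]
    (O : ValuationSubring F) (h : ∀ r : R, algebraMap R F r ∈ O) {x : F}
    (hx : IsIntegral R x) : x ∈ O := by
  obtain ⟨p, hmonic, hp⟩ := hx
  let φ : R →+* O := (algebraMap R F).codRestrict O.toSubring h
  have hint : IsIntegral O x := by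
    refine ⟨p.map φ, hmonic.map φ, ?_⟩
    rw [Polynomial.eval₂_map]
    exact hp
  obtain ⟨y, hy⟩ := IsIntegrallyClosed.isIntegral_iff.mp hint
  rw [← hy]
  exact y.2

/-- An element of `F` algebraic over the algebraically closed field `K` is a constant. -/
theorem exists_algebraMap_eq_of_isAlgebraic [IsAlgClosed K] {x : F} (hx : IsAlgebraic K x) :
    ∃ c : K, algebraMap K F c = x := by
  have h : (minpoly K x).degree = 1 :=
    IsAlgClosed.degree_eq_one_of_irreducible K (minpoly.irreducible hx.isIntegral)
  exact RingHom.mem_range.mp (minpoly.mem_range_of_degree_eq_one K x h)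

/-- The residue field of a place is `K`: every element of the valuation ring is congruent to a
constant modulo the maximal ideal. -/
theorem exists_sub_mem_maximalIdeal [IsAlgClosed K] (t : F) [Algebra.IsAlgebraic K⟮t⟯ F]
    (w : Place K F) (u : w.toValuationSubring) :
    ∃ c : K, u - algebraMap K w.toValuationSubring c ∈
      IsLocalRing.maximalIdeal w.toValuationSubring := by
  by_cases hu : IsAlgebraic K (u : F)
  · obtain ⟨c, hc⟩ := exists_algebraMap_eq_of_isAlgebraic hu
    refine ⟨c, ?_⟩
    have : u = algebraMap K w.toValuationSubring c := Subtype.ext hc.symm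
    rw [this, sub_self]
    exact zero_mem _
  · have halg := isAlgebraic_algebraAdjoin_of_transcendental (K := K) t (u : F) hu
    obtain ⟨ϖ, hϖ⟩ := IsDiscreteValuationRing.exists_irreducible w.toValuationSubring
    have hϖ0 : (ϖ : F) ≠ 0 := by
      simpa [ne_eq, ZeroMemClass.coe_eq_zero] using hϖ.ne_zero
    obtain ⟨t', ht', r, hr, h⟩ := (halg.isAlgebraic (ϖ : F)).exists_nonzero_eq_adjoin_mul
      (mem_nonZeroDivisors_of_ne_zero hϖ0)
    have hle : ∀ a ∈ Algebra.adjoin K {(u : F)}, a ∈ w.toValuationSubring := by
      intro a ha
      induction ha using Algebra.adjoin_induction with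
      | mem x hx => rw [Set.mem_singleton_iff.mp hx]; exact u.2
      | algebraMap c => exact w.algebraMap_mem' c
      | add x y _ _ hx hy => exact add_mem hx hy
      | mul x y _ _ hx hy => exact mul_mem hx hy
    have hle2 : ∀ a ∈ Algebra.adjoin (Algebra.adjoin K {(u : F)}) {(ϖ : F)},
        a ∈ w.toValuationSubring := by
      intro a ha
      induction ha using Algebra.adjoin_induction with
      | mem x hx => rw [Set.mem_singleton_iff.mp hx]; exact ϖ.2
      | algebraMap c => exact hle _ c.2
      | add x y _ _ hx hy => exact add_mem hx hy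
      | mul x y _ _ hx hy => exact mul_mem hx hy
    have ht'O : t' ∈ w.toValuationSubring := hle2 t' ht'
    have hr' : (r : F) ∈ (Polynomial.aeval (R := K) (u : F)).range := by
      rw [← Algebra.adjoin_singleton_eq_range_aeval]; exact r.2
    obtain ⟨q, hq⟩ := hr'
    change Polynomial.aeval (u : F) q = (r : F) at hq
    have hq0 : q ≠ 0 := by
      rintro rfl
      apply hr
      apply Subtype.ext
      rw [← hq]; simp
    have hcoe : ((Polynomial.aeval u q : w.toValuationSubring) : F) = Polynomial.aeval (u : F) q :=
      (Polynomial.aeval_algHom_apply (IsScalarTower.toAlgHom K w.toValuationSubring F) u q).symm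
    have hmem : Polynomial.aeval u q ∈ IsLocalRing.maximalIdeal w.toValuationSubring := by
      have : Polynomial.aeval u q = ϖ * ⟨t', ht'O⟩ := by
        apply Subtype.ext
        rw [hcoe, hq]
        exact h.symm
      rw [this]
      exact Ideal.mul_mem_right _ _ ((IsLocalRing.mem_maximalIdeal _).mpr hϖ.not_isUnit)
    have hsplit := (IsAlgClosed.splits q).eq_prod_roots
    rw [hsplit, map_mul, Polynomial.aeval_C, map_multiset_prod, Multiset.map_map] at hmem
    have hlc : IsUnit (algebraMap K w.toValuationSubring q.leadingCoeff) :=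
      (isUnit_iff_ne_zero.mpr (Polynomial.leadingCoeff_ne_zero.mpr hq0)).map _
    have hprime : (IsLocalRing.maximalIdeal w.toValuationSubring).IsPrime := inferInstance
    rcases hprime.mem_or_mem hmem with h1 | h1
    · exact absurd hlc ((IsLocalRing.mem_maximalIdeal _).mp h1)
    · obtain ⟨p, hp, hpm⟩ := (hprime.multiset_prod_mem_iff_exists_mem _).mp h1
      obtain ⟨c, -, rfl⟩ := Multiset.mem_map.mp hp
      refine ⟨c, ?_⟩
      simpa using hpm

theorem aeval_algEquivOfTranscendental_symm (x : F) (hx : Transcendental K x)
    (a : Algebra.adjoin K {x}) :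
    Polynomial.aeval x ((Polynomial.algEquivOfTranscendental K x hx).symm a) = (a : F) := by
  obtain ⟨p, rfl⟩ := (Polynomial.algEquivOfTranscendental K x hx).surjective a
  rw [AlgEquiv.symm_apply_apply, Polynomial.algEquivOfTranscendental_apply]
  exact (Polynomial.aeval_subalgebra_coe p (Algebra.adjoin K {x})
    ⟨x, Algebra.self_mem_adjoin_singleton K x⟩).symm

open Polynomial in
/-- The derivation `p(x) ↦ p'(x)` from `K[x]` to `F`, for `x` transcendental over `K`. -/
def adjoinDeriv (x : F) (hx : Transcendental K x) : Derivation K (Algebra.adjoin K {x}) F where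
  toFun a := aeval x (derivative ((Polynomial.algEquivOfTranscendental K x hx).symm a))
  map_add' a b := by simp
  map_smul' c a := by simp
  map_one_eq_zero' := by simp
  leibniz' a b := by
    show aeval x (derivative ((Polynomial.algEquivOfTranscendental K x hx).symm (a * b))) =
      a • aeval x (derivative ((Polynomial.algEquivOfTranscendental K x hx).symm b)) +
      b • aeval x (derivative ((Polynomial.algEquivOfTranscendental K x hx).symm a))
    simp only [map_mul, derivative_mul, map_add, aeval_algEquivOfTranscendental_symm,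
      Subalgebra.smul_def, smul_eq_mul]
    ring

theorem adjoinDeriv_apply (x : F) (hx : Transcendental K x) (a : Algebra.adjoin K {x}) :
    adjoinDeriv x hx a = Polynomial.aeval x
      (Polynomial.derivative ((Polynomial.algEquivOfTranscendental K x hx).symm a)) := rfl

theorem adjoinDeriv_gen (x : F) (hx : Transcendental K x) :
    adjoinDeriv x hx ⟨x, Algebra.self_mem_adjoin_singleton K x⟩ = 1 := by
  have : (Polynomial.algEquivOfTranscendental K x hx).symm
      ⟨x, Algebra.self_mem_adjoin_singleton K x⟩ = Polynomial.X := by
    rw [AlgEquiv.symm_apply_eq, Polynomial.algEquivOfTranscendental_apply_X]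
  rw [adjoinDeriv_apply, this]
  simp

/-- `D (a) = a' • D x` in `Ω[F⁄K]` for `a ∈ K[x]`. -/
theorem D_coe_adjoin (x : F) (hx : Transcendental K x) (a : Algebra.adjoin K {x}) :
    D K F (a : F) = adjoinDeriv x hx a • D K F x := by
  rw [adjoinDeriv_apply, ← Derivation.map_aeval, aeval_algEquivOfTranscendental_symm]

open scoped IntermediateField.algebraAdjoinAdjoin in
theorem formallyEtale_adjoin (x : F) [Algebra.IsAlgebraic K⟮x⟯ F] [CharZero K] :
    Algebra.FormallyEtale (Algebra.adjoin K {x}) F := by
  have : Algebra.FormallyEtale (Algebra.adjoin K {x}) K⟮x⟯ :=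
    Algebra.FormallyEtale.of_isLocalization (nonZeroDivisors (Algebra.adjoin K {x}))
  have : CharZero K⟮x⟯ := charZero_of_injective_algebraMap (algebraMap K K⟮x⟯).injective
  have : Algebra.IsSeparable K⟮x⟯ F := inferInstance
  have : Algebra.FormallyEtale K⟮x⟯ F := Algebra.FormallyEtale.of_isSeparable _ _
  exact Algebra.FormallyEtale.comp (Algebra.adjoin K {x}) K⟮x⟯ F

open TensorProduct in
/-- (a): for `x` transcendental with `F` algebraic over `K(x)`, `Ω[F⁄K]` is free of rank one
on `D x`: there is a linear form `Φ` with `Φ (D x) = 1` and `ω = Φ ω • D x` for all `ω`. -/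
theorem exists_linearMap_D (x : F) (hx : Transcendental K x) [Algebra.IsAlgebraic K⟮x⟯ F]
    [CharZero K] :
    ∃ Φ : Ω[F⁄K] →ₗ[F] F, Φ (D K F x) = 1 ∧ ∀ ω, ω = Φ ω • D K F x := by
  have := formallyEtale_adjoin (K := K) x
  let e := KaehlerDifferential.tensorKaehlerEquivOfFormallyEtale K (Algebra.adjoin K {x}) F
  let ψ : F ⊗[Algebra.adjoin K {x}] Ω[Algebra.adjoin K {x}⁄K] →ₗ[F] F :=
    LinearMap.liftBaseChange F (adjoinDeriv x hx).liftKaehlerDifferential
  let Φ : Ω[F⁄K] →ₗ[F] F := ψ ∘ₗ e.symm.toLinearMap
  have hΦ : ∀ (f : F) (a : Algebra.adjoin K {x}), Φ (f • D K F (a : F)) = f * adjoinDeriv x hx a := by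
    intro f a
    have h1 : e.symm (D K F (algebraMap (Algebra.adjoin K {x}) F a)) = 1 ⊗ₜ D K _ a :=
      KaehlerDifferential.tensorKaehlerEquivOfFormallyEtale_symm_D_algebraMap K _ F a
    have h2 : Φ (D K F (a : F)) = adjoinDeriv x hx a := by
      show ψ (e.symm (D K F (algebraMap (Algebra.adjoin K {x}) F a))) = _
      rw [h1]
      simp [ψ]
    rw [map_smul, h2, smul_eq_mul]
  refine ⟨Φ, ?_, ?_⟩
  · have := hΦ 1 ⟨x, Algebra.self_mem_adjoin_singleton K x⟩
    rw [one_smul, one_mul, adjoinDeriv_gen] at this
    exact this
  · intro ω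
    obtain ⟨z, rfl⟩ := e.surjective ω
    induction z using TensorProduct.induction_on with
    | zero => simp
    | add z₁ z₂ h₁ h₂ => rw [map_add, map_add, add_smul, ← h₁, ← h₂]
    | tmul f η =>
      have hη : η ∈ Submodule.span (Algebra.adjoin K {x}) (Set.range (D K (Algebra.adjoin K {x}))) := by
        rw [KaehlerDifferential.span_range_derivation]; trivial
      induction hη using Submodule.span_induction generalizing f with
      | mem η hη =>
        obtain ⟨a, rfl⟩ := hη
        have h3 : e (f ⊗ₜ D K _ a) = f • D K F (a : F) := by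
          simp [e]
        rw [h3, hΦ, D_coe_adjoin x hx, smul_smul]
      | zero => simp
      | add η₁ η₂ _ _ h₁ h₂ => rw [tmul_add, map_add, map_add, add_smul, ← h₁, ← h₂]
      | smul a η _ h =>
        have : f ⊗ₜ[Algebra.adjoin K {x}] (a • η) = ((a : F) * f) ⊗ₜ η := by
          rw [TensorProduct.tmul_smul, TensorProduct.smul_tmul']
          rfl
        rw [this]
        exact h _

end

end Fermat.Agent.S24.Diff
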