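/-
S24 / package `Diff` (helper A): Kähler differentials at places (`DiffStatement`).

Route: the valuation ring `O` of a place is a localisation of the integral closure of `K[π]`
(a Dedekind domain, finite over `K[π]`), hence a `K`-derivation `δ` of `F` with `δ π = 1` has
bounded poles on `O`; a descending induction using that the residue field is `K` shows
`δ O ⊆ O`.  The orders of `dt` follow from `t - c = u π ^ e`.
-/
import Fermat.Agent.S24.DiffPrelim

set_option autoImplicit false

open AlgebraicCurve IntermediateField KaehlerDifferential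

namespace Fermat.Agent.S24.Diff

noncomputable section

variable {K F : Type} [Field K] [Field F] [Algebra K F]

open scoped IntermediateField.algebraAdjoinAdjoin in
/-- Concrete form of "the valuation ring of a place is essentially of finite type over `K`":
with `π` a non-unit of the valuation ring `O`, transcendental over `K`, and `F` finite over
`K(π)`, there is a finite subset `s` of `O` such that every element of `O` is a quotient `a / b`
of two elements of the `K[π]`-span of `s` (contained in `O`) with `b` a unit of `O`. -/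
theorem exists_finset_fraction [CharZero K] (w : Place K F) (ϖ : w.toValuationSubring)
    (hϖ : ϖ ∈ IsLocalRing.maximalIdeal w.toValuationSubring)
    (hπ : Transcendental K (ϖ : F)) [FiniteDimensional K⟮(ϖ : F)⟯ F] :
    ∃ s : Finset F, (∀ x ∈ Submodule.span (Algebra.adjoin K {(ϖ : F)}) (s : Set F),
        x ∈ w.toValuationSubring) ∧
      ∀ u ∈ w.toValuationSubring, ∃ a b : F,
        a ∈ Submodule.span (Algebra.adjoin K {(ϖ : F)}) (s : Set F) ∧
        b ∈ Submodule.span (Algebra.adjoin K {(ϖ : F)}) (s : Set F) ∧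
        b⁻¹ ∈ w.toValuationSubring ∧ u = a * b⁻¹ := by
  classical
  have hAO : ∀ a ∈ Algebra.adjoin K {(ϖ : F)}, a ∈ w.toValuationSubring := by
    intro a ha
    induction ha using Algebra.adjoin_induction with
    | mem x hx => rw [Set.mem_singleton_iff.mp hx]; exact ϖ.2
    | algebraMap c => exact w.algebraMap_mem' c
    | add x y _ _ hx hy => exact add_mem hx hy
    | mul x y _ _ hx hy => exact mul_mem hx hy
  have hPID : IsPrincipalIdealRing (Algebra.adjoin K {(ϖ : F)}) :=
    IsPrincipalIdealRing.of_surjective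
      (Polynomial.algEquivOfTranscendental K (ϖ : F) hπ).toRingEquiv.toRingHom
      (Polynomial.algEquivOfTranscendental K (ϖ : F) hπ).surjective
  have hchar : CharZero K⟮(ϖ : F)⟯ :=
    charZero_of_injective_algebraMap (algebraMap K K⟮(ϖ : F)⟯).injective
  have hsep : Algebra.IsSeparable K⟮(ϖ : F)⟯ F := inferInstance
  have hDed : IsDedekindDomain (integralClosure (Algebra.adjoin K {(ϖ : F)}) F) :=
    integralClosure.isDedekindDomain (Algebra.adjoin K {(ϖ : F)}) K⟮(ϖ : F)⟯ F
  have hFrac : IsFractionRing (integralClosure (Algebra.adjoin K {(ϖ : F)}) F) F :=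
    integralClosure.isFractionRing_of_finite_extension K⟮(ϖ : F)⟯ F
  have hFin : Module.Finite (Algebra.adjoin K {(ϖ : F)})
      (integralClosure (Algebra.adjoin K {(ϖ : F)}) F) :=
    IsIntegralClosure.finite (Algebra.adjoin K {(ϖ : F)}) K⟮(ϖ : F)⟯ F _
  have hBO : ∀ x ∈ integralClosure (Algebra.adjoin K {(ϖ : F)}) F, x ∈ w.toValuationSubring :=
    fun x hx => mem_valuationSubring_of_isIntegral (R := Algebra.adjoin K {(ϖ : F)}) _
      (fun r => hAO r r.2) hx
  let φ : integralClosure (Algebra.adjoin K {(ϖ : F)}) F →+* w.toValuationSubring :=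
    (algebraMap (integralClosure (Algebra.adjoin K {(ϖ : F)}) F) F).codRestrict
      w.toValuationSubring.toSubring (fun b => hBO b b.2)
  have hφ : ∀ b, ((φ b : w.toValuationSubring) : F) = (b : F) := fun b => rfl
  let P : Ideal (integralClosure (Algebra.adjoin K {(ϖ : F)}) F) :=
    (IsLocalRing.maximalIdeal w.toValuationSubring).comap φ
  have hPprime : P.IsPrime := Ideal.comap_isPrime φ _
  have hϖB : (ϖ : F) ∈ integralClosure (Algebra.adjoin K {(ϖ : F)}) F :=
    (integralClosure (Algebra.adjoin K {(ϖ : F)}) F).algebraMap_mem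
      ⟨(ϖ : F), Algebra.self_mem_adjoin_singleton K _⟩
  have hPne : P ≠ ⊥ := by
    intro hbot
    have h1 : (⟨(ϖ : F), hϖB⟩ : integralClosure (Algebra.adjoin K {(ϖ : F)}) F) ∈ P := by
      show φ ⟨(ϖ : F), hϖB⟩ ∈ IsLocalRing.maximalIdeal w.toValuationSubring
      have : φ ⟨(ϖ : F), hϖB⟩ = ϖ := Subtype.ext rfl
      rw [this]; exact hϖ
    rw [hbot, Ideal.mem_bot] at h1
    have h2 : (ϖ : F) = 0 := congrArg Subtype.val h1
    exact hπ (h2 ▸ isAlgebraic_zero)
  let v : IsDedekindDomain.HeightOneSpectrum (integralClosure (Algebra.adjoin K {(ϖ : F)}) F) :=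
    ⟨P, hPprime, hPne⟩
  have hunit : ∀ d : integralClosure (Algebra.adjoin K {(ϖ : F)}) F, d ∉ P →
      (d : F)⁻¹ ∈ w.toValuationSubring := by
    intro d hd
    have hu : IsUnit (φ d) := by
      by_contra hnu
      exact hd ((IsLocalRing.mem_maximalIdeal _).mpr hnu)
    obtain ⟨y, hy⟩ := hu.exists_right_inv
    have hy' : (d : F) * (y : F) = 1 := by
      have := congrArg Subtype.val hy
      simpa [hφ] using this
    rw [← eq_inv_of_mul_eq_one_right hy']
    exact y.2
  have hne : ∀ d : integralClosure (Algebra.adjoin K {(ϖ : F)}) F, d ∉ P → (d : F) ≠ 0 := by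
    intro d hd h0
    apply hd
    have : d = 0 := Subtype.ext h0
    rw [this]
    exact zero_mem _
  obtain ⟨s, hs⟩ := ((Module.Finite.fg_top (R := Algebra.adjoin K {(ϖ : F)})
    (M := integralClosure (Algebra.adjoin K {(ϖ : F)}) F)).map
    (integralClosure (Algebra.adjoin K {(ϖ : F)}) F).val.toLinearMap)
  have hmem : ∀ x : F, x ∈ Submodule.span (Algebra.adjoin K {(ϖ : F)}) (s : Set F) ↔
      x ∈ integralClosure (Algebra.adjoin K {(ϖ : F)}) F := by
    intro x
    rw [hs]
    simp
  refine ⟨s, fun x hx => hBO x ((hmem x).mp hx), ?_⟩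
  intro u hu
  obtain ⟨n, d, h | h⟩ := v.exists_primeCompl_mul_eq_or_mul_eq u
  · refine ⟨n, d, (hmem _).mpr n.2, (hmem _).mpr d.1.2, hunit _ d.2, ?_⟩
    exact (eq_mul_inv_iff_mul_eq₀ (hne _ d.2)).mpr h
  · have hn : n ∉ P := by
      intro hn
      apply d.2
      show φ d ∈ IsLocalRing.maximalIdeal w.toValuationSubring
      have : φ d = ⟨u, hu⟩ * φ n := Subtype.ext h.symm
      rw [this]
      exact Ideal.mul_mem_left _ _ hn
    refine ⟨d, n, (hmem _).mpr d.1.2, (hmem _).mpr n.2, hunit _ hn, ?_⟩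
    exact (eq_mul_inv_iff_mul_eq₀ (hne _ hn)).mpr h

/-- The `K`-subalgebra of elements `a` of the valuation ring `O` with `π ^ m * δ a ∈ O`. -/
def boundedSubalgebra (O : ValuationSubring F) (hO : ∀ c : K, algebraMap K F c ∈ O)
    (δ : Derivation K F F) (π : F) (m : ℕ) : Subalgebra K F where
  carrier := {a | a ∈ O ∧ π ^ m * δ a ∈ O}
  mul_mem' := by
    rintro a b ⟨ha, ha'⟩ ⟨hb, hb'⟩
    refine ⟨mul_mem ha hb, ?_⟩
    have : π ^ m * δ (a * b) = a * (π ^ m * δ b) + b * (π ^ m * δ a) := by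
      rw [Derivation.leibniz, smul_eq_mul, smul_eq_mul]; ring
    rw [this]
    exact add_mem (mul_mem ha hb') (mul_mem hb ha')
  add_mem' := by
    rintro a b ⟨ha, ha'⟩ ⟨hb, hb'⟩
    refine ⟨add_mem ha hb, ?_⟩
    rw [map_add, mul_add]
    exact add_mem ha' hb'
  algebraMap_mem' c := by
    refine ⟨hO c, ?_⟩
    rw [Derivation.map_algebraMap, mul_zero]
    exact zero_mem _

theorem mem_boundedSubalgebra (O : ValuationSubring F) (hO : ∀ c : K, algebraMap K F c ∈ O)
    (δ : Derivation K F F) (π : F) (m : ℕ) (a : F) :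
    a ∈ boundedSubalgebra O hO δ π m ↔ a ∈ O ∧ π ^ m * δ a ∈ O := Iff.rfl

theorem boundedSubalgebra_mono (O : ValuationSubring F) (hO : ∀ c : K, algebraMap K F c ∈ O)
    (δ : Derivation K F F) (π : F) (hπ : π ∈ O) {m n : ℕ} (hmn : m ≤ n) {a : F}
    (ha : a ∈ boundedSubalgebra O hO δ π m) : a ∈ boundedSubalgebra O hO δ π n := by
  obtain ⟨k, rfl⟩ := Nat.exists_eq_add_of_le hmn
  refine ⟨ha.1, ?_⟩
  have : π ^ (m + k) * δ a = π ^ k * (π ^ m * δ a) := by ring
  rw [this]
  exact mul_mem (pow_mem hπ k) ha.2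

/-- Every element of `F` is moved into the valuation ring by a power of the uniformizer. -/
theorem exists_pow_mul_mem (w : Place K F) (ϖ : w.toValuationSubring) (hϖ : Irreducible ϖ)
    (b : F) : ∃ m : ℕ, (ϖ : F) ^ m * b ∈ w.toValuationSubring := by
  by_cases hb0 : b = 0
  · exact ⟨0, by rw [hb0, mul_zero]; exact zero_mem _⟩
  obtain ⟨u, hu⟩ := w.exists_unit_mul_zpow hb0 hϖ
  generalize w.ord b = z at hu
  have hπ0 : (ϖ : F) ≠ 0 := by
    simpa [ne_eq, ZeroMemClass.coe_eq_zero] using hϖ.ne_zero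
  refine ⟨(-z).toNat, ?_⟩
  have hk : (((-z).toNat : ℤ) + z) = ((((-z).toNat : ℤ) + z).toNat : ℤ) := by omega
  have : (ϖ : F) ^ (-z).toNat * b
      = ((u : w.toValuationSubring) : F) * (ϖ : F) ^ (((-z).toNat : ℤ) + z).toNat := by
    rw [← zpow_natCast (ϖ : F) (((-z).toNat : ℤ) + z).toNat, ← hk, zpow_add₀ hπ0, zpow_natCast,
      hu]
    ring
  rw [this]
  exact mul_mem (u : w.toValuationSubring).2 (pow_mem ϖ.2 _)

/-- Key lemma: a `K`-derivation `δ` of `F` with `δ π = 1`, `π` a uniformizer at the place `w`,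
maps the valuation ring of `w` into itself. -/
theorem derivation_mem [IsAlgClosed K] [CharZero K] (w : Place K F) (ϖ : w.toValuationSubring)
    (hϖ : Irreducible ϖ) (hπ : Transcendental K (ϖ : F)) [FiniteDimensional K⟮(ϖ : F)⟯ F]
    (δ : Derivation K F F) (hδ : δ (ϖ : F) = 1) :
    ∀ u ∈ w.toValuationSubring, δ u ∈ w.toValuationSubring := by
  classical
  have hϖm : ϖ ∈ IsLocalRing.maximalIdeal w.toValuationSubring :=
    (IsLocalRing.mem_maximalIdeal _).mpr hϖ.not_isUnit
  obtain ⟨s, hsO, hfr⟩ := exists_finset_fraction w ϖ hϖm hπ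
  -- a uniform bound on the finite set `s`
  have hex : ∀ x : F, ∃ m : ℕ, (ϖ : F) ^ m * δ x ∈ w.toValuationSubring :=
    fun x => exists_pow_mul_mem w ϖ hϖ (δ x)
  choose m hm using hex
  set M := s.sup m with hM
  set T := boundedSubalgebra w.toValuationSubring w.algebraMap_mem' δ (ϖ : F) M with hT
  have hsT : ∀ x ∈ s, x ∈ T := by
    intro x hx
    refine boundedSubalgebra_mono _ _ δ _ ϖ.2 (Finset.le_sup hx) ⟨?_, hm x⟩
    exact hsO x (Submodule.subset_span hx)
  have hπT : (ϖ : F) ∈ T := by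
    refine ⟨ϖ.2, ?_⟩
    rw [hδ, mul_one]
    exact pow_mem ϖ.2 _
  have hAT : Algebra.adjoin K {(ϖ : F)} ≤ T :=
    Algebra.adjoin_le (Set.singleton_subset_iff.mpr hπT)
  have hspanT : ∀ x ∈ Submodule.span (Algebra.adjoin K {(ϖ : F)}) (s : Set F), x ∈ T := by
    intro x hx
    induction hx using Submodule.span_induction with
    | mem x hx => exact hsT x hx
    | zero => exact zero_mem _
    | add x y _ _ hx hy => exact add_mem hx hy
    | smul a x _ hx => exact mul_mem (hAT a.2) hx
  have hall : ∀ u ∈ w.toValuationSubring, (ϖ : F) ^ M * δ u ∈ w.toValuationSubring := by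
    intro u hu
    obtain ⟨a, b, ha, hb, hbinv, rfl⟩ := hfr u hu
    have haT := hspanT a ha
    have hbT := hspanT b hb
    have : (ϖ : F) ^ M * δ (a * b⁻¹)
        = ((ϖ : F) ^ M * δ a) * b⁻¹ - a * b⁻¹ ^ 2 * ((ϖ : F) ^ M * δ b) := by
      rw [Derivation.leibniz, Derivation.leibniz_inv, smul_eq_mul, smul_eq_mul, smul_eq_mul]
      ring
    rw [this]
    exact sub_mem (mul_mem haT.2 hbinv) (mul_mem (mul_mem haT.1 (pow_mem hbinv 2)) hbT.2)
  -- descending induction
  have hstep : ∀ k : ℕ, (∀ u ∈ w.toValuationSubring, (ϖ : F) ^ (k + 1) * δ u ∈ w.toValuationSubring)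
      → ∀ u ∈ w.toValuationSubring, (ϖ : F) ^ k * δ u ∈ w.toValuationSubring := by
    intro k hk u hu
    have halg : Algebra.IsAlgebraic K⟮(ϖ : F)⟯ F := inferInstance
    obtain ⟨c, hc⟩ := exists_sub_mem_maximalIdeal (ϖ : F) w ⟨u, hu⟩
    rw [hϖ.maximalIdeal_eq, Ideal.mem_span_singleton'] at hc
    obtain ⟨u₁, hu₁⟩ := hc
    have hu' : u = algebraMap K F c + (ϖ : F) * (u₁ : F) := by
      have := congrArg Subtype.val hu₁
      simp only [MulMemClass.coe_mul, AddSubgroupClass.coe_sub, Place.coe_algebraMap] at this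
      rw [mul_comm, this]; ring
    have : (ϖ : F) ^ k * δ u = (ϖ : F) ^ (k + 1) * δ (u₁ : F) + (ϖ : F) ^ k * (u₁ : F) := by
      rw [hu', map_add, Derivation.map_algebraMap, Derivation.leibniz, hδ, smul_eq_mul,
        smul_eq_mul]
      ring
    rw [this]
    exact add_mem (hk _ u₁.2) (mul_mem (pow_mem ϖ.2 k) u₁.2)
  have hdesc : ∀ k : ℕ, (∀ u ∈ w.toValuationSubring, (ϖ : F) ^ k * δ u ∈ w.toValuationSubring)
      → ∀ u ∈ w.toValuationSubring, δ u ∈ w.toValuationSubring := by
    intro k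
    induction k with
    | zero => intro h u hu; simpa using h u hu
    | succ k ih => intro h; exact ih (hstep k h)
  exact hdesc M hall

/-- A uniformizer at a place is transcendental over `K` (`K` algebraically closed). -/
theorem transcendental_of_irreducible [IsAlgClosed K] (w : Place K F) (ϖ : w.toValuationSubring)
    (hϖ : Irreducible ϖ) : Transcendental K (ϖ : F) := by
  intro halg
  obtain ⟨c, hc⟩ := exists_algebraMap_eq_of_isAlgebraic halg
  have h1 : ϖ = algebraMap K w.toValuationSubring c := Subtype.ext hc.symm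
  have hc0 : c ≠ 0 := by
    rintro rfl
    apply hϖ.ne_zero
    rw [h1, map_zero]
  exact hϖ.not_isUnit (h1 ▸ (isUnit_iff_ne_zero.mpr hc0).map _)

/-- The data attached to a place `w`: a uniformizer `ϖ` and the derivation `δ = d/dϖ`, which
computes the prelude's `ordDifferential` and preserves the valuation ring. -/
theorem exists_place_data [IsAlgClosed K] [CharZero K] (t : F)
    [FiniteDimensional K⟮t⟯ F] (w : Place K F) :
    ∃ (ϖ : w.toValuationSubring) (δ : Derivation K F F), Irreducible ϖ ∧ w.DCoordGenerates ∧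
      Nontrivial Ω[F⁄K] ∧ (∀ ω : Ω[F⁄K], ∃ g : F, w.differentialCoeff ω = g ∧
        ω = g • w.dCoord) ∧
      (∀ f : F, w.differentialCoeff (D K F f) = δ f) ∧ δ (ϖ : F) = 1 ∧
      ∀ u ∈ w.toValuationSubring, δ u ∈ w.toValuationSubring := by
  have hirr := (IsDiscreteValuationRing.exists_irreducible w.toValuationSubring).choose_spec
  set ϖ := (IsDiscreteValuationRing.exists_irreducible w.toValuationSubring).choose with hϖdef
  have hd : w.dCoord = D K F (ϖ : F) := rfl
  have hπ : Transcendental K (ϖ : F) := transcendental_of_irreducible w ϖ hirr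
  have hfin : FiniteDimensional K⟮(ϖ : F)⟯ F :=
    finiteDimensional_adjoin_of_transcendental t (ϖ : F) hπ
  obtain ⟨Φ, hΦ1, hΦ⟩ := exists_linearMap_D (K := K) (ϖ : F) hπ
  have hgen : w.DCoordGenerates := by
    refine ⟨Submodule.eq_top_iff'.mpr fun ω => ?_⟩
    rw [Submodule.mem_span_singleton, hd]
    exact ⟨Φ ω, (hΦ ω).symm⟩
  have hnt : Nontrivial Ω[F⁄K] := by
    refine ⟨⟨D K F (ϖ : F), 0, fun h => ?_⟩⟩
    rw [h, map_zero] at hΦ1
    exact zero_ne_one hΦ1
  have hcoeff : ∀ ω : Ω[F⁄K], w.differentialCoeff ω = Φ ω := fun ω =>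
    w.differentialCoeff_unique (by rw [hd]; exact hΦ ω)
  refine ⟨ϖ, Φ.compDer (D K F), hirr, hgen, hnt, fun ω => ⟨Φ ω, hcoeff ω, by rw [hd]; exact hΦ ω⟩,
    fun f => hcoeff _, hΦ1, ?_⟩
  exact derivation_mem w ϖ hirr hπ (Φ.compDer (D K F)) hΦ1

/-- With `δ = d/dϖ` preserving the valuation ring: `ord (δ f) = ord f - 1` whenever
`ord f ≠ 0` (characteristic zero). -/
theorem ord_derivation [CharZero K] (w : Place K F) (ϖ : w.toValuationSubring)
    (hϖ : Irreducible ϖ) (δ : Derivation K F F) (hδ : δ (ϖ : F) = 1)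
    (hδO : ∀ u ∈ w.toValuationSubring, δ u ∈ w.toValuationSubring)
    {f : F} (hf : f ≠ 0) (hord : w.ord f ≠ 0) : w.ord (δ f) = w.ord f - 1 := by
  obtain ⟨u, hu⟩ := w.exists_unit_mul_zpow hf hϖ
  generalize w.ord f = k at hu hord
  have hπ0 : (ϖ : F) ≠ 0 := by
    simpa [ne_eq, ZeroMemClass.coe_eq_zero] using hϖ.ne_zero
  -- the unit `k * u + ϖ * δ u`
  let g : w.toValuationSubring :=
    algebraMap K w.toValuationSubring (k : K) * (u : w.toValuationSubring)
      + ϖ * ⟨δ ((u : w.toValuationSubring) : F), hδO _ (u : w.toValuationSubring).2⟩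
  have hk0 : (k : K) ≠ 0 := Int.cast_ne_zero.mpr hord
  have hg : IsUnit g := by
    by_contra hng
    have h1 : g ∈ IsLocalRing.maximalIdeal w.toValuationSubring :=
      (IsLocalRing.mem_maximalIdeal _).mpr hng
    have h2 : ϖ * ⟨δ ((u : w.toValuationSubring) : F), hδO _ (u : w.toValuationSubring).2⟩
        ∈ IsLocalRing.maximalIdeal w.toValuationSubring :=
      Ideal.mul_mem_right _ _ ((IsLocalRing.mem_maximalIdeal _).mpr hϖ.not_isUnit)
    have h3 : algebraMap K w.toValuationSubring (k : K) * (u : w.toValuationSubring)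
        ∈ IsLocalRing.maximalIdeal w.toValuationSubring := by
      have := Ideal.sub_mem _ h1 h2
      simpa [g] using this
    exact (IsLocalRing.mem_maximalIdeal _).mp h3
      (((isUnit_iff_ne_zero.mpr hk0).map _).mul u.isUnit)
  have hgcoe : ((hg.unit : w.toValuationSubring) : F)
      = (k : F) * ((u : w.toValuationSubring) : F) + (ϖ : F) * δ ((u : w.toValuationSubring) : F) := by
    rw [IsUnit.unit_spec]
    simp [g]
  have hpk : (ϖ : F) ^ k = (ϖ : F) ^ (k - 1) * (ϖ : F) := by
    rw [← zpow_add_one₀ hπ0, sub_add_cancel]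
  have key : δ f = ((hg.unit : w.toValuationSubring) : F) * (ϖ : F) ^ (k - 1) := by
    rw [hgcoe, hu, Derivation.leibniz, Derivation.leibniz_zpow, hδ, smul_eq_mul, smul_eq_mul,
      zsmul_eq_mul, smul_eq_mul, mul_one, hpk]
    ring
  rw [key, w.ord_unit_smul_zpow hg.unit hϖ (k - 1)]

/-- **(A4)** Differentials on a function field of one variable over an algebraically closed field
of characteristic zero. -/
theorem diffStatement : DiffStatement := by
  intro K F _ _ _ _ _ t ht hfin
  have halg : Algebra.IsAlgebraic K⟮t⟯ F := inferInstance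
  obtain ⟨Φt, hΦt1, hΦt⟩ := exists_linearMap_D (K := K) t ht
  have hDt : D K F t ≠ 0 := by
    intro h
    rw [h, map_zero] at hΦt1
    exact zero_ne_one hΦt1
  refine ⟨hDt, fun ω => ⟨Φt ω, hΦt ω⟩, ?_, ?_, ?_⟩
  · intro w f hf
    obtain ⟨ϖ, δ, hϖ, hgen, hnt, hcoeff, hδc, hδ1, hδO⟩ := exists_place_data t w
    refine w.ordDifferential_smul hf ?_
    intro h0
    obtain ⟨g, hg, hω⟩ := hcoeff (D K F t)
    rw [← hg, h0, zero_smul] at hω
    exact hDt hω
  · intro w c hc
    obtain ⟨ϖ, δ, hϖ, hgen, hnt, hcoeff, hδc, hδ1, hδO⟩ := exists_place_data t w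
    have hne : t - algebraMap K F c ≠ 0 := by
      intro h
      rw [h, w.ord_zero] at hc
      exact lt_irrefl _ hc
    have h1 := ord_derivation w ϖ hϖ δ hδ1 hδO hne hc.ne'
    rw [map_sub, Derivation.map_algebraMap, sub_zero] at h1
    show w.ord (w.differentialCoeff (D K F t)) = _
    rw [hδc, h1]
  · intro w hw
    obtain ⟨ϖ, δ, hϖ, hgen, hnt, hcoeff, hδc, hδ1, hδO⟩ := exists_place_data t w
    have hne : t ≠ 0 := by
      intro h
      rw [h, w.ord_zero] at hw
      exact lt_irrefl _ hw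
    have h1 := ord_derivation w ϖ hϖ δ hδ1 hδO hne hw.ne
    show w.ord (w.differentialCoeff (D K F t)) = _
    rw [hδc, h1]

end

end Fermat.Agent.S24.Diff
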