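/-
S24 / package Gal: basic facts on `Place.ord` (valuation-theoretic properties) and weak
approximation for finitely many places.
-/
import Fermat.Agent.S24.Interfaces

set_option autoImplicit false

open AlgebraicCurve IntermediateField

namespace Fermat.Agent.S24.Gal

noncomputable section

variable {K F : Type*} [Field K] [Field F] [Algebra K F]

/-- Membership in the valuation subring of a place in terms of its valuation. -/
theorem mem_iff_adicValuation_le_one (v : Place K F) (x : F) :
    x ∈ v.toValuationSubring ↔ v.adicValuation x ≤ 1 := by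
  constructor
  · intro hx
    have h := v.adicValuation_coe ⟨x, hx⟩
    simp only at h
    rw [h]
    exact v.heightOneSpectrum.intValuation_le_one _
  · intro h
    obtain ⟨a, ha⟩ := IsDiscreteValuationRing.exists_lift_of_le_one
      (A := v.toValuationSubring) (K := F) h
    rw [← ha]
    exact a.2

theorem adicValuation_eq_exp (v : Place K F) {x : F} (hx : x ≠ 0) :
    v.adicValuation x = WithZero.exp (-(v.ord x)) := by
  simp [Place.ord, WithZero.exp_log (v.adicValuation_ne_zero hx)]

theorem ord_nonneg_iff (v : Place K F) (x : F) : 0 ≤ v.ord x ↔ x ∈ v.toValuationSubring := by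
  rcases eq_or_ne x 0 with rfl | hx
  · simp
  · rw [mem_iff_adicValuation_le_one, adicValuation_eq_exp v hx, ← WithZero.exp_zero,
      WithZero.exp_le_exp]
    omega

theorem ord_neg (v : Place K F) (x : F) : v.ord (-x) = v.ord x := by
  simp [Place.ord]

theorem ord_add (v : Place K F) {x y : F} (h : x + y ≠ 0) :
    min (v.ord x) (v.ord y) ≤ v.ord (x + y) := by
  rcases eq_or_ne x 0 with rfl | hx
  · simp
  rcases eq_or_ne y 0 with rfl | hy
  · simp
  have h1 := v.adicValuation.map_add x y
  rw [adicValuation_eq_exp v hx, adicValuation_eq_exp v hy, adicValuation_eq_exp v h] at h1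
  rcases le_max_iff.mp h1 with h2 | h2
  · rw [WithZero.exp_le_exp] at h2
    exact (min_le_left _ _).trans (by omega)
  · rw [WithZero.exp_le_exp] at h2
    exact (min_le_right _ _).trans (by omega)

theorem ord_add_eq_of_lt (v : Place K F) {x y : F} (hx : x ≠ 0) (h : v.ord x < v.ord y) :
    v.ord (x + y) = v.ord x := by
  rcases eq_or_ne y 0 with rfl | hy
  · simp
  have hxy : x + y ≠ 0 := by
    intro h0
    have : y = -x := by linear_combination h0
    rw [this, ord_neg] at h
    exact lt_irrefl _ h
  have h1 : v.adicValuation y < v.adicValuation x := by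
    rw [adicValuation_eq_exp v hx, adicValuation_eq_exp v hy, WithZero.exp_lt_exp]
    omega
  have h2 := v.adicValuation.map_add_eq_of_lt_left h1
  rw [adicValuation_eq_exp v hx, adicValuation_eq_exp v hxy, WithZero.exp_inj] at h2
  omega

theorem ord_add_eq_of_lt' (v : Place K F) {x y : F} (hy : y ≠ 0) (h : v.ord y < v.ord x) :
    v.ord (x + y) = v.ord y := by
  rw [add_comm]
  exact ord_add_eq_of_lt v hy h

theorem ord_algebraMap (v : Place K F) (c : K) : v.ord (algebraMap K F c) = 0 := by
  rcases eq_or_ne c 0 with rfl | hc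
  · simp
  have h1 : 0 ≤ v.ord (algebraMap K F c) := (ord_nonneg_iff v _).mpr (v.algebraMap_mem' c)
  have h2 : 0 ≤ v.ord (algebraMap K F c)⁻¹ := by
    rw [← map_inv₀]
    exact (ord_nonneg_iff v _).mpr (v.algebraMap_mem' c⁻¹)
  rw [Place.ord_inv] at h2
  omega

theorem ord_pow (v : Place K F) (x : F) (n : ℕ) : v.ord (x ^ n) = n * v.ord x := by
  have := v.ord_zpow x n
  simpa using this

theorem ord_div (v : Place K F) {x y : F} (hx : x ≠ 0) (hy : y ≠ 0) :
    v.ord (x / y) = v.ord x - v.ord y := by
  rw [div_eq_mul_inv, v.ord_mul hx (inv_ne_zero hy), Place.ord_inv]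
  ring

theorem ord_prod (v : Place K F) {ι : Type*} (s : Finset ι) (f : ι → F)
    (hf : ∀ i ∈ s, f i ≠ 0) : v.ord (∏ i ∈ s, f i) = ∑ i ∈ s, v.ord (f i) := by
  classical
  induction s using Finset.induction_on with
  | empty => simp
  | insert a s ha ih =>
    rw [Finset.prod_insert ha, Finset.sum_insert ha,
      v.ord_mul (hf a (Finset.mem_insert_self a s))
        (Finset.prod_ne_zero_iff.mpr fun i hi => hf i (Finset.mem_insert_of_mem hi)),
      ih fun i hi => hf i (Finset.mem_insert_of_mem hi)]

theorem ne_zero_of_ord_ne_zero (v : Place K F) {x : F} (h : v.ord x ≠ 0) : x ≠ 0 := by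
  rintro rfl
  simp at h

/-- A discrete valuation ring is a maximal proper subring of its fraction field: two places with
comparable valuation rings are equal. -/
theorem eq_of_toValuationSubring_le {v w : Place K F}
    (h : v.toValuationSubring ≤ w.toValuationSubring) : v = w := by
  by_contra hne
  have hne' : ¬ w.toValuationSubring ≤ v.toValuationSubring := fun h' =>
    hne (Place.ext (le_antisymm h h'))
  obtain ⟨x, hxw, hxv⟩ := SetLike.not_le_iff_exists.mp hne'
  have hx0 : x ≠ 0 := fun h0 => hxv (h0 ▸ v.toValuationSubring.zero_mem)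
  have hxord : v.ord x < 0 := by
    by_contra hcon
    exact hxv ((ord_nonneg_iff v x).mp (not_lt.mp hcon))
  apply w.ne_top'
  refine SetLike.ext fun y => ⟨fun _ => ValuationSubring.mem_top y, fun _ => ?_⟩
  rcases eq_or_ne y 0 with rfl | hy
  · exact w.toValuationSubring.zero_mem
  set n : ℕ := (v.ord y).natAbs with hn
  have h1 : y * (x ^ n)⁻¹ ∈ v.toValuationSubring := by
    rw [← ord_nonneg_iff, v.ord_mul hy (inv_ne_zero (pow_ne_zero n hx0)), Place.ord_inv, ord_pow]
    have h2 : (n : ℤ) ≤ (n : ℤ) * (- v.ord x) := by nlinarith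
    have h3 : - (n : ℤ) ≤ v.ord y := by omega
    linarith
  have h2 : y = y * (x ^ n)⁻¹ * x ^ n := by
    field_simp
  rw [h2]
  exact mul_mem (h h1) (pow_mem hxw n)

theorem exists_ord_pos_ord_neg {v w : Place K F} (hne : v ≠ w) :
    ∃ x : F, 0 < v.ord x ∧ w.ord x < 0 := by
  have h1 : ¬ v.toValuationSubring ≤ w.toValuationSubring := fun h =>
    hne (eq_of_toValuationSubring_le h)
  have h2 : ¬ w.toValuationSubring ≤ v.toValuationSubring := fun h =>
    hne (eq_of_toValuationSubring_le h).symm
  obtain ⟨y, hyv, hyw⟩ := SetLike.not_le_iff_exists.mp h1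
  obtain ⟨z, hzw, hzv⟩ := SetLike.not_le_iff_exists.mp h2
  have hy0 : y ≠ 0 := fun h0 => hyw (h0 ▸ w.toValuationSubring.zero_mem)
  have hz0 : z ≠ 0 := fun h0 => hzv (h0 ▸ v.toValuationSubring.zero_mem)
  rw [← ord_nonneg_iff] at hyv hyw hzw hzv
  refine ⟨y / z, ?_, ?_⟩
  · rw [ord_div v hy0 hz0]; omega
  · rw [ord_div w hy0 hz0]; omega

theorem exists_ord_pos (v : Place K F) : ∃ x : F, 0 < v.ord x := by
  obtain ⟨π, hπ⟩ := IsDiscreteValuationRing.exists_irreducible v.toValuationSubring
  exact ⟨π, by rw [v.ord_coe_irreducible hπ]; exact one_pos⟩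

theorem exists_ord_pos_forall_ord_neg (v₀ : Place K F) (T : Finset (Place K F)) (h : v₀ ∉ T) :
    ∃ x : F, 0 < v₀.ord x ∧ ∀ v ∈ T, v.ord x < 0 := by
  classical
  induction T using Finset.induction_on with
  | empty =>
    obtain ⟨x, hx⟩ := exists_ord_pos v₀
    exact ⟨x, hx, by simp⟩
  | insert w T hw ih =>
    have hv₀T : v₀ ∉ T := fun h' => h (Finset.mem_insert_of_mem h')
    have hv₀w : v₀ ≠ w := fun h' => h (h' ▸ Finset.mem_insert_self _ _)
    obtain ⟨u, hu0, huT⟩ := ih hv₀T
    obtain ⟨z, hz0, hzw⟩ := exists_ord_pos_ord_neg hv₀w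
    obtain ⟨r, hrpos, hrv⟩ : ∃ r : ℕ, (0 : ℤ) < r ∧
        ∀ v ∈ insert w T, ((v.ord u).natAbs : ℤ) < r := by
      refine ⟨1 + ∑ v ∈ insert w T, (v.ord u).natAbs,
        Int.natCast_pos.mpr (Nat.lt_of_lt_of_le Nat.one_pos (Nat.le_add_right _ _)),
        fun v hv => ?_⟩
      have h1 := Finset.single_le_sum (f := fun v : Place K F => (v.ord u).natAbs)
        (fun i _ => Nat.zero_le _) hv
      have h2 : (v.ord u).natAbs < 1 + ∑ v ∈ insert w T, (v.ord u).natAbs := by
        omega
      exact_mod_cast h2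
    have hz : z ≠ 0 := ne_zero_of_ord_ne_zero w hzw.ne
    have key : ∀ v ∈ insert w T, v.ord (u + z ^ r) < 0 := by
      intro v hv
      by_cases hvz : v.ord z < 0
      · have h1 : v.ord (z ^ r) < v.ord u := by
          rw [ord_pow]
          have := hrv v hv
          have h3 : (r : ℤ) * v.ord z ≤ - r := by nlinarith
          omega
        rw [ord_add_eq_of_lt' v (pow_ne_zero r hz) h1, ord_pow]
        nlinarith
      · have hvT : v ∈ T := by
          rcases Finset.mem_insert.mp hv with rfl | h'
          · exact absurd hzw hvz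
          · exact h'
        have hvu := huT v hvT
        have h1 : v.ord u < v.ord (z ^ r) := by
          rw [ord_pow]
          have : (0 : ℤ) ≤ r * v.ord z := by
            apply mul_nonneg hrpos.le (not_lt.mp hvz)
          omega
        rw [ord_add_eq_of_lt v (ne_zero_of_ord_ne_zero v hvu.ne) h1]
        exact hvu
    refine ⟨u + z ^ r, ?_, key⟩
    have hne : u + z ^ r ≠ 0 :=
      ne_zero_of_ord_ne_zero w (key w (Finset.mem_insert_self _ _)).ne
    have h1 := ord_add v₀ hne
    rw [ord_pow] at h1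
    have h2 : 0 < (r : ℤ) * v₀.ord z := mul_pos hrpos hz0
    have h3 : 0 < min (v₀.ord u) ((r : ℤ) * v₀.ord z) := lt_min hu0 h2
    omega

/-- Weak approximation for finitely many places, in the form needed here. -/
theorem exists_ord_pos_forall_ord_eq_zero (v₀ : Place K F) (T : Finset (Place K F))
    (h : v₀ ∉ T) : ∃ x : F, 0 < v₀.ord x ∧ ∀ v ∈ T, v.ord x = 0 := by
  obtain ⟨u, hu0, huT⟩ := exists_ord_pos_forall_ord_neg v₀ T h
  have hu : u ≠ 0 := ne_zero_of_ord_ne_zero v₀ hu0.ne'
  have h1 : v₀.ord (1 + u) = 0 := by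
    rw [ord_add_eq_of_lt v₀ one_ne_zero (by simpa using hu0)]
    simp
  have h1u : (1 : F) + u ≠ 0 := by
    intro h0
    have : u = -1 := by linear_combination h0
    rw [this, ord_neg] at hu0
    simp at hu0
  refine ⟨u / (1 + u), ?_, ?_⟩
  · rw [ord_div v₀ hu h1u, h1]; simpa using hu0
  · intro v hv
    have h2 : v.ord (1 + u) = v.ord u := by
      rw [ord_add_eq_of_lt' v hu (by simpa using huT v hv)]
    rw [ord_div v hu h1u, h2, sub_self]

end

end Fermat.Agent.S24.Gal
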