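/-
S24 / package Gal: the Artin part (the degree of the intermediate field over the rational
function field equals the index of its fixer).
-/
import Fermat.Agent.S24.GalAuxOrd

set_option autoImplicit false

open AlgebraicCurve IntermediateField

namespace Fermat.Agent.S24.Gal

noncomputable section

variable {K M Γ : Type} [Field K] [Field M] [Algebra K M] [Group Γ]

/-- The range of the action is a Galois group for `M / K₀` whenever the image of `K₀` in `M` is
exactly the set of fixed elements. -/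
theorem isGaloisGroup_range (act : Γ →* (M ≃ₐ[K] M)) (K₀ : Type) [Field K₀] [Algebra K₀ M]
    (hfix : ∀ x : M, (∀ γ : Γ, act γ x = x) ↔ x ∈ Set.range (algebraMap K₀ M)) :
    IsGaloisGroup act.range K₀ M where
  faithful := inferInstance
  commutes := ⟨fun g a m => by
    obtain ⟨g, γ, rfl⟩ := g
    have h1 : act γ (algebraMap K₀ M a) = algebraMap K₀ M a := (hfix _).mpr ⟨a, rfl⟩ γ
    show act γ (a • m) = a • act γ m
    rw [Algebra.smul_def, Algebra.smul_def, map_mul, h1]⟩
  isInvariant := ⟨fun b hb => (hfix b).mp fun γ => hb ⟨act γ, γ, rfl⟩⟩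

theorem range_algebraMap_adjoin (t : M) (F' : IntermediateField K M) (htF : t ∈ F') (x : M) :
    x ∈ Set.range (algebraMap K⟮(⟨t, htF⟩ : F')⟯ M) ↔ x ∈ K⟮t⟯ := by
  have h1 : (K⟮(⟨t, htF⟩ : F')⟯).map F'.val = K⟮t⟯ := by
    rw [IntermediateField.adjoin_map]
    simp
  rw [← h1]
  constructor
  · rintro ⟨a, rfl⟩
    exact ⟨a.1, a.2, rfl⟩
  · rintro ⟨a, ha, rfl⟩
    exact ⟨⟨a, ha⟩, rfl⟩

theorem fixer_eq_comap (act : Γ →* (M ≃ₐ[K] M)) (F' : IntermediateField K M) :
    fixer act F' =
      (fixingSubgroup act.range (Set.range (algebraMap F' M))).comap act.rangeRestrict := by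
  ext γ
  rw [mem_fixer, Subgroup.mem_comap, mem_fixingSubgroup_iff]
  constructor
  · rintro h _ ⟨x, rfl⟩
    exact h x.1 x.2
  · intro h x hx
    exact h x ⟨⟨x, hx⟩, rfl⟩

theorem artin_part (act : Γ →* (M ≃ₐ[K] M)) (t : M) (hfin : Finite act.range)
    (hfix : ∀ x : M, (∀ γ : Γ, act γ x = x) ↔ x ∈ K⟮t⟯)
    (F' : IntermediateField K M) (htF : t ∈ F') :
    FiniteDimensional K⟮(⟨t, htF⟩ : F')⟯ F' ∧
        Module.finrank K⟮(⟨t, htF⟩ : F')⟯ F' = (fixer act F').index := by
  have hG : IsGaloisGroup act.range K⟮(⟨t, htF⟩ : F')⟯ M :=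
    isGaloisGroup_range act _ fun x => by rw [hfix, range_algebraMap_adjoin]
  have hH : IsGaloisGroup (fixingSubgroup act.range (Set.range (algebraMap F' M))) F' M :=
    IsGaloisGroup.of_isScalarTower act.range K⟮(⟨t, htF⟩ : F')⟯ M F'
  have hfd : FiniteDimensional K⟮(⟨t, htF⟩ : F')⟯ M :=
    IsGaloisGroup.finiteDimensional act.range _ M
  have hfd' : FiniteDimensional K⟮(⟨t, htF⟩ : F')⟯ F' :=
    FiniteDimensional.left K⟮(⟨t, htF⟩ : F')⟯ F' M
  refine ⟨hfd', ?_⟩
  have h1 : Nat.card act.range = Module.finrank K⟮(⟨t, htF⟩ : F')⟯ M :=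
    IsGaloisGroup.card_eq_finrank act.range _ M
  have h2 : Nat.card (fixingSubgroup act.range (Set.range (algebraMap F' M)))
      = Module.finrank F' M := IsGaloisGroup.card_eq_finrank _ F' M
  have h3 := Module.finrank_mul_finrank K⟮(⟨t, htF⟩ : F')⟯ F' M
  have h4 := (fixingSubgroup act.range (Set.range (algebraMap F' M))).card_mul_index
  have h5 : 0 < Nat.card (fixingSubgroup act.range (Set.range (algebraMap F' M))) := Nat.card_pos
  rw [fixer_eq_comap, Subgroup.index_comap_of_surjective _ act.rangeRestrict_surjective]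
  rw [h1, ← h3, h2] at h4
  rw [h2] at h5
  rw [mul_comm] at h4
  exact (Nat.eq_of_mul_eq_mul_right h5 h4).symm

end

end Fermat.Agent.S24.Gal
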