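/-
S24 / package Gal: orders of elements of the rational function field `K(s)` at places where
`s` vanishes.
-/
import Fermat.Agent.S24.GalAuxOrd

set_option autoImplicit false

open AlgebraicCurve IntermediateField Polynomial

namespace Fermat.Agent.S24.Gal

noncomputable section

variable {K L : Type*} [Field K] [Field L] [Algebra K L]

theorem aeval_mem_toValuationSubring (W : Place K L) {s : L} (hs : s ∈ W.toValuationSubring)
    (p : K[X]) : aeval s p ∈ W.toValuationSubring := by
  rw [aeval_eq_sum_range]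
  refine sum_mem fun i _ => ?_
  rw [Algebra.smul_def]
  exact mul_mem (W.algebraMap_mem' _) (pow_mem hs i)

theorem ord_aeval_of_coeff_zero_ne_zero (W : Place K L) {s : L} (hs : 0 < W.ord s) (q : K[X])
    (hq : q.coeff 0 ≠ 0) : aeval s q ≠ 0 ∧ W.ord (aeval s q) = 0 := by
  have hsm : s ∈ W.toValuationSubring := (ord_nonneg_iff W s).mp hs.le
  have h1 : aeval s q = aeval s q.divX * s + algebraMap K L (q.coeff 0) := by
    conv_lhs => rw [← divX_mul_X_add q]
    simp
  have hb : algebraMap K L (q.coeff 0) ≠ 0 := by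
    simpa using hq
  rcases eq_or_ne (aeval s q.divX * s) 0 with h0 | h0
  · rw [h1, h0, zero_add]
    exact ⟨hb, ord_algebraMap W _⟩
  · have hd : aeval s q.divX ≠ 0 := left_ne_zero_of_mul h0
    have hs0 : s ≠ 0 := right_ne_zero_of_mul h0
    have h2 : 0 < W.ord (aeval s q.divX * s) := by
      rw [W.ord_mul hd hs0]
      have := (ord_nonneg_iff W _).mpr (aeval_mem_toValuationSubring W hsm q.divX)
      omega
    have h3 : W.ord (aeval s q.divX * s + algebraMap K L (q.coeff 0)) = 0 := by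
      rw [ord_add_eq_of_lt' W hb (by rw [ord_algebraMap]; exact h2), ord_algebraMap]
    refine ⟨?_, by rw [h1, h3]⟩
    rw [h1]
    intro h4
    have h5 : aeval s q.divX * s = - algebraMap K L (q.coeff 0) := by linear_combination h4
    rw [h5, ord_neg, ord_algebraMap] at h2
    exact lt_irrefl _ h2

theorem ord_aeval (W : Place K L) {s : L} (hs : 0 < W.ord s) (p : K[X]) (hp : p ≠ 0) :
    aeval s p ≠ 0 ∧ W.ord (aeval s p) = (p.rootMultiplicity 0 : ℤ) * W.ord s := by
  obtain ⟨q, hpq, hq⟩ := exists_eq_pow_rootMultiplicity_mul_and_not_dvd p hp 0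
  rw [C_0, sub_zero] at hpq hq
  have hq0 : q.coeff 0 ≠ 0 := fun h => hq (X_dvd_iff.mpr h)
  obtain ⟨h1, h2⟩ := ord_aeval_of_coeff_zero_ne_zero W hs q hq0
  have hs0 : s ≠ 0 := ne_zero_of_ord_ne_zero W hs.ne'
  have h3 : aeval s p = s ^ p.rootMultiplicity 0 * aeval s q := by
    conv_lhs => rw [hpq]
    simp
  rw [h3]
  refine ⟨mul_ne_zero (pow_ne_zero _ hs0) h1, ?_⟩
  rw [W.ord_mul (pow_ne_zero _ hs0) h1, h2, ord_pow, add_zero]

/-- The order of an element of `K(s)` at a place where `s` vanishes is a multiple of the order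
of `s`, with a factor that does not depend on the place, nor on the field in which the place
lives. -/
theorem exists_ord_eq_mul {M : Type*} [Field M] [Algebra K M] (F' : IntermediateField K M)
    (s f : F') (hf : (f : M) ∈ K⟮(s : M)⟯) :
    ∃ n : ℤ, (∀ w : Place K F', 0 < w.ord s → w.ord f = n * w.ord s) ∧
      (∀ W : Place K M, 0 < W.ord (s : M) → W.ord (f : M) = n * W.ord (s : M)) := by
  obtain ⟨p, q, hpq⟩ := (IntermediateField.mem_adjoin_simple_iff K (f : M)).mp hf
  have hf' : f = aeval s p / aeval s q := by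
    apply Subtype.ext
    rw [hpq, IntermediateField.aeval_coe, IntermediateField.aeval_coe]
    rfl
  by_cases hp : p = 0
  · refine ⟨0, fun w _ => ?_, fun W _ => ?_⟩
    · rw [hf', hp]; simp
    · rw [hpq, hp]; simp
  by_cases hq : q = 0
  · refine ⟨0, fun w _ => ?_, fun W _ => ?_⟩
    · rw [hf', hq]; simp
    · rw [hpq, hq]; simp
  refine ⟨(p.rootMultiplicity 0 : ℤ) - (q.rootMultiplicity 0 : ℤ), fun w hw => ?_, fun W hW => ?_⟩
  · obtain ⟨h1, h2⟩ := ord_aeval w hw p hp
    obtain ⟨h3, h4⟩ := ord_aeval w hw q hq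
    rw [hf', ord_div w h1 h3, h2, h4]
    ring
  · obtain ⟨h1, h2⟩ := ord_aeval W hW p hp
    obtain ⟨h3, h4⟩ := ord_aeval W hW q hq
    rw [hpq, ord_div W h1 h3, h2, h4]
    ring

/-- Variant of `exists_ord_eq_mul` inside one field. -/
theorem exists_ord_eq_mul' (s f : L) (hf : f ∈ K⟮s⟯) :
    ∃ n : ℤ, ∀ W : Place K L, 0 < W.ord s → W.ord f = n * W.ord s := by
  obtain ⟨p, q, hpq⟩ := (IntermediateField.mem_adjoin_simple_iff K f).mp hf
  by_cases hp : p = 0
  · refine ⟨0, fun W _ => ?_⟩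
    rw [hpq, hp]; simp
  by_cases hq : q = 0
  · refine ⟨0, fun W _ => ?_⟩
    rw [hpq, hq]; simp
  refine ⟨(p.rootMultiplicity 0 : ℤ) - (q.rootMultiplicity 0 : ℤ), fun W hW => ?_⟩
  obtain ⟨h1, h2⟩ := ord_aeval W hW p hp
  obtain ⟨h3, h4⟩ := ord_aeval W hW q hq
  rw [hpq, ord_div W h1 h3, h2, h4]
  ring

end

end Fermat.Agent.S24.Gal
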