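/-
S24 / package Gal: restriction of a place to an intermediate field.
-/
import Fermat.Agent.S24.GalAuxOrd

set_option autoImplicit false

open AlgebraicCurve IntermediateField
open scoped WithZero

namespace Fermat.Agent.S24.Gal

noncomputable section

variable {K M : Type*} [Field K] [Field M] [Algebra K M]

/-- The valuation of a place of `M`, restricted to an intermediate field. -/
def resValuation (F' : IntermediateField K M) (W : Place K M) : Valuation F' ℤᵐ⁰ :=
  W.adicValuation.comap (algebraMap F' M)

theorem resValuation_apply (F' : IntermediateField K M) (W : Place K M) (x : F') :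
    resValuation F' W x = W.adicValuation (x : M) := rfl

theorem resValuation_valuationSubring (F' : IntermediateField K M) (W : Place K M) :
    (resValuation F' W).valuationSubring = W.toValuationSubring.comap (algebraMap F' M) := by
  ext x
  rw [Valuation.mem_valuationSubring_iff, ValuationSubring.mem_comap, resValuation_apply,
    mem_iff_adicValuation_le_one]
  rfl

theorem nontrivial_valueGroup_resValuation (F' : IntermediateField K M) (W : Place K M)
    (h : ∃ x : F', W.ord (x : M) ≠ 0) :
    Nontrivial (MonoidWithZeroHom.valueGroup (.ofClass (resValuation F' W))) := by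
  obtain ⟨x, hx⟩ := h
  have hx0 : (x : M) ≠ 0 := ne_zero_of_ord_ne_zero W hx
  have hv0 : resValuation F' W x ≠ 0 := by
    rw [resValuation_apply]
    exact W.adicValuation_ne_zero hx0
  rw [Subgroup.nontrivial_iff_exists_ne_one]
  refine ⟨Units.mk0 (resValuation F' W x) hv0,
    MonoidWithZeroHom.mem_valueGroup _ ⟨x, rfl⟩, ?_⟩
  intro h1
  have h2 : resValuation F' W x = 1 := by
    have := congrArg Units.val h1
    simpa using this
  rw [resValuation_apply, adicValuation_eq_exp W hx0, WithZero.exp_eq_one] at h2
  omega

/-- The restriction of a place of `M` to an intermediate field on which it is nontrivial. -/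
def resPlace (F' : IntermediateField K M) (W : Place K M) (h : ∃ x : F', W.ord (x : M) ≠ 0) :
    Place K F' where
  toValuationSubring := W.toValuationSubring.comap (algebraMap F' M)
  algebraMap_mem' := fun a => by
    rw [ValuationSubring.mem_comap]
    exact W.algebraMap_mem' a
  ne_top' := by
    intro htop
    obtain ⟨x, hx⟩ := h
    have hx0 : (x : M) ≠ 0 := ne_zero_of_ord_ne_zero W hx
    have h1 : x ∈ W.toValuationSubring.comap (algebraMap F' M) := by
      rw [htop]; exact ValuationSubring.mem_top _
    have h2 : x⁻¹ ∈ W.toValuationSubring.comap (algebraMap F' M) := by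
      rw [htop]; exact ValuationSubring.mem_top _
    rw [ValuationSubring.mem_comap, ← ord_nonneg_iff] at h1 h2
    rw [map_inv₀, Place.ord_inv] at h2
    exact hx (le_antisymm (by simpa using h2) h1)
  isPrincipalIdealRing' := by
    rw [← resValuation_valuationSubring]
    have := nontrivial_valueGroup_resValuation F' W h
    exact Valuation.valuationSubring_isPrincipalIdealRing _

theorem mem_resPlace (F' : IntermediateField K M) (W : Place K M)
    (h : ∃ x : F', W.ord (x : M) ≠ 0) (x : F') :
    x ∈ (resPlace F' W h).toValuationSubring ↔ (x : M) ∈ W.toValuationSubring :=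
  ValuationSubring.mem_comap

theorem ord_resPlace_nonneg_iff (F' : IntermediateField K M) (W : Place K M)
    (h : ∃ x : F', W.ord (x : M) ≠ 0) (x : F') :
    0 ≤ (resPlace F' W h).ord x ↔ 0 ≤ W.ord (x : M) := by
  rw [ord_nonneg_iff, ord_nonneg_iff, mem_resPlace]

theorem ord_resPlace_pos_iff (F' : IntermediateField K M) (W : Place K M)
    (h : ∃ x : F', W.ord (x : M) ≠ 0) (x : F') :
    0 < (resPlace F' W h).ord x ↔ 0 < W.ord (x : M) := by
  have h1 := ord_resPlace_nonneg_iff F' W h x⁻¹
  rw [Place.ord_inv] at h1
  have h2 : ((x⁻¹ : F') : M) = (x : M)⁻¹ := rfl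
  rw [h2, Place.ord_inv] at h1
  constructor
  · intro h3
    by_contra h4
    have : 0 ≤ -(resPlace F' W h).ord x := h1.mpr (by omega)
    omega
  · intro h3
    by_contra h4
    have : 0 ≤ -W.ord (x : M) := h1.mp (by omega)
    omega

theorem ord_resPlace_eq_zero_iff (F' : IntermediateField K M) (W : Place K M)
    (h : ∃ x : F', W.ord (x : M) ≠ 0) (x : F') :
    (resPlace F' W h).ord x = 0 ↔ W.ord (x : M) = 0 := by
  have h1 := ord_resPlace_nonneg_iff F' W h x
  have h2 := ord_resPlace_pos_iff F' W h x
  constructor <;> intro h3 <;> omega

/-- A place `w` of `F'` all of whose integral elements are integral for `W` is the restriction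
of `W`. -/
theorem eq_resPlace_of_le (F' : IntermediateField K M) (W : Place K M)
    (h : ∃ x : F', W.ord (x : M) ≠ 0) (w : Place K F')
    (hw : ∀ x : F', x ∈ w.toValuationSubring → (x : M) ∈ W.toValuationSubring) :
    w = resPlace F' W h :=
  eq_of_toValuationSubring_le fun x hx => (mem_resPlace F' W h x).mpr (hw x hx)

end

end Fermat.Agent.S24.Gal
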