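/-
S24 / package Gal: a finite group of automorphisms permutes transitively the places that agree
on its fixed field (norm argument).
-/
import Fermat.Agent.S24.GalAuxOrd

set_option autoImplicit false

open AlgebraicCurve IntermediateField Polynomial

namespace Fermat.Agent.S24.Gal

noncomputable section

variable {K M : Type*} [Field K] [Field M] [Algebra K M]

theorem ord_apply_eq (V : Place K M) (σ : M ≃ₐ[K] M) (x : M) :
    V.ord (σ x) = (σ⁻¹ • V).ord x := by
  have h := Place.ord_smul σ⁻¹ V (σ x)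
  rw [← h]
  congr 1
  exact (σ.symm_apply_apply x)

/-- Transitivity: if two places of `M` agree on the elements fixed by a finite group `H` of
automorphisms, they are conjugate under `H`. -/
theorem exists_smul_eq_of_fixed (H : Subgroup (M ≃ₐ[K] M)) [Finite H] (W W' : Place K M)
    (h : ∀ x : M, (∀ σ ∈ H, σ x = x) → x ∈ W.toValuationSubring → x ∈ W'.toValuationSubring) :
    ∃ σ ∈ H, σ • W = W' := by
  classical
  by_contra hne
  push Not at hne
  cases nonempty_fintype H
  let T : Finset (Place K M) :=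
    (Finset.univ.image fun σ : H => (σ : M ≃ₐ[K] M) • W) ∪
      ((Finset.univ.image fun σ : H => (σ : M ≃ₐ[K] M) • W').erase W')
  have hT : W' ∉ T := by
    simp only [T, Finset.mem_union, Finset.mem_image, Finset.mem_univ, true_and,
      Finset.mem_erase, not_or]
    refine ⟨?_, fun h => h.1 rfl⟩
    rintro ⟨σ, hσ⟩
    exact hne σ σ.2 hσ
  obtain ⟨x, hx0, hxT⟩ := exists_ord_pos_forall_ord_eq_zero W' T hT
  have hx : x ≠ 0 := ne_zero_of_ord_ne_zero W' hx0.ne'
  set N : M := ∏ σ : H, (σ : M ≃ₐ[K] M) x with hN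
  have hNfix : ∀ τ ∈ H, τ N = N := by
    intro τ hτ
    rw [hN, map_prod]
    exact Fintype.prod_equiv (Equiv.mulLeft (⟨τ, hτ⟩ : H)) _ _ (fun σ => rfl)
  have hσx : ∀ σ : H, (σ : M ≃ₐ[K] M) x ≠ 0 := fun σ => by simpa using hx
  have hN0 : N ≠ 0 := Finset.prod_ne_zero_iff.mpr fun σ _ => hσx σ
  have h1 : W.ord N = 0 := by
    rw [hN, ord_prod W _ _ (fun σ _ => hσx σ)]
    refine Finset.sum_eq_zero fun σ _ => ?_
    rw [ord_apply_eq]
    apply hxT
    simp only [T, Finset.mem_union, Finset.mem_image, Finset.mem_univ, true_and]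
    left
    exact ⟨σ⁻¹, rfl⟩
  have h2 : 0 < W'.ord N := by
    rw [hN, ord_prod W' _ _ (fun σ _ => hσx σ)]
    apply Finset.sum_pos'
    · intro σ _
      rw [ord_apply_eq]
      by_cases hσ : (σ : M ≃ₐ[K] M)⁻¹ • W' = W'
      · rw [hσ]; exact hx0.le
      · rw [hxT]
        simp only [T, Finset.mem_union, Finset.mem_image, Finset.mem_univ, true_and,
          Finset.mem_erase]
        right
        exact ⟨hσ, σ⁻¹, rfl⟩
    · exact ⟨1, Finset.mem_univ _, by simpa using hx0⟩
  have h3 : N⁻¹ ∈ W.toValuationSubring := by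
    rw [← ord_nonneg_iff, Place.ord_inv, h1]
    simp
  have h4 : N⁻¹ ∈ W'.toValuationSubring :=
    h _ (fun σ hσ => by rw [map_inv₀, hNfix σ hσ]) h3
  rw [← ord_nonneg_iff, Place.ord_inv] at h4
  omega

end

end Fermat.Agent.S24.Gal
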