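/-
S24 / package Gal: transitivity of the group on the places above a zero of `s`, extension of
places from the intermediate field, and the two counting statements for a zero of `s`.
-/
import Fermat.Agent.S24.GalAuxArtin
import Fermat.Agent.S24.GalAuxRes
import Fermat.Agent.S24.GalAuxRat
import Fermat.Agent.S24.GalAuxTrans

set_option autoImplicit false

open AlgebraicCurve IntermediateField Polynomial

namespace Fermat.Agent.S24.Gal

noncomputable section

variable {K M Γ : Type} [Field K] [Field M] [Algebra K M] [Group Γ]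

theorem ord_smul_of_fixed (σ : M ≃ₐ[K] M) (V : Place K M) (x : M) (hx : σ x = x) :
    (σ • V).ord x = V.ord x := by
  conv_lhs => rw [← hx]
  exact Place.ord_smul σ V x

theorem nonneg_of_mul_nonneg {n a : ℤ} (ha : 0 < a) (h : 0 ≤ n * a) : 0 ≤ n := by
  by_contra hcon
  have : n * a < 0 := mul_neg_of_neg_of_pos (by omega) ha
  omega

/-- (T1) The group permutes transitively the places of `M` at which `s` vanishes. -/
theorem exists_act_smul_eq (act : Γ →* (M ≃ₐ[K] M)) (s : M) (hfin : Finite act.range)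
    (hfix : ∀ x : M, (∀ γ : Γ, act γ x = x) ↔ x ∈ K⟮s⟯)
    (W W' : Place K M) (hW : 0 < W.ord s) (hW' : 0 < W'.ord s) :
    ∃ γ : Γ, act γ • W = W' := by
  obtain ⟨σ, ⟨γ, rfl⟩, h⟩ := exists_smul_eq_of_fixed act.range W W' (fun x hx hxW => by
    have hxs : x ∈ K⟮s⟯ := (hfix x).mp fun γ => hx (act γ) ⟨γ, rfl⟩
    obtain ⟨n, hn⟩ := exists_ord_eq_mul' s x hxs
    rw [← ord_nonneg_iff] at hxW ⊢
    rw [hn W hW] at hxW
    rw [hn W' hW']
    exact mul_nonneg (nonneg_of_mul_nonneg hW hxW) hW'.le)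
  exact ⟨γ, h⟩

theorem isGaloisGroup_fixingSubgroup (act : Γ →* (M ≃ₐ[K] M)) (t : M) (hfin : Finite act.range)
    (hfix : ∀ x : M, (∀ γ : Γ, act γ x = x) ↔ x ∈ K⟮t⟯)
    (F' : IntermediateField K M) (htF : t ∈ F') :
    IsGaloisGroup (fixingSubgroup act.range (Set.range (algebraMap F' M))) F' M := by
  have hG : IsGaloisGroup act.range K⟮(⟨t, htF⟩ : F')⟯ M :=
    isGaloisGroup_range act _ fun x => by rw [hfix, range_algebraMap_adjoin]
  exact IsGaloisGroup.of_isScalarTower act.range K⟮(⟨t, htF⟩ : F')⟯ M F'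

/-- Galois correspondence: an element fixed by the fixer of `F'` lies in `F'`. -/
theorem mem_of_fixed_by_fixer (act : Γ →* (M ≃ₐ[K] M)) (s : M) (hfin : Finite act.range)
    (hfix : ∀ x : M, (∀ γ : Γ, act γ x = x) ↔ x ∈ K⟮s⟯)
    (F' : IntermediateField K M) (hsF : s ∈ F') (x : M)
    (hx : ∀ γ ∈ fixer act F', act γ x = x) : x ∈ F' := by
  have hH := isGaloisGroup_fixingSubgroup act s hfin hfix F' hsF
  obtain ⟨a, ha⟩ := hH.isInvariant.isInvariant x (by
    rintro ⟨⟨σ, γ, rfl⟩, hg⟩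
    have hγ : γ ∈ fixer act F' := fun y hy =>
      (_root_.mem_fixingSubgroup_iff _).mp hg y ⟨⟨y, hy⟩, rfl⟩
    exact hx γ hγ)
  rw [← ha]
  exact a.2

/-- (T2) Two places of `M` with the same restriction to `F'` are conjugate under the fixer of
`F'`. -/
theorem exists_fixer_smul_eq (act : Γ →* (M ≃ₐ[K] M)) (s : M) (hfin : Finite act.range)
    (hfix : ∀ x : M, (∀ γ : Γ, act γ x = x) ↔ x ∈ K⟮s⟯)
    (F' : IntermediateField K M) (hsF : s ∈ F') (W W' : Place K M)
    (h : ∀ x : F', (x : M) ∈ W.toValuationSubring → (x : M) ∈ W'.toValuationSubring) :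
    ∃ γ ∈ fixer act F', act γ • W = W' := by
  have hle : (fixer act F').map act ≤ act.range := by
    rintro _ ⟨γ, -, rfl⟩
    exact ⟨γ, rfl⟩
  have : Finite ((fixer act F').map act) :=
    Finite.of_injective _ (Subgroup.inclusion_injective hle)
  obtain ⟨σ, ⟨γ, hγ, rfl⟩, h'⟩ :=
    exists_smul_eq_of_fixed ((fixer act F').map act) W W' (fun x hx hxW => by
      have hxF : x ∈ F' := mem_of_fixed_by_fixer act s hfin hfix F' hsF x
        fun γ hγ => hx (act γ) ⟨γ, hγ, rfl⟩
      exact h ⟨x, hxF⟩ hxW)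
  exact ⟨γ, hγ, h'⟩

end

end Fermat.Agent.S24.Gal
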