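/-
S24 (genus of X₀(N)) — package `JOrdersB`, part 1 (polynomial lemma). The package proves the local orders of `j`
(`JOrdersStatement`) by the "sixth power trick".

The function `G = (j')⁶ / Δ` is holomorphic, `SL(2, ℤ)`-invariant and has a pole of order at most
`7` at `∞`, hence `G = P(j)` for a polynomial `P` of degree at most `7`.  Comparing orders of
vanishing at a point `τ₀`, with `m = ord_{τ₀}(j - j(τ₀))` and `μ` the multiplicity of `j(τ₀)` as a
root of `P`, gives `6 (m - 1) = μ m`.  At `i` the order `m` is even, at `ρ` it is divisible by `3`;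
together with `deg P ≤ 7` this pins down all orders.
-/
import Fermat.Agent.S24.AnalyticInterfaces

set_option autoImplicit false

open UpperHalfPlane ModularForm Complex CongruenceSubgroup ModularGroup Filter
open scoped MatrixGroups Manifold Real Topology

namespace Fermat.Agent.S24.JOrdersB

noncomputable section

/-! ## Part 1: invariant functions with a pole of order at most `k` are polynomials in `j` -/

/-- An `SL(2, ℤ)`-invariant function is invariant under the weight `0` slash action. -/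
theorem slash_zero_eq_of_invariant (f : ℍ → ℂ)
    (hinv : ∀ (γ : SL(2, ℤ)) (τ : ℍ), f (γ • τ) = f τ) (γ : SL(2, ℤ)) :
    f ∣[(0 : ℤ)] γ = f := by
  ext τ
  rw [SL_slash_apply, hinv γ τ]
  simp

/-- The modular form of weight `0` and level `1` attached to an invariant holomorphic function
bounded at `i∞`. -/
def toModularForm (f : ℍ → ℂ) (hol : MDifferentiable 𝓘(ℂ) 𝓘(ℂ) f)
    (hinv : ∀ (γ : SL(2, ℤ)) (τ : ℍ), f (γ • τ) = f τ) (hbdd : IsBoundedAtImInfty f) :
    ModularForm 𝒮ℒ 0 where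
  toFun := f
  slash_action_eq' A hA := by
    obtain ⟨A, rfl⟩ := hA
    exact slash_zero_eq_of_invariant f hinv A
  holo' := hol
  bdd_at_cusps' hc := by
    rw [Subgroup.IsArithmetic.isCusp_iff_isCusp_SL2Z] at hc
    rw [OnePoint.isBoundedAt_iff_forall_SL2Z hc]
    intro γ _
    rw [slash_zero_eq_of_invariant f hinv γ]
    exact hbdd

/-- An `SL(2, ℤ)`-invariant holomorphic function bounded at `i∞` is constant. -/
theorem const_of_invariant_bounded (f : ℍ → ℂ) (hol : MDifferentiable 𝓘(ℂ) 𝓘(ℂ) f)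
    (hinv : ∀ (γ : SL(2, ℤ)) (τ : ℍ), f (γ • τ) = f τ) (hbdd : IsBoundedAtImInfty f) :
    ∃ c : ℂ, f = fun _ : ℍ => c := by
  obtain ⟨c, hc⟩ :=
    ModularFormClass.levelOne_weight_zero_const (toModularForm f hol hinv hbdd)
  exact ⟨c, hc⟩

theorem isCuspMerOrder_zero_bounded {h : ℕ} {f : ℍ → ℂ} (hf : IsCuspMerOrder h 0 f) :
    IsBoundedAtImInfty f := by
  have h3 := hf.2.2
  simpa using h3

theorem isCuspMerOrder_add {h k : ℕ} {f g : ℍ → ℂ} (hf : IsCuspMerOrder h k f)
    (hg : IsCuspMerOrder h k g) : IsCuspMerOrder h k (f + g) := by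
  refine ⟨hf.1.add hg.1, ?_, ?_⟩
  · intro x
    have h1 := hf.2.1 x
    have h2 := hg.2.1 x
    simp only [Function.comp_apply, Pi.add_apply] at h1 h2 ⊢
    rw [h1, h2]
  · have h3 := hf.2.2.add hg.2.2
    have : (fun τ : ℍ => Function.Periodic.qParam (h : ℝ) (τ : ℂ) ^ k * (f + g) τ)
        = (fun τ : ℍ => Function.Periodic.qParam (h : ℝ) (τ : ℂ) ^ k * f τ)
          + (fun τ : ℍ => Function.Periodic.qParam (h : ℝ) (τ : ℂ) ^ k * g τ) := by
      funext τ
      simp only [Pi.add_apply]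
      ring
    rw [this]
    exact h3

theorem isCuspMerOrder_mul {h k l : ℕ} {f g : ℍ → ℂ} (hf : IsCuspMerOrder h k f)
    (hg : IsCuspMerOrder h l g) : IsCuspMerOrder h (k + l) (f * g) := by
  refine ⟨hf.1.mul hg.1, ?_, ?_⟩
  · intro x
    have h1 := hf.2.1 x
    have h2 := hg.2.1 x
    simp only [Function.comp_apply, Pi.mul_apply] at h1 h2 ⊢
    rw [h1, h2]
  · have h3 := hf.2.2.mul hg.2.2
    have : (fun τ : ℍ => Function.Periodic.qParam (h : ℝ) (τ : ℂ) ^ (k + l) * (f * g) τ)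
        = (fun τ : ℍ => Function.Periodic.qParam (h : ℝ) (τ : ℂ) ^ k * f τ)
          * (fun τ : ℍ => Function.Periodic.qParam (h : ℝ) (τ : ℂ) ^ l * g τ) := by
      funext τ
      simp only [Pi.mul_apply]
      ring
    rw [this]
    exact h3

theorem jfun_pow_isCuspMerOrder (hJQ : JQexpStatement) (hQ : QexpStatement) (n : ℕ) :
    IsCuspMerOrder 1 n (Jfun ^ n) := by
  induction n with
  | zero =>
    have h1 := (hQ.1 1 1).1
    rw [pow_zero]
    exact h1
  | succ n ih =>
    rw [pow_succ]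
    exact isCuspMerOrder_mul ih hJQ.1

theorem qexp_jfun_pow (hJQ : JQexpStatement) (hQ : QexpStatement) (n : ℕ) :
    Qexp 1 (Jfun ^ n) = (Qexp 1 Jfun) ^ n := by
  induction n with
  | zero =>
    have h1 := (hQ.1 1 1).2
    rw [pow_zero, pow_zero, show (1 : ℍ → ℂ) = fun _ : ℍ => (1 : ℂ) from rfl, h1, map_one]
  | succ n ih =>
    rw [pow_succ, pow_succ, ← ih]
    exact (hQ.2.1 1 (Jfun ^ n) Jfun ⟨n, jfun_pow_isCuspMerOrder hJQ hQ n⟩ ⟨1, hJQ.1⟩).2.2.2

/-- Invariant holomorphic functions with a pole of order at most `k` at `∞` are polynomials of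
degree at most `k` in `j`. -/
theorem polyLemma (hJB : JBasicStatement) (hJQ : JQexpStatement) (hQ : QexpStatement) :
    ∀ (k : ℕ) (f : ℍ → ℂ), IsCuspMerOrder 1 k f →
      (∀ (γ : SL(2, ℤ)) (τ : ℍ), f (γ • τ) = f τ) →
      ∃ p : Polynomial ℂ, p.natDegree ≤ k ∧ ∀ τ : ℍ, f τ = p.eval (Jfun τ) := by
  intro k
  induction k with
  | zero =>
    intro f hf hinv
    obtain ⟨c, rfl⟩ := const_of_invariant_bounded f hf.1 hinv (isCuspMerOrder_zero_bounded hf)
    refine ⟨Polynomial.C c, by simp, fun τ => ?_⟩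
    rw [Polynomial.eval_C]
  | succ k ih =>
    intro f hf hinv
    set a : ℂ := (Qexp 1 f).coeff (-((k : ℤ) + 1)) with ha
    have hconst := hQ.1 1 (-a)
    have hJpow := jfun_pow_isCuspMerOrder hJQ hQ (k + 1)
    have hprod : IsCuspMerOrder 1 (k + 1) ((fun _ : ℍ => -a) * Jfun ^ (k + 1)) := by
      have h1 := isCuspMerOrder_mul hconst.1 hJpow
      rwa [zero_add] at h1
    have hg1 : IsCuspMerOrder 1 (k + 1) (f + (fun _ : ℍ => -a) * Jfun ^ (k + 1)) :=
      isCuspMerOrder_add hf hprod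
    have hQg : Qexp 1 (f + (fun _ : ℍ => -a) * Jfun ^ (k + 1))
        = Qexp 1 f + HahnSeries.C (-a)
            * (ModularCurve.coeffMap (algebraMap ℚ ℂ) (ModularCurve.jq ^ (k + 1))) := by
      rw [(hQ.2.1 1 f _ ⟨_, hf⟩ ⟨_, hprod⟩).2.2.1,
        (hQ.2.1 1 _ _ ⟨_, hconst.1⟩ ⟨_, hJpow⟩).2.2.2, hconst.2, qexp_jfun_pow hJQ hQ, hJQ.2,
        map_pow]
    have hlead : (Qexp 1 (f + (fun _ : ℍ => -a) * Jfun ^ (k + 1))).coeff
        (-((k : ℤ) + 1)) = 0 := by
      rw [hQg, HahnSeries.coeff_add, HahnSeries.C_mul_eq_smul, HahnSeries.coeff_smul,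
        ModularCurve.coeffMap_coeff, smul_eq_mul, ← ha,
        show (-((k : ℤ) + 1)) = -((k + 1 : ℕ) : ℤ) by push_cast; ring,
        ModularCurve.coeff_jq_pow_self, map_one, mul_one, add_neg_cancel]
    have hg0 := hQ.2.2.2.2.1 1 k _ hg1 hlead
    have hginv : ∀ (γ : SL(2, ℤ)) (τ : ℍ),
        (f + (fun _ : ℍ => -a) * Jfun ^ (k + 1)) (γ • τ)
          = (f + (fun _ : ℍ => -a) * Jfun ^ (k + 1)) τ := by
      intro γ τ
      simp only [Pi.add_apply, Pi.mul_apply, Pi.pow_apply, hinv γ τ, hJB.2.1 γ τ]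
    obtain ⟨p, hpdeg, hp⟩ := ih _ hg0 hginv
    refine ⟨p + Polynomial.C a * Polynomial.X ^ (k + 1), ?_, fun τ => ?_⟩
    · refine (Polynomial.natDegree_add_le _ _).trans (max_le (hpdeg.trans (Nat.le_succ k)) ?_)
      exact Polynomial.natDegree_C_mul_X_pow_le a (k + 1)
    · have h1 := hp τ
      simp only [Pi.add_apply, Pi.mul_apply, Pi.pow_apply] at h1
      rw [Polynomial.eval_add, ← h1, Polynomial.eval_mul, Polynomial.eval_C,
        Polynomial.eval_pow, Polynomial.eval_X]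
      ring

end

end Fermat.Agent.S24.JOrdersB
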