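/-
S24 (genus of X₀(N)) — package `JOrdersB`, part 2: the function `G = (j')⁶ / Δ` is holomorphic,
`SL(2, ℤ)`-invariant and has a pole of order at most `7` at `∞`.
-/
import Fermat.Agent.S24.JOrdersBPoly

set_option autoImplicit false

open UpperHalfPlane ModularForm Complex CongruenceSubgroup ModularGroup Filter
open scoped MatrixGroups Manifold Real Topology

namespace Fermat.Agent.S24.JOrdersB

noncomputable section

/-- The normalised derivative `(2πi)⁻¹ j'` of `j`. -/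
def dJ : ℍ → ℂ := Derivative.normalizedDerivOfComplex Jfun

theorem dJ_apply (τ : ℍ) :
    dJ τ = (2 * π * Complex.I)⁻¹ * deriv (Jfun ∘ ofComplex) (τ : ℂ) := rfl

/-- `G = (j')⁶ / Δ` (up to the constant `(2πi)⁻⁶`). -/
def Gfun : ℍ → ℂ := fun τ => dJ τ ^ 6 / ModularForm.discriminant τ

theorem dJ_mdifferentiable (hJB : JBasicStatement) : MDifferentiable 𝓘(ℂ) 𝓘(ℂ) dJ :=
  Derivative.normalizedDerivOfComplex_mdifferentiable hJB.1

theorem dJ_slash (hJB : JBasicStatement) (γ : SL(2, ℤ)) : dJ ∣[(2 : ℤ)] γ = dJ := by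
  have h := Derivative.normalizedDerivOfComplex_SL_slash (k := 0) hJB.1 (γ := γ)
  rw [slash_zero_eq_of_invariant Jfun hJB.2.1 γ] at h
  have h0 : (fun z : ℍ => ((0 : ℤ) : ℂ) * (2 * π * Complex.I)⁻¹ * (γ 1 0 / denom γ z) * Jfun z)
      = 0 := by
    funext z
    simp
  rw [h0, sub_zero] at h
  exact h.symm

theorem dJ_smul (hJB : JBasicStatement) (γ : SL(2, ℤ)) (τ : ℍ) :
    dJ (γ • τ) = denom γ τ ^ 2 * dJ τ := by
  have h := congrFun (dJ_slash hJB γ) τ
  rw [SL_slash_apply] at h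
  have hd : denom γ τ ≠ 0 := denom_ne_zero _ _
  rw [← h, zpow_neg]
  have h2 : denom γ τ ^ (2 : ℤ) = denom γ τ ^ (2 : ℕ) := by norm_cast
  rw [h2]
  field_simp

theorem discriminant_smul (γ : SL(2, ℤ)) (τ : ℍ) :
    ModularForm.discriminant (γ • τ) = denom γ τ ^ (12 : ℕ) * ModularForm.discriminant τ := by
  have hγ : ((γ : SL(2, ℤ)) : GL (Fin 2) ℝ) ∈ 𝒮ℒ := ⟨γ, rfl⟩
  have h := SlashInvariantForm.slash_action_eqn'' CuspForm.discriminant hγ τ
  have h12 : denom γ τ ^ (12 : ℤ) = denom γ τ ^ (12 : ℕ) := by norm_cast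
  rw [← h12]
  exact h

theorem discriminant_mdifferentiable : MDifferentiable 𝓘(ℂ) 𝓘(ℂ) ModularForm.discriminant :=
  CuspForm.discriminant.holo'

theorem Gfun_mdifferentiable (hJB : JBasicStatement) : MDifferentiable 𝓘(ℂ) 𝓘(ℂ) Gfun :=
  ((dJ_mdifferentiable hJB).pow 6).div discriminant_mdifferentiable discriminant_ne_zero

theorem Gfun_smul (hJB : JBasicStatement) (γ : SL(2, ℤ)) (τ : ℍ) : Gfun (γ • τ) = Gfun τ := by
  unfold Gfun
  rw [dJ_smul hJB, discriminant_smul]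
  have hd : denom γ τ ≠ 0 := denom_ne_zero _ _
  have hΔ := discriminant_ne_zero τ
  field_simp

/-- A `T`-invariant function is `1`-periodic. -/
theorem periodic_of_T_invariant (f : ℍ → ℂ) (hT : ∀ τ : ℍ, f (T • τ) = f τ) :
    Function.Periodic (f ∘ ofComplex) (((1 : ℕ) : ℝ) : ℂ) := by
  intro w
  by_cases hw : 0 < w.im
  · have hw1 : 0 < (w + (((1 : ℕ) : ℝ) : ℂ)).im := by simpa using hw
    simp only [Function.comp_apply, ofComplex_apply_of_im_pos hw1, ofComplex_apply_of_im_pos hw]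
    rw [← hT ⟨w, hw⟩]
    congr 1
    apply UpperHalfPlane.ext
    rw [modular_T_smul]
    simp [add_comm]
  · have hw' : w.im ≤ 0 := not_lt.mp hw
    have hw1 : (w + (((1 : ℕ) : ℝ) : ℂ)).im ≤ 0 := by simpa using hw'
    simp only [Function.comp_apply]
    rw [ofComplex_apply_of_im_nonpos hw1, ofComplex_apply_of_im_nonpos hw']

/-- Cauchy estimate: `q · j'` is bounded at `i∞`. -/
theorem isBounded_q_mul_dJ (hJB : JBasicStatement) (hJQ : JQexpStatement) :
    IsBoundedAtImInfty (fun τ : ℍ => Function.Periodic.qParam (1 : ℝ) (τ : ℂ) * dJ τ) := by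
  have hb := hJQ.1.2.2
  rw [isBoundedAtImInfty_iff] at hb ⊢
  obtain ⟨M, A, hMA⟩ := hb
  have hdiff : DifferentiableOn ℂ (Jfun ∘ ofComplex) {z : ℂ | 0 < z.im} :=
    UpperHalfPlane.mdifferentiable_iff.mp hJB.1
  refine ⟨‖(2 * π * Complex.I)⁻¹‖ * (M * Real.exp π / (1 / 2)), max A 0 + 1, fun z hz => ?_⟩
  have hzA : A + 1 ≤ z.im := le_trans (by linarith [le_max_left A 0]) hz
  have hz0 : 1 ≤ z.im := le_trans (by linarith [le_max_right A 0]) hz
  -- `M` is nonnegative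
  have hM : 0 ≤ M := (norm_nonneg _).trans (hMA z (by linarith))
  -- bound on the circle of radius `1/2` around `z`
  have hsph : ∀ w ∈ Metric.sphere (z : ℂ) (1 / 2),
      ‖(Jfun ∘ ofComplex) w‖ ≤ M * Real.exp (2 * π * z.im) * Real.exp π := by
    intro w hw
    have h1 : ‖w - (z : ℂ)‖ = 1 / 2 := by simpa [dist_eq_norm] using hw
    have h2 : |(w - (z : ℂ)).im| ≤ 1 / 2 := h1 ▸ Complex.abs_im_le_norm (w - (z : ℂ))
    rw [Complex.sub_im] at h2
    have h2' := abs_le.mp h2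
    have hzim : ((z : ℂ)).im = z.im := rfl
    rw [hzim] at h2'
    have hwpos : 0 < w.im := by linarith [h2'.1]
    have hwA : A ≤ (⟨w, hwpos⟩ : ℍ).im := by
      show A ≤ w.im
      linarith [h2'.1]
    have h3 := hMA ⟨w, hwpos⟩ hwA
    rw [Function.comp_apply, ofComplex_apply_of_im_pos hwpos]
    have hq : ‖Function.Periodic.qParam ((1 : ℕ) : ℝ) w‖ = Real.exp (-(2 * π * w.im)) := by
      rw [Function.Periodic.norm_qParam]
      simp
    rw [pow_one, norm_mul] at h3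
    have hcoe : (((⟨w, hwpos⟩ : ℍ)) : ℂ) = w := rfl
    rw [hcoe, hq] at h3
    have h4 : ‖Jfun ⟨w, hwpos⟩‖
        = Real.exp (2 * π * w.im) * (Real.exp (-(2 * π * w.im)) * ‖Jfun ⟨w, hwpos⟩‖) := by
      rw [← mul_assoc, ← Real.exp_add, add_neg_cancel, Real.exp_zero, one_mul]
    have h5 : Real.exp (2 * π * w.im) ≤ Real.exp (2 * π * z.im) * Real.exp π := by
      rw [← Real.exp_add]
      apply Real.exp_le_exp.mpr
      have hπ : 0 < π := Real.pi_pos
      nlinarith [h2'.2]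
    calc ‖Jfun ⟨w, hwpos⟩‖
        = Real.exp (2 * π * w.im) * (Real.exp (-(2 * π * w.im)) * ‖Jfun ⟨w, hwpos⟩‖) := h4
      _ ≤ (Real.exp (2 * π * z.im) * Real.exp π) * M :=
          mul_le_mul h5 h3 (by positivity) (by positivity)
      _ = M * Real.exp (2 * π * z.im) * Real.exp π := by ring
  have hball : Metric.closedBall (z : ℂ) (1 / 2) ⊆ {w : ℂ | 0 < w.im} := by
    intro w hw
    have h1 : ‖w - (z : ℂ)‖ ≤ 1 / 2 := by simpa [dist_eq_norm] using hw
    have h2 : |(w - (z : ℂ)).im| ≤ 1 / 2 := (Complex.abs_im_le_norm (w - (z : ℂ))).trans h1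
    rw [Complex.sub_im] at h2
    have h2' := abs_le.mp h2
    have hzim : ((z : ℂ)).im = z.im := rfl
    rw [hzim] at h2'
    show 0 < w.im
    linarith [h2'.1]
  have hderiv := Complex.norm_deriv_le_of_forall_mem_sphere_norm_le (by norm_num : (0 : ℝ) < 1 / 2)
    (hdiff.diffContOnCl_ball hball) hsph
  have hq : ‖Function.Periodic.qParam (1 : ℝ) (z : ℂ)‖ = Real.exp (-(2 * π * z.im)) := by
    rw [Function.Periodic.norm_qParam]
    have hzim : ((z : ℂ)).im = z.im := rfl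
    rw [hzim]
    congr 1
    ring
  rw [dJ_apply, norm_mul, norm_mul, hq]
  calc Real.exp (-(2 * π * z.im)) * (‖(2 * π * Complex.I)⁻¹‖ * ‖deriv (Jfun ∘ ofComplex) (z : ℂ)‖)
      ≤ Real.exp (-(2 * π * z.im)) * (‖(2 * π * Complex.I)⁻¹‖
          * (M * Real.exp (2 * π * z.im) * Real.exp π / (1 / 2))) := by
        gcongr
    _ = ‖(2 * π * Complex.I)⁻¹‖ * (M * Real.exp π / (1 / 2))
          * (Real.exp (-(2 * π * z.im)) * Real.exp (2 * π * z.im)) := by ring
    _ = ‖(2 * π * Complex.I)⁻¹‖ * (M * Real.exp π / (1 / 2)) := by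
        rw [← Real.exp_add, neg_add_cancel, Real.exp_zero, mul_one]

/-- `q / Δ` is bounded at `i∞`. -/
theorem isBounded_q_div_discriminant :
    IsBoundedAtImInfty
      (fun τ : ℍ => Function.Periodic.qParam (1 : ℝ) (τ : ℂ) / ModularForm.discriminant τ) := by
  have h := ModularForm.exp_isBigO_discriminant
  rw [Asymptotics.isBigO_iff] at h
  obtain ⟨c, hc⟩ := h
  obtain ⟨A, hA⟩ := (UpperHalfPlane.atImInfty_mem _).mp hc
  rw [isBoundedAtImInfty_iff]
  refine ⟨c, A, fun z hz => ?_⟩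
  have h1 : ‖Real.exp (-2 * π * z.im)‖ ≤ c * ‖ModularForm.discriminant z‖ := hA z hz
  have hΔ : 0 < ‖ModularForm.discriminant z‖ := norm_pos_iff.mpr (discriminant_ne_zero z)
  have hq : ‖Function.Periodic.qParam (1 : ℝ) (z : ℂ)‖ = ‖Real.exp (-2 * π * z.im)‖ := by
    rw [Function.Periodic.norm_qParam, Real.norm_of_nonneg (Real.exp_pos _).le]
    have hzim : ((z : ℂ)).im = z.im := rfl
    rw [hzim, div_one]
  rw [norm_div, hq, div_le_iff₀ hΔ]
  exact h1

/-- `G` has a pole of order at most `7` at `∞`. -/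
theorem Gfun_isCuspMerOrder (hJB : JBasicStatement) (hJQ : JQexpStatement) :
    IsCuspMerOrder 1 7 Gfun := by
  refine ⟨Gfun_mdifferentiable hJB, periodic_of_T_invariant Gfun (Gfun_smul hJB T), ?_⟩
  have h1 := isBounded_q_mul_dJ hJB hJQ
  have h2 := isBounded_q_div_discriminant
  have h3 := ((((((h1.mul h1).mul h1).mul h1).mul h1).mul h1).mul h2)
  have : (fun τ : ℍ => Function.Periodic.qParam (((1 : ℕ) : ℝ)) (τ : ℂ) ^ 7 * Gfun τ)
      = ((fun τ : ℍ => Function.Periodic.qParam (1 : ℝ) (τ : ℂ) * dJ τ)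
          * (fun τ : ℍ => Function.Periodic.qParam (1 : ℝ) (τ : ℂ) * dJ τ)
          * (fun τ : ℍ => Function.Periodic.qParam (1 : ℝ) (τ : ℂ) * dJ τ)
          * (fun τ : ℍ => Function.Periodic.qParam (1 : ℝ) (τ : ℂ) * dJ τ)
          * (fun τ : ℍ => Function.Periodic.qParam (1 : ℝ) (τ : ℂ) * dJ τ)
          * (fun τ : ℍ => Function.Periodic.qParam (1 : ℝ) (τ : ℂ) * dJ τ)
          * (fun τ : ℍ => Function.Periodic.qParam (1 : ℝ) (τ : ℂ)
              / ModularForm.discriminant τ)) := by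
    funext τ
    simp only [Pi.mul_apply, Gfun, Nat.cast_one]
    ring
  rw [this]
  exact h3

end

end Fermat.Agent.S24.JOrdersB
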