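/-
S24 (genus of X₀(N)) — package `JOrdersB`: the local orders of the modular invariant `j`
(`JOrdersStatement`) by the "sixth power trick".

The function `G = (j')⁶ / Δ` is holomorphic, `SL(2, ℤ)`-invariant and has a pole of order at most
`7` at `∞` (file `JOrdersBG.lean`), hence `G = P(j)` for a polynomial `P` of degree at most `7`
(file `JOrdersBPoly.lean`).  Comparing orders of vanishing at a point `τ₀`, with
`m = ord_{τ₀}(j - j(τ₀))` and `μ` the multiplicity of `j(τ₀)` as a root of `P`, gives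
`6 (m - 1) = μ m`.  At `i` the order `m` is even, at `ρ` it is divisible by `3`; together with
`deg P ≤ 7` this pins down all orders.
-/
import Fermat.Agent.S24.JOrdersBG

set_option autoImplicit false

open UpperHalfPlane ModularForm Complex CongruenceSubgroup ModularGroup Filter
open scoped MatrixGroups Manifold Real Topology

namespace Fermat.Agent.S24.JOrdersB

noncomputable section

/-! ## Part 3: local analysis -/

/-- A holomorphic function on `ℍ` gives a function `f ∘ ofComplex` analytic at the points of `ℍ`. -/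
theorem analyticAt_comp_ofComplex {f : ℍ → ℂ} (hf : MDifferentiable 𝓘(ℂ) 𝓘(ℂ) f) (τ : ℍ) :
    AnalyticAt ℂ (f ∘ ofComplex) (τ : ℂ) :=
  ((UpperHalfPlane.mdifferentiable_iff.mp hf).analyticOnNhd isOpen_upperHalfPlaneSet) _ τ.im_pos

/-- Identity theorem: a nonzero holomorphic function on `ℍ` has finite order at every point. -/
theorem order_ne_top {f : ℍ → ℂ} (hf : MDifferentiable 𝓘(ℂ) 𝓘(ℂ) f) (hne : f ≠ 0) (τ : ℍ) :
    analyticOrderAt (f ∘ ofComplex) (τ : ℂ) ≠ ⊤ := by
  intro htop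
  apply hne
  rw [analyticOrderAt_eq_top] at htop
  have han := (UpperHalfPlane.mdifferentiable_iff.mp hf).analyticOnNhd isOpen_upperHalfPlaneSet
  have hpre : IsPreconnected {z : ℂ | 0 < z.im} := (convex_halfSpace_im_gt 0).isPreconnected
  have hzero := han.eqOn_zero_of_preconnected_of_eventuallyEq_zero hpre τ.im_pos htop
  funext w
  have := hzero w.im_pos
  simpa using this

/-- The order of vanishing of a polynomial function is the root multiplicity. -/
theorem analyticOrderAt_eval {P : Polynomial ℂ} (hP : P ≠ 0) (c : ℂ) :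
    analyticOrderAt (fun x => P.eval x) c = P.rootMultiplicity c := by
  obtain ⟨Q, hPQ, hQ⟩ := Polynomial.exists_eq_pow_rootMultiplicity_mul_and_not_dvd P hP c
  have hQc : Q.eval c ≠ 0 := fun h => hQ (Polynomial.dvd_iff_isRoot.mpr h)
  have hPan : AnalyticAt ℂ (fun x => P.eval x) c :=
    AnalyticOnNhd.eval_polynomial P c (Set.mem_univ c)
  rw [hPan.analyticOrderAt_eq_natCast]
  refine ⟨fun x => Q.eval x, AnalyticOnNhd.eval_polynomial Q c (Set.mem_univ c), hQc,
    Filter.Eventually.of_forall fun z => ?_⟩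
  conv_lhs => rw [hPQ]
  simp [Polynomial.eval_mul, Polynomial.eval_pow]

/-- The sum of the root multiplicities at finitely many points is at most the degree. -/
theorem rootMultiplicity_sum_le (P : Polynomial ℂ) (s : Finset ℂ) :
    ∑ a ∈ s, P.rootMultiplicity a ≤ P.natDegree := by
  classical
  calc ∑ a ∈ s, P.rootMultiplicity a = ∑ a ∈ s, P.roots.count a := by
        simp [Polynomial.count_roots]
    _ ≤ ∑ a ∈ P.roots.toFinset, P.roots.count a :=
        Finset.sum_le_sum_of_ne_zero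
          (fun a _ ha => Multiset.mem_toFinset.mpr (Multiset.count_ne_zero.mp ha))
    _ = Multiset.card P.roots := Multiset.toFinset_sum_count_eq P.roots
    _ ≤ P.natDegree := Polynomial.card_roots' P

/-- The solutions of `6 (m - 1) = μ m`. -/
theorem arith_cases {m μ : ℕ} (hm : 1 ≤ m) (h : 6 * (m - 1) = μ * m) :
    (μ = 0 ∧ m = 1) ∨ (μ = 3 ∧ m = 2) ∨ (μ = 4 ∧ m = 3) ∨ (μ = 5 ∧ m = 6) := by
  have hμ : μ ≤ 5 := by
    by_contra hcon
    have h6 : 6 ≤ μ := by omega
    have h7 : 6 * m ≤ μ * m := Nat.mul_le_mul_right m h6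
    omega
  interval_cases μ <;> omega

/-- The local equation `6 (m - 1) = μ m` at a point `τ₀`. -/
theorem local_eq (hJB : JBasicStatement) {P : Polynomial ℂ}
    (hP : ∀ τ : ℍ, Gfun τ = P.eval (Jfun τ)) (τ₀ : ℍ) :
    ∃ m : ℕ, 1 ≤ m ∧ ordAt τ₀ (fun z => Jfun z - Jfun τ₀) = m ∧ P ≠ 0 ∧
      6 * (m - 1) = P.rootMultiplicity (Jfun τ₀) * m := by
  have hhτ : (Jfun ∘ ofComplex) (τ₀ : ℂ) = Jfun τ₀ := by
    simp [ofComplex_apply]
  have hhan : AnalyticAt ℂ (Jfun ∘ ofComplex) (τ₀ : ℂ) := analyticAt_comp_ofComplex hJB.1 τ₀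
  -- the function `j - j(τ₀)`
  have hf₀ : MDifferentiable 𝓘(ℂ) 𝓘(ℂ) (fun z : ℍ => Jfun z - Jfun τ₀) :=
    hJB.1.sub mdifferentiable_const
  have hf₀ne : (fun z : ℍ => Jfun z - Jfun τ₀) ≠ 0 := by
    intro h0
    have h1 := congrFun h0 ellI
    have h2 := congrFun h0 ellRho
    simp only [Pi.zero_apply] at h1 h2
    rw [hJB.2.2.1] at h1
    rw [hJB.2.2.2] at h2
    have h3 : (1728 : ℂ) = 0 := by linear_combination h1 - h2
    norm_num at h3
  have hcomp : (fun z : ℍ => Jfun z - Jfun τ₀) ∘ ofComplex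
      = fun z => (Jfun ∘ ofComplex) z - (Jfun ∘ ofComplex) (τ₀ : ℂ) := by
    funext z
    rw [hhτ]
    rfl
  have htop := order_ne_top hf₀ hf₀ne τ₀
  rw [hcomp] at htop
  have hm_def : ordAt τ₀ (fun z => Jfun z - Jfun τ₀)
      = (analyticOrderAt (fun z => (Jfun ∘ ofComplex) z - (Jfun ∘ ofComplex) (τ₀ : ℂ))
          (τ₀ : ℂ)).toNat := by
    unfold ordAt
    rw [hcomp]
  obtain ⟨m, hm⟩ := ENat.ne_top_iff_exists.mp htop
  have hm_ord : ordAt τ₀ (fun z => Jfun z - Jfun τ₀) = m := by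
    rw [hm_def, ← hm, ENat.toNat_natCast]
  have hsub_an : AnalyticAt ℂ (fun z => (Jfun ∘ ofComplex) z - (Jfun ∘ ofComplex) (τ₀ : ℂ))
      (τ₀ : ℂ) := hhan.sub analyticAt_const
  have hm1 : 1 ≤ m := by
    have hne0 : analyticOrderAt (fun z => (Jfun ∘ ofComplex) z - (Jfun ∘ ofComplex) (τ₀ : ℂ))
        (τ₀ : ℂ) ≠ 0 := hsub_an.analyticOrderAt_ne_zero.mpr (sub_self _)
    rw [← hm] at hne0
    have h0 : m ≠ 0 := by exact_mod_cast hne0
    omega
  -- the order of the derivative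
  have hder : analyticOrderAt (deriv (Jfun ∘ ofComplex)) (τ₀ : ℂ) = ((m - 1 : ℕ) : ℕ∞) := by
    have h1 := hhan.analyticOrderAt_deriv_add_one
    rw [← hm] at h1
    have h2 : (((m - 1 : ℕ) : ℕ∞)) + 1 = (m : ℕ∞) := by
      have : (m - 1) + 1 = m := by omega
      exact_mod_cast this
    rw [← h2] at h1
    exact ENat.add_left_injective_of_ne_top ENat.one_ne_top h1
  -- the key identity near `τ₀`
  have hc₀ne : (2 * π * Complex.I)⁻¹ ≠ (0 : ℂ) := by
    apply inv_ne_zero
    simp [Real.pi_ne_zero]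
  have hδan : AnalyticAt ℂ (ModularForm.discriminant ∘ ofComplex) (τ₀ : ℂ) :=
    analyticAt_comp_ofComplex discriminant_mdifferentiable τ₀
  have hδne : (ModularForm.discriminant ∘ ofComplex) (τ₀ : ℂ) ≠ 0 := by
    rw [Function.comp_apply, ofComplex_apply]
    exact discriminant_ne_zero τ₀
  have hkey : (fun z => ((2 * π * Complex.I)⁻¹ * deriv (Jfun ∘ ofComplex) z) ^ 6)
      =ᶠ[𝓝 (τ₀ : ℂ)]
      (fun z => (ModularForm.discriminant ∘ ofComplex) z * P.eval ((Jfun ∘ ofComplex) z)) := by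
    filter_upwards [isOpen_upperHalfPlaneSet.mem_nhds τ₀.im_pos] with z hz
    have h1 := hP ⟨z, hz⟩
    unfold Gfun at h1
    rw [dJ_apply] at h1
    have hΔ := discriminant_ne_zero ⟨z, hz⟩
    have hcoe : (((⟨z, hz⟩ : ℍ)) : ℂ) = z := rfl
    rw [hcoe] at h1
    simp only [Function.comp_apply, ofComplex_apply_of_im_pos hz]
    rw [← h1]
    field_simp
  -- the order of the left hand side
  have hderan : AnalyticAt ℂ (deriv (Jfun ∘ ofComplex)) (τ₀ : ℂ) := hhan.deriv
  have hL : analyticOrderAt (fun z => ((2 * π * Complex.I)⁻¹ * deriv (Jfun ∘ ofComplex) z) ^ 6)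
      (τ₀ : ℂ) = ((6 * (m - 1) : ℕ) : ℕ∞) := by
    have e : (fun z => ((2 * π * Complex.I)⁻¹ * deriv (Jfun ∘ ofComplex) z) ^ 6)
        = ((fun _ : ℂ => (2 * π * Complex.I)⁻¹) * deriv (Jfun ∘ ofComplex)) ^ 6 := rfl
    rw [e, analyticOrderAt_pow (analyticAt_const.mul hderan), analyticOrderAt_mul analyticAt_const
      hderan, analyticAt_const.analyticOrderAt_eq_zero.mpr hc₀ne, zero_add, hder]
    norm_cast
  -- `P ≠ 0`
  have hP0 : P ≠ 0 := by
    rintro rfl
    have h1 : analyticOrderAt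
        (fun z => ((2 * π * Complex.I)⁻¹ * deriv (Jfun ∘ ofComplex) z) ^ 6) (τ₀ : ℂ) = ⊤ := by
      rw [analyticOrderAt_congr hkey, analyticOrderAt_eq_top]
      exact Filter.Eventually.of_forall fun z => by simp
    rw [hL] at h1
    exact ENat.natCast_ne_top _ h1
  -- the order of the right hand side
  have hR : analyticOrderAt
      (fun z => (ModularForm.discriminant ∘ ofComplex) z * P.eval ((Jfun ∘ ofComplex) z))
      (τ₀ : ℂ) = ((P.rootMultiplicity (Jfun τ₀) * m : ℕ) : ℕ∞) := by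
    have e : (fun z => (ModularForm.discriminant ∘ ofComplex) z * P.eval ((Jfun ∘ ofComplex) z))
        = (ModularForm.discriminant ∘ ofComplex) * ((fun x => P.eval x) ∘ (Jfun ∘ ofComplex)) :=
      rfl
    have hPan : AnalyticAt ℂ (fun x => P.eval x) ((Jfun ∘ ofComplex) (τ₀ : ℂ)) :=
      AnalyticOnNhd.eval_polynomial P _ (Set.mem_univ _)
    rw [e, analyticOrderAt_mul hδan (hPan.comp hhan), hδan.analyticOrderAt_eq_zero.mpr hδne,
      zero_add, hPan.analyticOrderAt_comp hhan, ← hm, analyticOrderAt_eval hP0, hhτ]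
    norm_cast
  refine ⟨m, hm1, hm_ord, hP0, ?_⟩
  have h := analyticOrderAt_congr hkey
  rw [hL, hR] at h
  exact_mod_cast h

/-! ## The main theorem -/

/-- (J2) The local orders of `j`, by the sixth power trick. -/
theorem jOrdersStatement :
    JBasicStatement → JQexpStatement → QexpStatement → PointValStatement → JOrdersStatement := by
  intro hJB hJQ hQ hPV
  obtain ⟨P, hPdeg, hP⟩ :=
    polyLemma hJB hJQ hQ 7 Gfun (Gfun_isCuspMerOrder hJB hJQ) (Gfun_smul hJB)
  -- the elliptic points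
  obtain ⟨m₁, hm₁, hord₁, hP0, heq₁⟩ := local_eq hJB hP ellI
  obtain ⟨m₀, hm₀, hord₀, -, heq₀⟩ := local_eq hJB hP ellRho
  rw [hJB.2.2.1] at hord₁ heq₁
  rw [hJB.2.2.2] at hord₀ heq₀
  simp only [sub_zero] at hord₀
  have hne : (1728 : ℂ) ≠ 0 := by norm_num
  -- parity at `i`
  have h2 : 2 ∣ m₁ := by
    rw [← hord₁]
    refine hPV.2.2.2.2.2.2.1 _ (hJB.1.sub mdifferentiable_const) ?_ (fun τ => by rw [hJB.2.1 S τ])
    intro h0
    have h1 := congrFun h0 ellRho
    simp only [Pi.zero_apply] at h1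
    rw [hJB.2.2.2] at h1
    norm_num at h1
  -- divisibility by `3` at `ρ`
  have h3 : 3 ∣ m₀ := by
    rw [← hord₀]
    refine hPV.2.2.2.2.2.2.2 _ hJB.1 ?_ (fun τ => hJB.2.1 (S * T) τ)
    intro h0
    have h1 := congrFun h0 ellI
    simp only [Pi.zero_apply] at h1
    rw [hJB.2.2.1] at h1
    norm_num at h1
  have hc₁ := arith_cases hm₁ heq₁
  have hc₀ := arith_cases hm₀ heq₀
  -- the degree bound
  have hsum2 : P.rootMultiplicity 0 + P.rootMultiplicity 1728 ≤ 7 := by
    have h := (rootMultiplicity_sum_le P {0, 1728}).trans hPdeg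
    rwa [Finset.sum_pair hne.symm] at h
  have hμ₁ : P.rootMultiplicity 1728 = 3 ∧ m₁ = 2 := by omega
  have hμ₀ : P.rootMultiplicity 0 = 4 ∧ m₀ = 3 := by omega
  refine ⟨fun τ hτ0 hτ1 => ?_, ?_, ?_⟩
  · obtain ⟨m, hm, hord, -, heq⟩ := local_eq hJB hP τ
    have hc := arith_cases hm heq
    have hsum3 : P.rootMultiplicity (Jfun τ) + (P.rootMultiplicity 0 + P.rootMultiplicity 1728)
        ≤ 7 := by
      have h := (rootMultiplicity_sum_le P {Jfun τ, 0, 1728}).trans hPdeg
      rwa [Finset.sum_insert (by simp [hτ0, hτ1]), Finset.sum_pair hne.symm] at h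
    rw [hord]
    omega
  · rw [hord₁]
    exact hμ₁.2
  · exact hord₀.trans hμ₀.2

end

end Fermat.Agent.S24.JOrdersB
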